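import Fermat.Agent.LevelP.Interface

/-!
# Parameters at a pair with product a power of `p`

Two parameters at a pair are improved until their product is `p ^ e` times a unit; the modular
unit `w` bounds the exponent.
-/

set_option autoImplicit false

noncomputable section

namespace Fermat.Agent.LevelP

variable {p : ℕ} [hp : Fact p.Prime] {F : Type*} [Field F] {k G : Type*} [Field k] [Field G]
  [Algebra k G]

namespace DVPoint

variable (P : DVPoint k G)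

theorem evF_of_mem {g : G} (h : g ∈ P.O) : P.evF g = P.ev ⟨g, h⟩ := by rw [evF, dif_pos h]

theorem evF_zero : P.evF 0 = 0 := by rw [P.evF_of_mem (zero_mem _)]; exact map_zero _

theorem evF_algebraMap (c : k) : P.evF (algebraMap k G c) = c := by
  rw [P.evF_of_mem (P.algebraMap_mem c), P.ev_algebraMap]

theorem evF_mul {g h : G} (hg : g ∈ P.O) (hh : h ∈ P.O) :
    P.evF (g * h) = P.evF g * P.evF h := by
  rw [P.evF_of_mem hg, P.evF_of_mem hh, P.evF_of_mem (mul_mem hg hh), ← map_mul]; rfl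

theorem IsUnif.mem {P : DVPoint k G} {g : G} (h : P.IsUnif g) : g ∈ P.O := by
  obtain ⟨z, -, rfl⟩ := h; exact mul_mem P.unif_mem z.2

theorem IsUnif.exists_div {P : DVPoint k G} {β g : G} (hβ : P.IsUnif β) (hg : g ∈ P.O)
    (h0 : P.evF g = 0) : ∃ z ∈ P.O, g = β * z := by
  obtain ⟨y, hy, hy'⟩ := (P.ev_eq_zero ⟨g, hg⟩).mp (by rwa [← P.evF_of_mem hg])
  obtain ⟨z, hz, rfl⟩ := hβ
  refine ⟨(z : G)⁻¹ * y, mul_mem (P.inv_mem z hz) hy, ?_⟩
  have hz0 : (z : G) ≠ 0 := fun h => hz (by rw [show z = 0 from Subtype.ext h, map_zero])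
  change g = P.unif * y at hy'
  rw [hy']; field_simp

theorem IsUnif.mul_unit {P : DVPoint k G} {β g : G} (hβ : P.IsUnif β) (hg : g ∈ P.O)
    (h0 : P.evF g ≠ 0) : P.IsUnif (β * g) := by
  obtain ⟨z, hz, rfl⟩ := hβ
  refine ⟨z * ⟨g, hg⟩, ?_, by push_cast; ring⟩
  rw [map_mul, ← P.evF_of_mem hg]; exact mul_ne_zero hz h0

end DVPoint

/-- A pair before the exponent is known. -/
structure PrePair (D : GlueData p F k G) (W : Subring F) (P Q : DVPoint k G) (w : F) (kw : ℕ)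
    where
  A : Subring F
  W_le : W ≤ A
  le : ∀ i, A ≤ D.Int i
  noetherian : IsNoetherianRing A
  fraction : ∀ f : F, ∃ x ∈ A, ∃ y ∈ A, y ≠ 0 ∧ f * y = x
  red0_mem : ∀ f ∈ A, D.redF 0 f ∈ P.O
  red1_mem : ∀ f ∈ A, D.redF 1 f ∈ Q.O
  ev_eq : ∀ f ∈ A, P.evF (D.redF 0 f) = Q.evF (D.redF 1 f)
  surj : ∀ z ∈ P.O, ∀ z' ∈ Q.O, P.evF z = Q.evF z' →
    ∃ f ∈ A, D.redF 0 f = z ∧ D.redF 1 f = z'
  inv_mem : ∀ f ∈ A, P.evF (D.redF 0 f) ≠ 0 → f⁻¹ ∈ A
  ker : ∀ f ∈ A, D.redF 0 f = 0 → D.redF 1 f = 0 → ∃ y ∈ A, f = p * y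
  w_mem : w ∈ A
  w_dual_mem : (p : F) ^ kw * w⁻¹ ∈ A

namespace PrePair

variable [CharP G p] {D : GlueData p F k G} {W : Subring F} {P Q : DVPoint k G} {w : F} {kw : ℕ}

theorem exists_decomp (S : PrePair D W P Q w kw) {a b g : F} (ha : a ∈ S.A) (hb : b ∈ S.A)
    (hg : g ∈ S.A) (hP : P.IsUnif (D.redF 0 a)) (ha1 : D.redF 1 a = 0)
    (hQ : Q.IsUnif (D.redF 1 b)) (hb0 : D.redF 0 b = 0) (h0 : P.evF (D.redF 0 g) = 0) :
    ∃ g1 ∈ S.A, ∃ g2 ∈ S.A, ∃ g3 ∈ S.A, g = a * g1 + b * g2 + p * g3 := by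
  obtain ⟨z0, hz0, hz0'⟩ := hP.exists_div (S.red0_mem g hg) h0
  obtain ⟨z1, hz1, hz1'⟩ := hQ.exists_div (S.red1_mem g hg) (by rw [← S.ev_eq g hg, h0])
  obtain ⟨g1, hg1, hg10, hg11⟩ := S.surj z0 hz0 (algebraMap k G (P.evF z0)) (Q.algebraMap_mem _)
    (Q.evF_algebraMap _).symm
  obtain ⟨g2, hg2, hg20, hg21⟩ := S.surj (algebraMap k G (Q.evF z1)) (P.algebraMap_mem _) z1 hz1
    (P.evF_algebraMap _)
  have hab : a * g1 + b * g2 ∈ S.A := add_mem (mul_mem ha hg1) (mul_mem hb hg2)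
  have hred : ∀ i, D.redF i (g - (a * g1 + b * g2)) =
      D.redF i g - (D.redF i a * D.redF i g1 + D.redF i b * D.redF i g2) := by
    intro i
    have h := D.redF_add (S.le i (sub_mem hg hab)) (S.le i hab)
    rw [sub_add_cancel] at h
    rw [← D.redF_mul (S.le i ha) (S.le i hg1), ← D.redF_mul (S.le i hb) (S.le i hg2),
      ← D.redF_add (S.le i (mul_mem ha hg1)) (S.le i (mul_mem hb hg2))]
    linear_combination -h
  obtain ⟨g3, hg3, hg3'⟩ := S.ker _ (sub_mem hg hab)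
    (by rw [hred, hz0', hg10, hb0]; ring) (by rw [hred, hz1', hg21, ha1]; ring)
  exact ⟨g1, hg1, g2, hg2, g3, hg3, by linear_combination hg3'⟩

theorem exponent_le (S : PrePair D W P Q w kw) (hF : (p : F) ≠ 0)
    (hw0 : w ∈ D.Int 0 ∧ D.redF 0 w ≠ 0)
    (hw1 : w * ((p : F) ^ kw)⁻¹ ∈ D.Int 1 ∧ D.redF 1 (w * ((p : F) ^ kw)⁻¹) ≠ 0)
    (hkw : 0 < kw) {a b g : F} {n : ℕ} (ha : a ∈ S.A) (hb : b ∈ S.A) (hg : g ∈ S.A)
    (hP : P.IsUnif (D.redF 0 a))
    (ha1 : D.redF 1 a = 0) (hQ : Q.IsUnif (D.redF 1 b)) (hb0 : D.redF 0 b = 0)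
    (hab : a * b = (p : F) ^ n * g) : n ≤ kw := by
  by_contra hn
  push Not at hn
  have hb1 : D.redF 1 b ≠ 0 := by
    obtain ⟨z, hz, hz'⟩ := hQ
    rw [hz']
    exact mul_ne_zero Q.unif_ne_zero
      (fun h => hz (by rw [show z = 0 from Subtype.ext h, map_zero]))
  have hap : ∀ j < n, ∀ f ∈ S.A, a * f * ((p : F) ^ j)⁻¹ ∈ D.Int 1 ∧
      D.redF 1 (a * f * ((p : F) ^ j)⁻¹) = 0 := by
    intro j hj f hf
    have hbne : b ≠ 0 := fun h => hb1 (by rw [h, D.redF_zero])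
    have heq : a * f * ((p : F) ^ j)⁻¹ = (p : F) * ((p : F) ^ (n - j - 1) * g * b⁻¹ * f) := by
      rw [show a = (p : F) ^ n * g * b⁻¹ by rw [← hab]; field_simp,
        show n = j + 1 + (n - j - 1) by omega, pow_add, pow_succ]
      rw [show j + 1 + (n - j - 1) - j - 1 = n - j - 1 by omega]
      field_simp
    have hm : (p : F) ^ (n - j - 1) * g * b⁻¹ * f ∈ D.Int 1 :=
      mul_mem (mul_mem (mul_mem (pow_mem (natCast_mem _ p) _) (S.le 1 hg))
        (D.inv_mem' (S.le 1 hb) hb1)) (S.le 1 hf)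
    exact ⟨heq ▸ mul_mem (natCast_mem _ p) hm, heq ▸ D.redF_p_mul hm⟩
  have main : ∀ j ≤ kw, ∃ f ∈ S.A, ∃ h ∈ S.A, w = a * f + (p : F) ^ j * h := by
    intro j hj
    induction j with
    | zero => exact ⟨0, zero_mem _, w, S.w_mem, by simp⟩
    | succ j ih =>
      obtain ⟨f, hf, h, hh, hw⟩ := ih (by omega)
      obtain ⟨h1, h2⟩ := hap j (by omega) f hf
      have hred : D.redF 1 h = 0 := by
        have heq : h + a * f * ((p : F) ^ j)⁻¹ =
            (p : F) * ((p : F) ^ (kw - j - 1) * (w * ((p : F) ^ kw)⁻¹)) := by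
          have : (p : F) ^ kw = (p : F) ^ j * (p : F) * (p : F) ^ (kw - j - 1) := by
            rw [← pow_succ, ← pow_add]; congr 1; omega
          rw [this, hw]
          field_simp
          ring
        have hm : (p : F) ^ (kw - j - 1) * (w * ((p : F) ^ kw)⁻¹) ∈ D.Int 1 :=
          mul_mem (pow_mem (natCast_mem _ p) _) hw1.1
        have := congrArg (D.redF 1) heq
        rwa [D.redF_add (S.le 1 hh) h1, h2, add_zero, D.redF_p_mul hm] at this
      obtain ⟨g1, hg1, g2, hg2, g3, hg3, hdec⟩ := S.exists_decomp ha hb hh hP ha1 hQ hb0 (by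
        rw [S.ev_eq h hh, hred, Q.evF_zero])
      have hg2r : D.redF 1 g2 = 0 := by
        have := congrArg (D.redF 1) hdec
        rw [hred, D.redF_add (S.le 1 (add_mem (mul_mem ha hg1) (mul_mem hb hg2)))
          (mul_mem (natCast_mem _ p) (S.le 1 hg3)),
          D.redF_add (S.le 1 (mul_mem ha hg1)) (S.le 1 (mul_mem hb hg2)),
          D.redF_mul (S.le 1 ha) (S.le 1 hg1), D.redF_mul (S.le 1 hb) (S.le 1 hg2),
          D.redF_p_mul (S.le 1 hg3), ha1] at this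
        simpa [hb1] using this.symm
      obtain ⟨g2', hg2', hg2''⟩ := S.ker (b * g2) (mul_mem hb hg2)
        (by rw [D.redF_mul (S.le 0 hb) (S.le 0 hg2), hb0, zero_mul])
        (by rw [D.redF_mul (S.le 1 hb) (S.le 1 hg2), hg2r, mul_zero])
      exact ⟨f + (p : F) ^ j * g1, add_mem hf (mul_mem (pow_mem (natCast_mem _ p) _) hg1),
        g2' + g3, add_mem hg2' hg3, by
          rw [hw, hdec, hg2'', pow_succ]; ring⟩
  obtain ⟨f, hf, h, hh, hw⟩ := main kw le_rfl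
  obtain ⟨h1, h2⟩ := hap kw hn f hf
  have hwne : w ≠ 0 := fun h0 => hw0.2 (by rw [h0, D.redF_zero])
  have hr : D.redF 1 (w * ((p : F) ^ kw)⁻¹) = D.redF 1 h := by
    rw [show w * ((p : F) ^ kw)⁻¹ = a * f * ((p : F) ^ kw)⁻¹ + h by rw [hw]; field_simp,
      D.redF_add h1 (S.le 1 hh), h2, zero_add]
  set d := (p : F) ^ kw * w⁻¹
  have hd0 : D.redF 0 d = 0 := by
    rw [show d = (p : F) * ((p : F) ^ (kw - 1) * w⁻¹) by
      simp only [d]; rw [← mul_assoc, ← pow_succ', Nat.sub_add_cancel hkw]]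
    exact D.redF_p_mul (mul_mem (pow_mem (natCast_mem _ p) _) (D.inv_mem' hw0.1 hw0.2))
  have hprod : D.redF 1 d * D.redF 1 h = 1 := by
    rw [← hr, ← D.redF_mul (S.le 1 S.w_dual_mem) hw1.1]
    rw [show d * (w * ((p : F) ^ kw)⁻¹) = 1 by simp only [d]; field_simp, D.redF_one]
  have hev : Q.evF (D.redF 1 d) = 0 := by rw [← S.ev_eq d S.w_dual_mem, hd0, P.evF_zero]
  have := congrArg Q.evF hprod
  rw [Q.evF_mul (S.red1_mem d S.w_dual_mem) (S.red1_mem h hh), hev, zero_mul,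
    ← map_one (algebraMap k G), Q.evF_algebraMap] at this
  exact zero_ne_one this

/-- Parameters with product a power of `p`, hence pair data. -/
theorem exists_pairData (S : PrePair D W P Q w kw) (hF : (p : F) ≠ 0)
    (hw0 : w ∈ D.Int 0 ∧ D.redF 0 w ≠ 0)
    (hw1 : w * ((p : F) ^ kw)⁻¹ ∈ D.Int 1 ∧ D.redF 1 (w * ((p : F) ^ kw)⁻¹) ≠ 0)
    (hkw : 0 < kw) {a b : F} (ha : a ∈ S.A) (hb : b ∈ S.A)
    (hP : P.IsUnif (D.redF 0 a)) (ha1 : D.redF 1 a = 0)
    (hQ : Q.IsUnif (D.redF 1 b)) (hb0 : D.redF 0 b = 0) :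
    Nonempty (PairData D W P Q w kw) := by
  by_contra hne
  have step : ∀ n, ∃ a ∈ S.A, ∃ b ∈ S.A, ∃ g ∈ S.A, P.IsUnif (D.redF 0 a) ∧ D.redF 1 a = 0 ∧
      Q.IsUnif (D.redF 1 b) ∧ D.redF 0 b = 0 ∧ a * b = (p : F) ^ (n + 1) * g := by
    intro n
    induction n with
    | zero =>
      obtain ⟨g, hg, hg'⟩ := S.ker (a * b) (mul_mem ha hb)
        (by rw [D.redF_mul (S.le 0 ha) (S.le 0 hb), hb0, mul_zero])
        (by rw [D.redF_mul (S.le 1 ha) (S.le 1 hb), ha1, zero_mul])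
      exact ⟨a, ha, b, hb, g, hg, hP, ha1, hQ, hb0, by rw [hg', zero_add, pow_one]⟩
    | succ n ih =>
      obtain ⟨a, ha, b, hb, g, hg, hP, ha1, hQ, hb0, hab⟩ := ih
      by_cases hv : P.evF (D.redF 0 g) = 0
      · obtain ⟨g1, hg1, g2, hg2, g3, hg3, hdec⟩ := S.exists_decomp ha hb hg hP ha1 hQ hb0 hv
        have hred : ∀ i x z, x ∈ S.A → z ∈ S.A →
            D.redF i (x - (p : F) ^ (n + 1) * z) = D.redF i x := by
          intro i x z hx hz
          have hm : (p : F) ^ n * z ∈ D.Int i := mul_mem (pow_mem (natCast_mem _ p) _) (S.le i hz)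
          rw [show x - (p : F) ^ (n + 1) * z = x + (p : F) * (-((p : F) ^ n * z)) by ring,
            D.redF_add (S.le i hx) (mul_mem (natCast_mem _ p) (neg_mem hm)),
            D.redF_p_mul (neg_mem hm), add_zero]
        have hpm : ∀ z ∈ S.A, (p : F) ^ (n + 1) * z ∈ S.A :=
          fun z hz => mul_mem (pow_mem (natCast_mem _ p) _) hz
        refine ⟨a - (p : F) ^ (n + 1) * g2, sub_mem ha (hpm g2 hg2),
          b - (p : F) ^ (n + 1) * g1, sub_mem hb (hpm g1 hg1),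
          g3 + (p : F) ^ n * (g1 * g2), add_mem hg3 (mul_mem (pow_mem (natCast_mem _ p) _)
            (mul_mem hg1 hg2)), ?_, ?_, ?_, ?_, ?_⟩
        · rw [hred 0 a g2 ha hg2]; exact hP
        · rw [hred 1 a g2 ha hg2]; exact ha1
        · rw [hred 1 b g1 hb hg1]; exact hQ
        · rw [hred 0 b g1 hb hg1]; exact hb0
        · rw [hdec] at hab
          linear_combination hab
      · exfalso
        have hgi := S.inv_mem g hg hv
        have hg0 : g ≠ 0 := fun h => hv (by rw [h, D.redF_zero, P.evF_zero])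
        refine hne ⟨{ S with
          e := n + 1, e_pos := n.succ_pos, a := a * g⁻¹, b := b, a_mem := mul_mem ha hgi,
          b_mem := hb, a_mul_b := ?_, red0_a := ?_, red1_a := ?_, red0_b := hb0, red1_b := hQ }⟩
        · rw [mul_right_comm, hab, mul_assoc, mul_inv_cancel₀ hg0, mul_one]
        · rw [D.redF_mul (S.le 0 ha) (S.le 0 hgi)]
          refine hP.mul_unit (S.red0_mem _ hgi) fun h => ?_
          have := congrArg P.evF ((D.redF_mul (S.le 0 hg) (S.le 0 hgi)).symm.trans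
            (by rw [mul_inv_cancel₀ hg0, D.redF_one]))
          rw [P.evF_mul (S.red0_mem _ hg) (S.red0_mem _ hgi), h, mul_zero,
            ← map_one (algebraMap k G), P.evF_algebraMap] at this
          exact zero_ne_one this
        · rw [D.redF_mul (S.le 1 ha) (S.le 1 hgi), ha1, zero_mul]
  obtain ⟨a, ha, b, hb, g, hg, hP, ha1, hQ, hb0, hab⟩ := step kw
  have := S.exponent_le hF hw0 hw1 hkw ha hb hg hP ha1 hQ hb0 hab
  omega

end PrePair

end Fermat.Agent.LevelP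

end
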