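import Fermat.Agent.LevelP.NodeFactor

/-!
# Slopes at a pair

A function which is locally a `p`-th power has logarithmic `ε`-parts on the two branches which are
regular at the pair and differ by the order times the exponent times a fixed constant.
-/

set_option autoImplicit false

noncomputable section

namespace Fermat.Agent.LevelP

open TrivSqZeroExt
open scoped DualNumber

variable {p : ℕ} [hp : Fact p.Prime] {F : Type*} [Field F] {k G : Type*} [Field k] [Field G]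
  [Algebra k G] [CharP G p] {D : GlueData p F k G} {FL : Type*} [Field FL] [Algebra F FL]
  {W : Subring F} {P Q : DVPoint k G} {w : F} {kw : ℕ}

/-- The logarithmic `ε`-part. -/
def dlogRed (E : RamExt D FL) (i : Fin 2) (x : FL) : G :=
  (E.redEps i x).snd / (E.redEps i x).fst

theorem isUnit_dual {x : DualNumber G} (h : x.fst ≠ 0) : IsUnit x :=
  TrivSqZeroExt.isUnit_iff_isUnit_fst.mpr (isUnit_iff_ne_zero.mpr h)

variable (E : RamExt D FL) (S : PairData D W P Q w kw)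

theorem isUnit_tN : IsUnit (tN E S) := by
  have h : IsUnit (algebraMap FL (NodeField (FL := FL) S) E.π) :=
    (isUnit_iff_ne_zero.mpr E.pi_ne_zero).map _
  rw [← s_mul_t E S] at h
  exact isUnit_of_mul_isUnit_right h

theorem isUnit_sN : IsUnit (sN (FL := FL) S) :=
  IsUnit.of_mul_eq_one _ (s_mul_sInv S)

theorem rho0_eq_of (x y : vInt0 E S) (h : (x : NodeField (FL := FL) S) = y) :
    rho0 E S x = rho0 E S y := congrArg _ (Subtype.ext h)

theorem rho1_eq_of (x y : vInt1 E S) (h : (x : NodeField (FL := FL) S) = y) :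
    rho1 E S x = rho1 E S y := congrArg _ (Subtype.ext h)

theorem exponent_eq0 {x y : vInt0 E S} (hx : IsUnit (rho0 E S x)) (hy : IsUnit (rho0 E S y))
    {i j : ℕ} (h : tN E S ^ i * (x : NodeField (FL := FL) S) =
      tN E S ^ j * (y : NodeField (FL := FL) S)) :
    i = j ∧ (x : NodeField (FL := FL) S) = y := by
  wlog hle : i ≤ j generalizing x y i j with H
  · obtain ⟨h1, h2⟩ := H hy hx h.symm (le_of_not_ge hle)
    exact ⟨h1.symm, h2.symm⟩
  obtain ⟨d, rfl⟩ := Nat.exists_eq_add_of_le hle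
  have h1 : (x : NodeField (FL := FL) S) = tN E S ^ d * (y : NodeField (FL := FL) S) := by
    refine ((isUnit_tN E S).pow i).mul_left_cancel ?_
    rw [h, pow_add, mul_assoc]
  rcases d with _ | d
  · exact ⟨rfl, by rw [h1, pow_zero, one_mul]⟩
  exfalso
  have h2 := rho0_eq_of E S x (⟨_, t_mem0 E S⟩ ^ (d + 1) * y) (by simpa using h1)
  rw [map_mul, map_pow, rho0_t, mul_pow, ← map_pow, mul_assoc, pow_succ', map_mul, mul_assoc] at h2
  exact eps_mul_ne_unit (rb0 S) (nodeDeg_pos S) hx _ h2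

theorem exponent_eq1 {x y : vInt1 E S} (hx : IsUnit (rho1 E S x)) (hy : IsUnit (rho1 E S y))
    {i j : ℕ} (h : sN S ^ i * (x : NodeField (FL := FL) S) =
      sN S ^ j * (y : NodeField (FL := FL) S)) :
    i = j ∧ (x : NodeField (FL := FL) S) = y := by
  wlog hle : i ≤ j generalizing x y i j with H
  · obtain ⟨h1, h2⟩ := H hy hx h.symm (le_of_not_ge hle)
    exact ⟨h1.symm, h2.symm⟩
  obtain ⟨d, rfl⟩ := Nat.exists_eq_add_of_le hle
  have h1 : (x : NodeField (FL := FL) S) = sN S ^ d * (y : NodeField (FL := FL) S) := by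
    refine ((isUnit_sN S).pow i).mul_left_cancel ?_
    rw [h, pow_add, mul_assoc]
  rcases d with _ | d
  · exact ⟨rfl, by rw [h1, pow_zero, one_mul]⟩
  exfalso
  have h2 := rho1_eq_of E S x (⟨_, s_mem1 E S⟩ ^ (d + 1) * y) (by simpa using h1)
  rw [map_mul, map_pow, rho1_s, mul_pow, ← map_pow, mul_assoc, pow_succ', map_mul, mul_assoc] at h2
  exact eps_mul_ne_unit (rb1 E S) (nodeDeg_pos S) hx _ h2

/-- An element of `FL` on the branch `0`. -/
def lift0 (u : E.intL 0) : vInt0 E S := ⟨_, algebraMap_mem0 E S u.2⟩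

/-- An element of `FL` on the branch `1`. -/
def lift1 (u : E.intL 1) : vInt1 E S := ⟨_, algebraMap_mem1 E S u.2⟩

theorem rho0_lift0 (u : E.intL 0) :
    rho0 E S (lift0 E S u) = algebraMap (DualNumber G) (Branch0 S) (E.redEps 0 u) :=
  rho0_algebraMap E S u.2 _

theorem rho1_lift1 (u : E.intL 1) :
    rho1 E S (lift1 E S u) = algebraMap (DualNumber G) (Branch1 E S) (E.redEps 1 u) :=
  rho1_algebraMap E S u.2 _

/-- An element of the ring at the pair on the branch `0`. -/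
def node0 (x : nodeRing E S) : vInt0 E S := ⟨x, vInt0_of_node E S x.2⟩

/-- An element of the ring at the pair on the branch `1`. -/
def node1 (x : nodeRing E S) : vInt1 E S := ⟨x, vInt1_of_node E S x.2⟩

variable (hc : ∀ j, E.c j ∈ S.A)
  {u : FL} {a b c d : ℕ} {G0 Y U : nodeRing E S} (hU : IsUnit U)
  (hsG : ¬ sR E S ∣ G0) (htG : ¬ tR E S ∣ G0) (hsY : ¬ sR E S ∣ Y) (htY : ¬ tR E S ∣ Y)
  (heq : algebraMap FL (NodeField S) u * (Y : NodeField (FL := FL) S) ^ p * sN S ^ c *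
      tN E S ^ d = sN S ^ a * tN E S ^ b * (G0 : NodeField (FL := FL) S) ^ p *
        (U : NodeField (FL := FL) S))

include hc hU htG htY heq in
theorem factor0 {u0 : E.intL 0} (h0 : E.coordRed 0 u0 zeroF ≠ 0) {m m' : ℕ}
    (hu : E.π ^ m' * u = E.π ^ m * u0) :
    m + d = m' + b ∧
      algebraMap (DualNumber G) (Branch0 S) (E.redEps 0 u0) * (rb0 S).T ^ (m + c) *
        sigma0 E S Y ^ p = (rb0 S).T ^ (m' + a) * sigma0 E S G0 ^ p * sigma0 E S U := by
  set L := lift0 E S u0 * ⟨_, s_mem0 E S⟩ ^ (m + c) * node0 E S Y ^ p with hL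
  set R := (⟨_, s_mem0 E S⟩ : vInt0 E S) ^ (m' + a) * node0 E S G0 ^ p * node0 E S U with hR
  have hLu : IsUnit (rho0 E S L) := by
    rw [hL, map_mul, map_mul, map_pow, map_pow, rho0_lift0, rho0_s]
    exact (((isUnit_dual (by rwa [E.fst_redEps])).map _).mul ((isUnit_T0 S).pow _)).mul
      ((sigma0_isUnit E S hc htY).pow _)
  have hRu : IsUnit (rho0 E S R) := by
    rw [hR, map_mul, map_mul, map_pow, map_pow, rho0_s]
    exact (((isUnit_T0 S).pow _).mul ((sigma0_isUnit E S hc htG).pow _)).mul (hU.map (sigma0 E S))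
  have hu' := congrArg (algebraMap FL (NodeField (FL := FL) S)) hu
  simp only [map_mul, map_pow, ← s_mul_t E S, mul_pow] at hu'
  obtain ⟨h1, h2⟩ := exponent_eq0 E S hLu hRu (i := m + d) (j := m' + b) (by
    simp only [hL, hR, lift0, node0, Subring.coe_mul, SubmonoidClass.coe_pow, pow_add]
    linear_combination (sN S ^ m' * tN E S ^ m') * heq -
      ((Y : NodeField (FL := FL) S) ^ p * sN S ^ c * tN E S ^ d) * hu')
  refine ⟨h1, ?_⟩
  have h3 := rho0_eq_of E S L R h2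
  rwa [hL, hR, map_mul, map_mul, map_mul, map_mul, map_pow, map_pow, map_pow, map_pow, rho0_lift0,
    rho0_s] at h3

include hc hU hsG hsY heq in
theorem factor1 {u1 : E.intL 1} (h0 : E.coordRed 1 u1 zeroF ≠ 0) {m m' : ℕ}
    (hu : E.π ^ m' * u = E.π ^ m * u1) :
    m + c = m' + a ∧
      algebraMap (DualNumber G) (Branch1 E S) (E.redEps 1 u1) * (rb1 E S).T ^ (m + d) *
        sigma1 E S Y ^ p = (rb1 E S).T ^ (m' + b) * sigma1 E S G0 ^ p * sigma1 E S U := by
  set L := lift1 E S u1 * ⟨_, t_mem1 E S⟩ ^ (m + d) * node1 E S Y ^ p with hL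
  set R := (⟨_, t_mem1 E S⟩ : vInt1 E S) ^ (m' + b) * node1 E S G0 ^ p * node1 E S U with hR
  have hLu : IsUnit (rho1 E S L) := by
    rw [hL, map_mul, map_mul, map_pow, map_pow, rho1_lift1, rho1_t]
    exact (((isUnit_dual (by rwa [E.fst_redEps])).map _).mul ((isUnit_T1 E S).pow _)).mul
      ((sigma1_isUnit E S hc hsY).pow _)
  have hRu : IsUnit (rho1 E S R) := by
    rw [hR, map_mul, map_mul, map_pow, map_pow, rho1_t]
    exact (((isUnit_T1 E S).pow _).mul ((sigma1_isUnit E S hc hsG).pow _)).mul (hU.map (sigma1 E S))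
  have hu' := congrArg (algebraMap FL (NodeField (FL := FL) S)) hu
  simp only [map_mul, map_pow, ← s_mul_t E S, mul_pow] at hu'
  obtain ⟨h1, h2⟩ := exponent_eq1 E S hLu hRu (i := m + c) (j := m' + a) (by
    simp only [hL, hR, lift1, node1, Subring.coe_mul, SubmonoidClass.coe_pow, pow_add]
    linear_combination (sN S ^ m' * tN E S ^ m') * heq -
      ((Y : NodeField (FL := FL) S) ^ p * sN S ^ c * tN E S ^ d) * hu')
  refine ⟨h1, ?_⟩
  have h3 := rho1_eq_of E S L R h2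
  rwa [hL, hR, map_mul, map_mul, map_mul, map_mul, map_pow, map_pow, map_pow, map_pow, rho1_lift1,
    rho1_t] at h3

omit hp in
theorem eq_zpow_mul {Q' : Type*} [CommRing Q'] (τ : Q'ˣ) {X Yu A Z : Q'} {i j : ℕ} (hYu : IsUnit Yu)
    (h : X * (τ : Q') ^ i * Yu ^ p = (τ : Q') ^ j * A ^ p * Z) :
    X = ((τ ^ ((j : ℤ) - i) : Q'ˣ) : Q') * (A * ((hYu.unit⁻¹ : Q'ˣ) : Q')) ^ p * Z := by
  refine ((τ.isUnit.pow i).mul (hYu.pow p)).mul_right_cancel ?_
  rw [← mul_assoc, h, mul_pow]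
  have h1 : ((τ ^ ((j : ℤ) - i) : Q'ˣ) : Q') * (τ : Q') ^ i = (τ : Q') ^ j := by
    rw [← Units.val_pow_eq_pow_val, ← Units.val_mul, ← Units.val_pow_eq_pow_val,
      ← zpow_natCast τ i, ← zpow_natCast τ j, ← zpow_add, sub_add_cancel]
  have h2 : ((hYu.unit⁻¹ : Q'ˣ) : Q') ^ p * Yu ^ p = 1 := by
    rw [← mul_pow, IsUnit.val_inv_mul, one_pow]
  linear_combination (-(A ^ p * Z)) * h1 -
    (((τ ^ ((j : ℤ) - i) : Q'ˣ) : Q') * (τ : Q') ^ i * A ^ p * Z) * h2

theorem toNat_zpow_eq {x y π : FL} (hπ : π ≠ 0) {v : ℤ} (h : x = π ^ v * y) :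
    π ^ (-v).toNat * x = π ^ v.toNat * y := by
  rw [h, ← mul_assoc, ← zpow_natCast, ← zpow_natCast, ← zpow_add₀ hπ]
  congr 2
  omega

omit hc hU hsG htG hsY htY heq

include hc in
/-- Slopes at a pair. -/
theorem pair_slope (hu : u ≠ 0) (hloc : LocallyPthPower W E u) {v0 v1 : ℤ} {u0 u1 : FL}
    (hm0 : u0 ∈ E.intL 0) (hn0 : E.coordRed 0 u0 zeroF ≠ 0) (he0 : u = E.π ^ v0 * u0)
    (hm1 : u1 ∈ E.intL 1) (hn1 : E.coordRed 1 u1 zeroF ≠ 0) (he1 : u = E.π ^ v1 * u1) :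
    (p : ℤ) ∣ v1 - v0 ∧ dlogRed E 0 u0 ∈ P.O ∧ dlogRed E 1 u1 ∈ Q.O ∧
      Q.evF (dlogRed E 1 u1) - P.evF (dlogRed E 0 u0) =
        (Q.ord (E.coordRed 1 u1 zeroF) : k) * eta1 E S := by
  obtain ⟨a, b, c, d, G0, Y, U, hU, hsG, htG, hsY, htY, heq⟩ := exists_factor E S hc hu hloc
  obtain ⟨hbd, h0⟩ := factor0 E S hc hU htG htY heq (u0 := ⟨u0, hm0⟩) hn0
    (toNat_zpow_eq E.pi_ne_zero he0)
  obtain ⟨hac, h1⟩ := factor1 E S hc hU hsG hsY heq (u1 := ⟨u1, hm1⟩) hn1
    (toNat_zpow_eq E.pi_ne_zero he1)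
  obtain ⟨α, hα, hα0, hα1⟩ := exists_const_of_isUnit E S hU
  have hY0 := sigma0_isUnit E S hc htY
  have hY1 := sigma1_isUnit E S hc hsY
  have hx0 := eq_zpow_mul (tUnit (rb0 S) (isUnif_beta0 S).ne_zero (nodeDeg_pos S)) hY0 h0
  have hx1 := eq_zpow_mul (tUnit (rb1 E S) (isUnif_beta1 E S).ne_zero (nodeDeg_pos S)) hY1 h1
  obtain ⟨hj, -, hO0, hev0⟩ := branch_extract (rb0 S) (isUnif_beta0 S) (one_lt_nodeDeg S)
    (dvd_mul_right p S.e) (exists_fst_ne_of_isUnit (rb0 S) (nodeDeg_pos S)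
      ((sigma0_isUnit E S hc htG).mul hY0.unit⁻¹.isUnit)) hα hα0 hx0
  obtain ⟨-, -, hO1, hev1⟩ := branch_extract (rb1 E S) (isUnif_beta1 E S) (one_lt_nodeDeg S)
    (dvd_mul_right p S.e) (exists_fst_ne_of_isUnit (rb1 E S) (nodeDeg_pos S)
      ((sigma1_isUnit E S hc hsG).mul hY1.unit⁻¹.isUnit)) hα hα1 hx1
  refine ⟨?_, hO0, hO1, ?_⟩
  · convert hj using 1
    push_cast
    omega
  · rw [dlogRed, dlogRed, hev0, hev1, E.fst_redEps]
    ring

include hc in
/-- The exponent of a pair is computed by the modular unit. -/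
theorem pair_exponent (hw0 : w ∈ D.Int 0 ∧ D.redF 0 w ≠ 0)
    (hw1 : w * ((p : F) ^ kw)⁻¹ ∈ D.Int 1 ∧ D.redF 1 (w * ((p : F) ^ kw)⁻¹) ≠ 0) :
    (S.e : ℤ) * Q.ord (D.redF 1 (w * ((p : F) ^ kw)⁻¹)) = -(kw : ℤ) := by
  have := isDomain_node E S hc
  have := ufm_node E S hc
  have := nontrivial_node E S hc
  have hs := prime_sR E S hc
  have ht := prime_tR E S hc
  have hwne : w ≠ 0 := fun h => hw0.2 (by rw [h, D.redF_zero])
  have hpF : (p : F) ^ kw ≠ 0 := fun h => hw1.2 (by rw [h, inv_zero, mul_zero, D.redF_zero])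
  have hC := isUnit_unitC E S hc
  set x : nodeRing E S := ⟨embF S w, embF_mem E S S.w_mem⟩ with hxdef
  set x' : nodeRing E S := ⟨embF S ((p : F) ^ kw * w⁻¹), embF_mem E S S.w_dual_mem⟩
  set C : nodeRing E S := ⟨_, unitC_mem_node E S hc⟩
  have hπp : algebraMap F FL ((p : F) ^ kw) * E.unitC ^ kw = E.π ^ (p * kw) := by
    rw [map_pow, map_natCast, ← mul_pow, ← E.pi_pow_eq, pow_mul]
  have hprod : x * x' * C ^ kw = (sR E S * tR E S) ^ (p * kw) := Subtype.ext (by
    simp only [x, x', C, sR, tR, MulMemClass.coe_mul, SubmonoidClass.coe_pow, s_mul_t E S,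
      ← map_mul, ← map_pow]
    rw [show w * ((p : F) ^ kw * w⁻¹) = (p : F) ^ kw by field_simp, embF, RingHom.comp_apply,
      ← map_mul, hπp])
  have hx0 : x ≠ 0 := fun h => (isUnit_embF' (FL := FL) S hwne).ne_zero (congrArg Subtype.val h)
  obtain ⟨a, y, hy, hxy⟩ := WfDvdMonoid.max_power_factor hx0 hs.irreducible
  have hy0 : y ≠ 0 := fun h => hy (h ▸ dvd_zero _)
  obtain ⟨b, x1, hx1, hyx⟩ := WfDvdMonoid.max_power_factor hy0 ht.irreducible
  have hx1s : ¬ sR E S ∣ x1 := fun h => hy (hyx ▸ h.mul_left _)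
  have hx1u : IsUnit x1 := by
    by_contra hu
    obtain ⟨ϖ, hϖ, hϖx⟩ := WfDvdMonoid.exists_irreducible_factor hu (fun h => hx1 (h ▸ dvd_zero _))
    have hϖp : Prime ϖ := UniqueFactorizationMonoid.irreducible_iff_prime.mp hϖ
    have hd : ϖ ∣ (sR E S * tR E S) ^ (p * kw) := by
      rw [← hprod, hxy, hyx]
      exact (((hϖx.mul_left _).mul_left _).mul_right _).mul_right _
    rcases hϖp.dvd_or_dvd (hϖp.dvd_of_dvd_pow hd) with h | h
    · exact hx1s (((hϖp.dvd_prime_iff_associated hs).mp h).symm.dvd.trans hϖx)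
    · exact hx1 (((hϖp.dvd_prime_iff_associated ht).mp h).symm.dvd.trans hϖx)
  set u := algebraMap F FL w * E.unitC ^ kw with hudef
  set U := x1 * C ^ kw
  have hU : IsUnit U := hx1u.mul (hC.pow kw)
  have hn1 : ∀ (z : nodeRing E S), Prime z → ¬ z ∣ (1 : nodeRing E S) :=
    fun z hz h => hz.not_isUnit (isUnit_of_dvd_one h)
  have heq : algebraMap FL (NodeField S) u * ((1 : nodeRing E S) : NodeField (FL := FL) S) ^ p *
      sN S ^ 0 * tN E S ^ 0 = sN S ^ a * tN E S ^ b *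
        ((1 : nodeRing E S) : NodeField (FL := FL) S) ^ p * (U : NodeField (FL := FL) S) := by
    have h2 : embF S w =
        sN S ^ a * (tN E S ^ b * (x1 : NodeField (FL := FL) S)) :=
      congrArg Subtype.val (show x = sR E S ^ a * (tR E S ^ b * x1) by rw [← hyx, ← hxy])
    rw [embF, RingHom.comp_apply] at h2
    simp only [U, C, hudef, map_mul, map_pow, MulMemClass.coe_mul, SubmonoidClass.coe_pow,
      OneMemClass.coe_one, one_pow, pow_zero, mul_one, h2]
    ring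
  have hum0 : u ∈ E.intL 0 := mul_mem (E.algebraMap_mem hw0.1) (pow_mem (E.unitC_mem 0) _)
  have hun0 : E.coordRed 0 u zeroF ≠ 0 := by
    rw [← E.fst_redEps, (E.mul_intL (E.algebraMap_mem hw0.1) (pow_mem (E.unitC_mem 0) _)).2,
      E.redEps_algebraMap, redEps_unitC_pow]
    simp [hw0.2, E.γ0_ne]
  set u1 := algebraMap F FL (w * ((p : F) ^ kw)⁻¹) with hu1def
  have hu1eq : E.π ^ 0 * u = E.π ^ (p * kw) * u1 := by
    rw [pow_zero, one_mul, ← hπp, hu1def, hudef, mul_right_comm, ← map_mul]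
    congr 2
    field_simp
  obtain ⟨hb, -⟩ := factor0 E S hc hU (hn1 _ ht) (hn1 _ ht) heq (u0 := ⟨u, hum0⟩) hun0
    (m := 0) (m' := 0) rfl
  obtain ⟨-, h1⟩ := factor1 E S hc hU (hn1 _ hs) (hn1 _ hs) heq
    (u1 := ⟨u1, E.algebraMap_mem hw1.1⟩)
    (by show E.coordRed 1 u1 zeroF ≠ 0; rw [hu1def, coordRed_algebraMap]; exact hw1.2) hu1eq
  obtain ⟨α, hα, -, hα1⟩ := exists_const_of_isUnit E S hU
  have hx := eq_zpow_mul (tUnit (rb1 E S) (isUnif_beta1 E S).ne_zero (nodeDeg_pos S))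
    (Yu := sigma1 E S 1) (by rw [map_one]; exact isUnit_one) h1
  obtain ⟨hj, -⟩ := branch_extract_core (rb1 E S) (isUnif_beta1 E S) (one_lt_nodeDeg S)
    (dvd_mul_right p S.e) (W := 1) (Y := 0) (v := 0)
    (one_pos' (rb1 E S) (nodeDeg_pos S))
    (by
      rw [← map_one (algebraMap (DualNumber G) (Branch1 E S)),
        (rb1 E S).coeff_algebraMap (nodeDeg_pos S), if_pos rfl, TrivSqZeroExt.fst_one, Q.evF_one]
      exact one_ne_zero)
    (by
      rw [zpow_zero, Units.val_one, one_mul, mul_zero, add_zero]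
      exact IsUnit.mul_val_inv _) hα hα1 hx
  simp only [E.fst_redEps, hu1def, coordRed_algebraMap] at hj
  have hpz : (p : ℤ) ≠ 0 := by exact_mod_cast hp.out.ne_zero
  refine mul_left_cancel₀ hpz ?_
  push_cast [nodeDeg] at hj
  have hb0 : (b : ℤ) = 0 := by omega
  linear_combination -hj + hb0

end Fermat.Agent.LevelP

end
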