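import Fermat.Agent.LevelP.LocalPower
import Fermat.Agent.OrdinaryT.CoreTools
import Fermat.Agent.OrdinaryT.RatRep

/-!
# No torsion fixed by the stabiliser of a Kummer generator

A point of order `p` of `J₀(M p)` fixed by the stabiliser gives a fixed function which is locally
a `p`-th power; by rigidity it is a `p`-th power times a function congruent to `1` beyond
`p / (p - 1)`, hence a constant times a `p`-th power.
-/

set_option autoImplicit false
set_option linter.unusedSectionVars false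

noncomputable section

open IsLocalRing ModularCurve AlgebraicCurve Fermat.Agent.SemistableRed

namespace Fermat.Agent.LevelP

open FlatJ0
open scoped Fermat.Agent.Reduction

local notation "Ω" => AlgebraicClosure ℚ
local notation "G_ℚ" => (AlgebraicClosure ℚ) ≃ₐ[ℚ] (AlgebraicClosure ℚ)

section Generic

variable {L : Type*} [Field L] {A : ValuationSubring L} {k : Type*} [Field k] {π : A →+* k}
  {F : Type*} [Field F] [Algebra L F] {G : Type*} [Field G] [Algebra k G]
  {S : SplitModel A π F G} {p : ℕ} [Fact p.Prime] (Δ : Descent S p)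
  {FL : IntermediateField Δ.F₀ F}

/-- An element with integral coordinates is integral. -/
theorem int_of_isIntL (E : RamExt Δ.glueData FL) {ϖ : L} (hϖ : ϖ ∈ A)
    (hπ : ((E.π : FL) : F) = algebraMap L F ϖ) {i : Fin 2} {z : FL} (hz : E.IsIntL i z) :
    S.Int i (z : F) := by
  classical
  rw [← E.basis.sum_repr z, IntermediateField.coe_sum]
  refine (S.int_sum Finset.univ fun j _ => ?_).1
  rw [Algebra.smul_def, MulMemClass.coe_mul, E.basis_eq, SubmonoidClass.coe_pow, hπ, ← map_pow]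
  exact S.int_mul i _ _ (hz j) (Descent.int_const (pow_mem hϖ _) i).1

/-- The shape given by rigidity, read in the function field. -/
theorem coe_rigid (E : RamExt Δ.glueData FL) {ϖ : L} (hπ : ((E.π : FL) : F) = algebraMap L F ϖ)
    {c : Fin p → Δ.F₀} {c' : Fin p → L} (hc : ∀ j, algebraMap L F (c' j) = c j)
    {u h z : FL} {m : ℤ} {d : ℕ}
    (heq : u = E.π ^ m * (∑ j, c j • E.basis j) * h ^ p * (1 + E.π ^ d * z)) :
    (u : F) = algebraMap L F (ϖ ^ m * ∑ j, c' j * ϖ ^ (j : ℕ)) * (h : F) ^ p *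
        ((1 + E.π ^ d * z : FL) : F) ∧
      ((1 + E.π ^ d * z : FL) : F) - 1 = ϖ ^ d • (z : F) := by
  classical
  let ι : FL →+* F := (IntermediateField.val FL).toRingHom
  have hι : ∀ x : FL, ((x : FL) : F) = ι x := fun _ => rfl
  have hπ' : ι E.π = algebraMap L F ϖ := (hι _).symm.trans hπ
  refine ⟨?_, ?_⟩
  · rw [hι u, hι h, hι, heq, map_mul ι, map_mul ι, map_mul ι, map_zpow₀, map_pow ι h, hπ',
      map_mul (algebraMap L F), map_zpow₀, map_sum, map_sum]
    congr 3
    refine Finset.sum_congr rfl fun j _ => ?_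
    rw [Algebra.smul_def, map_mul, E.basis_eq, map_pow, hπ', map_mul, map_pow, hc j]
    rfl
  · rw [hι, hι, map_add, map_one, add_sub_cancel_left, map_mul, map_pow, hπ', ← map_pow, Algebra.smul_def]

end Generic

variable {A : ValuationSubring Ω} {M p : ℕ} [NeZero M] [NeZero p] [Fact p.Prime]
  [CharP (ResidueField A) p] [IsAlgClosed (ResidueField A)]

/-- The uniformiser has value `1 / p`. -/
theorem KummerGen.ord_shift (K : KummerGen A p) (hA : IsOver A p) :
    K.θ - K.θ₀ ∈ A ∧ K.θ - K.θ₀ ≠ 0 ∧ (p : ℚ) * ord A p (K.θ - K.θ₀) = 1 := by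
  have hp : p.Prime := Fact.out
  have hθ : K.θ ∈ A := by
    have h0 : Near A p 0 (K.θ ^ p) := by
      rw [← sub_add_cancel (K.θ ^ p) (K.θ₀ ^ p)]
      exact hA.near_add (Or.inr (zero_le_one.trans K.ord_quot.ge))
        (hA.near_of_mem (pow_mem K.mem₀ p))
    have h2 := h0.resolve_left (pow_ne_zero _ K.θ_ne)
    rw [hA.ord_pow K.θ_ne] at h2
    exact (hA.mem_iff K.θ_ne).mpr (nonneg_of_mul_nonneg_right h2 (by exact_mod_cast hp.pos))
  have hϖ : K.θ - K.θ₀ ∈ A := sub_mem hθ K.mem₀
  have hne : K.θ - K.θ₀ ≠ 0 := fun h => K.quot_ne (by rw [sub_eq_zero.mp h, sub_self])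
  let cA : ℕ → A := fun j => ⟨K.coef j, K.coef_mem hA j⟩
  let x : A := ⟨_, hϖ⟩
  have hid : x ^ p = (p : A) * ∑ j : Fin p, cA j * x ^ (j : ℕ) := by
    refine Subtype.ext ?_
    push_cast
    refine sub_pow_prime (c := K.coef) hp K.θ K.θ₀ ?_ fun j hj => ?_
    · rw [KummerGen.coef, if_pos rfl, mul_div_cancel₀ _ hA.natCast_ne_zero]
    · rw [KummerGen.coef, if_neg hj]
  have hpr : residue A (p : A) = 0 := by
    rw [residue_eq_zero_iff, ← ValuationSubring.coe_mem_nonunits_iff,
      show ((p : A) : Ω) = (p : Ω) from map_natCast A.subtype p,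
      hA.nonunit_iff hA.natCast_ne_zero, hA.ord_p]
    exact one_pos
  have hx : residue A x = 0 := eq_zero_of_pow_eq_zero (n := p) (by
    rw [← map_pow, hid, map_mul, hpr, zero_mul])
  set s := ∑ j : Fin p, cA j * x ^ (j : ℕ)
  have hs : residue A s = residue A (cA 0) := by
    simp only [s, map_sum, map_mul, map_pow, hx]
    rw [Finset.sum_eq_single (⟨0, hp.pos⟩ : Fin p)]
    · simp
    · intro j _ hj
      rw [zero_pow (fun h => hj (Fin.ext h)), mul_zero]
    · simp
  have hs0 : residue A s ≠ 0 := by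
    rw [hs]
    intro h
    rw [residue_eq_zero_iff, ← ValuationSubring.coe_mem_nonunits_iff] at h
    have h0 := (hA.nonunit_iff (K.ord_coef_zero hA).1).mp h
    rw [(K.ord_coef_zero hA).2.2] at h0
    exact lt_irrefl _ h0
  have hsne : (s : Ω) ≠ 0 := fun h => hs0 (by rw [show s = 0 from Subtype.ext h, map_zero])
  have hords : ord A p (s : Ω) = 0 := by
    refine le_antisymm (not_lt.mp fun hpos => hs0 ?_) ((hA.mem_iff hsne).mp s.2)
    rw [residue_eq_zero_iff, ← ValuationSubring.coe_mem_nonunits_iff]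
    exact (hA.nonunit_iff hsne).mpr hpos
  refine ⟨hϖ, hne, ?_⟩
  have h := congrArg (fun a : A => ord A p (a : Ω)) hid
  simp only [SubmonoidClass.coe_pow, MulMemClass.coe_mul] at h
  rwa [show ((p : A) : Ω) = (p : Ω) from map_natCast A.subtype p, hA.ord_pow hne,
    hA.ord_mul hA.natCast_ne_zero hsne, hA.ord_p, hords, add_zero] at h

variable (S : Setting A M p) (K : KummerGen A p)

local notation "cst" => algebraMap Ω (modularFunctionFieldBar (M * p))
local notation "FF" => modularFunctionFieldBar (M * p)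

set_option maxHeartbeats 400000 in
/-- A point of order `p` of `J₀(M p)` fixed by the stabiliser is zero. -/
theorem KummerGen.eq_zero_of_fixed (hp3 : 3 ≤ p) (Γ : Geometry (descent S).glueData)
    (hΓ : Γ.W = (descent S).W) (x : JZero (M * p)) (hx : p • x = 0)
    (hfix : ∀ σ ∈ K.H, σ • x = x) : x = 0 := by
  classical
  have hA := isOver_of_setting S
  have := isFunctionField_level (M * p)
  have := HeckeJ0.hasPrincipalDivisors_bar (M * p)
  have hp : p.Prime := Fact.out
  have : CharP (modularFunctionFieldFullC (ResidueField A) M) p :=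
    charP_of_injective_algebraMap (algebraMap (ResidueField A) _).injective p
  obtain ⟨u, huF, hfun⟩ := OrdinaryT.exists_fixed_function K.fixer (NeZero.ne p) x hx hfix
  obtain ⟨hu0, D, hDx, hD⟩ := hfun
  let uL : K.fixedField S := ⟨u, (K.mem_fixedField S).mpr huF⟩
  let E := K.ramExt S
  have huL : uL ≠ 0 := fun h => hu0 (congrArg Subtype.val h)
  have hcW : ∀ j, E.c j ∈ Γ.W := fun j => hΓ ▸ K.ramExt_c_mem S j
  obtain ⟨m, c, h, z, hc, -, hh, hz, heq⟩ :=
    rigidity Γ E (fun a => IsAlgClosed.exists_pow_nat_eq a hp.pos)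
      (Nat.cast_ne_zero.mpr (NeZero.ne p)) hcW uL huL
      (by rw [hΓ]; exact K.locallyPthPower S huL hD)
  rw [hΓ] at hc
  choose c' hc'A hc' using hc
  obtain ⟨hϖ, hϖ0, hϖv⟩ := K.ord_shift hA
  set ϖ := K.θ - K.θ₀
  obtain ⟨heq', hG1⟩ := coe_rigid (descent S) E (K.ramExt_π S) hc' heq
  set G : K.fixedField S := 1 + E.π ^ (p + 2) * z with hG
  let k := ϖ ^ m * ∑ j, c' j * ϖ ^ (j : ℕ)
  have heq'' : u = cst k * (h : FF) ^ p * (G : FF) := heq'
  have hk : k ≠ 0 := fun e => hu0 (by rw [heq'', e, map_zero, zero_mul, zero_mul])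
  have hG0 : (G : FF) ≠ 0 := fun e => hu0 (by rw [heq'', e, mul_zero])
  have hh0 : (h : FF) ≠ 0 := fun e => hh (Subtype.ext e)
  set D0 : Divisor Ω FF := (D : Divisor Ω FF) - Reduction.dvs (h : FF)
  have hD0 : ∀ P, P.ord (G : FF) = (p : ℤ) * D0 P := fun P => by
    have h1 := hD P
    rw [heq'', P.ord_mul (mul_ne_zero ((map_ne_zero _).mpr hk) (pow_ne_zero _ hh0)) hG0,
      P.ord_mul ((map_ne_zero _).mpr hk) (pow_ne_zero _ hh0), FunctionFieldRR.ord_algebraMap,
      FunctionFieldRR.ord_pow] at h1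
    simp only [D0, Finsupp.sub_apply, Reduction.dvs_apply]
    linear_combination h1
  obtain ⟨ζ, hζ⟩ := HasEnoughRootsOfUnity.exists_primitiveRoot Ω p
  obtain ⟨σ, hσ, hσζ⟩ := K.exists_move_zeta hA hp3 hζ
  let d := ϖ ^ (p + 2)
  have hd : (p : ℚ) < ((p : ℚ) - 1) * ord A p d := by
    have hp' : (3 : ℚ) ≤ p := by exact_mod_cast hp3
    have he : (p : ℚ) * ord A p d = p + 2 := by
      rw [hA.ord_pow hϖ0, mul_left_comm, hϖv]; push_cast; ring
    nlinarith
  obtain ⟨a, f, hf, hGf⟩ := OrdinaryT.eq_const_mul_pow_of_beyond S hσ.1 hζ hσζ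
    (F := (G : FF)) ((K.mem_fixedField S).mp G.2 σ hσ) hG0 hD0 (pow_ne_zero _ hϖ0) hd
    (v := fun i => ((S.gauss.red i (z : FF)) : LaurentSeries (ResidueField A))) fun i => by
      show SRep (d⁻¹ • (S.side i (G : FF) - 1)) _
      rw [← map_one (S.side i), ← map_sub, ← S.side_smul, hG1, smul_smul,
        inv_mul_cancel₀ (pow_ne_zero _ hϖ0), one_smul]
      exact S.srep_red (int_of_isIntL (descent S) E hϖ (K.ramExt_π S) (hz i))
  refine OrdinaryT.eq_zero_of_const_mul_pow (NeZero.ne p) ⟨hu0, D, hDx, hD⟩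
    (g := (h : FF) * f) (a := k * a) (mul_ne_zero hh0 hf) ?_
  rw [heq'', hGf, map_mul (algebraMap Ω FF) k a, mul_pow]
  ring

end Fermat.Agent.LevelP

end
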