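import Fermat.Agent.OrdinaryT.Fix
import Fermat.Agent.EllLocal.Mult.Kummer
import Fermat.Agent.EllLocal.Mult.FreyCurve

/-!
# Wildly ramified Kummer generators and the fixed point of `E[p]`

A `KummerGen` is a `p`-th root `θ` of a unit fixed by inertia with `(θ ^ p - θ₀ ^ p) / p` a unit.
If `p` divides `abc`, the stabiliser in inertia of some `KummerGen` fixes a nonzero point of the
`p`-torsion of the Frey curve.
-/

set_option autoImplicit false
set_option linter.unusedSectionVars false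

noncomputable section

open scoped WeierstrassCurve.Affine
open IsLocalRing

namespace Fermat.Agent.LevelP

open FlatJ0

local notation "Ω" => AlgebraicClosure ℚ
local notation "G_ℚ" => (AlgebraicClosure ℚ) ≃ₐ[ℚ] (AlgebraicClosure ℚ)

variable {A : ValuationSubring Ω} {p : ℕ}

/-- A `p`-th root of a unit generating a wildly ramified extension of the inertia field. -/
structure KummerGen (A : ValuationSubring Ω) (p : ℕ) where
  θ : Ω
  θ₀ : Ω
  θ_ne : θ ≠ 0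
  θ₀_ne : θ₀ ≠ 0
  fix_pow : ∀ σ ∈ A.inertiaSubgroupIn ℚ, σ (θ ^ p) = θ ^ p
  fix₀ : ∀ σ ∈ A.inertiaSubgroupIn ℚ, σ θ₀ = θ₀
  mem₀ : θ₀ ∈ A
  unit₀ : ord A p θ₀ = 0
  quot_ne : θ ^ p - θ₀ ^ p ≠ 0
  ord_quot : ord A p (θ ^ p - θ₀ ^ p) = 1

/-- The orbit of a `p`-th root under inertia: either some root is fixed or every root is reached. -/
theorem exists_fixed_or_all (hp : p.Prime) {ζ z : Ω} (hζ : IsPrimitiveRoot ζ p) (hz : z ≠ 0)
    (hpow : ∀ σ ∈ A.inertiaSubgroupIn ℚ, σ (z ^ p) = z ^ p) :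
    (∃ j : ℕ, ∀ σ ∈ A.inertiaSubgroupIn ℚ, σ (ζ ^ j * z) = ζ ^ j * z) ∨
      ∀ i : ℕ, ∃ σ ∈ A.inertiaSubgroupIn ℚ, σ z = ζ ^ i * z := by
  classical
  have : NeZero p := ⟨hp.ne_zero⟩
  have key : ∀ σ ∈ A.inertiaSubgroupIn ℚ, ∃ i < p, ζ ^ i * z = σ z := fun σ hσ => by
    obtain ⟨i, hi, hie⟩ := hζ.eq_pow_of_pow_eq_one
      (show (σ z / z) ^ p = 1 by
        rw [div_pow, ← map_pow, hpow σ hσ, div_self (pow_ne_zero _ hz)])
    exact ⟨i, hi, by rw [hie, div_mul_cancel₀ _ hz]⟩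
  set I := (Finset.range p).filter fun i => ∃ σ ∈ A.inertiaSubgroupIn ℚ, σ z = ζ ^ i * z
  by_cases hI : I = Finset.range p
  · refine Or.inr fun i => ?_
    have hmem : i % p ∈ I := hI ▸ Finset.mem_range.mpr (Nat.mod_lt _ hp.pos)
    obtain ⟨σ, hσ, hσe⟩ := (Finset.mem_filter.mp hmem).2
    exact ⟨σ, hσ, hσe.trans (by rw [← pow_eq_pow_mod _ hζ.pow_eq_one])⟩
  left
  set s := I.image fun i => ζ ^ i * z with hs
  have hmem : ∀ {y}, y ∈ s ↔ ∃ σ ∈ A.inertiaSubgroupIn ℚ, σ z = y := fun {y} => by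
    rw [hs, Finset.mem_image]
    refine ⟨fun ⟨i, hi, he⟩ => ?_, fun ⟨σ, hσ, he⟩ => ?_⟩
    · obtain ⟨σ, hσ, hσe⟩ := (Finset.mem_filter.mp hi).2
      exact ⟨σ, hσ, hσe.trans he⟩
    · obtain ⟨i, hi, hie⟩ := key σ hσ
      exact ⟨i, Finset.mem_filter.mpr ⟨Finset.mem_range.mpr hi, σ, hσ, hie.symm⟩, hie.trans he⟩
  have hinj : ∀ i ∈ I, ∀ j ∈ I, ζ ^ i * z = ζ ^ j * z → i = j := fun i hi j hj h =>
    hζ.pow_inj (Finset.mem_range.mp (Finset.mem_filter.mp hi).1)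
      (Finset.mem_range.mp (Finset.mem_filter.mp hj).1) (mul_right_cancel₀ hz h)
  have hfix : ∀ τ ∈ A.inertiaSubgroupIn ℚ, τ (∏ y ∈ s, y) = ∏ y ∈ s, y := by
    intro τ hτ
    rw [map_prod]
    refine Finset.prod_bij (fun y _ => τ y) ?_ (fun a _ b _ e => τ.injective e) ?_ fun _ _ => rfl
    · intro y hy
      obtain ⟨σ, hσ, rfl⟩ := hmem.mp hy
      exact hmem.mpr ⟨τ * σ, mul_mem hτ hσ, rfl⟩
    · intro y hy
      obtain ⟨σ, hσ, rfl⟩ := hmem.mp hy
      refine ⟨τ⁻¹ (σ z), hmem.mpr ⟨τ⁻¹ * σ, mul_mem (inv_mem hτ) hσ, rfl⟩, ?_⟩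
      rw [← AlgEquiv.mul_apply, mul_inv_cancel, AlgEquiv.one_apply]
  set S := ∑ i ∈ I, i
  set n := I.card
  have hprod : ∏ y ∈ s, y = ζ ^ S * z ^ n := by
    rw [hs, Finset.prod_image hinj, Finset.prod_mul_distrib, Finset.prod_pow_eq_pow_sum,
      Finset.prod_const]
  have hn0 : 0 < n := Finset.card_pos.mpr ⟨0, Finset.mem_filter.mpr
    ⟨Finset.mem_range.mpr hp.pos, 1, one_mem _, by simp⟩⟩
  have hnp : n < p := by
    have := Finset.card_lt_card ((Finset.ssubset_iff_subset_ne).mpr ⟨Finset.filter_subset _ _, hI⟩)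
    rwa [Finset.card_range] at this
  obtain ⟨m, -, hm⟩ := Nat.exists_mul_mod_eq_one_of_coprime (k := p)
    ((hp.coprime_iff_not_dvd.mpr fun hd => absurd (Nat.le_of_dvd hn0 hd) (not_le.mpr hnp)).symm)
    hp.one_lt
  set q := n * m / p
  have hz' : (ζ ^ S * z ^ n) ^ m = ζ ^ (S * m) * z * (z ^ p) ^ q := by
    have h := Nat.mod_add_div (n * m) p
    rw [hm] at h
    rw [mul_pow, ← pow_mul, ← pow_mul, ← pow_mul, mul_assoc (ζ ^ (S * m)), ← pow_succ',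
      show p * q + 1 = n * m by simp only [q]; omega]
  refine ⟨S * m, fun σ hσ => ?_⟩
  have h := congrArg σ hz'
  rw [map_pow, ← hprod, hfix σ hσ, hprod, hz', map_mul σ (ζ ^ (S * m) * z), map_pow,
    hpow σ hσ] at h
  exact (mul_right_cancel₀ (pow_ne_zero _ (pow_ne_zero _ hz)) h).symm

/-- The stabiliser of `θ` in inertia. -/
def KummerGen.H (K : KummerGen A p) : Subgroup G_ℚ where
  carrier := {σ | σ ∈ A.inertiaSubgroupIn ℚ ∧ σ K.θ = K.θ}
  mul_mem' {a b} ha hb := ⟨mul_mem ha.1 hb.1, by rw [AlgEquiv.mul_apply, hb.2, ha.2]⟩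
  one_mem' := ⟨one_mem _, rfl⟩
  inv_mem' {a} ha := ⟨inv_mem ha.1, a.injective (by
    rw [← AlgEquiv.mul_apply, mul_inv_cancel, AlgEquiv.one_apply, ha.2])⟩

/-- The stabiliser as a fixer. -/
def KummerGen.fixer (K : KummerGen A p) : OrdinaryT.Fixer A where
  H := K.H
  le_inertia _ h := h.1
  exists_level := ⟨IntermediateField.adjoin ℚ {K.θ},
    IntermediateField.adjoin.finiteDimensional
      ((AlgebraicClosure.isAlgebraic ℚ).isAlgebraic K.θ).isIntegral,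
    fun _ hσ h => ⟨hσ, h _ (IntermediateField.mem_adjoin_simple_self ℚ K.θ)⟩⟩

theorem ord_root_sub (hA : IsOver A p) {ζ : Ω} (hζ : IsPrimitiveRoot ζ p) {j : ℕ}
    (hj : ¬ p ∣ j) : ζ ^ j - 1 ≠ 0 ∧ ((p : ℚ) - 1) * ord A p (ζ ^ j - 1) = 1 := by
  have h := hζ.pow_of_coprime j (hA.prime.coprime_iff_not_dvd.mpr hj).symm
  exact ⟨sub_ne_zero.mpr (h.ne_one hA.prime.one_lt), (OrdinaryT.exists_zeta hA h).1⟩

/-- The roots of a generator are permuted transitively by inertia. -/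
theorem KummerGen.exists_move (K : KummerGen A p) (hA : IsOver A p) {ζ : Ω}
    (hζ : IsPrimitiveRoot ζ p) (i : ℕ) :
    ∃ σ ∈ A.inertiaSubgroupIn ℚ, σ K.θ = ζ ^ i * K.θ := by
  refine (exists_fixed_or_all hA.prime hζ K.θ_ne K.fix_pow).resolve_left (fun ⟨j, hj⟩ => ?_) i
  set y := ζ ^ j * K.θ
  have hyp : y ^ p = K.θ ^ p := by
    simp only [y]
    rw [mul_pow, ← pow_mul, mul_comm j, pow_mul, hζ.pow_eq_one, one_pow, one_mul]
  have hord : ord A p (y ^ p - K.θ₀ ^ p) = 1 := by rw [hyp]; exact K.ord_quot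
  have hne : y ^ p - K.θ₀ ^ p ≠ 0 := by rw [hyp]; exact K.quot_ne
  have hy0 : y - K.θ₀ ≠ 0 := fun h => hne (by rw [sub_eq_zero.mp h, sub_self])
  obtain ⟨m, hm⟩ := hA.exists_ord_eq_int (x := y - K.θ₀)
    fun σ hσ => by rw [map_sub, hj σ hσ, K.fix₀ σ hσ]
  have hθ : K.θ ∈ A := by
    have h0 : Near A p 0 (K.θ ^ p) := by
      rw [← sub_add_cancel (K.θ ^ p) (K.θ₀ ^ p)]
      exact hA.near_add (Or.inr (zero_le_one.trans K.ord_quot.ge))
        (hA.near_of_mem (pow_mem K.mem₀ p))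
    have h2 := h0.resolve_left (pow_ne_zero _ K.θ_ne)
    rw [hA.ord_pow K.θ_ne] at h2
    exact (hA.mem_iff K.θ_ne).mpr (nonneg_of_mul_nonneg_right h2 (by exact_mod_cast hA.prime.pos))
  have hd : y - K.θ₀ ∈ A := sub_mem (mul_mem
    (pow_mem (FreyReducible.mem_of_isIntegral_int A (hζ.isIntegral hA.prime.pos)) _) hθ) K.mem₀
  have : Fact p.Prime := ⟨hA.prime⟩
  obtain ⟨r, hr⟩ := exists_add_pow_prime_eq hA.prime (⟨K.θ₀, K.mem₀⟩ : A) ⟨_, hd⟩
  have hr' : y ^ p - K.θ₀ ^ p =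
      (y - K.θ₀) ^ p + (p : Ω) * (y - K.θ₀) * (K.θ₀ * (r : Ω)) := by
    have h := congrArg Subtype.val hr
    push_cast at h
    rw [add_sub_cancel] at h
    rw [h]; ring
  have hrA : K.θ₀ * (r : Ω) ∈ A := mul_mem K.mem₀ r.2
  have hm0 : (0 : ℤ) ≤ m := by
    have h := (hA.mem_iff hy0).mp hd
    rw [hm] at h
    exact_mod_cast h
  have hpd : Near A p (1 + (m : ℚ)) ((p : Ω) * (y - K.θ₀) * (K.θ₀ * (r : Ω))) :=
    hA.near_mul_right (hA.near_mul (Or.inr hA.ord_p.ge) (Or.inr hm.ge)) hrA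
  have hdp : ord A p ((y - K.θ₀) ^ p) = p * (m : ℚ) := by rw [hA.ord_pow hy0, hm]
  rw [hr'] at hord hne
  rcases hm0.eq_or_lt with h | h
  · have := (hA.ord_add_eq (pow_ne_zero p hy0) hpd (by rw [hdp, ← h]; norm_num)).2
    rw [hord, hdp, ← h] at this
    norm_num at this
  · have h1 : (1 : ℚ) ≤ m := by exact_mod_cast h
    have h2 : (2 : ℚ) ≤ p := by exact_mod_cast hA.prime.two_le
    have hn : Near A p 2 ((y - K.θ₀) ^ p + (p : Ω) * (y - K.θ₀) * (K.θ₀ * (r : Ω))) :=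
      hA.near_add (Or.inr (by rw [hdp]; nlinarith)) (hpd.mono (by linarith))
    have h3 := hn.resolve_left hne
    rw [hord] at h3
    norm_num at h3

/-- Some element of the stabiliser moves the `p`-th roots of unity. -/
theorem KummerGen.exists_move_zeta (K : KummerGen A p) (hA : IsOver A p) (hp2 : 3 ≤ p) {ζ : Ω}
    (hζ : IsPrimitiveRoot ζ p) : ∃ σ ∈ K.H, σ ζ ≠ ζ := by
  classical
  by_contra hall
  push Not at hall
  choose σ hσ hσe using fun i => K.exists_move hA hζ i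
  have : NeZero p := ⟨hA.prime.ne_zero⟩
  have hb : ∀ τ ∈ A.inertiaSubgroupIn ℚ, ∀ i : ℕ, ∃ i' < p,
      τ (σ i K.θ) = σ i' K.θ ∧ τ (σ i (ζ - 1)) = σ i' (ζ - 1) := by
    intro τ hτ i
    obtain ⟨i', hi', hie⟩ := hζ.eq_pow_of_pow_eq_one
      (show (τ (σ i K.θ) / K.θ) ^ p = 1 by
        rw [div_pow, ← map_pow, ← map_pow, K.fix_pow _ (hσ i), K.fix_pow _ hτ,
          div_self (pow_ne_zero _ K.θ_ne)])
    have hθ' : τ (σ i K.θ) = σ i' K.θ := by rw [hσe i', hie, div_mul_cancel₀ _ K.θ_ne]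
    refine ⟨i', hi', hθ', ?_⟩
    have hinv : ∀ x : Ω, (σ i') ((σ i')⁻¹ x) = x := fun x => by
      rw [← AlgEquiv.mul_apply, mul_inv_cancel, AlgEquiv.one_apply]
    have hH : (σ i')⁻¹ * (τ * σ i) ∈ K.H := ⟨mul_mem (inv_mem (hσ i')) (mul_mem hτ (hσ i)),
      (σ i').injective (by rw [AlgEquiv.mul_apply, hinv, AlgEquiv.mul_apply, hθ'])⟩
    have h := congrArg (σ i') (hall _ hH)
    rw [AlgEquiv.mul_apply, hinv, AlgEquiv.mul_apply] at h
    simp only [map_sub, map_one, h]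
  have hne : ζ - 1 ≠ 0 := sub_ne_zero.mpr (hζ.ne_one hA.prime.one_lt)
  -- the product over the roots is fixed by inertia
  have hfix : ∀ τ ∈ A.inertiaSubgroupIn ℚ,
      τ (∏ i ∈ Finset.range p, σ i (ζ - 1)) = ∏ i ∈ Finset.range p, σ i (ζ - 1) := by
    intro τ hτ
    rw [map_prod]
    choose f hf hfθ hfe using hb τ hτ
    have hinj : Set.InjOn f (Finset.range p) := by
      intro i hi j hj h
      have h1 : τ (σ i K.θ) = τ (σ j K.θ) := by rw [hfθ, hfθ, h]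
      have h2 := τ.injective h1
      rw [hσe, hσe] at h2
      exact hζ.pow_inj (Finset.mem_range.mp hi) (Finset.mem_range.mp hj)
        (mul_right_cancel₀ K.θ_ne h2)
    rw [Finset.prod_congr rfl fun i _ => hfe i, ← Finset.prod_image (s := Finset.range p) (g := f)
      (f := fun i => σ i (ζ - 1)) hinj]
    congr 1
    exact Finset.eq_of_subset_of_card_le (Finset.image_subset_iff.mpr fun i _ =>
      Finset.mem_range.mpr (hf i)) (by rw [Finset.card_image_of_injOn hinj])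
  obtain ⟨m, hm⟩ := hA.exists_ord_eq_int hfix
  rw [hA.ord_prod _ _ fun i _ => (_root_.map_ne_zero (σ i)).mpr hne, Finset.sum_congr rfl fun i _ =>
    hA.ord_apply (MultRed.inertia_mem_decomposition (hσ i)) (ζ - 1), Finset.sum_const,
    Finset.card_range, nsmul_eq_mul] at hm
  have hv := (OrdinaryT.exists_zeta hA hζ).1
  have h1 : ((p : ℤ) - 1) * m = p := by
    have : ((p : ℚ) - 1) * m = p := by rw [← hm]; linear_combination (p : ℚ) * hv
    exact_mod_cast this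
  have hdvd : ((p : ℤ) - 1) ∣ 1 := by
    have h2 : ((p : ℤ) - 1) ∣ (p : ℤ) := ⟨m, h1.symm⟩
    simpa using dvd_sub h2 (dvd_refl ((p : ℤ) - 1))
  have := Int.le_of_dvd one_pos hdvd
  omega

/-- A `p`-th root of `1 + p`. -/
theorem exists_kummerGen (hA : IsOver A p) : Nonempty (KummerGen A p) := by
  obtain ⟨θ, hθ⟩ := IsAlgClosed.exists_pow_nat_eq (k := Ω) (1 + (p : Ω)) hA.prime.pos
  have hne : θ ≠ 0 := fun h => by
    rw [h, zero_pow hA.prime.ne_zero] at hθ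
    exact (Nat.cast_ne_zero (R := Ω)).mpr (Nat.add_one_ne_zero p) (by push_cast; linear_combination -hθ)
  refine ⟨⟨θ, 1, hne, one_ne_zero, fun σ _ => by simp [hθ], fun σ _ => map_one σ, one_mem _,
    hA.ord_one, ?_, ?_⟩⟩
  · rw [hθ, one_pow, add_sub_cancel_left]; exact hA.natCast_ne_zero
  · rw [hθ, one_pow, add_sub_cancel_left, hA.ord_p]

/-- A root of a unit fixed by inertia is fixed up to a root of unity, or gives a generator. -/
theorem kummer_dichotomy (hA : IsOver A p) (hp3 : 3 ≤ p) {ζ z : Ω} (hζ : IsPrimitiveRoot ζ p)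
    (hz : z ≠ 0) (hz0 : ord A p z = 0)
    (hpow : ∀ σ ∈ A.inertiaSubgroupIn ℚ, σ (z ^ p) = z ^ p) :
    (∃ j : ℕ, ∀ σ ∈ A.inertiaSubgroupIn ℚ, σ (ζ ^ j * z) = ζ ^ j * z) ∨
      ∃ K : KummerGen A p, K.θ = z := by
  have : Fact p.Prime := ⟨hA.prime⟩
  by_cases hfx : ∃ j : ℕ, ∀ σ ∈ A.inertiaSubgroupIn ℚ, σ (ζ ^ j * z) = ζ ^ j * z
  · exact Or.inl hfx
  have hall := (exists_fixed_or_all hA.prime hζ hz hpow).resolve_left hfx
  right
  have hzA : z ∈ A := (hA.mem_iff hz).mpr hz0.ge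
  obtain ⟨a, ha, hafix⟩ := OrdinaryT.exists_lift_fixed hA (residue A ⟨z, hzA⟩)
  have hd : z - (a : Ω) ∈ A.nonunits := (OrdinaryT.residue_eq_iff hzA a.2).mp ha.symm
  have hd' : z - (a : Ω) ≠ 0 := fun h0 => by
    obtain ⟨σ, hσ, hσe⟩ := hall 1
    rw [sub_eq_zero.mp h0, hafix σ hσ, pow_one] at hσe
    refine hζ.ne_one hA.prime.one_lt (mul_right_cancel₀ (b := (a : Ω))
      (fun h => hz (by rw [sub_eq_zero.mp h0, h])) ?_)
    rw [one_mul]; exact hσe.symm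
  have hdpos := (hA.nonunit_iff hd').mp hd
  have ha0 : (a : Ω) ≠ 0 := fun h => by rw [h, sub_zero] at hdpos; linarith
  have hord_a : ord A p (a : Ω) = 0 := by
    have h1 := (hA.ord_add_eq hz (hA.near_neg (Or.inr le_rfl : Near A p _ (z - (a : Ω))))
      (by rw [hz0]; exact hdpos)).2
    rwa [neg_sub, add_sub_cancel, hz0] at h1
  have hne : z ^ p - (a : Ω) ^ p ≠ 0 := fun h0 => by
    have : NeZero p := ⟨hA.prime.ne_zero⟩
    obtain ⟨i, -, hie⟩ := hζ.eq_pow_of_pow_eq_one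
      (show ((a : Ω) / z) ^ p = 1 by
        rw [div_pow, ← sub_eq_zero.mp h0, div_self (pow_ne_zero _ hz)])
    exact hfx ⟨i, fun σ hσ => by
      rw [show ζ ^ i * z = (a : Ω) by rw [hie, div_mul_cancel₀ _ hz], hafix σ hσ]⟩
  have hspread : ord A p (z - (a : Ω)) * ((p : ℚ) - 1) ≤ 1 := by
    obtain ⟨σ, hσ, hσe⟩ := hall 1
    obtain ⟨hm0, hm1⟩ := ord_root_sub hA hζ (j := 1) (fun h => hA.prime.not_dvd_one h)
    have hnear : Near A p (ord A p (z - (a : Ω))) ((ζ ^ 1 - 1) * z) := by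
      rw [show (ζ ^ 1 - 1) * z = σ (z - (a : Ω)) - (z - (a : Ω)) by
        rw [map_sub, hσe, hafix σ hσ]; ring]
      exact hA.near_sub (Or.inr (hA.ord_apply (MultRed.inertia_mem_decomposition hσ) _).ge)
        (Or.inr le_rfl)
    have h := hnear.resolve_left (mul_ne_zero hm0 hz)
    rw [hA.ord_mul hm0 hz, hz0, add_zero] at h
    have : (0 : ℚ) ≤ (p : ℚ) - 1 := by
      have : (1 : ℚ) ≤ p := by exact_mod_cast hA.prime.one_le
      linarith
    nlinarith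
  obtain ⟨m, hm⟩ := hA.exists_ord_eq_int (x := z ^ p - (a : Ω) ^ p)
    fun σ hσ => by rw [map_sub, map_pow σ (a : Ω), hafix σ hσ, hpow σ hσ]
  refine ⟨⟨z, a, hz, ha0, hpow, hafix, a.2, hord_a, hne, ?_⟩, rfl⟩
  have hp2 : (3 : ℚ) ≤ p := by exact_mod_cast hp3
  set δ := ord A p (z - (a : Ω))
  have : NeZero p := ⟨hA.prime.ne_zero⟩
  have hodd : 1 ≤ p := hA.prime.one_le
  have hfac := hζ.pow_sub_pow_eq_prod_sub_mul z (a : Ω) hA.prime.pos
  have hfac0 : ∀ ξ ∈ Polynomial.nthRootsFinset p (1 : Ω),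
      z - ξ * (a : Ω) ≠ 0 ∧ ord A p (z - ξ * (a : Ω)) = δ := by
    intro ξ hξ
    rw [Polynomial.mem_nthRootsFinset hA.prime.pos] at hξ
    obtain ⟨j, -, hje⟩ := hζ.eq_pow_of_pow_eq_one (show ξ⁻¹ ^ p = 1 by rw [inv_pow, hξ, inv_one])
    obtain ⟨σ, hσ, hσe⟩ := hall j
    have hξ0 : ξ ≠ 0 := fun h => by
      rw [h, zero_pow hA.prime.ne_zero] at hξ
      exact zero_ne_one hξ
    have he : z - ξ * (a : Ω) = ξ * σ (z - (a : Ω)) := by
      rw [map_sub, hσe, hafix σ hσ, hje, mul_sub, ← mul_assoc, mul_inv_cancel₀ hξ0, one_mul]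
    have hξv : ord A p ξ = 0 := by
      have h := hA.ord_pow (A := A) hξ0 p
      rw [hξ, hA.ord_one] at h
      exact (mul_eq_zero.mp h.symm).resolve_left (Nat.cast_ne_zero.mpr hA.prime.ne_zero)
    have hne' : σ (z - (a : Ω)) ≠ 0 := (_root_.map_ne_zero σ).mpr hd'
    refine ⟨he ▸ mul_ne_zero hξ0 hne', ?_⟩
    rw [he, hA.ord_mul hξ0 hne', hξv, zero_add,
      hA.ord_apply (MultRed.inertia_mem_decomposition hσ)]
  have h3 : ord A p (z ^ p - (a : Ω) ^ p) = p * δ := by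
    rw [hfac, hA.ord_prod _ _ fun ξ hξ => (hfac0 ξ hξ).1,
      Finset.sum_congr rfl fun ξ hξ => (hfac0 ξ hξ).2, Finset.sum_const,
      hζ.card_nthRootsFinset, nsmul_eq_mul]
  rw [h3] at hm
  rw [h3, hm]
  have hlo : (0 : ℚ) < (m : ℚ) := by
    rw [← hm]
    exact mul_pos (by linarith) hdpos
  have hhi : (m : ℚ) < 2 := by
    rw [← hm]
    nlinarith
  have e1 : (0 : ℤ) < m := by exact_mod_cast hlo
  have e2 : m < 2 := by exact_mod_cast hhi
  rw [show m = 1 by omega, Int.cast_one]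

/-- If `p` divides `abc`, the stabiliser of some generator fixes a nonzero point of `E[p]`. -/
theorem exists_fixed_point (P : FreyPackage) (hA : IsOver A P.p)
    (h : (P.p : ℤ) ∣ P.a * P.b * P.c) :
    ∃ K : KummerGen A P.p, ∃ Q : (P.freyCurve⁄Ω).Point,
      Q ≠ 0 ∧ P.p • Q = 0 ∧ ∀ σ ∈ K.H, σ • Q = Q := by
  have hp := P.pp
  have hp3 : 3 ≤ P.p := by have := P.hp5; omega
  have : NeZero P.p := ⟨hp.ne_zero⟩
  obtain ⟨ζ, hζ⟩ := HasEnoughRootsOfUnity.exists_primitiveRoot Ω P.p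
  rw [← MultRed.freyCurveInt_map P]
  obtain ⟨P₁, P₂, z, hP₁, hP₂, -, h0, hn0, hgen, hz1, hzℓ, hc⟩ :=
    EllLocal.Mult.exists_inertia_kummer
      (EllLocal.Mult.isMultAt_freyCurveInt P hp hA.liesOver h) hp (by omega)
      (EllLocal.Mult.p_dvd_padicValInt P hp (by omega)) hζ
  have hz : z ≠ 0 := A.valuation.ne_zero_iff.1 (by rw [hz1]; exact one_ne_zero)
  have hz0 : ord A P.p z = 0 := by
    rw [← hA.ord_one, ← hA.valuation_eq_iff hz one_ne_zero, hz1, map_one]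
  have hP₂0 : P₂ ≠ 0 := fun h => hn0 (h ▸ Or.inl rfl)
  rcases kummer_dichotomy hA hp3 hζ hz hz0 hzℓ with ⟨j, hj⟩ | ⟨K, hK⟩
  · obtain ⟨K⟩ := exists_kummerGen hA
    refine ⟨K, P₂ + j • P₁, fun e => ?_, by rw [nsmul_add, hP₂, smul_comm, hP₁, nsmul_zero,
      add_zero], fun σ hσ => ?_⟩
    · refine hn0 ((EllLocal.Mult.mem_e0Sub
        (EllLocal.Mult.isMultAt_freyCurveInt P hp hA.liesOver h)).mp ?_)
      rw [eq_neg_of_add_eq_zero_left e]
      exact neg_mem (nsmul_mem ((EllLocal.Mult.mem_e0Sub _).mpr h0) _)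
    obtain ⟨a, c, ha, h1, h2, h3⟩ := hc σ hσ.1
    have hmod : j * a + c ≡ j [MOD P.p] := by
      have h := hj σ hσ.1
      rw [map_mul, map_pow, ha, h3, ← mul_assoc, ← pow_mul, ← pow_add] at h
      have h' := ((hζ.isOfFinOrder hp.ne_zero).pow_eq_pow_iff_modEq).1 (mul_right_cancel₀ hz h)
      rw [← hζ.eq_orderOf, mul_comm a] at h'
      exact h'
    simp only [WeierstrassCurve.Affine.Point.algEquiv_smul_def, map_add, map_nsmul] at h1 h2 ⊢
    rw [h1, h2, add_assoc, smul_smul, ← add_nsmul, nsmul_eq_mod_nsmul (c + j * a) hP₁,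
      nsmul_eq_mod_nsmul j hP₁, add_comm c, hmod]
  · refine ⟨K, P₂, hP₂0, hP₂, fun σ hσ => ?_⟩
    obtain ⟨a, c, -, -, h2, h3⟩ := hc σ hσ.1
    obtain ⟨d, rfl⟩ : P.p ∣ c := by
      rw [← hζ.pow_eq_one_iff_dvd]
      exact mul_right_cancel₀ hz (by rw [← h3, one_mul, ← hK, hσ.2])
    rwa [mul_comm, mul_nsmul', hP₁, nsmul_zero, add_zero] at h2

end Fermat.Agent.LevelP

end
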