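import Mathlib.RingTheory.AdjoinRoot
import Mathlib.LinearAlgebra.Basis.Defs

/-!
# Algebras with a basis of powers of an `n`-th root
-/

set_option autoImplicit false

noncomputable section

namespace Fermat.Agent.LevelP

open Polynomial

/-- `Q` has the basis `1, T, …, T ^ (n - 1)` over `R` and `T ^ n = β`. -/
structure RootBasis (R Q : Type*) [CommRing R] [CommRing Q] [Algebra R Q] (n : ℕ) (β : R) where
  T : Q
  basis : Module.Basis (Fin n) R Q
  basis_eq : ∀ j, basis j = T ^ (j : ℕ)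
  pow_eq : T ^ n = algebraMap R Q β

namespace RootBasis

variable {R Q : Type*} [CommRing R] [CommRing Q] [Algebra R Q] {n : ℕ} {β : R}
  (B : RootBasis R Q n β)

/-- The coordinate at `T ^ j`. -/
def coeff (x : Q) (j : Fin n) : R := B.basis.repr x j

theorem sum_coeff (x : Q) : ∑ j, B.coeff x j • B.T ^ (j : ℕ) = x := by
  simp only [← B.basis_eq]; exact B.basis.sum_repr x

theorem ext' {x y : Q} (h : ∀ j, B.coeff x j = B.coeff y j) : x = y :=
  B.basis.repr.injective (Finsupp.ext h)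

theorem coeff_add (x y : Q) (j : Fin n) : B.coeff (x + y) j = B.coeff x j + B.coeff y j := by
  simp [coeff]

theorem coeff_sub (x y : Q) (j : Fin n) : B.coeff (x - y) j = B.coeff x j - B.coeff y j := by
  simp [coeff]

theorem coeff_zero_eq (j : Fin n) : B.coeff 0 j = 0 := by simp [coeff]

theorem coeff_smul (r : R) (x : Q) (j : Fin n) : B.coeff (r • x) j = r * B.coeff x j := by
  simp [coeff]

theorem coeff_algebraMap_mul (r : R) (x : Q) (j : Fin n) :
    B.coeff (algebraMap R Q r * x) j = r * B.coeff x j := by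
  rw [← Algebra.smul_def, B.coeff_smul]

theorem coeff_sum {J : Type*} (s : Finset J) (f : J → Q) (j : Fin n) :
    B.coeff (∑ i ∈ s, f i) j = ∑ i ∈ s, B.coeff (f i) j := by
  simp [coeff, map_sum, Finsupp.finsetSum_apply]

theorem coeff_T_pow {m : ℕ} (hm : m < n) (j : Fin n) :
    B.coeff (B.T ^ m) j = if (j : ℕ) = m then 1 else 0 := by
  rw [coeff, show B.T ^ m = B.basis ⟨m, hm⟩ from (B.basis_eq ⟨m, hm⟩).symm, B.basis.repr_self,
    Finsupp.single_apply]
  simp [Fin.ext_iff, eq_comm]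

theorem coeff_algebraMap (hn : 0 < n) (r : R) (j : Fin n) :
    B.coeff (algebraMap R Q r) j = if (j : ℕ) = 0 then r else 0 := by
  rw [← mul_one (algebraMap R Q r), ← pow_zero B.T, B.coeff_algebraMap_mul, B.coeff_T_pow hn,
    mul_ite, mul_one, mul_zero]

theorem coeff_T_mul (x : Q) (j : Fin n) :
    B.coeff (B.T * x) j = if h : (j : ℕ) = 0 then β * B.coeff x ⟨n - 1, by omega⟩
      else B.coeff x ⟨(j : ℕ) - 1, by omega⟩ := by
  conv_lhs => rw [← B.sum_coeff x, Finset.mul_sum]
  rw [B.coeff_sum]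
  simp only [mul_smul_comm, ← pow_succ', B.coeff_smul]
  have key : ∀ i : Fin n, B.coeff (B.T ^ ((i : ℕ) + 1)) j =
      if (i : ℕ) + 1 = n then (if (j : ℕ) = 0 then β else 0)
        else (if (j : ℕ) = i + 1 then 1 else 0) := by
    intro i
    split
    · next h => rw [h, B.pow_eq, B.coeff_algebraMap (by omega)]
    · next h => exact B.coeff_T_pow (by omega) j
  simp only [key]
  split
  · next h =>
    rw [Finset.sum_eq_single (⟨n - 1, by omega⟩ : Fin n)]
    · rw [if_pos (show n - 1 + 1 = n by omega), mul_comm]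
    · intro i _ hi
      have : (i : ℕ) ≠ n - 1 := fun h' => hi (Fin.ext h')
      rw [if_neg (by omega), if_neg (by omega), mul_zero]
    · exact fun h' => absurd (Finset.mem_univ _) h'
  · next h =>
    rw [Finset.sum_eq_single (⟨(j : ℕ) - 1, by omega⟩ : Fin n)]
    · rw [if_neg (show ¬ (j : ℕ) - 1 + 1 = n by omega), if_pos (show (j : ℕ) = j - 1 + 1 by omega),
        mul_one]
    · intro i _ hi
      have : (i : ℕ) ≠ j - 1 := fun h' => hi (Fin.ext h')
      split
      · rw [mul_zero]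
      · rw [if_neg (by omega), mul_zero]
    · exact fun h' => absurd (Finset.mem_univ _) h'

theorem coeff_neg (x : Q) (j : Fin n) : B.coeff (-x) j = -B.coeff x j := by simp [coeff]

section Map

variable (S : Subring R) (hβ : β ∈ S) {R' Q' : Type*} [CommRing R'] [CommRing Q'] [Algebra R' Q']
  {β' : R'} (B' : RootBasis R' Q' n β') (φ : S →+* R')

theorem T_mul_mem {x : Q} (hβ : β ∈ S) (hx : ∀ j, B.coeff x j ∈ S) (j : Fin n) :
    B.coeff (B.T * x) j ∈ S := by
  rw [B.coeff_T_mul]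
  split
  · exact mul_mem hβ (hx _)
  · exact hx _

theorem T_pow_mul_mem {x : Q} (hβ : β ∈ S) (hx : ∀ j, B.coeff x j ∈ S) (m : ℕ) :
    ∀ j, B.coeff (B.T ^ m * x) j ∈ S := by
  induction m with
  | zero => simpa using hx
  | succ m ih => intro j; rw [pow_succ', mul_assoc]; exact B.T_mul_mem S hβ ih j

theorem mul_mem' {x y : Q} (hβ : β ∈ S) (hx : ∀ j, B.coeff x j ∈ S) (hy : ∀ j, B.coeff y j ∈ S)
    (j : Fin n) : B.coeff (x * y) j ∈ S := by
  rw [← B.sum_coeff x, Finset.sum_mul, B.coeff_sum]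
  refine sum_mem fun i _ => ?_
  rw [Algebra.smul_def, mul_assoc, B.coeff_algebraMap_mul]
  exact mul_mem (hx i) (B.T_pow_mul_mem S hβ hy _ j)

/-- The elements with coordinates in `S`. -/
def restrict (hn : 0 < n) : Subring Q where
  carrier := {x | ∀ j, B.coeff x j ∈ S}
  mul_mem' hx hy := B.mul_mem' S hβ hx hy
  one_mem' j := by
    rw [← map_one (algebraMap R Q), B.coeff_algebraMap hn]
    split <;> [exact one_mem _; exact zero_mem _]
  add_mem' hx hy j := by rw [B.coeff_add]; exact add_mem (hx j) (hy j)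
  zero_mem' j := by rw [B.coeff_zero_eq]; exact zero_mem _
  neg_mem' hx j := by rw [B.coeff_neg]; exact neg_mem (hx j)

/-- Transfer of coordinates along `φ`. -/
def mapVal {hn : 0 < n} (x : B.restrict S hβ hn) : Q' :=
  ∑ j, algebraMap R' Q' (φ ⟨B.coeff x.1 j, x.2 j⟩) * B'.T ^ (j : ℕ)

variable {hn : 0 < n}

theorem coeff_mapVal (x : B.restrict S hβ hn) (j : Fin n) :
    B'.coeff (B.mapVal S hβ B' φ x) j = φ ⟨B.coeff x.1 j, x.2 j⟩ := by
  classical
  simp only [mapVal, B'.coeff_sum, B'.coeff_algebraMap_mul]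
  rw [Finset.sum_eq_single j]
  · rw [B'.coeff_T_pow j.isLt, if_pos rfl, mul_one]
  · intro i _ hi
    rw [B'.coeff_T_pow i.isLt, if_neg (fun h => hi (Fin.ext h.symm)), mul_zero]
  · exact fun h => absurd (Finset.mem_univ _) h

theorem T_mem : B.T ∈ B.restrict S hβ hn := fun j => by
  have h := B.T_mul_mem S (x := 1) hβ (fun j => (B.restrict S hβ hn).one_mem j) j
  rwa [mul_one] at h

theorem mapVal_T_mul (hφ : φ ⟨β, hβ⟩ = β') (x : B.restrict S hβ hn) :
    B.mapVal S hβ B' φ (⟨B.T, B.T_mem S hβ⟩ * x) = B'.T * B.mapVal S hβ B' φ x := by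
  refine B'.ext' fun j => ?_
  rw [B.coeff_mapVal, B'.coeff_T_mul]
  have h : (⟨B.coeff ((⟨B.T, B.T_mem S hβ⟩ * x : B.restrict S hβ hn) : Q) j,
      (⟨B.T, B.T_mem S hβ⟩ * x : B.restrict S hβ hn).2 j⟩ : S) =
      if h : (j : ℕ) = 0 then ⟨β, hβ⟩ * ⟨B.coeff x.1 ⟨n - 1, by omega⟩, x.2 _⟩
        else ⟨B.coeff x.1 ⟨(j : ℕ) - 1, by omega⟩, x.2 _⟩ := by
    refine Subtype.ext ?_
    show B.coeff (B.T * x.1) j = _
    rw [B.coeff_T_mul]
    split <;> rfl
  rw [h]
  simp only [B.coeff_mapVal]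
  split
  · rw [map_mul, hφ]
  · rfl

/-- The homomorphism transferring coordinates along `φ`. -/
def mapHom (hn : 0 < n) (hφ : φ ⟨β, hβ⟩ = β') : B.restrict S hβ hn →+* Q' where
  toFun := B.mapVal S hβ B' φ
  map_zero' := B'.ext' fun j => by
    rw [B.coeff_mapVal, B'.coeff_zero_eq, ← map_zero φ]
    exact congrArg φ (Subtype.ext (B.coeff_zero_eq j))
  map_add' x y := B'.ext' fun j => by
    rw [B.coeff_mapVal, B'.coeff_add, B.coeff_mapVal, B.coeff_mapVal, ← map_add]
    exact congrArg φ (Subtype.ext (B.coeff_add _ _ j))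
  map_one' := B'.ext' fun j => by
    rw [B.coeff_mapVal]
    have h1 : B.coeff (1 : Q) j = if (j : ℕ) = 0 then 1 else 0 := by
      rw [← map_one (algebraMap R Q), B.coeff_algebraMap hn]
    rw [show B'.coeff (1 : Q') j = if (j : ℕ) = 0 then 1 else 0 by
      rw [← map_one (algebraMap R' Q'), B'.coeff_algebraMap hn]]
    split
    · next h => rw [← map_one φ]; exact congrArg φ (Subtype.ext (h1.trans (if_pos h)))
    · next h => rw [← map_zero φ]; exact congrArg φ (Subtype.ext (h1.trans (if_neg h)))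
  map_mul' x y := by
    have hsm : ∀ (r : S) (z : B.restrict S hβ hn), (algebraMap R Q r * z.1) ∈ B.restrict S hβ hn :=
      fun r z j => by rw [B.coeff_algebraMap_mul]; exact mul_mem r.2 (z.2 j)
    have hs : ∀ (r : S) (z : B.restrict S hβ hn),
        B.mapVal S hβ B' φ ⟨_, hsm r z⟩ = algebraMap R' Q' (φ r) * B.mapVal S hβ B' φ z := by
      intro r z
      refine B'.ext' fun j => ?_
      rw [B.coeff_mapVal, B'.coeff_algebraMap_mul, B.coeff_mapVal, ← map_mul]
      exact congrArg φ (Subtype.ext (B.coeff_algebraMap_mul _ _ j))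
    have hpow : ∀ (m : ℕ) (z : B.restrict S hβ hn),
        B.mapVal S hβ B' φ (⟨B.T, B.T_mem S hβ⟩ ^ m * z) = B'.T ^ m * B.mapVal S hβ B' φ z := by
      intro m
      induction m with
      | zero => intro z; simp
      | succ m ih =>
        intro z
        rw [pow_succ', mul_assoc, B.mapVal_T_mul S hβ B' φ hφ, ih, pow_succ', mul_assoc]
    have hadd : ∀ (t : Finset (Fin n)) (f : Fin n → B.restrict S hβ hn),
        B.mapVal S hβ B' φ (∑ i ∈ t, f i) = ∑ i ∈ t, B.mapVal S hβ B' φ (f i) := by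
      intro t f
      refine B'.ext' fun j => ?_
      simp only [B.coeff_mapVal, B'.coeff_sum, ← map_sum]
      exact congrArg φ (Subtype.ext (by push_cast; rw [B.coeff_sum]))
    have hxy : x * y = ∑ i : Fin n,
        (⟨_, hsm ⟨B.coeff x.1 i, x.2 i⟩ (⟨B.T, B.T_mem S hβ⟩ ^ (i : ℕ) * y)⟩ :
          B.restrict S hβ hn) := by
      refine Subtype.ext ?_
      push_cast
      conv_lhs => rw [← B.sum_coeff x.1, Finset.sum_mul]
      exact Finset.sum_congr rfl fun i _ => by rw [Algebra.smul_def, mul_assoc]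
    rw [hxy, hadd]
    conv_rhs => rw [mapVal, Finset.sum_mul]
    refine Finset.sum_congr rfl fun i _ => ?_
    rw [mul_assoc, ← hpow]
    exact hs _ _

theorem mapHom_algebraMap (hφ : φ ⟨β, hβ⟩ = β') (r : S)
    (h : algebraMap R Q r ∈ B.restrict S hβ hn) :
    B.mapHom S hβ B' φ hn hφ ⟨_, h⟩ = algebraMap R' Q' (φ r) := by
  refine B'.ext' fun j => ?_
  show B'.coeff (B.mapVal S hβ B' φ _) j = _
  rw [B.coeff_mapVal, B'.coeff_algebraMap hn]
  split
  · next hj =>
    exact congrArg φ (Subtype.ext ((B.coeff_algebraMap hn _ j).trans (if_pos hj)))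
  · next hj =>
    rw [← map_zero φ]
    exact congrArg φ (Subtype.ext (by
      show B.coeff (algebraMap R Q r) j = _
      rw [B.coeff_algebraMap hn, if_neg hj]; rfl))

theorem mapHom_T (hφ : φ ⟨β, hβ⟩ = β') (h : B.T ∈ B.restrict S hβ hn) :
    B.mapHom S hβ B' φ hn hφ ⟨_, h⟩ = B'.T := by
  have h1 := B.mapVal_T_mul S hβ B' φ hφ (hn := hn) 1
  rw [mul_one] at h1
  show B.mapVal S hβ B' φ _ = _
  rw [h1]
  show B'.T * B.mapHom S hβ B' φ hn hφ 1 = _
  rw [map_one, mul_one]

end Map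

/-- The root basis of `R[X]/(X ^ n - β)`. -/
def adjoinRoot [Nontrivial R] (hn : n ≠ 0) (β : R) :
    RootBasis R (AdjoinRoot (X ^ n - C β)) n β where
  T := AdjoinRoot.root _
  basis := ((AdjoinRoot.powerBasis' (monic_X_pow_sub_C β hn)).basis).reindex
    (finCongr (by simp))
  basis_eq j := by simp
  pow_eq := by
    have h := AdjoinRoot.eval₂_root (X ^ n - C β)
    rw [eval₂_sub, eval₂_pow, eval₂_X, eval₂_C, sub_eq_zero] at h
    exact h

end RootBasis

end Fermat.Agent.LevelP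

end
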