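import Fermat.Agent.LevelP.DVPointLemmas
import Fermat.Agent.LevelP.RootBasis

/-!
# A branch modulo `π²`

Over the dual numbers of `G` adjoin an `n`-th root `T` of `β (1 + η ε)`, `β` a uniformiser at a
point. If `x = T ^ j * G₀ ^ p * U` with `x` in the dual numbers and `U` a unit of the branch with
constant `α`, then `p ∣ j`, the logarithmic `ε`-part of `x` is regular at the point and its value
is determined by `α`, `η` and the order of `x`.
-/

set_option autoImplicit false

noncomputable section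

namespace Fermat.Agent.LevelP

open scoped DualNumber
open TrivSqZeroExt

variable {k G : Type*} [Field k] [Field G] [Algebra k G] (P : DVPoint k G) (β : G) (η : k)

/-- `β (1 + η ε)`. -/
def betaEps : DualNumber G := inl β + inr (β * algebraMap k G η)

/-- The inverse of `β (1 + η ε)`. -/
def betaEpsInv : DualNumber G := inl β⁻¹ + inr (-(β⁻¹ * algebraMap k G η))

theorem betaEps_mul_inv {β : G} (hβ : β ≠ 0) : betaEps β η * betaEpsInv β η = 1 := by
  ext
  · simp [betaEps, betaEpsInv, hβ]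
  · simp [betaEps, betaEpsInv]
    field_simp
    ring

/-- The embedding of `k[ε]`. -/
def liftDual (α : DualNumber k) : DualNumber G :=
  inl (algebraMap k G α.fst) + inr (algebraMap k G α.snd)

@[simp] theorem fst_liftDual (α : DualNumber k) :
    (liftDual α : DualNumber G).fst = algebraMap k G α.fst := by simp [liftDual]

@[simp] theorem snd_liftDual (α : DualNumber k) :
    (liftDual α : DualNumber G).snd = algebraMap k G α.snd := by
  rw [liftDual, TrivSqZeroExt.snd_add, TrivSqZeroExt.snd_inl, TrivSqZeroExt.snd_inr, zero_add]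

/-- Dual numbers integral at the point. -/
def dualO : Subring (DualNumber G) where
  carrier := {x | x.fst ∈ P.O ∧ x.snd ∈ P.O}
  mul_mem' {x y} hx hy := ⟨by simpa using mul_mem hx.1 hy.1, by
    simpa using add_mem (mul_mem hx.1 hy.2) (mul_mem hx.2 hy.1)⟩
  one_mem' := ⟨by simp [one_mem], by simp [zero_mem]⟩
  add_mem' {x y} hx hy := ⟨by simpa using add_mem hx.1 hy.1, by simpa using add_mem hx.2 hy.2⟩
  zero_mem' := ⟨by simp [zero_mem], by simp [zero_mem]⟩
  neg_mem' {x} hx := ⟨by simpa using hx.1, by simpa using hx.2⟩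

theorem liftDual_mem (α : DualNumber k) : liftDual α ∈ dualO P :=
  ⟨by simp [P.algebraMap_mem], by simp [P.algebraMap_mem]⟩

variable {P β η}

theorem betaEps_mem (hβ : P.IsUnif β) : betaEps β η ∈ dualO P :=
  ⟨by simp [betaEps, hβ.mem], by
    simpa [betaEps] using mul_mem hβ.mem (P.algebraMap_mem η)⟩

variable {n : ℕ} {Q : Type*} [CommRing Q] [Algebra (DualNumber G) Q]
  (B : RootBasis (DualNumber G) Q n (betaEps β η))

/-- The constants of the branch. -/
abbrev ιQ : DualNumber G →+* Q := algebraMap (DualNumber G) Q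

/-- Branch elements with integral coefficients. -/
def posSet (B : RootBasis (DualNumber G) Q n (betaEps β η)) (P : DVPoint k G) : Set Q :=
  {x | ∀ j, B.coeff x j ∈ dualO P}

theorem T_mul_pos (hβ : P.IsUnif β) {x : Q} (hx : x ∈ posSet B P) : B.T * x ∈ posSet B P :=
  fun j => by
    rw [B.coeff_T_mul]
    split
    · exact mul_mem (betaEps_mem hβ) (hx _)
    · exact hx _

theorem T_pow_mul_pos (hβ : P.IsUnif β) {x : Q} (hx : x ∈ posSet B P) (m : ℕ) :
    B.T ^ m * x ∈ posSet B P := by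
  induction m with
  | zero => simpa using hx
  | succ m ih => rw [pow_succ', mul_assoc]; exact T_mul_pos B hβ ih

theorem const_mul_pos {c : DualNumber G} (hc : c ∈ dualO P) {x : Q} (hx : x ∈ posSet B P) :
    ιQ c * x ∈ posSet B P := fun j => by
  rw [B.coeff_algebraMap_mul]; exact mul_mem hc (hx j)

theorem add_pos' {x y : Q} (hx : x ∈ posSet B P) (hy : y ∈ posSet B P) : x + y ∈ posSet B P :=
  fun j => by rw [B.coeff_add]; exact add_mem (hx j) (hy j)

theorem zero_pos' : (0 : Q) ∈ posSet B P := fun j => by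
  rw [B.coeff_zero_eq]; exact zero_mem _

theorem sum_pos' {J : Type*} (s : Finset J) {f : J → Q} (hf : ∀ i ∈ s, f i ∈ posSet B P) :
    ∑ i ∈ s, f i ∈ posSet B P := fun j => by
  rw [B.coeff_sum]; exact sum_mem fun i hi => hf i hi j

theorem const_pos (hn : 0 < n) {c : DualNumber G} (hc : c ∈ dualO P) : ιQ c ∈ posSet B P :=
  fun j => by
    rw [B.coeff_algebraMap hn]
    split
    · exact hc
    · exact zero_mem _

theorem one_pos' (hn : 0 < n) : (1 : Q) ∈ posSet B P := by
  simpa using const_pos B (P := P) hn (one_mem _)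

theorem mul_pos' (hβ : P.IsUnif β) {x y : Q} (hx : x ∈ posSet B P) (hy : y ∈ posSet B P) :
    x * y ∈ posSet B P := by
  rw [← B.sum_coeff x, Finset.sum_mul]
  refine sum_pos' B _ fun j _ => ?_
  rw [Algebra.smul_def, mul_assoc]
  exact const_mul_pos B (hx j) (T_pow_mul_pos B hβ hy _)

theorem pow_pos' (hβ : P.IsUnif β) (hn : 0 < n) {x : Q} (hx : x ∈ posSet B P) (m : ℕ) :
    x ^ m ∈ posSet B P := by
  induction m with
  | zero => simpa using one_pos' B hn
  | succ m ih => rw [pow_succ]; exact mul_pos' B hβ ih hx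

/-- After multiplying by `T ^ m` the first `m` constant terms vanish at the point. -/
theorem ev_coeff_T_pow_mul (hβ : P.IsUnif β) {x : Q} (hx : x ∈ posSet B P) :
    ∀ m ≤ n, ∀ i : Fin n, (i : ℕ) < m → P.evF (B.coeff (B.T ^ m * x) i).fst = 0 := by
  intro m
  induction m with
  | zero => intro _ i hi; omega
  | succ m ih =>
    intro hm i hi
    rw [pow_succ', mul_assoc, B.coeff_T_mul]
    split
    · rw [TrivSqZeroExt.fst_mul, P.evF_mul (betaEps_mem hβ).1 (T_pow_mul_pos B hβ hx m _).1]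
      simp [betaEps, hβ.evF_eq_zero]
    · exact ih (by omega) _ (by simp only; omega)

/-- The inverse of `T`. -/
def tInv : Q := B.T ^ (n - 1) * ιQ (betaEpsInv β η)

theorem T_mul_tInv (hβ : β ≠ 0) (hn : 0 < n) : B.T * tInv B = 1 := by
  rw [tInv, ← mul_assoc, ← pow_succ', Nat.sub_add_cancel hn, B.pow_eq]
  show ιQ (betaEps β η) * ιQ (betaEpsInv β η) = 1
  rw [← map_mul, betaEps_mul_inv η hβ, map_one]

/-- `x` lies in `T • Q⁺ + k ε / T`. -/
def InM (B : RootBasis (DualNumber G) Q n (betaEps β η)) (P : DVPoint k G) (x : Q) : Prop :=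
  ∃ Y ∈ posSet B P, ∃ c : k, x = B.T * Y + ιQ (inr (algebraMap k G c)) * tInv B

/-- `x` is congruent to the constant `α`. -/
def HasConst (B : RootBasis (DualNumber G) Q n (betaEps β η)) (P : DVPoint k G) (x : Q)
    (α : DualNumber k) : Prop :=
  InM B P (x - ιQ (liftDual (G := G) α))

/-- `T` as a unit. -/
def tUnit (hβ : β ≠ 0) (hn : 0 < n) : Qˣ :=
  ⟨B.T, tInv B, T_mul_tInv B hβ hn, by rw [mul_comm]; exact T_mul_tInv B hβ hn⟩

variable {p : ℕ} [hp : Fact p.Prime] [CharP G p]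

theorem p_eq_zero_Q (_B : RootBasis (DualNumber G) Q n (betaEps β η)) : (p : Q) = 0 := by
  rw [← map_natCast (algebraMap (DualNumber G) Q),
    show ((p : ℕ) : DualNumber G) = 0 by
      rw [← TrivSqZeroExt.inl_natCast, CharP.cast_eq_zero, TrivSqZeroExt.inl_zero], map_zero]

theorem add_pow_char_Q (B : RootBasis (DualNumber G) Q n (betaEps β η)) (x y : Q) : (x + y) ^ p = x ^ p + y ^ p := by
  obtain ⟨r, hr⟩ := exists_add_pow_prime_eq hp.out x y
  rw [hr, p_eq_zero_Q (p := p) B, zero_mul, zero_mul, zero_mul, add_zero]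

omit [CharP G p] in
theorem eps_mul_pow_char (x : Q) :
    ((ιQ (Q := Q) (ε : DualNumber G)) * x) ^ p = 0 := by
  rw [mul_pow, ← map_pow, ← Nat.add_sub_cancel' hp.out.two_le, pow_add, sq,
    DualNumber.eps_mul_eps, zero_mul, map_zero, zero_mul]

/-- `β (1 + η ε)` as a unit. -/
def betaUnit (hβ : β ≠ 0) : (DualNumber G)ˣ :=
  ⟨betaEps β η, betaEpsInv β η, betaEps_mul_inv η hβ,
    by rw [mul_comm]; exact betaEps_mul_inv η hβ⟩

omit [CharP G p] hp in
theorem fst_betaUnit_zpow (hβ : β ≠ 0) (m : ℤ) :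
    ((betaUnit (η := η) hβ ^ m : (DualNumber G)ˣ) : DualNumber G).fst = β ^ m := by
  have h : ((Units.map ((fstHom G G G : DualNumber G →+* G) : DualNumber G →* G)
      (betaUnit (η := η) hβ ^ m) : Gˣ) : G) = β ^ m := by
    rw [map_zpow, Units.val_zpow_eq_zpow_val]
    congr 1
    simp [betaUnit, betaEps]
  exact h

omit [CharP G p] hp in
theorem snd_betaUnit_zpow (hβ : β ≠ 0) (m : ℤ) :
    ((betaUnit (η := η) hβ ^ m : (DualNumber G)ˣ) : DualNumber G).snd =
      (m : G) * algebraMap k G η * β ^ m := by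
  have hpos : ∀ d : ℕ, ((betaUnit (η := η) hβ ^ d : (DualNumber G)ˣ) : DualNumber G).snd =
      (d : G) * algebraMap k G η * β ^ d := by
    intro d
    induction d with
    | zero => simp
    | succ d ih =>
      have h1 := fst_betaUnit_zpow (η := η) hβ (d : ℤ)
      rw [zpow_natCast, zpow_natCast] at h1
      rw [pow_succ, Units.val_mul, TrivSqZeroExt.snd_mul, h1, ih]
      simp only [betaUnit, betaEps, smul_eq_mul, op_smul_eq_mul, TrivSqZeroExt.snd_add,
        TrivSqZeroExt.snd_inl, TrivSqZeroExt.snd_inr, TrivSqZeroExt.fst_add,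
        TrivSqZeroExt.fst_inl, TrivSqZeroExt.fst_inr]
      push_cast
      ring
  obtain ⟨d, rfl | rfl⟩ := Int.eq_nat_or_neg m
  · simpa using hpos d
  · have h1 := congrArg TrivSqZeroExt.snd
      (show ((betaUnit (η := η) hβ ^ d : (DualNumber G)ˣ) : DualNumber G) *
        ((betaUnit (η := η) hβ ^ (-(d : ℤ)) : (DualNumber G)ˣ) : DualNumber G) = 1 by
        rw [← Units.val_mul, ← zpow_natCast, ← zpow_add]; simp)
    have hf := fst_betaUnit_zpow (η := η) hβ (d : ℤ)
    rw [zpow_natCast, zpow_natCast] at hf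
    rw [TrivSqZeroExt.snd_mul, hpos d, hf, fst_betaUnit_zpow] at h1
    generalize ((betaUnit (η := η) hβ ^ (-(d : ℤ)) : (DualNumber G)ˣ) : DualNumber G).snd = X
      at h1 ⊢
    simp only [TrivSqZeroExt.snd_one, smul_eq_mul, op_smul_eq_mul, zpow_neg, zpow_natCast] at h1
    have hd : β ^ d ≠ 0 := pow_ne_zero _ hβ
    push_cast
    rw [zpow_neg, zpow_natCast]
    field_simp at h1 ⊢
    linear_combination h1

/-- Residual decomposition: `x = T ^ v * W + ε * Y` with `W` a unit at the point. -/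
theorem exists_decomp (hβ : P.IsUnif β) (hn : 0 < n) {x : Q}
    (hx : ∃ j, (B.coeff x j).fst ≠ 0) :
    ∃ (v : ℤ) (W Y : Q), W ∈ posSet B P ∧ P.evF (B.coeff W ⟨0, hn⟩).fst ≠ 0 ∧
      x = ((tUnit B hβ.ne_zero hn ^ v : Qˣ) : Q) * W + ιQ (ε : DualNumber G) * Y := by
  classical
  obtain ⟨j1, hj1⟩ := hx
  set f : Fin n → G := fun j => (B.coeff x j).fst
  let s := Finset.univ.filter fun j => f j ≠ 0
  obtain ⟨j0, hj0, hmin⟩ := s.exists_min_image (fun j => (n : ℤ) * P.ord (f j) + (j : ℕ))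
    ⟨j1, by simp [s, f, hj1]⟩
  set v : ℤ := (n : ℤ) * P.ord (f j0) + (j0 : ℕ) with hv
  have hnz : (n : ℤ) ≠ 0 := by exact_mod_cast hn.ne'
  let q : Fin n → ℤ := fun j => ((j : ℕ) - v) / n
  let r : Fin n → ℕ := fun j => (((j : ℕ) - v) % n).toNat
  have hr : ∀ j, ((r j : ℕ) : ℤ) = ((j : ℕ) - v) % n := fun j =>
    Int.toNat_of_nonneg (Int.emod_nonneg _ hnz)
  have hrn : ∀ j, r j < n := fun j => by
    have := Int.emod_lt_of_pos ((j : ℕ) - v) (show (0 : ℤ) < n by exact_mod_cast hn)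
    have := hr j; omega
  have hqr : ∀ j : Fin n, ((j : ℕ) : ℤ) - v = (n : ℤ) * q j + r j := fun j => by
    rw [hr j]; exact (Int.mul_ediv_add_emod _ _).symm
  have hj0q : q j0 = -P.ord (f j0) ∧ r j0 = 0 := by
    have h1 : ((j0 : ℕ) : ℤ) - v = (n : ℤ) * -P.ord (f j0) := by rw [hv]; ring
    refine ⟨by simp only [q, h1]; exact Int.mul_ediv_cancel_left _ hnz, ?_⟩
    have := hr j0
    rw [h1, Int.mul_emod_right] at this
    exact_mod_cast this
  have hcoef : ∀ j, f j * β ^ q j ∈ P.O := fun j => by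
    by_cases hf : f j = 0
    · rw [hf, zero_mul]; exact zero_mem _
    rw [P.mem_iff (mul_ne_zero hf (zpow_ne_zero _ hβ.ne_zero)),
      P.ord_mul hf (zpow_ne_zero _ hβ.ne_zero), DVPoint.ord_zpow hβ.ne_zero, hβ.ord_eq_one, mul_one]
    have h1 := hmin j (by simp [s, hf])
    have h2 := hqr j
    have h3 := hrn j
    by_contra hneg
    push Not at hneg
    have h4 : (n : ℤ) * (P.ord (f j) + q j) ≤ (n : ℤ) * (-1) :=
      mul_le_mul_of_nonneg_left (by omega) (by omega)
    rw [mul_add] at h4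
    omega
  let W : Q := ∑ j, ιQ (inl (f j * β ^ q j)) * B.T ^ (r j)
  have hinl : ∀ g, g ∈ P.O → (inl g : DualNumber G) ∈ dualO P := fun g hg =>
    ⟨by simpa using hg, by simp [zero_mem]⟩
  have hW : W ∈ posSet B P := sum_pos' B _ fun j _ =>
    const_mul_pos B (hinl _ (hcoef j)) (by simpa using T_pow_mul_pos B hβ (one_pos' B hn) (r j))
  have hW0 : P.evF (B.coeff W ⟨0, hn⟩).fst ≠ 0 := by
    have h0 : (B.coeff W ⟨0, hn⟩).fst = f j0 * β ^ q j0 := by
      simp only [W, B.coeff_sum, B.coeff_algebraMap_mul, B.coeff_T_pow (hrn _)]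
      rw [Finset.sum_eq_single j0]
      · simp [hj0q.2]
      · intro j _ hj
        have : r j ≠ 0 := fun h0 => hj (Fin.ext (by
          have h1 := hqr j
          rw [h0, Nat.cast_zero, add_zero] at h1
          have h2 := hqr j0
          rw [hj0q.2, Nat.cast_zero, add_zero] at h2
          have h3 : (n : ℤ) ∣ ((j : ℕ) : ℤ) - (j0 : ℕ) :=
            ⟨q j - q j0, by rw [mul_sub]; omega⟩
          have := j.isLt; have := j0.isLt
          obtain ⟨c, hc⟩ := h3
          rcases lt_trichotomy c 0 with hc0 | hc0 | hc0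
          · nlinarith
          · rw [hc0, mul_zero] at hc; omega
          · nlinarith))
        simp [show ¬ ((⟨0, hn⟩ : Fin n) : ℕ) = r j from fun h => this h.symm]
      · exact fun h => absurd (Finset.mem_univ _) h
    rw [h0, hj0q.1]
    exact (hβ.unitAt_mul_zpow_neg (Finset.mem_filter.mp hj0).2).2
  -- compare with `x` modulo `ε`
  let u := tUnit B hβ.ne_zero hn
  have hu : ∀ m : ℤ, ∃ b : DualNumber G, b.fst = β ^ m ∧
      ((u ^ ((n : ℤ) * m) : Qˣ) : Q) = ιQ b := by
    intro m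
    refine ⟨((betaUnit (η := η) hβ.ne_zero ^ m : (DualNumber G)ˣ) : DualNumber G),
      fst_betaUnit_zpow hβ.ne_zero m, ?_⟩
    rw [zpow_mul, zpow_natCast,
      show u ^ n = Units.map (ιQ : DualNumber G →+* Q).toMonoidHom (betaUnit hβ.ne_zero) from
        Units.ext B.pow_eq, ← map_zpow]
    rfl
  have hterm : ∀ j, ∃ Y, ιQ (B.coeff x j) * B.T ^ (j : ℕ) =
      ((u ^ v : Qˣ) : Q) * (ιQ (inl (f j * β ^ q j)) * B.T ^ (r j)) + ιQ (ε : DualNumber G) * Y := by
    intro j
    obtain ⟨b, hb, hb'⟩ := hu (-(q j))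
    have hsplit : ∀ d : DualNumber G, d = inl d.fst + ε * inl d.snd := fun d => by
      ext <;> simp
    have hexp : ((u ^ v : Qˣ) : Q) * B.T ^ (r j) = ιQ b * B.T ^ (j : ℕ) := by
      rw [show v = (n : ℤ) * -(q j) + ((j : ℕ) : ℤ) + -((r j : ℕ) : ℤ) by
        have := hqr j; rw [mul_neg]; omega, zpow_add, zpow_add, Units.val_mul, Units.val_mul, hb',
        zpow_natCast, zpow_neg, zpow_natCast, mul_assoc, mul_assoc]
      congr 1
      rw [show B.T ^ (r j) = ((u ^ r j : Qˣ) : Q) from (Units.val_pow_eq_pow_val u _).symm,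
        ← Units.val_mul, inv_mul_cancel, Units.val_one, mul_one]
      exact Units.val_pow_eq_pow_val u _
    set d := B.coeff x j - inl (f j * β ^ q j) * b with hd
    refine ⟨ιQ (inl d.snd) * B.T ^ (j : ℕ), ?_⟩
    have hd0 : d.fst = 0 := by
      simp [d, f, hb, mul_assoc]
      rw [mul_inv_cancel₀ (zpow_ne_zero _ hβ.ne_zero), mul_one, sub_self]
    have hdd : (ιQ (Q := Q)) d = ιQ (ε : DualNumber G) * ιQ (inl d.snd) := by
      conv_lhs => rw [hsplit d, hd0, inl_zero, zero_add]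
      rw [map_mul]
    rw [mul_left_comm, hexp, ← mul_assoc (ιQ (ε : DualNumber G)), ← hdd, hd, map_sub, map_mul]
    ring
  choose Y hY using hterm
  refine ⟨v, W, ∑ j, Y j, hW, hW0, ?_⟩
  conv_lhs => rw [← B.sum_coeff x]
  simp only [Algebra.smul_def, W, Finset.mul_sum, ← Finset.sum_add_distrib]
  exact Finset.sum_congr rfl fun j _ => hY j

/-- The main computation on a branch, for a decomposed `G0`. -/
theorem branch_extract_core (hβ : P.IsUnif β) (hn : 1 < n) (hpn : p ∣ n) {x : DualNumber G}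
    {j v : ℤ} {G0 U W Y : Q} {α : DualNumber k} (hW : W ∈ posSet B P)
    (hW0 : P.evF (B.coeff W ⟨0, by omega⟩).fst ≠ 0)
    (hG : G0 = ((tUnit B hβ.ne_zero (by omega) ^ v : Qˣ) : Q) * W + ιQ (ε : DualNumber G) * Y)
    (hα : α.fst ≠ 0) (hU : HasConst B P U α)
    (hx : ιQ x = ((tUnit B hβ.ne_zero (by omega) ^ j : Qˣ) : Q) * G0 ^ p * U) :
    j + (p : ℤ) * v = (n : ℤ) * P.ord x.fst ∧
    (p : ℤ) ∣ j ∧ x.fst ≠ 0 ∧ x.snd / x.fst ∈ P.O ∧
      P.evF (x.snd / x.fst) = α.snd / α.fst + (P.ord x.fst : k) * η := by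
  have hn0 : 0 < n := by omega
  set u := tUnit B hβ.ne_zero hn0 with hu
  set w := (B.coeff W ⟨0, hn0⟩).fst with hw
  have hwO : w ∈ P.O := (hW _).1
  set wc := P.evF w
  -- `W = wc + ε z + T * Y1`
  have hinl : ∀ g, g ∈ P.O → (inl g : DualNumber G) ∈ dualO P := fun g hg =>
    ⟨by simpa using hg, by simp [zero_mem]⟩
  have hW1 : ∃ z, ∃ Y1 ∈ posSet B P,
      W = ιQ (inl (algebraMap k G wc)) + ιQ (ε : DualNumber G) * z + B.T * Y1 := by
    set c0 := B.coeff W ⟨0, hn0⟩ with hc0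
    have hd0 : P.evF (w - algebraMap k G wc) = 0 := by
      have h1 := P.evF_add (g := w - algebraMap k G wc) (h := algebraMap k G wc)
        (sub_mem hwO (P.algebraMap_mem _)) (P.algebraMap_mem _)
      rw [sub_add_cancel, P.evF_algebraMap] at h1
      simpa [wc] using h1
    obtain ⟨y, hy, hy'⟩ := hβ.exists_div (sub_mem hwO (P.algebraMap_mem _)) hd0
    let rest : Fin n → DualNumber G := fun i => if (i : ℕ) = 0 then 0 else B.coeff W i
    have hrest : ∑ i, ιQ (rest i) * B.T ^ (i : ℕ) =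
        B.T * ∑ i, ιQ (rest i) * B.T ^ ((i : ℕ) - 1) := by
      rw [Finset.mul_sum]
      refine Finset.sum_congr rfl fun i _ => ?_
      by_cases hi : (i : ℕ) = 0
      · simp [rest, hi]
      · rw [mul_left_comm, ← pow_succ', show (i : ℕ) - 1 + 1 = (i : ℕ) by omega]
    have hsplit : W = ιQ c0 + ∑ i, ιQ (rest i) * B.T ^ (i : ℕ) := by
      conv_lhs => rw [← B.sum_coeff W]
      simp only [Algebra.smul_def]
      rw [← Finset.add_sum_erase _ _ (Finset.mem_univ (⟨0, hn0⟩ : Fin n))]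
      simp only [pow_zero, mul_one]
      congr 1
      rw [← Finset.sum_erase (f := fun i : Fin n => ιQ (rest i) * B.T ^ (i : ℕ)) Finset.univ
        (a := (⟨0, hn0⟩ : Fin n)) (by simp [rest])]
      refine Finset.sum_congr rfl fun i hi => ?_
      have : (i : ℕ) ≠ 0 := fun h => (Finset.mem_erase.mp hi).1 (Fin.ext h)
      simp [rest, this]
    have hc : c0 = inl (algebraMap k G wc) + ε * inl (c0.snd - β * algebraMap k G η * y) +
        betaEps β η * inl y := by
      ext
      · simp [betaEps]; linear_combination hy'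
      · simp [betaEps]
    refine ⟨ιQ (inl (c0.snd - β * algebraMap k G η * y)),
      B.T ^ (n - 1) * ιQ (inl y) + ∑ i, ιQ (rest i) * B.T ^ ((i : ℕ) - 1),
      add_pos' B (T_pow_mul_pos B hβ (const_pos B hn0 (hinl y hy)) _)
        (sum_pos' B _ fun i _ => const_mul_pos B (by
          simp only [rest]; split <;> [exact zero_mem _; exact hW i])
          (by simpa using T_pow_mul_pos B hβ (one_pos' B hn0) _)), ?_⟩
    rw [mul_add, ← mul_assoc B.T, ← pow_succ', Nat.sub_add_cancel hn0, B.pow_eq, ← hrest,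
      ← add_assoc]
    conv_lhs => rw [hsplit, hc]
    simp only [map_add, map_mul, ιQ]
  obtain ⟨z, Y1, hY1, hW1⟩ := hW1
  set w0 : G := algebraMap k G (wc ^ p) with hw0def
  have hp2 := hp.out.two_le
  -- the `p`-th power
  have hWp : W ^ p = ιQ (inl w0) + B.T ^ p * Y1 ^ p := by
    rw [hW1, add_pow_char_Q B, add_pow_char_Q B, eps_mul_pow_char, add_zero,
      mul_pow, hw0def, map_pow, ← map_pow ιQ, TrivSqZeroExt.inl_pow]
  have hG0p : G0 ^ p = ((u ^ ((p : ℤ) * v) : Qˣ) : Q) * W ^ p := by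
    rw [hG, add_pow_char_Q B, eps_mul_pow_char, add_zero, mul_pow, ← Units.val_pow_eq_pow_val,
      ← zpow_natCast, ← zpow_mul, mul_comm v]
  obtain ⟨Y, hY, c, hUc⟩ := hU
  have hU' : U = ιQ (liftDual (G := G) α) + (B.T * Y + ιQ (inr (algebraMap k G c)) * tInv B) := by
    rw [← hUc]; abel
  set a0 : DualNumber G := inl w0 * liftDual α with ha0
  -- the product is `a0 + T * Z + c' ε / T`
  have hprod : ∃ Z ∈ posSet B P, W ^ p * U =
      ιQ a0 + B.T * Z + ιQ (inr (algebraMap k G (wc ^ p * c))) * tInv B := by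
    set Yp := Y1 ^ p with hYp
    have hYpm : Yp ∈ posSet B P := pow_pos' B hβ hn0 hY1 p
    refine ⟨ιQ (inl w0) * Y + B.T ^ (p - 1) * (Yp * ιQ (liftDual (G := G) α)) + B.T ^ p * (Yp * Y) +
      B.T ^ (p - 2) * (Yp * ιQ (inr (algebraMap k G c))), ?_, ?_⟩
    · refine add_pos' B (add_pos' B (add_pos' B (const_mul_pos B (hinl _ (P.algebraMap_mem _)) hY)
        ?_) ?_) ?_
      · exact T_pow_mul_pos B hβ (mul_pos' B hβ hYpm (const_pos B hn0 (liftDual_mem P α))) _
      · exact T_pow_mul_pos B hβ (mul_pos' B hβ hYpm hY) _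
      · exact T_pow_mul_pos B hβ (mul_pos' B hβ hYpm (const_pos B hn0
          ⟨by simp [zero_mem], by rw [TrivSqZeroExt.snd_inr]; exact P.algebraMap_mem c⟩)) _
    · have h1 : B.T * B.T ^ (p - 1) = B.T ^ p := by rw [← pow_succ', Nat.sub_add_cancel hp.out.pos]
      have h2 : B.T * B.T ^ (p - 2) = B.T ^ p * tInv B := by
        conv_rhs => rw [← h1, ← Nat.sub_add_cancel (show 1 ≤ p - 1 by omega), pow_succ']
        rw [show p - 1 - 1 = p - 2 by omega,
          show B.T * (B.T * B.T ^ (p - 2)) * tInv B = B.T * B.T ^ (p - 2) * (B.T * tInv B) by ring,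
          T_mul_tInv B hβ.ne_zero hn0, mul_one]
      have h3 : (ιQ (Q := Q)) (inr (algebraMap k G (wc ^ p * c))) =
          ιQ (inl w0) * ιQ (inr (algebraMap k G c)) := by
        rw [← map_mul, hw0def, TrivSqZeroExt.inl_mul_inr, smul_eq_mul, map_mul]
      rw [hWp, hU', ha0, map_mul, h3]
      linear_combination -(Yp * ιQ (liftDual (G := G) α)) * h1 - (Yp * ιQ (inr (algebraMap k G c))) * h2
  obtain ⟨Z, hZ, hZeq⟩ := hprod
  set N : ℤ := j + (p : ℤ) * v with hN
  have hx' : ιQ x = ((u ^ N : Qˣ) : Q) * (W ^ p * U) := by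
    rw [hx, hG0p, hN, zpow_add, Units.val_mul]; ring
  have hnz : (n : ℤ) ≠ 0 := by exact_mod_cast hn0.ne'
  set q := N / n with hq
  set r := (N % n).toNat with hrdef
  have hr : (r : ℤ) = N % n := Int.toNat_of_nonneg (Int.emod_nonneg _ hnz)
  have hrn : r < n := by
    have := Int.emod_lt_of_pos N (show (0 : ℤ) < n by exact_mod_cast hn0); omega
  have hNqr : N = (n : ℤ) * q + r := by rw [hr]; exact (Int.mul_ediv_add_emod _ _).symm
  let bu : (DualNumber G)ˣ := betaUnit (η := η) hβ.ne_zero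
  have hbu : ∀ m : ℤ, ((u ^ ((n : ℤ) * m) : Qˣ) : Q) = ιQ ((bu ^ m : (DualNumber G)ˣ) : DualNumber G) :=
    fun m => by
      rw [zpow_mul, zpow_natCast,
        show u ^ n = Units.map (ιQ : DualNumber G →+* Q).toMonoidHom bu from Units.ext B.pow_eq,
        ← map_zpow]
      rfl
  set b : DualNumber G := ((bu ^ (-q) : (DualNumber G)ˣ) : DualNumber G) with hb
  have hb1 : b.fst = β ^ (-q) := fst_betaUnit_zpow hβ.ne_zero _
  have hkey : ιQ (x * b) = B.T ^ r * ιQ a0 + B.T ^ r * (B.T * Z) +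
      ιQ (inr (algebraMap k G (wc ^ p * c))) * (B.T ^ r * tInv B) := by
    rw [map_mul, hb, ← hbu, hx', mul_right_comm, ← Units.val_mul, ← zpow_add,
      show N + (n : ℤ) * -q = (r : ℤ) by rw [hNqr]; ring, zpow_natCast, Units.val_pow_eq_pow_val,
      hZeq, show ((u : Qˣ) : Q) = B.T from rfl]
    ring
  have hC : ∀ i : Fin n, B.coeff (ιQ (x * b)) i = if (i : ℕ) = 0 then x * b else 0 :=
    fun i => B.coeff_algebraMap hn0 _ i
  have hcoeffT : ∀ i : Fin n, B.coeff (B.T ^ r * ιQ a0) i = if (i : ℕ) = r then a0 else 0 := by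
    intro i
    rw [mul_comm, B.coeff_algebraMap_mul, B.coeff_T_pow hrn]
    split <;> simp
  have hwcp : wc ^ p ≠ 0 := pow_ne_zero _ hW0
  have ha0f : a0.fst = algebraMap k G (wc ^ p * α.fst) := by
    simp [ha0, hw0def, map_mul]
  have ha0s : a0.snd = algebraMap k G (wc ^ p * α.snd) := by
    simp [ha0, hw0def, map_mul]
  -- the remainder `r` vanishes
  have hr0 : r = 0 := by
    by_contra hr0
    have hi := congrArg (fun y => (B.coeff y ⟨r, hrn⟩).fst) hkey
    simp only [hC, hr0, if_false, B.coeff_add, hcoeffT, if_true, TrivSqZeroExt.fst_add,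
      TrivSqZeroExt.fst_zero, B.coeff_algebraMap_mul, TrivSqZeroExt.fst_mul, TrivSqZeroExt.fst_inr,
      zero_mul, add_zero] at hi
    have hz := ev_coeff_T_pow_mul B hβ hZ (r + 1) (by omega) ⟨r, hrn⟩ (by simp)
    rw [pow_succ, mul_assoc] at hz
    have h2 := congrArg P.evF hi
    have hmem : (B.coeff (B.T ^ r * (B.T * Z)) ⟨r, hrn⟩).fst ∈ P.O :=
      (T_pow_mul_pos B hβ (T_mul_pos B hβ hZ) r _).1
    rw [P.evF_zero, P.evF_add (by rw [ha0f]; exact P.algebraMap_mem _) hmem, hz, add_zero, ha0f,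
      P.evF_algebraMap] at h2
    exact mul_ne_zero hwcp hα h2.symm
  have hNq : N = (n : ℤ) * q := by rw [hNqr, hr0]; simp
  suffices h : P.ord x.fst = q ∧ x.fst ≠ 0 ∧ x.snd / x.fst ∈ P.O ∧
      P.evF (x.snd / x.fst) = α.snd / α.fst + (P.ord x.fst : k) * η by
    refine ⟨?_, ?_, h.2⟩
    · rw [h.1, ← hNq]
    have h1 : (p : ℤ) ∣ N := hNq ▸ dvd_mul_of_dvd_left (Int.natCast_dvd_natCast.mpr hpn) _
    have h2 : j = N - (p : ℤ) * v := by omega
    rw [h2]; exact dvd_sub h1 (dvd_mul_right _ _)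
  -- the constant coefficient
  have hi := congrArg (fun y => B.coeff y (⟨0, hn0⟩ : Fin n)) hkey
  rw [hr0] at hi
  simp only [hC, if_true, pow_zero, one_mul, B.coeff_add, B.coeff_algebraMap hn0,
    B.coeff_algebraMap_mul, B.coeff_T_mul, dif_pos] at hi
  have htinv : B.coeff (tInv B) ⟨0, hn0⟩ = 0 := by
    rw [tInv, mul_comm, B.coeff_algebraMap_mul, B.coeff_T_pow (by omega)]
    simp [show ¬ (0 = n - 1) by omega]
  rw [htinv, mul_zero, add_zero] at hi
  set Zl := B.coeff Z ⟨n - 1, by omega⟩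
  have hZl : Zl ∈ dualO P := hZ _
  have hf : x.fst * β ^ (-q) = algebraMap k G (wc ^ p * α.fst) + β * Zl.fst := by
    have := congrArg TrivSqZeroExt.fst hi
    simpa [hb1, ha0f, betaEps] using this
  have hfu : P.IsUnitAt (x.fst * β ^ (-q)) := by
    rw [hf]
    refine ⟨add_mem (P.algebraMap_mem _) (mul_mem hβ.mem hZl.1), ?_⟩
    rw [P.evF_add (P.algebraMap_mem _) (mul_mem hβ.mem hZl.1), P.evF_mul hβ.mem hZl.1,
      hβ.evF_eq_zero, zero_mul, add_zero, P.evF_algebraMap]
    exact mul_ne_zero hwcp hα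
  have hx0 : x.fst ≠ 0 := left_ne_zero_of_mul hfu.ne_zero
  have hord : P.ord x.fst = q := by
    have := (DVPoint.isUnitAt_iff.mp hfu).2
    rw [P.ord_mul hx0 (zpow_ne_zero _ hβ.ne_zero), DVPoint.ord_zpow hβ.ne_zero, hβ.ord_eq_one] at this
    omega
  have hbs : b.snd = -((q : G) * algebraMap k G η) * β ^ (-q) := by
    rw [hb, snd_betaUnit_zpow]; push_cast; ring
  have hs : (x.snd / x.fst - (q : G) * algebraMap k G η) * (x.fst * β ^ (-q)) =
      algebraMap k G (wc ^ p * α.snd) + β * Zl.snd + β * algebraMap k G η * Zl.fst := by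
    have := congrArg TrivSqZeroExt.snd hi
    simp [hb1, hbs, ha0s, betaEps] at this
    rw [map_mul (algebraMap k G), map_pow]
    rw [zpow_neg] at *
    field_simp at this ⊢
    linear_combination this
  have hH : x.snd / x.fst - (q : G) * algebraMap k G η =
      (algebraMap k G (wc ^ p * α.snd) + β * Zl.snd + β * algebraMap k G η * Zl.fst) *
        (x.fst * β ^ (-q))⁻¹ := by
    rw [← hs, mul_assoc, mul_inv_cancel₀ hfu.ne_zero, mul_one]
  have hm1 : β * Zl.snd ∈ P.O := mul_mem hβ.mem hZl.2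
  have hm2 : β * algebraMap k G η * Zl.fst ∈ P.O :=
    mul_mem (mul_mem hβ.mem (P.algebraMap_mem η)) hZl.1
  have hnum : algebraMap k G (wc ^ p * α.snd) + β * Zl.snd + β * algebraMap k G η * Zl.fst ∈ P.O :=
    add_mem (add_mem (P.algebraMap_mem _) hm1) hm2
  have hqc : (q : G) * algebraMap k G η = algebraMap k G ((q : k) * η) := by
    rw [map_mul, map_intCast]
  have hHm : x.snd / x.fst - (q : G) * algebraMap k G η ∈ P.O :=
    hH ▸ mul_mem hnum hfu.inv.1
  refine ⟨hord, hx0, ?_, ?_⟩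
  · simpa using add_mem hHm (hqc ▸ P.algebraMap_mem _ : (q : G) * algebraMap k G η ∈ P.O)
  · have h1 := P.evF_add hHm (hqc ▸ P.algebraMap_mem _ : (q : G) * algebraMap k G η ∈ P.O)
    rw [sub_add_cancel] at h1
    rw [h1, hH, hqc, P.evF_algebraMap, hord, P.evF_mul hnum hfu.inv.1,
      P.evF_inv hfu.1 hfu.2, hf, P.evF_add (add_mem (P.algebraMap_mem _) hm1) hm2,
      P.evF_add (P.algebraMap_mem _) hm1, P.evF_add (P.algebraMap_mem _) (mul_mem hβ.mem hZl.1),
      P.evF_algebraMap, P.evF_algebraMap, P.evF_mul hβ.mem hZl.1, P.evF_mul hβ.mem hZl.2,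
      P.evF_mul (mul_mem hβ.mem (P.algebraMap_mem η)) hZl.1,
      P.evF_mul hβ.mem (P.algebraMap_mem η), hβ.evF_eq_zero]
    simp only [zero_mul, add_zero]
    field_simp

/-- The main computation on a branch. -/
theorem branch_extract (hβ : P.IsUnif β) (hn : 1 < n) (hpn : p ∣ n) {x : DualNumber G}
    {j : ℤ} {G0 U : Q} {α : DualNumber k} (hG0 : ∃ i, (B.coeff G0 i).fst ≠ 0) (hα : α.fst ≠ 0)
    (hU : HasConst B P U α)
    (hx : ιQ x = ((tUnit B hβ.ne_zero (by omega) ^ j : Qˣ) : Q) * G0 ^ p * U) :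
    (p : ℤ) ∣ j ∧ x.fst ≠ 0 ∧ x.snd / x.fst ∈ P.O ∧
      P.evF (x.snd / x.fst) = α.snd / α.fst + (P.ord x.fst : k) * η := by
  obtain ⟨v, W, Y, hW, hW0, hG⟩ := exists_decomp B hβ (by omega) hG0
  exact (branch_extract_core B hβ hn hpn hW hW0 hG hα hU hx).2

end Fermat.Agent.LevelP

end
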