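import Fermat.Agent.LevelP.NodeFactor
import Mathlib.RingTheory.Trace.Basic

/-!
# Values on a branch

The value of the constant coefficient is multiplicative on integral elements of a branch, and the
trace is `n` times the constant coefficient.
-/

set_option autoImplicit false

noncomputable section

namespace Fermat.Agent.LevelP

open TrivSqZeroExt
open scoped DualNumber

namespace RootBasis

variable {R Q : Type*} [CommRing R] [CommRing Q] [Algebra R Q] {n : ℕ} {β : R}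
  (B : RootBasis R Q n β)

theorem coeff_T_pow_mul_diag (hn : 0 < n) (x : Q) (i : Fin n) :
    B.coeff (B.T ^ (i : ℕ) * x) i = B.coeff x ⟨0, hn⟩ := by
  obtain ⟨i, hi⟩ := i
  induction i with
  | zero => simp
  | succ i ih =>
    rw [show B.T ^ (((⟨i + 1, hi⟩ : Fin n) : ℕ)) * x = B.T * (B.T ^ i * x) by
      rw [← mul_assoc, ← pow_succ'], B.coeff_T_mul, dif_neg (Nat.succ_ne_zero i)]
    exact ih (by omega)

/-- The trace is `n` times the constant coefficient. -/
theorem trace_eq (hn : 0 < n) (x : Q) :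
    Algebra.trace R Q x = (n : R) * B.coeff x ⟨0, hn⟩ := by
  classical
  rw [Algebra.trace_eq_matrix_trace B.basis, Matrix.trace]
  have h : ∀ i, Algebra.leftMulMatrix B.basis x i i = B.coeff x ⟨0, hn⟩ := fun i => by
    rw [Algebra.leftMulMatrix_eq_repr_mul, B.basis_eq, mul_comm]
    exact B.coeff_T_pow_mul_diag hn x i
  simp [Matrix.diag, h]

/-- Every element is its constant coefficient plus a multiple of `T`. -/
theorem exists_eq_const_add (hn : 0 < n) (S : Subring R) (x : Q) (hx : ∀ j, B.coeff x j ∈ S) :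
    ∃ y : Q, (∀ j, B.coeff y j ∈ S) ∧
      x = algebraMap R Q (B.coeff x ⟨0, hn⟩) + B.T * y := by
  classical
  refine ⟨∑ j ∈ Finset.univ.erase ⟨0, hn⟩, B.coeff x j • B.T ^ ((j : ℕ) - 1), fun i => ?_, ?_⟩
  · rw [B.coeff_sum]
    refine sum_mem fun j _ => ?_
    rw [B.coeff_smul, B.coeff_T_pow (by omega)]
    split <;> [simpa using hx j; simp [zero_mem]]
  · conv_lhs => rw [← B.sum_coeff x, ← Finset.add_sum_erase _ _ (Finset.mem_univ ⟨0, hn⟩)]
    rw [pow_zero, ← Algebra.algebraMap_eq_smul_one, Finset.mul_sum]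
    congr 1
    refine Finset.sum_congr rfl fun j hj => ?_
    have hj0 : (j : ℕ) ≠ 0 := fun h => (Finset.mem_erase.mp hj).1 (Fin.ext h)
    rw [mul_smul_comm, ← pow_succ', show (j : ℕ) - 1 + 1 = (j : ℕ) by omega]

end RootBasis

variable {k G : Type*} [Field k] [Field G] [Algebra k G] {P : DVPoint k G} {β : G} {η : k}
  {n : ℕ} {Q : Type*} [CommRing Q] [Algebra (DualNumber G) Q]
  (B : RootBasis (DualNumber G) Q n (betaEps β η))

/-- The value of the constant coefficient. -/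
def ev0 (B : RootBasis (DualNumber G) Q n (betaEps β η)) (P : DVPoint k G) (hn : 0 < n) (x : Q) : k :=
  P.evF (B.coeff x ⟨0, hn⟩).fst

theorem ev0_one (hn : 0 < n) : ev0 B P hn 1 = 1 := by
  rw [ev0, ← map_one (algebraMap (DualNumber G) Q), B.coeff_algebraMap hn, if_pos rfl,
    TrivSqZeroExt.fst_one, P.evF_one]

theorem ev0_T_mul (hβ : P.IsUnif β) (hn : 0 < n) {x : Q} (hx : x ∈ posSet B P) :
    ev0 B P hn (B.T * x) = 0 := by
  have h := ev_coeff_T_pow_mul B hβ hx 1 hn ⟨0, hn⟩ Nat.one_pos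
  rwa [pow_one] at h

theorem ev0_mul (hβ : P.IsUnif β) (hn : 0 < n) {x y : Q} (hx : x ∈ posSet B P)
    (hy : y ∈ posSet B P) : ev0 B P hn (x * y) = ev0 B P hn x * ev0 B P hn y := by
  obtain ⟨x', hx', hxe⟩ := B.exists_eq_const_add hn (dualO P) x hx
  have hz : x' * y ∈ posSet B P := mul_pos' B hβ hx' hy
  have h1 : ev0 B P hn (x * y) = P.evF ((B.coeff x ⟨0, hn⟩).fst * (B.coeff y ⟨0, hn⟩).fst) +
      ev0 B P hn (B.T * (x' * y)) := by
    conv_lhs => rw [ev0, hxe, add_mul, mul_assoc, B.coeff_add, B.coeff_algebraMap_mul,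
      TrivSqZeroExt.fst_add, TrivSqZeroExt.fst_mul]
    rw [P.evF_add (mul_mem (hx _).1 (hy _).1) (T_mul_pos B hβ hz _).1]
    rfl
  rw [h1, ev0_T_mul B hβ hn hz, add_zero, P.evF_mul (hx _).1 (hy _).1]
  rfl

theorem ev0_pow (hβ : P.IsUnif β) (hn : 0 < n) {x : Q} (hx : x ∈ posSet B P) (m : ℕ) :
    ev0 B P hn (x ^ m) = ev0 B P hn x ^ m := by
  induction m with
  | zero => rw [pow_zero, pow_zero, ev0_one]
  | succ m ih => rw [pow_succ, pow_succ, ev0_mul B hβ hn (pow_pos' B hβ hn hx m) hx, ih]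

/-- A constant of the branch which has a constant `α` is regular with value `α`. -/
theorem const_fst (hβ : P.IsUnif β) (hn : 0 < n) {x : DualNumber G} {α : DualNumber k}
    (h : HasConst B P (ιQ x) α) : x.fst ∈ P.O ∧ P.evF x.fst = α.fst := by
  obtain ⟨Y, hY, c, h⟩ := h
  have h1 := congrArg (fun y => (B.coeff y ⟨0, hn⟩).fst) h
  simp only [B.coeff_sub, B.coeff_add, B.coeff_algebraMap_mul, B.coeff_algebraMap hn, if_true,
    TrivSqZeroExt.fst_sub, TrivSqZeroExt.fst_add, TrivSqZeroExt.fst_mul, TrivSqZeroExt.fst_inr,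
    zero_mul, add_zero, fst_liftDual] at h1
  rw [sub_eq_iff_eq_add] at h1
  have hm : (B.coeff (B.T * Y) ⟨0, hn⟩).fst ∈ P.O := (T_mul_pos B hβ hY _).1
  rw [h1]
  refine ⟨add_mem hm (P.algebraMap_mem _), ?_⟩
  rw [P.evF_add hm (P.algebraMap_mem _), P.evF_algebraMap]
  have := ev0_T_mul B hβ hn hY
  rw [ev0] at this
  rw [this, zero_add]

/-- The value of a constant times a unit with constant `α`. -/
theorem ev0_mul_hasConst (hβ : P.IsUnif β) (hn : 0 < n) {x U : Q} {α : DualNumber k}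
    (hx : x ∈ posSet B P) (hU : HasConst B P U α) :
    ev0 B P hn (x * U) = ev0 B P hn x * α.fst := by
  obtain ⟨Y, hY, c, h⟩ := hU
  rw [sub_eq_iff_eq_add] at h
  have h1 : (B.coeff (x * U) ⟨0, hn⟩).fst = (B.coeff (B.T * (x * Y)) ⟨0, hn⟩).fst +
      (B.coeff x ⟨0, hn⟩).fst * algebraMap k G α.fst := by
    rw [h, mul_add, mul_add, ← mul_assoc x B.T, mul_comm x B.T, mul_assoc B.T, mul_comm x (ιQ _),
      mul_left_comm x (ιQ _), B.coeff_add, B.coeff_add, B.coeff_algebraMap_mul,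
      B.coeff_algebraMap_mul]
    simp [mul_comm]
  have hm : (B.coeff (B.T * (x * Y)) ⟨0, hn⟩).fst ∈ P.O :=
    (T_mul_pos B hβ (mul_pos' B hβ hx hY) _).1
  rw [ev0, h1, P.evF_add hm (mul_mem (hx _).1 (P.algebraMap_mem _)),
    P.evF_mul (hx _).1 (P.algebraMap_mem _), P.evF_algebraMap]
  have h2 := ev0_T_mul B hβ hn (mul_pos' B hβ hx hY)
  rw [ev0] at h2
  rw [h2, zero_add]
  rfl

variable {p : ℕ} [hp : Fact p.Prime] [CharP G p]

/-- A `p`-th root of `1/U` on a branch has integral value `wc` with `wc ^ p * α = 1`. -/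
theorem root_value (hβ : P.IsUnif β) (hn : 1 < n) (hpn : p ∣ n) {x : DualNumber G}
    (hx1 : x.fst = 1) {Φ U : Q} {α : DualNumber k} (hΦ : ∃ i, (B.coeff Φ i).fst ≠ 0)
    (hα : α.fst ≠ 0) (hU : HasConst B P U α) (hx : ιQ x = Φ ^ p * U) :
    (B.coeff Φ ⟨0, by omega⟩).fst ∈ P.O ∧ ev0 B P (by omega) Φ ^ p * α.fst = 1 := by
  have hn0 : 0 < n := by omega
  obtain ⟨v, Wp, Y, hW, hW0, hG⟩ := exists_decomp B hβ hn0 hΦ
  have hx' : ιQ x = ((tUnit B hβ.ne_zero hn0 ^ (0 : ℤ) : Qˣ) : Q) * Φ ^ p * U := by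
    rw [zpow_zero, Units.val_one, one_mul, hx]
  obtain ⟨hv, -⟩ := branch_extract_core B hβ hn hpn hW hW0 hG hα hU hx'
  have hord : P.ord (1 : G) = 0 :=
    DVPoint.ord_eq (z := 1) ⟨one_mem _, by rw [P.evF_one]; exact one_ne_zero⟩ (by simp)
  rw [hx1, hord, mul_zero, zero_add] at hv
  have hv0 : v = 0 := (mul_eq_zero.mp hv).resolve_left (by exact_mod_cast hp.out.ne_zero)
  rw [hv0, zpow_zero, Units.val_one, one_mul] at hG
  have hfst : (B.coeff Φ ⟨0, hn0⟩).fst = (B.coeff Wp ⟨0, hn0⟩).fst := by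
    rw [hG, B.coeff_add, B.coeff_algebraMap_mul]
    simp
  refine ⟨hfst ▸ (hW _).1, ?_⟩
  have hpw : Φ ^ p = Wp ^ p := by
    rw [hG, add_pow_char_Q (p := p) B, eps_mul_pow_char, add_zero]
  have hev : ev0 B P hn0 Φ = ev0 B P hn0 Wp := by rw [ev0, ev0, hfst]
  rw [hev, ← ev0_pow B hβ hn0 hW, ← ev0_mul_hasConst B hβ hn0 (pow_pos' B hβ hn0 hW p) hU,
    ← hpw, ← hx, ev0, B.coeff_algebraMap hn0, if_pos rfl, hx1, P.evF_one]

end Fermat.Agent.LevelP

end
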