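import Fermat.Agent.LevelP.Ext
import Mathlib.Algebra.CharP.Basic

/-!
# Reductions of congruent functions at a local model

`LocalModel` abstracts a point of the model after the ramified extension. If `u = 1 + π ^ K z` has
an approximate `p`-th root at the point then the reduction of `z` is regular there, up to a `p`-th
power when `K = p`.
-/

set_option autoImplicit false

noncomputable section

namespace Fermat.Agent.LevelP

variable {p : ℕ} [hp : Fact p.Prime] {F : Type*} [Field F] {k G : Type*} [Field k] [Field G]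
  [Algebra k G] [CharP G p] {D : GlueData p F k G} {FL : Type*} [Field FL] [Algebra F FL]

namespace RamExt

variable (E : RamExt D FL) {i : Fin 2}

theorem cr_add {x y : FL} (hx : x ∈ E.intL i) (hy : y ∈ E.intL i) :
    E.coordRed i (x + y) zeroF = E.coordRed i x zeroF + E.coordRed i y zeroF := by
  simpa [red0_apply] using map_add (E.red0 i) ⟨x, hx⟩ ⟨y, hy⟩

theorem cr_mul {x y : FL} (hx : x ∈ E.intL i) (hy : y ∈ E.intL i) :
    E.coordRed i (x * y) zeroF = E.coordRed i x zeroF * E.coordRed i y zeroF := by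
  simpa [red0_apply] using map_mul (E.red0 i) ⟨x, hx⟩ ⟨y, hy⟩

theorem cr_neg {x : FL} (hx : x ∈ E.intL i) :
    E.coordRed i (-x) zeroF = -E.coordRed i x zeroF := by
  simpa [red0_apply] using map_neg (E.red0 i) ⟨x, hx⟩

theorem cr_sub {x y : FL} (hx : x ∈ E.intL i) (hy : y ∈ E.intL i) :
    E.coordRed i (x - y) zeroF = E.coordRed i x zeroF - E.coordRed i y zeroF := by
  rw [sub_eq_add_neg, E.cr_add hx (neg_mem hy), E.cr_neg hy, sub_eq_add_neg]

theorem cr_one : E.coordRed i 1 zeroF = 1 := by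
  simpa [red0_apply] using map_one (E.red0 i)

theorem cr_pow {x : FL} (hx : x ∈ E.intL i) (m : ℕ) :
    E.coordRed i (x ^ m) zeroF = E.coordRed i x zeroF ^ m := by
  simpa [red0_apply] using map_pow (E.red0 i) ⟨x, hx⟩ m

theorem cr_pi_mul {x : FL} (hx : x ∈ E.intL i) : E.coordRed i (E.π * x) zeroF = 0 := by
  rw [← E.fst_redEps, (E.pi_mul_intL hx).2]
  simp

theorem pi_pow_mem (m : ℕ) : E.π ^ m ∈ E.intL i := pow_mem (E.pi_mem i) m

theorem cr_one_add_pi {x : FL} (hx : x ∈ E.intL i) {m : ℕ} (hm : 1 ≤ m) :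
    E.coordRed i (1 + E.π ^ m * x) zeroF = 1 := by
  obtain ⟨m, rfl⟩ := Nat.exists_eq_add_of_le hm
  rw [E.cr_add (one_mem _) (mul_mem (E.pi_pow_mem _) hx), E.cr_one, pow_add, pow_one, mul_assoc,
    E.cr_pi_mul (mul_mem (E.pi_pow_mem m) hx), add_zero]

theorem one_add_pi_inv {x : FL} (hx : x ∈ E.intL i) {m : ℕ} (hm : 1 ≤ m) :
    1 + E.π ^ m * x ∈ E.intL i ∧ 1 + E.π ^ m * x ≠ 0 ∧ (1 + E.π ^ m * x)⁻¹ ∈ E.intL i ∧
      E.coordRed i (1 + E.π ^ m * x)⁻¹ zeroF = 1 := by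
  have h1 : 1 + E.π ^ m * x ∈ E.intL i := add_mem (one_mem _) (mul_mem (E.pi_pow_mem _) hx)
  have h2 := E.cr_one_add_pi hx hm
  have h3 : 1 + E.π ^ m * x ≠ 0 := fun h => by
    rw [h] at h2
    simp [RamExt.coordRed, D.redF_zero] at h2
  have h4 := E.inv_mem_intL h1 (by rw [h2]; exact one_ne_zero)
  refine ⟨h1, h3, h4, ?_⟩
  have h5 := E.cr_mul h1 h4
  rw [mul_inv_cancel₀ h3, h2, one_mul, E.cr_one] at h5
  exact h5.symm

/-- The `p`-th power of `1 + π ^ j X` expanded. -/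
theorem pow_one_add (i : Fin 2) (j : ℕ) {X : FL} (hX : X ∈ E.intL i) :
    ∃ Y ∈ E.intL i, (1 + E.π ^ j * X) ^ p =
      1 + E.π ^ (j * p) * X ^ p + E.π ^ (p + j) * Y := by
  obtain ⟨r, hr⟩ := exists_add_pow_prime_eq hp.out (1 : E.intL i)
    ⟨E.π ^ j * X, mul_mem (E.pi_pow_mem j) hX⟩
  have h := congrArg Subtype.val hr
  push_cast at h
  refine ⟨E.unitC⁻¹ * X * (r : FL), mul_mem (mul_mem (E.unitC_inv_mem i) hX) r.2, ?_⟩
  rw [h, E.p_eq, mul_pow, ← pow_mul, one_pow, pow_add]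
  ring

end RamExt

/-- A point of the model after the ramified extension. -/
structure LocalModel (E : RamExt D FL) where
  I : Set (Fin 2)
  M : Subring FL
  div : ∀ f, (∀ i ∈ I, f ∈ E.intL i) → E.π * f ∈ M → f ∈ M
  Reg : (Fin 2 → G) → Prop
  reg : ∀ f ∈ M, (∀ i ∈ I, f ∈ E.intL i) →
    ∃ r, Reg r ∧ ∀ i ∈ I, r i = E.coordRed i f zeroF
  lift : ∀ r, Reg r → ∃ g ∈ M, ∀ i ∈ I, g ∈ E.intL i ∧ E.coordRed i g zeroF = r i
  root : ∀ r s, Reg r → (∀ i ∈ I, r i = -(s i) ^ p) → Reg s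
  pi_mem : E.π ∈ M

namespace LocalModel

variable {E : RamExt D FL} (T : LocalModel E)

/-- `f` is congruent to `1` and `f ^ p / u` is integral at the point up to a power of `π`. -/
def Approx (u f : FL) : Prop :=
  ∃ X, (∀ i ∈ T.I, X ∈ E.intL i) ∧ f = 1 + E.π * X ∧ ∃ N : ℕ, E.π ^ N * (f ^ p * u⁻¹) ∈ T.M

theorem div_pow : ∀ (N : ℕ) (f : FL), (∀ i ∈ T.I, f ∈ E.intL i) → E.π ^ N * f ∈ T.M → f ∈ T.M := by
  intro N
  induction N with
  | zero => intro f _ h; simpa using h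
  | succ N ih =>
    intro f hf h
    exact T.div f hf (ih _ (fun i hi => mul_mem (E.pi_mem i) (hf i hi))
      (by rwa [← mul_assoc, ← pow_succ]))

theorem step {K : ℕ} (hK : 1 ≤ K) {z f Mf : FL} (hz : ∀ i ∈ T.I, z ∈ E.intL i)
    (hM : ∀ i ∈ T.I, Mf ∈ E.intL i) (hf : f ^ p = 1 + E.π ^ K * Mf) {N : ℕ}
    (hN : E.π ^ N * (f ^ p * (1 + E.π ^ K * z)⁻¹) ∈ T.M) :
    ∃ r, T.Reg r ∧ ∀ i ∈ T.I, r i = E.coordRed i z zeroF - E.coordRed i Mf zeroF := by
  rcases T.I.eq_empty_or_nonempty with he | ⟨i0, hi0⟩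
  · obtain ⟨r, hr, -⟩ := T.reg 0 (zero_mem _) (by simp [he])
    exact ⟨r, hr, by simp [he]⟩
  have hu0 : 1 + E.π ^ K * z ≠ 0 := (E.one_add_pi_inv (hz i0 hi0) hK).2.1
  set δ := (z - Mf) * (1 + E.π ^ K * z)⁻¹
  have hδ : ∀ i ∈ T.I, δ ∈ E.intL i := fun i hi =>
    mul_mem (sub_mem (hz i hi) (hM i hi)) (E.one_add_pi_inv (hz i hi) hK).2.2.1
  have h1 : E.π ^ (N + K) * δ = E.π ^ N - E.π ^ N * (f ^ p * (1 + E.π ^ K * z)⁻¹) := by
    rw [hf]
    simp only [δ]
    rw [pow_add]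
    field_simp
    ring
  have hmem : δ ∈ T.M :=
    T.div_pow (N + K) δ hδ (h1 ▸ sub_mem (pow_mem T.pi_mem N) hN)
  obtain ⟨r, hr, hr'⟩ := T.reg δ hmem hδ
  refine ⟨r, hr, fun i hi => ?_⟩
  rw [hr' i hi, E.cr_mul (sub_mem (hz i hi) (hM i hi)) (E.one_add_pi_inv (hz i hi) hK).2.2.1,
    (E.one_add_pi_inv (hz i hi) hK).2.2.2, mul_one, E.cr_sub (hz i hi) (hM i hi)]

/-- The `p`-th power of an approximate root is `1 + π ^ p` times its root. -/
theorem exists_pow {X : FL} (hX : ∀ i ∈ T.I, X ∈ E.intL i) (j : ℕ) (hj : 1 ≤ j) :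
    ∃ M, (∀ i ∈ T.I, M ∈ E.intL i) ∧ (1 + E.π ^ j * X) ^ p = 1 + E.π ^ p * M ∧
      ∀ i ∈ T.I, E.coordRed i M zeroF = if j = 1 then E.coordRed i X zeroF ^ p else 0 := by
  set M := ((1 + E.π ^ j * X) ^ p - 1) * (E.π ^ p)⁻¹ with hMdef
  have hMeq : (1 + E.π ^ j * X) ^ p = 1 + E.π ^ p * M := by
    rw [hMdef]
    have := E.pi_ne_zero
    field_simp
    ring
  have key : ∀ i ∈ T.I, M ∈ E.intL i ∧
      E.coordRed i M zeroF = if j = 1 then E.coordRed i X zeroF ^ p else 0 := by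
    intro i hi
    obtain ⟨Y, hY, hYe⟩ := E.pow_one_add i j (hX i hi)
    obtain ⟨d, rfl⟩ := Nat.exists_eq_add_of_le hj
    have hM' : M = E.π ^ (d * p) * X ^ p + E.π * (E.π ^ d * Y) := by
      refine mul_left_cancel₀ (pow_ne_zero p E.pi_ne_zero) (add_left_cancel (a := (1 : FL)) ?_)
      rw [← hMeq, hYe]
      ring
    have hm1 : E.π ^ (d * p) * X ^ p ∈ E.intL i := mul_mem (E.pi_pow_mem _) (pow_mem (hX i hi) p)
    have hm2 : E.π ^ d * Y ∈ E.intL i := mul_mem (E.pi_pow_mem _) hY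
    refine ⟨hM' ▸ add_mem hm1 (mul_mem (E.pi_mem i) hm2), ?_⟩
    rw [hM', E.cr_add hm1 (mul_mem (E.pi_mem i) hm2), E.cr_pi_mul hm2, add_zero]
    rcases d with _ | d
    · rw [zero_mul, pow_zero, one_mul, E.cr_pow (hX i hi), if_pos rfl]
    · rw [if_neg (by omega), Nat.succ_mul, show d * p + p = 1 + (d * p + (p - 1)) by
        have := hp.out.pos; omega, pow_add, pow_one, mul_assoc,
        E.cr_pi_mul (mul_mem (E.pi_pow_mem _) (pow_mem (hX i hi) p))]
  exact ⟨M, fun i hi => (key i hi).1, hMeq, fun i hi => (key i hi).2⟩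

/-- The reduction of `z` is regular at the point, up to a `p`-th power when `K = p`. -/
theorem congr_reg {K : ℕ} (hK : 1 ≤ K) (hKp : K ≤ p + 1) {z f : FL}
    (hz : ∀ i ∈ T.I, z ∈ E.intL i) (hf : T.Approx (1 + E.π ^ K * z) f) :
    ∃ (r : Fin 2 → G) (g : Fin 2 → G), T.Reg r ∧ (K ≠ p → g = 0) ∧
      ∀ i ∈ T.I, E.coordRed i z zeroF = r i + g i ^ p := by
  obtain ⟨X, hX, rfl, N, hN⟩ := hf
  obtain ⟨M, hM, hMe, hMr⟩ := T.exists_pow hX 1 le_rfl
  simp only [pow_one, if_true] at hMe hMr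
  have hp1 := hp.out.one_lt
  rcases lt_trichotomy K p with hlt | rfl | hgt
  · have hm : ∀ i ∈ T.I, E.π ^ (p - K - 1) * M ∈ E.intL i :=
      fun i hi => mul_mem (E.pi_pow_mem _) (hM i hi)
    obtain ⟨r, hr, hr'⟩ := T.step hK hz (Mf := E.π * (E.π ^ (p - K - 1) * M))
      (fun i hi => mul_mem (E.pi_mem i) (hm i hi))
      (by rw [hMe, ← mul_assoc E.π, ← pow_succ', ← mul_assoc, ← pow_add,
        show K + (p - K - 1 + 1) = p by omega]) hN
    refine ⟨r, 0, hr, fun _ => rfl, fun i hi => ?_⟩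
    rw [hr' i hi, E.cr_pi_mul (hm i hi), sub_zero, Pi.zero_apply, zero_pow hp.out.ne_zero,
      add_zero]
  · obtain ⟨r, hr, hr'⟩ := T.step hK hz hM hMe hN
    refine ⟨r, fun i => E.coordRed i X zeroF, hr, fun h => absurd rfl h, fun i hi => ?_⟩
    rw [hr' i hi, hMr i hi, sub_add_cancel]
  · obtain rfl : K = p + 1 := by omega
    have hz' : ∀ i ∈ T.I, E.π * z ∈ E.intL i := fun i hi => mul_mem (E.pi_mem i) (hz i hi)
    have hu : 1 + E.π ^ (p + 1) * z = 1 + E.π ^ p * (E.π * z) := by rw [pow_succ]; ring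
    obtain ⟨r, hr, hr'⟩ := T.step hp.out.pos hz' hM hMe (by rw [← hu]; exact hN)
    have hs := T.root r (fun i => E.coordRed i X zeroF) hr fun i hi => by
      rw [hr' i hi, E.cr_pi_mul (hz i hi), hMr i hi, zero_sub]
    obtain ⟨g, hg, hg'⟩ := T.lift _ hs
    set X' := X - g - E.π * (X * g)
    have hX'0 : ∀ i ∈ T.I, X' ∈ E.intL i ∧ E.coordRed i X' zeroF = 0 := by
      intro i hi
      obtain ⟨hgi, hgr⟩ := hg' i hi
      have h3 : X * g ∈ E.intL i := mul_mem (hX i hi) hgi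
      refine ⟨sub_mem (sub_mem (hX i hi) hgi) (mul_mem (E.pi_mem i) h3), ?_⟩
      rw [E.cr_sub (sub_mem (hX i hi) hgi) (mul_mem (E.pi_mem i) h3), E.cr_sub (hX i hi) hgi,
        E.cr_pi_mul h3, hgr, sub_self, sub_zero]
    set X'' := X' * E.π⁻¹
    have hX'' : ∀ i ∈ T.I, X'' ∈ E.intL i := by
      intro i hi
      obtain ⟨y, hy, hye⟩ := E.exists_pi_mul (hX'0 i hi).1 (hX'0 i hi).2
      have : X'' = y := by
        simp only [X'', hye]
        rw [mul_comm E.π, mul_assoc, mul_inv_cancel₀ E.pi_ne_zero, mul_one]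
      exact this ▸ hy
    obtain ⟨M', hM', hMe', hMr'⟩ := T.exists_pow hX'' 2 one_le_two
    simp only [show ¬ (2 = 1) by omega, if_false] at hMr'
    have hf' : (1 + E.π * X) * (1 - E.π * g) = 1 + E.π ^ 2 * X'' := by
      simp only [X'', X']
      have := E.pi_ne_zero
      field_simp
      ring
    set M'' := M' * E.π⁻¹
    have hM'' : ∀ i ∈ T.I, M'' ∈ E.intL i ∧ E.coordRed i M'' zeroF = 0 := by
      intro i hi
      obtain ⟨Y, hY, hYe⟩ := E.pow_one_add i 2 (hX'' i hi)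
      have h2 : M'' = E.π ^ (p - 1) * X'' ^ p + E.π * Y := by
        refine mul_left_cancel₀ (pow_ne_zero (p + 1) E.pi_ne_zero)
          (add_left_cancel (a := (1 : FL)) ?_)
        have h3 : E.π ^ (p + 1) * M'' = E.π ^ p * M' := by
          simp only [M'']
          rw [pow_succ]
          have := E.pi_ne_zero
          field_simp
        rw [h3, ← hMe', hYe, mul_add, ← mul_assoc (E.π ^ (p + 1)), ← pow_add,
          show p + 1 + (p - 1) = 2 * p by omega]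
        ring
      have h4 : E.π ^ (p - 1) * X'' ^ p = E.π * (E.π ^ (p - 2) * X'' ^ p) := by
        rw [← mul_assoc, ← pow_succ', show p - 2 + 1 = p - 1 by omega]
      have h5 : E.π ^ (p - 2) * X'' ^ p ∈ E.intL i :=
        mul_mem (E.pi_pow_mem _) (pow_mem (hX'' i hi) p)
      rw [h2, h4]
      refine ⟨add_mem (mul_mem (E.pi_mem i) h5) (mul_mem (E.pi_mem i) hY), ?_⟩
      rw [E.cr_add (mul_mem (E.pi_mem i) h5) (mul_mem (E.pi_mem i) hY), E.cr_pi_mul h5,
        E.cr_pi_mul hY, add_zero]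
    obtain ⟨r', hr1, hr2⟩ := T.step hK hz (fun i hi => (hM'' i hi).1)
      (f := (1 + E.π * X) * (1 - E.π * g)) (N := N)
      (by
        rw [hf', hMe']
        simp only [M'']
        have := E.pi_ne_zero
        rw [pow_succ]
        field_simp)
      (by
        have h := mul_mem hN (pow_mem (sub_mem (one_mem T.M) (mul_mem T.pi_mem hg)) p)
        rw [mul_pow]
        convert h using 1
        ring)
    refine ⟨r', 0, hr1, fun _ => rfl, fun i hi => ?_⟩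
    rw [hr2 i hi, (hM'' i hi).2, sub_zero, Pi.zero_apply, zero_pow hp.out.ne_zero, add_zero]

end LocalModel

end Fermat.Agent.LevelP

end
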