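import Fermat.Agent.LevelP.PairRefine

/-!
# Orders at a point of degree one
-/

set_option autoImplicit false

noncomputable section

namespace Fermat.Agent.LevelP

namespace DVPoint

variable {k G : Type*} [Field k] [Field G] [Algebra k G] (P : DVPoint k G)

theorem evF_one : P.evF 1 = 1 := by
  rw [← map_one (algebraMap k G), P.evF_algebraMap]

theorem evF_add {g h : G} (hg : g ∈ P.O) (hh : h ∈ P.O) :
    P.evF (g + h) = P.evF g + P.evF h := by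
  rw [P.evF_of_mem hg, P.evF_of_mem hh, P.evF_of_mem (add_mem hg hh), ← map_add]; rfl

theorem evF_pow {g : G} (hg : g ∈ P.O) (m : ℕ) : P.evF (g ^ m) = P.evF g ^ m := by
  induction m with
  | zero => rw [pow_zero, pow_zero, P.evF_one]
  | succ m ih => rw [pow_succ, P.evF_mul (pow_mem hg m) hg, ih, pow_succ]

theorem inv_mem' {g : G} (hg : g ∈ P.O) (h : P.evF g ≠ 0) : g⁻¹ ∈ P.O :=
  P.inv_mem ⟨g, hg⟩ (by rwa [← P.evF_of_mem hg])

theorem evF_inv {g : G} (hg : g ∈ P.O) (h : P.evF g ≠ 0) : P.evF g⁻¹ = (P.evF g)⁻¹ := by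
  have h0 : g ≠ 0 := fun h0 => h (by rw [h0, P.evF_zero])
  refine eq_inv_of_mul_eq_one_right ?_
  rw [← P.evF_mul hg (P.inv_mem' hg h), mul_inv_cancel₀ h0, P.evF_one]

/-- `g` is a unit at the point. -/
def IsUnitAt (g : G) : Prop := g ∈ P.O ∧ P.evF g ≠ 0

variable {P}

theorem IsUnitAt.ne_zero {g : G} (h : P.IsUnitAt g) : g ≠ 0 :=
  fun h0 => h.2 (by rw [h0, P.evF_zero])

theorem IsUnitAt.mul {g h : G} (hg : P.IsUnitAt g) (hh : P.IsUnitAt h) : P.IsUnitAt (g * h) :=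
  ⟨mul_mem hg.1 hh.1, by rw [P.evF_mul hg.1 hh.1]; exact mul_ne_zero hg.2 hh.2⟩

theorem IsUnitAt.inv {g : G} (hg : P.IsUnitAt g) : P.IsUnitAt g⁻¹ :=
  ⟨P.inv_mem' hg.1 hg.2, by rw [P.evF_inv hg.1 hg.2]; exact inv_ne_zero hg.2⟩

theorem IsUnif.ne_zero {β : G} (hβ : P.IsUnif β) : β ≠ 0 := by
  obtain ⟨z, hz, rfl⟩ := hβ
  exact mul_ne_zero P.unif_ne_zero
    fun h => hz (by rw [show z = 0 from Subtype.ext h, map_zero])

theorem IsUnif.evF_eq_zero {β : G} (hβ : P.IsUnif β) : P.evF β = 0 := by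
  obtain ⟨z, hz, rfl⟩ := hβ
  rw [P.evF_of_mem (mul_mem P.unif_mem z.2)]
  exact (P.ev_eq_zero _).mpr ⟨z, z.2, rfl⟩

variable (P)

theorem isUnif_unif : P.IsUnif P.unif := ⟨1, by simp, by simp⟩

theorem evF_unif : P.evF P.unif = 0 := P.isUnif_unif.evF_eq_zero

variable {P}

theorem unit_eq_of_zpow {z z' : G} (hz : P.IsUnitAt z) (hz' : P.IsUnitAt z') {m m' : ℤ}
    (h : z * P.unif ^ m = z' * P.unif ^ m') : m = m' := by
  wlog hle : m' ≤ m generalizing z z' m m' with H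
  · exact (H hz' hz h.symm (le_of_not_ge hle)).symm
  by_contra hne
  obtain ⟨d, hd⟩ := Int.eq_ofNat_of_zero_le (show 0 ≤ m - m' by omega)
  have hd0 : d ≠ 0 := by omega
  have h1 : z' = z * P.unif ^ d := by
    rw [← zpow_natCast, ← hd, zpow_sub₀ P.unif_ne_zero, mul_div_assoc', h,
      mul_div_cancel_right₀ _ (zpow_ne_zero _ P.unif_ne_zero)]
  refine hz'.2 ?_
  rw [h1, P.evF_mul hz.1 (pow_mem P.unif_mem _), P.evF_pow P.unif_mem, P.evF_unif,
    zero_pow hd0, mul_zero]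

variable (P)

theorem exists_unit_mul_zpow {g : G} (hg : g ≠ 0) :
    ∃ z, P.IsUnitAt z ∧ g = z * P.unif ^ P.ord g := by
  obtain ⟨hm, hne⟩ := (P.normalise g hg).choose_spec
  refine ⟨g * P.unif ^ (P.normalise g hg).choose, ⟨hm, by rwa [P.evF_of_mem hm]⟩, ?_⟩
  rw [ord, dif_neg hg, zpow_neg, mul_assoc, mul_inv_cancel₀ (zpow_ne_zero _ P.unif_ne_zero),
    mul_one]

theorem ord_zero : P.ord 0 = 0 := by rw [ord, dif_pos rfl]

variable {P}

theorem ord_eq {g z : G} (hz : P.IsUnitAt z) {m : ℤ} (h : g = z * P.unif ^ m) : P.ord g = m := by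
  have hg : g ≠ 0 := h ▸ mul_ne_zero hz.ne_zero (zpow_ne_zero _ P.unif_ne_zero)
  obtain ⟨z', hz', h'⟩ := P.exists_unit_mul_zpow hg
  exact unit_eq_of_zpow hz' hz (h'.symm.trans h)

variable (P)

theorem ord_mul {g h : G} (hg : g ≠ 0) (hh : h ≠ 0) : P.ord (g * h) = P.ord g + P.ord h := by
  obtain ⟨z, hz, h1⟩ := P.exists_unit_mul_zpow hg
  obtain ⟨z', hz', h2⟩ := P.exists_unit_mul_zpow hh
  refine ord_eq (hz.mul hz') ?_
  rw [zpow_add₀ P.unif_ne_zero]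
  conv_lhs => rw [h1, h2]
  ring

theorem ord_inv {g : G} (hg : g ≠ 0) : P.ord g⁻¹ = -P.ord g := by
  obtain ⟨z, hz, h1⟩ := P.exists_unit_mul_zpow hg
  refine ord_eq hz.inv ?_
  conv_lhs => rw [h1]
  rw [mul_inv, zpow_neg]

theorem ord_pow {g : G} (hg : g ≠ 0) (m : ℕ) : P.ord (g ^ m) = m * P.ord g := by
  induction m with
  | zero =>
    rw [pow_zero, Nat.cast_zero, zero_mul]
    exact ord_eq (z := 1) ⟨one_mem _, by rw [P.evF_one]; exact one_ne_zero⟩ (by simp)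
  | succ m ih => rw [pow_succ, P.ord_mul (pow_ne_zero _ hg) hg, ih]; push_cast; ring

theorem mem_iff {g : G} (hg : g ≠ 0) : g ∈ P.O ↔ 0 ≤ P.ord g := by
  obtain ⟨z, hz, h1⟩ := P.exists_unit_mul_zpow hg
  constructor
  · intro hmem
    by_contra hneg
    obtain ⟨d, hd⟩ := Int.eq_ofNat_of_zero_le (show 0 ≤ -P.ord g by omega)
    have hd0 : d ≠ 0 := by omega
    have : z = g * P.unif ^ d := by
      conv_rhs => rw [h1]
      rw [← zpow_natCast, ← hd, mul_assoc, ← zpow_add₀ P.unif_ne_zero]; simp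
    refine hz.2 ?_
    rw [this, P.evF_mul hmem (pow_mem P.unif_mem _), P.evF_pow P.unif_mem, P.evF_unif,
      zero_pow hd0, mul_zero]
  · intro h0
    obtain ⟨d, hd⟩ := Int.eq_ofNat_of_zero_le h0
    rw [h1, hd, zpow_natCast]
    exact mul_mem hz.1 (pow_mem P.unif_mem _)

variable {P}

theorem isUnitAt_iff {g : G} : P.IsUnitAt g ↔ g ≠ 0 ∧ P.ord g = 0 := by
  refine ⟨fun h => ⟨h.ne_zero, ord_eq h (by simp)⟩, fun ⟨hg, h0⟩ => ?_⟩
  obtain ⟨z, hz, h1⟩ := P.exists_unit_mul_zpow hg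
  rw [h0, zpow_zero, mul_one] at h1
  rwa [h1]

theorem IsUnif.ord_eq_one {β : G} (hβ : P.IsUnif β) : P.ord β = 1 := by
  obtain ⟨z, hz, rfl⟩ := hβ
  exact DVPoint.ord_eq (z := (z : G)) ⟨z.2, by rwa [P.evF_of_mem z.2]⟩ (by rw [zpow_one, mul_comm])

theorem ord_zpow {g : G} (hg : g ≠ 0) (m : ℤ) : P.ord (g ^ m) = m * P.ord g := by
  obtain ⟨d, rfl | rfl⟩ := Int.eq_nat_or_neg m
  · rw [zpow_natCast, P.ord_pow hg]
  · rw [zpow_neg, zpow_natCast, P.ord_inv (pow_ne_zero _ hg), P.ord_pow hg, neg_mul]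

/-- Dividing by a power of a uniformiser that equals the order gives a unit. -/
theorem IsUnif.unitAt_mul_zpow_neg {β g : G} (hβ : P.IsUnif β) (hg : g ≠ 0) :
    P.IsUnitAt (g * β ^ (-P.ord g)) := by
  rw [isUnitAt_iff]
  refine ⟨mul_ne_zero hg (zpow_ne_zero _ hβ.ne_zero), ?_⟩
  rw [P.ord_mul hg (zpow_ne_zero _ hβ.ne_zero), ord_zpow hβ.ne_zero, hβ.ord_eq_one]
  ring

end DVPoint

end Fermat.Agent.LevelP

end
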