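import Mathlib.Algebra.DualNumber
import Mathlib.Algebra.CharP.Lemmas
import Mathlib.LinearAlgebra.Basis.Defs
import Mathlib.RingTheory.Nakayama
import Mathlib.Tactic.LinearCombination
import Mathlib.Tactic.Ring
import Mathlib.Tactic.FieldSimp

/-!
# Two Gauss reductions and a wildly ramified extension of degree `p`

`GlueData` packages two discrete reductions of a field `F` into a field `G` of characteristic `p`,
with kernels generated by `p`. A `RamExt` is an extension `F(π)` of degree `p` with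
`π ^ p = p * c`, `c` a unit known modulo `π²`. Reduction modulo `π²` gives homomorphisms to the
dual numbers of `G`.
-/

set_option autoImplicit false

noncomputable section

namespace Fermat.Agent.LevelP

open scoped DualNumber

/-- Two discrete reductions with uniformiser `p`. -/
structure GlueData (p : ℕ) (F : Type*) [Field F] (k G : Type*) [Field k] [Field G] [Algebra k G]
    where
  Int : Fin 2 → Subring F
  red : ∀ i, Int i →+* G
  red_eq_zero : ∀ i (x : Int i), red i x = 0 ↔ ∃ y ∈ Int i, (x : F) = p * y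
  inv_mem : ∀ i (x : Int i), red i x ≠ 0 → (x : F)⁻¹ ∈ Int i
  normalise : ∀ i (f : F), f ≠ 0 → ∃ (m : ℤ) (h : f * (p : F) ^ m ∈ Int i), red i ⟨_, h⟩ ≠ 0

variable {p : ℕ} [hp : Fact p.Prime] {F : Type*} [Field F] {k G : Type*} [Field k] [Field G]
  [Algebra k G]

/-- The index `0`. -/
def zeroF : Fin p := ⟨0, hp.out.pos⟩

/-- The index `1`. -/
def oneF : Fin p := ⟨1, hp.out.one_lt⟩

/-- The last index. -/
def lastF : Fin p := ⟨p - 1, Nat.sub_lt hp.out.pos one_pos⟩

namespace GlueData

variable (D : GlueData p F k G)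

/-- Reduction extended by zero. -/
def redF (i : Fin 2) (x : F) : G := open Classical in if h : x ∈ D.Int i then D.red i ⟨x, h⟩ else 0

theorem redF_of_mem {i : Fin 2} {x : F} (h : x ∈ D.Int i) : D.redF i x = D.red i ⟨x, h⟩ := by
  rw [redF, dif_pos h]

theorem redF_zero (i : Fin 2) : D.redF i 0 = 0 := by
  rw [D.redF_of_mem (zero_mem _)]; exact map_zero _

theorem redF_one (i : Fin 2) : D.redF i 1 = 1 := by
  rw [D.redF_of_mem (one_mem _)]; exact map_one _

theorem redF_add {i : Fin 2} {x y : F} (hx : x ∈ D.Int i) (hy : y ∈ D.Int i) :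
    D.redF i (x + y) = D.redF i x + D.redF i y := by
  rw [D.redF_of_mem hx, D.redF_of_mem hy, D.redF_of_mem (add_mem hx hy), ← map_add]; rfl

theorem redF_mul {i : Fin 2} {x y : F} (hx : x ∈ D.Int i) (hy : y ∈ D.Int i) :
    D.redF i (x * y) = D.redF i x * D.redF i y := by
  rw [D.redF_of_mem hx, D.redF_of_mem hy, D.redF_of_mem (mul_mem hx hy), ← map_mul]; rfl

theorem redF_p_mul [CharP G p] {i : Fin 2} {x : F} (hx : x ∈ D.Int i) :
    D.redF i (p * x) = 0 := by
  rw [D.redF_mul (natCast_mem _ p) hx, D.redF_of_mem (natCast_mem _ p),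
    show (⟨(p : F), natCast_mem _ p⟩ : D.Int i) = (p : D.Int i) from Subtype.ext (by simp),
    map_natCast, CharP.cast_eq_zero, zero_mul]

theorem exists_p_mul_of_redF_eq_zero {i : Fin 2} {x : F} (hx : x ∈ D.Int i)
    (h : D.redF i x = 0) : ∃ y ∈ D.Int i, x = p * y :=
  (D.red_eq_zero i ⟨x, hx⟩).mp (by rwa [← D.redF_of_mem hx])

theorem inv_mem' {i : Fin 2} {x : F} (hx : x ∈ D.Int i) (h : D.redF i x ≠ 0) :
    x⁻¹ ∈ D.Int i :=
  D.inv_mem i ⟨x, hx⟩ (by rwa [← D.redF_of_mem hx])

theorem mem_maximal {i : Fin 2} (y : D.Int i) :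
    ¬ IsUnit y ↔ D.red i y = 0 := by
  refine ⟨fun hy => ?_, fun hy hu => ?_⟩
  · by_contra h
    have h0 : (y : F) ≠ 0 := fun h' => h (by rw [show y = 0 from Subtype.ext h', map_zero])
    exact hy ⟨⟨y, ⟨_, D.inv_mem i y h⟩, Subtype.ext (mul_inv_cancel₀ h0),
      Subtype.ext (inv_mul_cancel₀ h0)⟩, rfl⟩
  · exact (hu.map (D.red i)).ne_zero hy

theorem span_p_le_jacobson [CharP G p] (i : Fin 2) :
    Ideal.span {(p : D.Int i)} ≤ Ideal.jacobson ⊥ := by
  rw [Ideal.span_singleton_le_iff_mem, Ideal.mem_jacobson_bot]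
  intro y
  by_contra h
  rw [D.mem_maximal] at h
  simp [CharP.cast_eq_zero] at h

end GlueData

/-- An extension `F(π)` of degree `p`, with `π ^ p = p * Σ c_j π ^ j` and `c` a unit whose
reductions modulo `π²` are constants. -/
structure RamExt (D : GlueData p F k G) (FL : Type*) [Field FL] [Algebra F FL] where
  π : FL
  basis : Module.Basis (Fin p) F FL
  basis_eq : ∀ j, basis j = π ^ (j : ℕ)
  c : Fin p → F
  c_mem : ∀ i j, c j ∈ D.Int i
  γ0 : k
  γ1 : k
  γ0_ne : γ0 ≠ 0
  γ1_ne : γ1 ≠ 0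
  red_c0 : ∀ i, D.redF i (c zeroF) = algebraMap k G γ0
  red_c1 : ∀ i, D.redF i (c oneF) = algebraMap k G γ1
  pow_eq : π ^ p = (p : FL) * ∑ j, c j • basis j

variable {D : GlueData p F k G} {FL : Type*} [Field FL] [Algebra F FL]

namespace RamExt

variable (E : RamExt D FL)

/-- The unit `π ^ p / p`. -/
def unitC : FL := ∑ j, E.c j • E.basis j

theorem repr_unitC (j : Fin p) : E.basis.repr E.unitC j = E.c j := by
  simp [unitC, E.basis.repr_self, Finsupp.single_apply, Finset.sum_ite_eq']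

/-- All coordinates are integral at the component `i`. -/
def IsIntL (i : Fin 2) (x : FL) : Prop := ∀ j, E.basis.repr x j ∈ D.Int i

theorem basis_zero : E.basis zeroF = 1 := by rw [E.basis_eq]; exact pow_zero _

theorem basis_one : E.basis oneF = E.π := by rw [E.basis_eq]; exact pow_one _

theorem repr_algebraMap (f : F) (j : Fin p) :
    E.basis.repr (algebraMap F FL f) j = if j = zeroF then f else 0 := by
  rw [Algebra.algebraMap_eq_smul_one, ← E.basis_zero]
  simp [E.basis.repr_self, Finsupp.single_apply, eq_comm]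

theorem isIntL_algebraMap {i : Fin 2} {f : F} (hf : f ∈ D.Int i) :
    E.IsIntL i (algebraMap F FL f) := fun j => by
  rw [E.repr_algebraMap]; split <;> [exact hf; exact zero_mem _]

theorem IsIntL.add {E : RamExt D FL} {i : Fin 2} {x y : FL} (hx : E.IsIntL i x)
    (hy : E.IsIntL i y) : E.IsIntL i (x + y) := fun j => by
  rw [map_add, Finsupp.add_apply]; exact add_mem (hx j) (hy j)

/-- The coordinates of `π * x`. -/
theorem repr_pi_mul (x : FL) (j : Fin p) :
    E.basis.repr (E.π * x) j =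
      (if h : (j : ℕ) = 0 then 0 else E.basis.repr x ⟨j - 1, by omega⟩) +
        (p : F) * (E.basis.repr x lastF * E.c j) := by
  classical
  set f := E.basis.repr x
  have hp1 := hp.out.one_lt
  let w : Fin p → F := fun j => (if h : (j : ℕ) = 0 then 0 else f ⟨j - 1, by omega⟩) +
    (p : F) * (f lastF * E.c j)
  have key : E.π * x = ∑ j, w j • E.basis j := by
    conv_lhs => rw [← E.basis.sum_repr x]
    simp only [w, add_smul, Finset.sum_add_distrib, Finset.mul_sum, mul_smul_comm, E.basis_eq,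
      ← pow_succ']
    have hlast : ∀ j : Fin p, j ≠ lastF → (j : ℕ) + 1 < p := fun j hj => by
      have : (j : ℕ) ≠ p - 1 := fun h => hj (Fin.ext h)
      omega
    rw [← Finset.sum_erase_add _ _ (Finset.mem_univ (lastF : Fin p))]
    congr 1
    · symm
      refine Finset.sum_bij_ne_zero (fun j _ h => (⟨(j : ℕ) - 1, by omega⟩ : Fin p)) ?_ ?_ ?_ ?_
      · intro j _ h
        have hj0 : (j : ℕ) ≠ 0 := fun h0 => h (by rw [dif_pos h0, zero_smul])
        refine Finset.mem_erase.mpr ⟨fun he => ?_, Finset.mem_univ _⟩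
        have := congrArg Fin.val he
        simp only [lastF] at this
        omega
      · intro a _ ha b _ hb hab
        have ha0 : (a : ℕ) ≠ 0 := fun h0 => ha (by rw [dif_pos h0, zero_smul])
        have hb0 : (b : ℕ) ≠ 0 := fun h0 => hb (by rw [dif_pos h0, zero_smul])
        have := congrArg Fin.val hab
        exact Fin.ext (by simp only at this; omega)
      · intro j hj hne
        have hj' := hlast j (Finset.mem_erase.mp hj).1
        refine ⟨⟨(j : ℕ) + 1, hj'⟩, Finset.mem_univ _, ?_, ?_⟩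
        · simpa using hne
        · simp
      · intro j _ h
        have hj0 : (j : ℕ) ≠ 0 := fun h0 => h (by rw [dif_pos h0, zero_smul])
        rw [dif_neg hj0, show (j : ℕ) - 1 + 1 = (j : ℕ) by omega]
    · rw [show ((lastF : Fin p) : ℕ) + 1 = p from Nat.sub_add_cancel hp.out.pos, E.pow_eq,
        Finset.mul_sum, Finset.smul_sum]
      simp only [E.basis_eq]
      refine Finset.sum_congr rfl fun j _ => ?_
      simp only [Algebra.smul_def, map_mul, map_natCast]
      ring
  rw [key, E.basis.repr_sum_self]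

/-- `red` of a coordinate. -/
def coordRed (i : Fin 2) (x : FL) (j : Fin p) : G := D.redF i (E.basis.repr x j)

/-- The element of `DualNumber G` read from the first two coordinates. -/
def redEps (i : Fin 2) (x : FL) : DualNumber G :=
  TrivSqZeroExt.inl (E.coordRed i x zeroF) + TrivSqZeroExt.inr (E.coordRed i x oneF)

theorem fst_redEps (i : Fin 2) (x : FL) : (E.redEps i x).fst = E.coordRed i x zeroF := by
  simp [redEps]

theorem snd_redEps (i : Fin 2) (x : FL) : (E.redEps i x).snd = E.coordRed i x oneF := by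
  simp [redEps]

theorem redEps_add {i : Fin 2} {x y : FL} (hx : E.IsIntL i x) (hy : E.IsIntL i y) :
    E.redEps i (x + y) = E.redEps i x + E.redEps i y := by
  ext <;> simp [redEps, coordRed, D.redF_add (hx _) (hy _)]

theorem redEps_zero (i : Fin 2) : E.redEps i 0 = 0 := by
  ext <;> simp [redEps, coordRed, D.redF_zero]

theorem redEps_algebraMap (i : Fin 2) (f : F) :
    E.redEps i (algebraMap F FL f) = TrivSqZeroExt.inl (D.redF i f) := by
  ext
  · simp [fst_redEps, coordRed, E.repr_algebraMap]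
  · simp [snd_redEps, coordRed, E.repr_algebraMap, zeroF, oneF, D.redF_zero]

theorem redEps_one (i : Fin 2) : E.redEps i 1 = 1 := by
  rw [← map_one (algebraMap F FL), redEps_algebraMap, D.redF_one, TrivSqZeroExt.inl_one]

variable [CharP G p]

theorem pi_mul_intL {i : Fin 2} {x : FL} (hx : E.IsIntL i x) :
    E.IsIntL i (E.π * x) ∧ E.redEps i (E.π * x) = DualNumber.eps * E.redEps i x := by
  have hw : ∀ j, E.basis.repr x lastF * E.c j ∈ D.Int i :=
    fun j => mul_mem (hx _) (E.c_mem i j)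
  refine ⟨fun j => ?_, ?_⟩
  · rw [E.repr_pi_mul]
    refine add_mem ?_ (mul_mem (natCast_mem _ p) (hw j))
    split <;> [exact zero_mem _; exact hx _]
  · ext
    · rw [fst_redEps, coordRed, E.repr_pi_mul, dif_pos (show ((zeroF : Fin p) : ℕ) = 0 from rfl),
        zero_add, D.redF_p_mul (hw _)]
      simp
    · rw [snd_redEps, coordRed, E.repr_pi_mul,
        dif_neg (show ((oneF : Fin p) : ℕ) ≠ 0 from one_ne_zero),
        D.redF_add (hx _) (mul_mem (natCast_mem _ p) (hw _)), D.redF_p_mul (hw _), add_zero]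
      simp [fst_redEps, coordRed, oneF, zeroF]

theorem smul_intL {i : Fin 2} {x : FL} (hx : E.IsIntL i x) {f : F} (hf : f ∈ D.Int i) :
    E.IsIntL i (f • x) ∧ E.redEps i (f • x) = TrivSqZeroExt.inl (D.redF i f) * E.redEps i x := by
  refine ⟨fun j => ?_, ?_⟩
  · rw [map_smul, Finsupp.smul_apply, smul_eq_mul]; exact mul_mem hf (hx j)
  · ext <;> simp [redEps, coordRed, D.redF_mul hf (hx _), mul_comm]

theorem mul_intL {i : Fin 2} {x y : FL} (hx : E.IsIntL i x) (hy : E.IsIntL i y) :
    E.IsIntL i (x * y) ∧ E.redEps i (x * y) = E.redEps i x * E.redEps i y := by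
  classical
  have hpow : ∀ m : ℕ, E.IsIntL i (E.π ^ m * x) ∧
      E.redEps i (E.π ^ m * x) = DualNumber.eps ^ m * E.redEps i x := by
    intro m
    induction m with
    | zero => simpa using hx
    | succ m ih =>
      rw [pow_succ' E.π, mul_assoc]
      refine ⟨(E.pi_mul_intL ih.1).1, ?_⟩
      rw [(E.pi_mul_intL ih.1).2, ih.2, pow_succ', mul_assoc]
  have hsum : ∀ s : Finset (Fin p),
      E.IsIntL i (∑ j ∈ s, E.basis.repr y j • (E.π ^ (j : ℕ) * x)) ∧
      E.redEps i (∑ j ∈ s, E.basis.repr y j • (E.π ^ (j : ℕ) * x)) =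
        (∑ j ∈ s, TrivSqZeroExt.inl (E.coordRed i y j) * DualNumber.eps ^ (j : ℕ)) *
          E.redEps i x := by
    intro s
    induction s using Finset.induction with
    | empty =>
      exact ⟨fun j => by simp [zero_mem], by simp [E.redEps_zero]⟩
    | insert j t hj ih =>
      have h1 := E.smul_intL (hpow (j : ℕ)).1 (hy j)
      rw [Finset.sum_insert hj, Finset.sum_insert hj]
      refine ⟨h1.1.add ih.1, ?_⟩
      rw [E.redEps_add h1.1 ih.1, h1.2, ih.2, (hpow (j : ℕ)).2, coordRed]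
      ring
  have hxy : x * y = ∑ j, E.basis.repr y j • (E.π ^ (j : ℕ) * x) := by
    conv_lhs => rw [← E.basis.sum_repr y, Finset.mul_sum]
    exact Finset.sum_congr rfl fun j _ => by rw [E.basis_eq, mul_smul_comm, mul_comm x]
  obtain ⟨h1, h2⟩ := hsum Finset.univ
  rw [hxy]
  refine ⟨h1, h2.trans ?_⟩
  rw [mul_comm]
  congr 1
  rw [← Finset.sum_subset (Finset.subset_univ {zeroF, oneF})]
  · rw [Finset.sum_pair (by simp [zeroF, oneF, Fin.ext_iff])]
    simp [redEps, zeroF, oneF, DualNumber.inr_eq_smul_eps, TrivSqZeroExt.inl_mul_eq_smul]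
  · intro j _ hj
    simp only [Finset.mem_insert, Finset.mem_singleton, not_or] at hj
    have h2 : 2 ≤ (j : ℕ) := by
      have a : (j : ℕ) ≠ 0 := fun h => hj.1 (Fin.ext h)
      have b : (j : ℕ) ≠ 1 := fun h => hj.2 (Fin.ext h)
      omega
    rw [← Nat.add_sub_cancel' h2, pow_add]
    simp [sq, DualNumber.eps_mul_eps]

/-- The subring of elements integral at the component `i`. -/
def intL (i : Fin 2) : Subring FL where
  carrier := {x | E.IsIntL i x}
  mul_mem' hx hy := (E.mul_intL hx hy).1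
  one_mem' := map_one (algebraMap F FL) ▸ E.isIntL_algebraMap (one_mem _)
  add_mem' hx hy := hx.add hy
  zero_mem' j := by simp [zero_mem]
  neg_mem' {x} hx j := by rw [map_neg, Finsupp.neg_apply]; exact neg_mem (hx j)

/-- Reduction modulo `π²`. -/
def redL (i : Fin 2) : E.intL i →+* DualNumber G where
  toFun x := E.redEps i x
  map_one' := E.redEps_one i
  map_mul' x y := (E.mul_intL x.2 y.2).2
  map_zero' := E.redEps_zero i
  map_add' x y := E.redEps_add x.2 y.2

theorem redL_apply {i : Fin 2} (x : E.intL i) : E.redL i x = E.redEps i x := rfl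

/-- Reduction modulo `π`. -/
def red0 (i : Fin 2) : E.intL i →+* G :=
  (TrivSqZeroExt.fstHom G G G).toRingHom.comp (E.redL i)

theorem red0_apply {i : Fin 2} (x : E.intL i) : E.red0 i x = E.coordRed i x zeroF :=
  E.fst_redEps i x

theorem algebraMap_mem {i : Fin 2} {f : F} (hf : f ∈ D.Int i) : algebraMap F FL f ∈ E.intL i :=
  E.isIntL_algebraMap hf

theorem pi_mem (i : Fin 2) : E.π ∈ E.intL i := by
  have h := (E.pi_mul_intL (E.intL i).one_mem).1
  rwa [mul_one] at h

theorem redL_pi (i : Fin 2) : E.redEps i E.π = DualNumber.eps := by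
  have h := (E.pi_mul_intL (E.intL i).one_mem).2
  rwa [mul_one, E.redEps_one, mul_one] at h

theorem unitC_mem (i : Fin 2) : E.unitC ∈ E.intL i := fun j => by
  rw [E.repr_unitC]; exact E.c_mem i j

theorem redL_unitC (i : Fin 2) : E.redEps i E.unitC =
    TrivSqZeroExt.inl (algebraMap k G E.γ0) + TrivSqZeroExt.inr (algebraMap k G E.γ1) := by
  simp [redEps, coordRed, E.repr_unitC, E.red_c0, E.red_c1]

theorem pi_pow_eq : E.π ^ p = (p : FL) * E.unitC := E.pow_eq

/-- Reduction zero means divisible by `π` modulo `p`. -/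
theorem exists_pi_p_decomp {i : Fin 2} {x : FL} (hx : x ∈ E.intL i)
    (h : E.coordRed i x zeroF = 0) :
    ∃ u ∈ E.intL i, ∃ y ∈ E.intL i, x = (p : FL) * y + E.π * u := by
  classical
  obtain ⟨y, hy, hy'⟩ := D.exists_p_mul_of_redF_eq_zero (hx _) h
  let g : Fin p → FL := fun j =>
    if (j : ℕ) = 0 then 0 else E.basis.repr x j • E.π ^ ((j : ℕ) - 1)
  refine ⟨∑ j, g j, sum_mem fun j _ => ?_, algebraMap F FL y, E.algebraMap_mem hy, ?_⟩
  · simp only [g]
    split
    · exact (E.intL i).zero_mem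
    · exact (E.smul_intL ((E.intL i).pow_mem (E.pi_mem i) _) (hx j)).1
  · conv_lhs => rw [← E.basis.sum_repr x, ← Finset.add_sum_erase _ _ (Finset.mem_univ zeroF)]
    congr 1
    · rw [hy', E.basis_zero, ← Algebra.algebraMap_eq_smul_one, map_mul, map_natCast]
    · rw [Finset.mul_sum, ← Finset.add_sum_erase _ _ (Finset.mem_univ zeroF)]
      simp only [g, zeroF, if_pos, mul_zero, zero_add]
      refine Finset.sum_congr rfl fun j hj => ?_
      have hj0 : (j : ℕ) ≠ 0 := fun h0 => (Finset.mem_erase.mp hj).1 (Fin.ext h0)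
      rw [if_neg hj0, E.basis_eq, mul_smul_comm, ← pow_succ',
        show (j : ℕ) - 1 + 1 = (j : ℕ) by omega]

/-- `1 + p * w` is a unit. -/
theorem inv_mem_one_add_p {i : Fin 2} {w : FL} (hw : w ∈ E.intL i) :
    1 + (p : FL) * w ≠ 0 ∧ (1 + (p : FL) * w)⁻¹ ∈ E.intL i := by
  classical
  set v := 1 + (p : FL) * w
  have hv : v ∈ E.intL i := add_mem (one_mem _) (mul_mem (natCast_mem _ p) hw)
  let N : Submodule (D.Int i) FL :=
    { carrier := {z | z ∈ E.intL i}
      add_mem' := fun ha hb => (E.intL i).add_mem ha hb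
      zero_mem' := (E.intL i).zero_mem
      smul_mem' := fun r z hz => (E.smul_intL (i := i) (x := z) hz r.2).1 }
  have hfg : N.FG := by
    refine ⟨Finset.univ.image fun j => E.basis j, le_antisymm ?_ ?_⟩
    · rw [Submodule.span_le, Finset.coe_image]
      rintro _ ⟨j, -, rfl⟩
      show E.basis j ∈ E.intL i
      rw [E.basis_eq]
      exact (E.intL i).pow_mem (E.pi_mem i) _
    · intro z hz
      rw [← E.basis.sum_repr z]
      exact sum_mem fun j _ => Submodule.smul_mem _ (⟨_, hz j⟩ : D.Int i)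
        (Submodule.subset_span (Finset.mem_coe.mpr (Finset.mem_image_of_mem _ (Finset.mem_univ j))))
  let N' : Submodule (D.Int i) FL :=
    { carrier := {z | ∃ y ∈ E.intL i, z = v * y}
      add_mem' := by
        rintro _ _ ⟨a, ha, rfl⟩ ⟨b, hb, rfl⟩
        exact ⟨a + b, add_mem ha hb, (mul_add v a b).symm⟩
      zero_mem' := ⟨0, zero_mem _, (mul_zero v).symm⟩
      smul_mem' := by
        rintro r _ ⟨a, ha, rfl⟩
        exact ⟨(r : F) • a, (E.smul_intL (x := a) ha r.2).1, (mul_smul_comm (r : F) v a).symm⟩ }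
  have hle : N ≤ N' ⊔ Ideal.span {(p : D.Int i)} • N := by
    intro z hz
    have hwz : -(w * z) ∈ N := neg_mem ((E.intL i).mul_mem hw hz)
    have h2 : ((p : D.Int i) : F) • (-(w * z)) = -((p : FL) * (w * z)) := by
      rw [show ((p : D.Int i) : F) = (p : F) from map_natCast (D.Int i).subtype p,
        Nat.cast_smul_eq_nsmul, nsmul_eq_mul]
      ring
    rw [show z = v * z + ((p : D.Int i) : F) • (-(w * z)) by rw [h2]; simp only [v]; ring]
    exact Submodule.add_mem_sup ⟨z, hz, rfl⟩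
      (Submodule.smul_mem_smul (Ideal.mem_span_singleton_self _) hwz)
  obtain ⟨y, hy, hy'⟩ := Submodule.le_of_le_smul_of_le_jacobson_bot hfg
    (D.span_p_le_jacobson i) hle (show (1 : FL) ∈ N from (E.intL i).one_mem)
  exact ⟨left_ne_zero_of_mul (hy'.symm.trans_ne one_ne_zero),
    inv_eq_of_mul_eq_one_right hy'.symm ▸ hy⟩

/-- An element with nonzero reduction has integral inverse. -/
theorem inv_mem_intL {i : Fin 2} {x : FL} (hx : x ∈ E.intL i) (h : E.coordRed i x zeroF ≠ 0) :
    x⁻¹ ∈ E.intL i := by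
  have hx0 : x ≠ 0 := fun h0 => h (by simp [h0, coordRed, D.redF_zero])
  set f0 := E.basis.repr x zeroF with hf0
  have hf0m : f0 ∈ D.Int i := hx _
  have hf0ne : f0 ≠ 0 := fun h0 => h (by rw [coordRed, ← hf0, h0, D.redF_zero])
  have hf0i : algebraMap F FL f0⁻¹ ∈ E.intL i := E.algebraMap_mem (D.inv_mem' hf0m h)
  set z := x - algebraMap F FL f0
  have hz : z ∈ E.intL i := sub_mem hx (E.algebraMap_mem hf0m)
  obtain ⟨u, hu, y, hy, hzu⟩ := E.exists_pi_p_decomp hz (by
    simp [coordRed, z, map_sub, E.repr_algebraMap, ← hf0, D.redF_zero])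
  obtain ⟨r, hr⟩ := exists_add_pow_prime_eq hp.out
    (⟨_, E.algebraMap_mem hf0m⟩ : E.intL i) (⟨z, hz⟩ : E.intL i)
  obtain ⟨r', hr'⟩ := exists_add_pow_prime_eq hp.out
    (⟨_, (E.intL i).mul_mem (natCast_mem _ p) hy⟩ : E.intL i)
    (⟨_, (E.intL i).mul_mem (E.pi_mem i) hu⟩ : E.intL i)
  have h1 := congrArg Subtype.val hr
  have h2 := congrArg Subtype.val hr'
  push_cast at h1 h2
  set a := algebraMap F FL f0 with ha
  have ha0 : a ≠ 0 := (map_ne_zero _).mpr hf0ne
  set w' := (p : FL) ^ (p - 1) * y ^ p + E.unitC * u ^ p + (p : FL) * y * (E.π * u) * (r' : FL) +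
    a * z * (r : FL)
  have hw' : w' ∈ E.intL i := add_mem (add_mem (add_mem (mul_mem (pow_mem (natCast_mem _ p) _)
    (pow_mem hy _)) (mul_mem (E.unitC_mem i) (pow_mem hu _)))
    (mul_mem (mul_mem (mul_mem (natCast_mem _ p) hy) (mul_mem (E.pi_mem i) hu)) r'.2))
    (mul_mem (mul_mem (E.algebraMap_mem hf0m) hz) r.2)
  have hxp : x ^ p = a ^ p + (p : FL) * w' := by
    have hp' : (p : FL) * (p : FL) ^ (p - 1) = (p : FL) ^ p := by
      rw [← pow_succ', Nat.sub_add_cancel hp.out.pos]
    rw [show x = a + z by simp only [z]; ring, h1]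
    simp only [w']
    rw [hzu, h2, mul_pow E.π, E.pi_pow_eq, mul_pow]
    linear_combination (-y ^ p) * hp'
  set ai := algebraMap F FL f0⁻¹ with hai
  obtain ⟨hne, hinv⟩ := E.inv_mem_one_add_p (mul_mem (pow_mem hf0i p) hw')
  have haa : ai * a = 1 := by rw [hai, ha, ← map_mul, inv_mul_cancel₀ hf0ne, map_one]
  have hkey : x ^ p * ai ^ p = 1 + (p : FL) * (ai ^ p * w') := by
    rw [hxp, add_mul, ← mul_pow, mul_comm a ai, haa, one_pow]; ring
  have : x * (x ^ (p - 1) * ai ^ p * (1 + (p : FL) * (ai ^ p * w'))⁻¹) = 1 := by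
    rw [← mul_assoc, ← mul_assoc, ← pow_succ', Nat.sub_add_cancel hp.out.pos, hkey,
      mul_inv_cancel₀ hne]
  rw [inv_eq_of_mul_eq_one_right this]
  exact mul_mem (mul_mem (pow_mem hx _) (pow_mem hf0i p)) hinv

/-- The unit `p / π ^ p`. -/
theorem unitC_inv_mem (i : Fin 2) : E.unitC⁻¹ ∈ E.intL i := by
  refine E.inv_mem_intL (E.unitC_mem i) ?_
  rw [coordRed, E.repr_unitC, E.red_c0]
  exact (map_ne_zero _).mpr E.γ0_ne

theorem unitC_ne_zero : E.unitC ≠ 0 := fun h => E.γ0_ne (by
  have := E.red_c0 0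
  rw [← E.repr_unitC, h] at this
  simp [D.redF_zero] at this
  exact (map_eq_zero (algebraMap k G)).mp this.symm)

theorem p_eq : (p : FL) = E.π ^ p * E.unitC⁻¹ := by
  rw [E.pi_pow_eq, mul_assoc, mul_inv_cancel₀ E.unitC_ne_zero, mul_one]

/-- An element with zero reduction is a multiple of `π`. -/
theorem exists_pi_mul {i : Fin 2} {x : FL} (hx : x ∈ E.intL i) (h : E.coordRed i x zeroF = 0) :
    ∃ y ∈ E.intL i, x = E.π * y := by
  obtain ⟨u, hu, y, hy, hxy⟩ := E.exists_pi_p_decomp hx h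
  refine ⟨E.π ^ (p - 1) * E.unitC⁻¹ * y + u, add_mem (mul_mem (mul_mem
    (pow_mem (E.pi_mem i) _) (E.unitC_inv_mem i)) hy) hu, ?_⟩
  rw [hxy, E.p_eq, mul_add, ← mul_assoc, ← mul_assoc, ← pow_succ', Nat.sub_add_cancel hp.out.pos]

theorem pi_ne_zero : E.π ≠ 0 := fun h => by
  have := E.repr_algebraMap (0 : F) oneF
  have h1 := E.basis.repr_self oneF
  rw [E.basis_one, h, map_zero] at h1
  simpa using congrArg (fun g : Fin p →₀ F => g oneF) h1

theorem charP_ne_zero_cast (_E : RamExt D FL) (hF : (p : F) ≠ 0) : (p : FL) ≠ 0 := by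
  rw [← map_natCast (algebraMap F FL)]; exact (map_ne_zero _).mpr hF

/-- Every nonzero element is `π ^ m` times an element with nonzero reduction. -/
theorem exists_normalise (hF : (p : F) ≠ 0) (i : Fin 2) {x : FL} (hx : x ≠ 0) :
    ∃ (m : ℤ) (y : FL), y ∈ E.intL i ∧ E.coordRed i y zeroF ≠ 0 ∧ x = E.π ^ m * y := by
  classical
  have hb : ∀ f : F, ∃ N : ℕ, (p : F) ^ N * f ∈ D.Int i := by
    intro f
    by_cases hf : f = 0
    · exact ⟨0, by simp [hf, zero_mem]⟩
    obtain ⟨m, hm, -⟩ := D.normalise i f hf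
    refine ⟨m.toNat, ?_⟩
    rw [show (p : F) ^ m.toNat * f = f * (p : F) ^ m * (p : F) ^ (-m).toNat by
      rw [mul_assoc, ← zpow_natCast, ← zpow_natCast, ← zpow_add₀ hF,
        show m + ((-m).toNat : ℤ) = (m.toNat : ℤ) by omega, mul_comm]]
    exact mul_mem hm (pow_mem (natCast_mem _ p) _)
  choose N hN using hb
  set M := Finset.univ.sup fun j => N (E.basis.repr x j)
  have hxM : (p : FL) ^ M * x ∈ E.intL i := fun j => by
    rw [← map_natCast (algebraMap F FL), ← map_pow, ← Algebra.smul_def, map_smul,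
      Finsupp.smul_apply, smul_eq_mul]
    have hle : N (E.basis.repr x j) ≤ M :=
      Finset.le_sup (f := fun j => N (E.basis.repr x j)) (Finset.mem_univ j)
    rw [← Nat.sub_add_cancel hle, pow_add, mul_assoc]
    exact mul_mem (pow_mem (natCast_mem _ p) _) (hN _)
  have key : ∀ z ∈ E.intL i, z ≠ 0 →
      ∃ (m : ℕ) (y : FL), y ∈ E.intL i ∧ E.coordRed i y zeroF ≠ 0 ∧ z = E.π ^ m * y := by
    intro z hz hz0
    by_contra hne
    push Not at hne
    have hall : ∀ m : ℕ, ∃ y ∈ E.intL i, z = E.π ^ m * y := by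
      intro m
      induction m with
      | zero => exact ⟨z, hz, by simp⟩
      | succ m ih =>
        obtain ⟨y, hy, hzy⟩ := ih
        have h0 : E.coordRed i y zeroF = 0 := by
          by_contra h; exact hne m y hy h hzy
        obtain ⟨w, hw, hw'⟩ := E.exists_pi_mul hy h0
        exact ⟨w, hw, by rw [hzy, hw', pow_succ, mul_assoc]⟩
    obtain ⟨j, hj⟩ : ∃ j, E.basis.repr z j ≠ 0 := by
      by_contra h; push Not at h
      exact hz0 (E.basis.repr.injective (Finsupp.ext fun j => by simp [h j]))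
    obtain ⟨m, hm, hmne⟩ := D.normalise i _ hj
    obtain ⟨y, hy, hzy⟩ := hall (p * ((-m).toNat + 1))
    rw [pow_mul, E.pi_pow_eq, mul_pow, mul_assoc] at hzy
    set y' := E.unitC ^ ((-m).toNat + 1) * y
    have hy' : y' ∈ E.intL i := mul_mem (pow_mem (E.unitC_mem i) _) hy
    have hcoord : E.basis.repr z j = (p : F) ^ ((-m).toNat + 1) * E.basis.repr y' j := by
      rw [hzy, ← map_natCast (algebraMap F FL), ← map_pow, ← Algebra.smul_def, map_smul,
        Finsupp.smul_apply, smul_eq_mul]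
    refine hmne ?_
    have h2 : E.basis.repr z j * (p : F) ^ m =
        (p : F) * ((p : F) ^ ((-m).toNat + m).toNat * E.basis.repr y' j) := by
      rw [hcoord, mul_right_comm, ← mul_assoc (p : F)]
      congr 1
      rw [← pow_succ', ← zpow_natCast, ← zpow_natCast, ← zpow_add₀ hF]
      congr 1
      push_cast
      omega
    exact (D.red_eq_zero i _).mpr ⟨_, mul_mem (pow_mem (natCast_mem _ p) _) (hy' j), h2⟩
  obtain ⟨m, y, hy, hy0, hxy⟩ := key _ hxM (mul_ne_zero (pow_ne_zero _ (E.charP_ne_zero_cast hF)) hx)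
  refine ⟨(m : ℤ) - (p * M : ℕ), y * E.unitC ^ M, mul_mem hy (pow_mem (E.unitC_mem i) _), ?_, ?_⟩
  · rw [← E.fst_redEps, (E.mul_intL hy (pow_mem (E.unitC_mem i) _)).2, TrivSqZeroExt.fst_mul,
      E.fst_redEps]
    refine mul_ne_zero hy0 ?_
    have hmap := map_pow (E.red0 i) ⟨_, E.unitC_mem i⟩ M
    rw [E.red0_apply, E.red0_apply] at hmap
    rw [E.fst_redEps]
    change E.coordRed i ((⟨_, E.unitC_mem i⟩ ^ M : E.intL i) : FL) zeroF ≠ 0
    rw [hmap]
    refine pow_ne_zero _ ?_
    rw [coordRed, E.repr_unitC, E.red_c0]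
    exact (map_ne_zero _).mpr E.γ0_ne
  · rw [zpow_sub₀ E.pi_ne_zero, zpow_natCast, zpow_natCast, pow_mul, E.pi_pow_eq, mul_pow,
      div_mul_eq_mul_div, eq_div_iff (mul_ne_zero (pow_ne_zero _ (E.charP_ne_zero_cast hF))
        (pow_ne_zero _ E.unitC_ne_zero))]
    linear_combination (E.unitC ^ M) * hxy

end RamExt

end Fermat.Agent.LevelP

end
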