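import Mathlib.RingTheory.Valuation.LocalSubring
import Mathlib.RingTheory.IntegralClosure.IntegrallyClosed
import Mathlib.FieldTheory.IsAlgClosed.AlgebraicClosure
import Mathlib.Tactic.FieldSimp

/-!
# Extending valuation rings

A valuation ring of a subfield extends to the field with the same trace on the subfield; if it
contains the rational numbers it contains all algebraic numbers.
-/

set_option autoImplicit false

noncomputable section

namespace Fermat.Agent.LevelP

/-- A valuation ring of a subfield is the trace of one of the field. -/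
theorem exists_extend_valuationSubring {E F : Type*} [Field E] [Field F] (ι : E →+* F)
    (O : ValuationSubring E) :
    ∃ O' : ValuationSubring F, ∀ x : E, ι x ∈ O' ↔ x ∈ O := by
  obtain ⟨O', h, hloc⟩ := IsLocalRing.exists_factor_valuationRing
    (ι.comp O.toSubring.subtype : O →+* F)
  refine ⟨O', fun x => ⟨fun hx => ?_, fun hx => h ⟨x, hx⟩⟩⟩
  by_contra hxO
  have hinv := (O.mem_or_inv_mem x).resolve_left hxO
  have hx0 : x ≠ 0 := fun h0 => hxO (h0 ▸ O.zero_mem)
  have hunit : IsUnit
      (((ι.comp O.toSubring.subtype : O →+* F).codRestrict O'.toSubring h) ⟨x⁻¹, hinv⟩) := by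
    refine isUnit_iff_exists_inv.mpr ⟨⟨ι x, hx⟩, Subtype.ext ?_⟩
    show ι x⁻¹ * ι x = 1
    rw [← map_mul, inv_mul_cancel₀ hx0, map_one]
  obtain ⟨⟨y, hy⟩, hy'⟩ := isUnit_iff_exists_inv.mp (hloc.map_nonunit _ hunit)
  have h1 : x⁻¹ * y = 1 := congrArg Subtype.val hy'
  have h2 : y = x := by
    rw [← mul_right_inj' (inv_ne_zero hx0), h1, inv_mul_cancel₀ hx0]
  exact hxO (h2 ▸ hy)

/-- A subring with all inverses of `p` and of integers prime to `p` contains the rationals. -/
theorem ratCast_mem_of_inv {E : Type*} [Field E] {S : Type*} [SetLike S E] [SubringClass S E]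
    (O : S) {p : ℕ} (hp : p ≠ 1) (hpO : (p : E)⁻¹ ∈ O)
    (hn : ∀ n : ℕ, ¬ p ∣ n → (n : E)⁻¹ ∈ O) (q : ℚ) : (q : E) ∈ O := by
  obtain ⟨e, n', hn', hden⟩ := Nat.exists_eq_pow_mul_and_not_dvd q.den_nz p hp
  rw [Rat.cast_def, hden, Nat.cast_mul, Nat.cast_pow, div_eq_mul_inv, mul_inv, ← inv_pow]
  exact mul_mem (intCast_mem O _) (mul_mem (pow_mem hpO _) (hn n' hn'))

/-- A valuation ring containing the rationals contains every algebraic number. -/
theorem algebraicClosure_mem_of_ratCast {F : Type*} [Field F]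
    (ψ : AlgebraicClosure ℚ →+* F) (O : ValuationSubring F) (hQ : ∀ q : ℚ, (q : F) ∈ O)
    (c : AlgebraicClosure ℚ) : ψ c ∈ O := by
  have hQ' : ∀ q, ψ.comp (algebraMap ℚ (AlgebraicClosure ℚ)) q ∈ O.toSubring := fun q => by
    rw [RingHom.comp_apply, eq_ratCast, map_ratCast]
    exact hQ q
  obtain ⟨P, hP, hPc⟩ := Algebra.IsIntegral.isIntegral (R := ℚ) c
  have hint : IsIntegral O (ψ c) := by
    refine ⟨P.map ((ψ.comp (algebraMap ℚ _)).codRestrict O.toSubring hQ'), hP.map _, ?_⟩
    rw [Polynomial.eval₂_map]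
    refine Eq.trans ?_ (map_zero ψ)
    rw [← hPc, Polynomial.hom_eval₂]
    rfl
  obtain ⟨y, hy⟩ := IsIntegrallyClosed.isIntegral_iff.mp hint
  exact hy ▸ y.2

end Fermat.Agent.LevelP

end
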