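import Mathlib.FieldTheory.IntermediateField.Basic
import Mathlib.LinearAlgebra.Dimension.OrzechProperty
import Mathlib.LinearAlgebra.Vandermonde
import Mathlib.RingTheory.RootsOfUnity.PrimitiveRoots
import Mathlib.Data.Nat.Choose.Dvd
import Mathlib.Tactic.Group
import Mathlib.Tactic.Ring
import Mathlib.Tactic.FieldSimp

/-!
# A basis of a Kummer extension fixed by a subgroup

For a group acting on a field, a subgroup `H` of `I` fixing `θ`, and representatives `g i` with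
`g i θ = ζ ^ i θ` permuted by `I` modulo `H`, the field fixed by `H` has the powers of `θ - θ₀` as
basis over the field fixed by `I`.
-/

set_option autoImplicit false
set_option linter.unusedSectionVars false

noncomputable section

namespace Fermat.Agent.LevelP

variable {F : Type*} [Field F] {G : Type*} [Group G]

/-- The data of a Kummer extension inside a field with a group action. -/
structure KummerSetup (ρ : G →* (F ≃+* F)) (p : ℕ) (F₀ : Subfield F)
    (FL : IntermediateField F₀ F) where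
  I : Subgroup G
  H : Subgroup G
  ζ : F
  θ : F
  g : ℕ → G
  mem_F₀ : ∀ f, f ∈ F₀ ↔ ∀ σ ∈ I, ρ σ f = f
  mem_FL : ∀ f, f ∈ FL ↔ ∀ σ ∈ H, ρ σ f = f
  prime : p.Prime
  cast_ne : (p : F) ≠ 0
  prim : IsPrimitiveRoot ζ p
  θ_ne : θ ≠ 0
  θ_mem : θ ∈ FL
  g_mem : ∀ i, g i ∈ I
  g_θ : ∀ i, ρ (g i) θ = ζ ^ i * θ
  g_zero : g 0 ∈ H
  perm : ∀ τ ∈ I, ∃ f : ℕ → ℕ, Set.InjOn f (Finset.range p) ∧
    (Finset.range p).image f = Finset.range p ∧ ∀ i, (g (f i))⁻¹ * (τ * g i) ∈ H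

namespace KummerSetup

variable {ρ : G →* (F ≃+* F)} {p : ℕ} {F₀ : Subfield F} {FL : IntermediateField F₀ F}
  (K : KummerSetup ρ p F₀ FL)

include K in
theorem trace_mem {f : F} (hf : f ∈ FL) : ∑ i ∈ Finset.range p, ρ (K.g i) f ∈ F₀ := by
  classical
  refine (K.mem_F₀ _).mpr fun τ hτ => ?_
  obtain ⟨e, heinj, heim, he⟩ := K.perm τ hτ
  conv_rhs => rw [← heim, Finset.sum_image heinj]
  rw [map_sum]
  refine Finset.sum_congr rfl fun i _ => ?_
  rw [← RingAut.mul_apply, ← map_mul,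
    show τ * K.g i = K.g (e i) * ((K.g (e i))⁻¹ * (τ * K.g i)) by group, map_mul, RingAut.mul_apply,
    (K.mem_FL _).mp hf _ (he i)]

include K in
theorem exists_coords {f : F} (hf : f ∈ FL) :
    ∃ a : ℕ → F, (∀ l, a l ∈ F₀) ∧ f = ∑ l ∈ Finset.range p, a l * K.θ ^ l := by
  classical
  have hp := K.prime
  have : NeZero p := ⟨hp.ne_zero⟩
  refine ⟨fun l => (p : F)⁻¹ * ∑ i ∈ Finset.range p, ρ (K.g i) (f * (K.θ ^ l)⁻¹),
    fun l => mul_mem (inv_mem (natCast_mem _ p))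
      (K.trace_mem (mul_mem hf (inv_mem (pow_mem K.θ_mem l)))), ?_⟩
  have hgeom : ∀ i ∈ Finset.range p,
      ∑ l ∈ Finset.range p, ((K.ζ ^ i)⁻¹) ^ l = if i = 0 then (p : F) else 0 := by
    intro i hi
    split_ifs with h
    · subst h; simp
    · exact ((K.prim.pow_of_coprime i (hp.coprime_iff_not_dvd.mpr fun hd => absurd
        (Nat.le_of_dvd (Nat.pos_of_ne_zero h) hd) (not_le.mpr (Finset.mem_range.mp hi))).symm).inv
        ).geom_sum_eq_zero hp.one_lt
  have hterm : ∀ i ∈ Finset.range p, ∑ l ∈ Finset.range p,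
      (p : F)⁻¹ * ρ (K.g i) (f * (K.θ ^ l)⁻¹) * K.θ ^ l = if i = 0 then f else 0 := by
    intro i hi
    have e : ∀ l : ℕ, (p : F)⁻¹ * ρ (K.g i) (f * (K.θ ^ l)⁻¹) * K.θ ^ l =
        ρ (K.g i) f * ((p : F)⁻¹ * ((K.ζ ^ i)⁻¹) ^ l) := fun l => by
      rw [map_mul, map_inv₀, map_pow, K.g_θ, mul_pow, mul_inv, inv_pow]
      have := pow_ne_zero l K.θ_ne
      field_simp
    simp only [e]
    rw [← Finset.mul_sum, ← Finset.mul_sum, hgeom i hi]
    split_ifs with h
    · rw [h, inv_mul_cancel₀ K.cast_ne, mul_one, (K.mem_FL _).mp hf _ K.g_zero]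
    · rw [mul_zero, mul_zero]
  simp only [Finset.mul_sum, Finset.sum_mul]
  rw [Finset.sum_comm, Finset.sum_congr rfl hterm, Finset.sum_ite_eq' _ 0,
    if_pos (Finset.mem_range.mpr hp.pos)]

/-- `θ` in the fixed field. -/
def θL : FL := ⟨K.θ, K.θ_mem⟩

include K in
theorem span_θ : ⊤ ≤ Submodule.span F₀ (Set.range fun j : Fin p => K.θL ^ (j : ℕ)) := by
  intro f _
  obtain ⟨a, ha, hfa⟩ := K.exists_coords f.2
  rw [Submodule.mem_span_range_iff_exists_fun]
  refine ⟨fun j => ⟨a j, ha j⟩, Subtype.ext ?_⟩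
  rw [hfa, ← Fin.sum_univ_eq_sum_range (fun l => a l * K.θ ^ l) p, IntermediateField.coe_sum]
  rfl

include K in
theorem indep_θ : LinearIndependent F₀ fun j : Fin p => K.θL ^ (j : ℕ) := by
  classical
  have : NeZero p := ⟨K.prime.ne_zero⟩
  rw [Fintype.linearIndependent_iff]
  intro c hc
  have hc' : ∑ j : Fin p, (c j : F) * K.θ ^ (j : ℕ) = 0 := by
    have := congrArg (fun x : FL => (x : F)) hc
    rw [IntermediateField.coe_sum] at this
    exact this
  have hv := Matrix.eq_zero_of_forall_index_sum_mul_pow_eq_zero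
    (f := fun i : Fin p => K.ζ ^ (i : ℕ)) (v := fun j : Fin p => (c j : F) * K.θ ^ (j : ℕ))
    (fun a b h => Fin.ext (K.prim.pow_inj a.2 b.2 h)) fun i => by
      have h := congrArg (ρ (K.g i)) hc'
      rw [map_zero, map_sum] at h
      refine Eq.trans (Finset.sum_congr rfl fun j _ => ?_) h
      rw [map_mul, (K.mem_F₀ _).mp (c j).2 _ (K.g_mem i), map_pow, K.g_θ, mul_pow]
      ring
  intro j
  refine Subtype.ext ?_
  have := congrFun hv j
  simp only [Pi.zero_apply, mul_eq_zero] at this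
  exact this.resolve_right (pow_ne_zero _ K.θ_ne)

include K in
theorem finrank_eq : Module.finrank F₀ FL = p := by
  rw [Module.finrank_eq_card_basis (Module.Basis.mk K.indep_θ K.span_θ), Fintype.card_fin]

variable (θ₀ : F₀)

/-- The shifted generator. -/
def πL : FL := K.θL - algebraMap F₀ FL θ₀

theorem coe_πL : ((K.πL θ₀ : FL) : F) = K.θ - θ₀ := rfl

theorem span_π : ⊤ ≤ Submodule.span F₀ (Set.range fun j : Fin p => K.πL θ₀ ^ (j : ℕ)) := by
  refine K.span_θ.trans (Submodule.span_le.mpr ?_)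
  rintro _ ⟨j, rfl⟩
  show K.θL ^ (j : ℕ) ∈ _
  rw [show K.θL = K.πL θ₀ + algebraMap F₀ FL θ₀ by rw [πL, sub_add_cancel], add_pow]
  refine Submodule.sum_mem _ fun m hm => ?_
  rw [Finset.mem_range] at hm
  rw [mul_assoc, mul_comm, ← map_pow, ← map_natCast (algebraMap F₀ FL), ← map_mul,
    ← Algebra.smul_def]
  exact Submodule.smul_mem _ _ (Submodule.subset_span ⟨⟨m, by omega⟩, rfl⟩)

/-- The powers of the shifted generator as a basis. -/
def basis : Module.Basis (Fin p) F₀ FL :=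
  basisOfTopLeSpanOfCardEqFinrank _ (K.span_π θ₀) (by rw [Fintype.card_fin, K.finrank_eq])

theorem basis_apply (j : Fin p) : K.basis θ₀ j = K.πL θ₀ ^ (j : ℕ) := by
  rw [basis, coe_basisOfTopLeSpanOfCardEqFinrank]

theorem pow_eq_of_coe (c : Fin p → F₀)
    (h : (K.θ - θ₀) ^ p = (p : F) * ∑ j : Fin p, (c j : F) * (K.θ - θ₀) ^ (j : ℕ)) :
    K.πL θ₀ ^ p = (p : FL) * ∑ j, c j • K.basis θ₀ j := by
  refine Subtype.ext ?_
  rw [SubmonoidClass.coe_pow, coe_πL, h, MulMemClass.coe_mul, IntermediateField.coe_sum]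
  congr 1
  refine Finset.sum_congr rfl fun j _ => ?_
  rw [basis_apply]
  rfl

end KummerSetup

/-- The equation of `θ - θ₀`. -/
theorem sub_pow_prime {R : Type*} [CommRing R] {p : ℕ} (hp : p.Prime) (θ θ₀ : R) (c : ℕ → R)
    (h0 : (p : R) * c 0 = θ ^ p - θ₀ ^ p)
    (hc : ∀ j, j ≠ 0 → c j = -((p.choose j / p : ℕ) : R) * θ₀ ^ (p - j)) :
    (θ - θ₀) ^ p = (p : R) * ∑ j : Fin p, c j * (θ - θ₀) ^ (j : ℕ) := by
  have hθ : θ ^ p = ∑ m ∈ Finset.range p, (θ - θ₀) ^ m * θ₀ ^ (p - m) * (p.choose m : R) +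
      (θ - θ₀) ^ p := by
    conv_lhs => rw [show θ = θ - θ₀ + θ₀ by rw [sub_add_cancel], add_pow, Finset.sum_range_succ]
    simp
  rw [Fin.sum_univ_eq_sum_range (fun j => c j * (θ - θ₀) ^ j) p, Finset.mul_sum,
    show (θ - θ₀) ^ p =
      θ ^ p - ∑ m ∈ Finset.range p, (θ - θ₀) ^ m * θ₀ ^ (p - m) * (p.choose m : R) by
      rw [hθ]; ring,
    eq_comm, eq_sub_iff_add_eq, ← Finset.sum_add_distrib, Finset.sum_eq_single 0]
  · rw [← mul_assoc, h0]
    simp
  · intro m hm hm0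
    rw [Finset.mem_range] at hm
    obtain ⟨d, hd⟩ := hp.dvd_choose_self hm0 hm
    rw [hc m hm0, hd, Nat.mul_div_cancel_left _ hp.pos, Nat.cast_mul]
    ring
  · intro h
    exact absurd (Finset.mem_range.mpr hp.pos) h

end Fermat.Agent.LevelP

end
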