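import Fermat.Agent.LevelP.Kummer
import Fermat.Agent.LevelP.KummerBasis
import Fermat.Agent.LevelP.Inst.Concrete
import Fermat.Agent.LevelP.Inst.Affine

/-!
# The functions fixed by the stabiliser of a Kummer generator

The functions on `X₀(M p)` fixed by the stabiliser of `θ` in inertia form an extension of degree
`p` of the functions fixed by inertia, with basis the powers of `π = θ - θ₀`, and
`π ^ p = p * Σ c_j π ^ j` with constants `c_j` making it a `RamExt`.
-/

set_option autoImplicit false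
set_option linter.unusedSectionVars false

noncomputable section

open IsLocalRing ModularCurve AlgebraicCurve Fermat.Agent.SemistableRed

namespace Fermat.Agent.LevelP

open FlatJ0
open scoped Fermat.Agent.Reduction

local notation "Ω" => AlgebraicClosure ℚ
local notation "G_ℚ" => (AlgebraicClosure ℚ) ≃ₐ[ℚ] (AlgebraicClosure ℚ)

variable {A : ValuationSubring Ω} {M p : ℕ} [NeZero M] [NeZero p] [Fact p.Prime]
  [CharP (ResidueField A) p] [IsAlgClosed (ResidueField A)] (S : Setting A M p) (K : KummerGen A p)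

local notation "gal" => arithmeticGalois (L := AlgebraicClosure ℚ) (modularFunctionFieldFull (M * p))
local notation "cst" => algebraMap Ω (modularFunctionFieldBar (M * p))

include S in
theorem isOver_of_setting : IsOver A p := ⟨S.prime, S.above⟩

/-- The coefficient action as a homomorphism to the ring automorphisms. -/
def galRing : G_ℚ →* (modularFunctionFieldBar (M * p) ≃+* modularFunctionFieldBar (M * p)) where
  toFun σ := SemilinearAut.toRingAut (gal σ)
  map_one' := by rw [map_one]; rfl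
  map_mul' σ τ := by rw [map_mul]; rfl

theorem galRing_const (σ : G_ℚ) (c : Ω) : galRing σ (cst c) = cst (σ c) :=
  SemilinearAut.commutes (gal σ) c

theorem mem_F₀_iff {f : modularFunctionFieldBar (M * p)} :
    f ∈ (descent S).F₀ ↔ ∀ σ ∈ A.inertiaSubgroupIn ℚ, galRing σ f = f :=
  ⟨fun h σ hσ => h _ ⟨σ, hσ, rfl⟩, by rintro h _ ⟨σ, hσ, rfl⟩; exact h σ hσ⟩

theorem cst_mem_F₀ {c : Ω} (h : ∀ σ ∈ A.inertiaSubgroupIn ℚ, σ c = c) : cst c ∈ (descent S).F₀ :=
  const_mem_fixed_iff.mpr h

/-- The functions fixed by the stabiliser of `θ`. -/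
def KummerGen.fixedField :
    IntermediateField (descent S).F₀ (modularFunctionFieldBar (M * p)) :=
  (fixedSubfield {τ | ∃ σ ∈ K.H, galRing σ = τ}).toIntermediateField fun x => by
    rintro _ ⟨σ, hσ, rfl⟩
    exact (mem_F₀_iff S).mp x.2 σ hσ.1

set_option synthInstance.maxHeartbeats 100000 in
/-- Shortcut: the functions fixed by inertia inside those fixed by the stabiliser. -/
@[reducible] instance KummerGen.algebraFixedField : Algebra (descent S).F₀ (K.fixedField S) :=
  inferInstance

/-- Shortcut: the module structure of the same extension. -/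
@[reducible] instance KummerGen.moduleFixedField : Module (descent S).F₀ (K.fixedField S) :=
  Algebra.toModule

/-- Shortcut: the scalar action of the same extension. -/
@[reducible] instance KummerGen.smulFixedField : SMul (descent S).F₀ (K.fixedField S) :=
  Algebra.toSMul

theorem KummerGen.mem_fixedField {f : modularFunctionFieldBar (M * p)} :
    f ∈ K.fixedField S ↔ ∀ σ ∈ K.H, galRing σ f = f :=
  ⟨fun h σ hσ => h _ ⟨σ, hσ, rfl⟩, by rintro h _ ⟨σ, hσ, rfl⟩; exact h σ hσ⟩

theorem KummerGen.cst_mem {c : Ω} (h : ∀ σ ∈ K.H, σ c = c) : cst c ∈ K.fixedField S :=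
  (K.mem_fixedField S).mpr fun σ hσ => by rw [galRing_const, h σ hσ]

theorem KummerGen.θ_mem : cst K.θ ∈ K.fixedField S := K.cst_mem S fun _ hσ => hσ.2

/-- A system of representatives is permuted by inertia, modulo the stabiliser. -/
theorem KummerGen.exists_perm (hp : p.Prime) {ζ : Ω} (hζ : IsPrimitiveRoot ζ p) {σ : ℕ → G_ℚ}
    (hσ : ∀ i, σ i ∈ A.inertiaSubgroupIn ℚ) (hσe : ∀ i, σ i K.θ = ζ ^ i * K.θ) {τ : G_ℚ}
    (hτ : τ ∈ A.inertiaSubgroupIn ℚ) :
    ∃ f : ℕ → ℕ, Set.InjOn f (Finset.range p) ∧ (Finset.range p).image f = Finset.range p ∧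
      ∀ i, (σ (f i))⁻¹ * (τ * σ i) ∈ K.H := by
  have : NeZero p := ⟨hp.ne_zero⟩
  have key : ∀ i, ∃ j < p, τ (σ i K.θ) = σ j K.θ := fun i => by
    obtain ⟨j, hj, hje⟩ := hζ.eq_pow_of_pow_eq_one
      (show (τ (σ i K.θ) / K.θ) ^ p = 1 by
        rw [div_pow, ← map_pow, ← map_pow, K.fix_pow _ (hσ i), K.fix_pow _ hτ,
          div_self (pow_ne_zero _ K.θ_ne)])
    exact ⟨j, hj, by rw [hσe j, hje, div_mul_cancel₀ _ K.θ_ne]⟩
  choose f hf hfe using key
  have hinj : Set.InjOn f (Finset.range p) := by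
    intro i hi j hj h
    have h2 := τ.injective (show τ (σ i K.θ) = τ (σ j K.θ) by rw [hfe, hfe, h])
    rw [hσe, hσe] at h2
    exact hζ.pow_inj (Finset.mem_range.mp hi) (Finset.mem_range.mp hj)
      (mul_right_cancel₀ K.θ_ne h2)
  refine ⟨f, hinj, Finset.eq_of_subset_of_card_le (Finset.image_subset_iff.mpr fun i _ =>
    Finset.mem_range.mpr (hf i)) (by rw [Finset.card_image_of_injOn hinj]), fun i => ?_⟩
  refine ⟨mul_mem (inv_mem (hσ _)) (mul_mem hτ (hσ i)), (σ (f i)).injective ?_⟩
  rw [← AlgEquiv.mul_apply, ← mul_assoc, mul_inv_cancel, one_mul, AlgEquiv.mul_apply, hfe]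

theorem KummerGen.exists_setup :
    ∃ T : KummerSetup (galRing (M := M) (p := p)) p (descent S).F₀ (K.fixedField S),
      T.θ = cst K.θ := by
  have hp : p.Prime := Fact.out
  obtain ⟨ζ, hζ⟩ := HasEnoughRootsOfUnity.exists_primitiveRoot Ω p
  choose σ hσ hσe using fun i => K.exists_move (isOver_of_setting S) hζ i
  exact ⟨{
    I := A.inertiaSubgroupIn ℚ
    H := K.H
    ζ := cst ζ
    θ := cst K.θ
    g := σ
    mem_F₀ := fun _ => mem_F₀_iff S
    mem_FL := fun _ => K.mem_fixedField S
    prime := hp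
    cast_ne := by rw [← map_natCast cst]; exact (map_ne_zero _).mpr (Nat.cast_ne_zero.mpr hp.ne_zero)
    prim := hζ.map_of_injective (algebraMap Ω _).injective
    θ_ne := (map_ne_zero _).mpr K.θ_ne
    θ_mem := K.θ_mem S
    g_mem := hσ
    g_θ := fun i => by rw [galRing_const, hσe, map_mul, map_pow]
    g_zero := ⟨hσ 0, by rw [hσe, pow_zero, one_mul]⟩
    perm := fun τ hτ => K.exists_perm hp hζ hσ hσe hτ }, rfl⟩

/-- A choice of `KummerSetup`. -/
def KummerGen.setup : KummerSetup (galRing (M := M) (p := p)) p (descent S).F₀ (K.fixedField S) :=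
  (K.exists_setup S).choose

theorem KummerGen.setup_θ : (K.setup S).θ = cst K.θ := (K.exists_setup S).choose_spec

/-- `θ₀` as a function fixed by inertia. -/
def KummerGen.θ₀F : (descent S).F₀ := ⟨cst K.θ₀, cst_mem_F₀ S K.fix₀⟩

/-- The uniformiser `θ - θ₀`. -/
def KummerGen.πF : K.fixedField S := (K.setup S).πL (K.θ₀F S)

theorem KummerGen.coe_πF :
    ((K.πF S : K.fixedField S) : modularFunctionFieldBar (M * p)) = cst (K.θ - K.θ₀) := by
  rw [KummerGen.πF, KummerSetup.coe_πL, K.setup_θ, map_sub]; rfl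

/-- The coefficients of the equation of `π`, as constants. -/
def KummerGen.coef (j : ℕ) : Ω :=
  if j = 0 then (K.θ ^ p - K.θ₀ ^ p) / p else -((p.choose j / p : ℕ) : Ω) * K.θ₀ ^ (p - j)

theorem KummerGen.coef_fixed (j : ℕ) : ∀ σ ∈ A.inertiaSubgroupIn ℚ, σ (K.coef j) = K.coef j := by
  intro σ hσ
  rw [KummerGen.coef]
  split_ifs
  · rw [map_div₀, map_natCast, map_sub, K.fix_pow σ hσ, map_pow, K.fix₀ σ hσ]
  · rw [map_mul, map_neg, map_natCast, map_pow, K.fix₀ σ hσ]

theorem KummerGen.ord_coef_zero (hA : IsOver A p) :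
    K.coef 0 ≠ 0 ∧ K.coef 0 ∈ A ∧ ord A p (K.coef 0) = 0 := by
  have he : K.coef 0 = (K.θ ^ p - K.θ₀ ^ p) * (p : Ω)⁻¹ := by
    rw [KummerGen.coef, if_pos rfl, div_eq_mul_inv]
  have hne : K.coef 0 ≠ 0 := by
    rw [he]; exact mul_ne_zero K.quot_ne (inv_ne_zero hA.natCast_ne_zero)
  have hord : ord A p (K.coef 0) = 0 := by
    have h := hA.ord_mul hne hA.natCast_ne_zero
    rw [he, mul_assoc, inv_mul_cancel₀ hA.natCast_ne_zero, mul_one, K.ord_quot, hA.ord_p] at h
    rw [he]
    linarith
  exact ⟨hne, (hA.mem_iff hne).mpr hord.ge, hord⟩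

theorem KummerGen.coef_mem (hA : IsOver A p) (j : ℕ) : K.coef j ∈ A := by
  by_cases h : j = 0
  · exact h ▸ (K.ord_coef_zero hA).2.1
  · rw [KummerGen.coef, if_neg h]
    exact mul_mem (neg_mem (natCast_mem _ _)) (pow_mem K.mem₀ _)

/-- The coefficients as fixed functions. -/
def KummerGen.coefF (j : ℕ) : (descent S).F₀ := ⟨cst (K.coef j), cst_mem_F₀ S (K.coef_fixed j)⟩

theorem KummerGen.pow_eq :
    K.πF S ^ p = (p : K.fixedField S) *
      ∑ j : Fin p, K.coefF S j • (K.setup S).basis (K.θ₀F S) j := by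
  refine (K.setup S).pow_eq_of_coe _ _ ?_
  rw [K.setup_θ]
  refine sub_pow_prime (c := fun j => cst (K.coef j)) Fact.out _ _ ?_ fun j hj => ?_
  · show _ = cst K.θ ^ p - cst K.θ₀ ^ p
    rw [← map_natCast cst, ← map_mul, KummerGen.coef, if_pos rfl,
      mul_div_cancel₀ _ (Nat.cast_ne_zero.mpr (NeZero.ne p)), map_sub, map_pow, map_pow]
  · show cst _ = _ * cst K.θ₀ ^ _
    rw [KummerGen.coef, if_neg hj, map_mul, map_neg, map_natCast, map_pow]

theorem KummerGen.coefF_mem_W (j : ℕ) : K.coefF S j ∈ (descent S).W := by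
  have := isFunctionField_level (M * p)
  have := S.isFunctionField_C
  exact (descent S).W_mem (K.coef_mem (isOver_of_setting S) j) _

theorem KummerGen.coefF_int (j : ℕ) (i : Fin 2) :
    S.splitModel.Int i (cst (K.coef j)) ∧ S.splitModel.red i (cst (K.coef j)) =
      algebraMap (ResidueField A) (modularFunctionFieldFullC (ResidueField A) M)
        (residue A ⟨K.coef j, K.coef_mem (isOver_of_setting S) j⟩) :=
  Descent.int_const (S := S.splitModel) (K.coef_mem (isOver_of_setting S) j) i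

theorem KummerGen.coefF_red (j : ℕ) (i : Fin 2) :
    K.coefF S j ∈ (descent S).glueData.Int i ∧
      (descent S).glueData.redF i (K.coefF S j) =
        algebraMap (ResidueField A) (modularFunctionFieldFullC (ResidueField A) M)
          (residue A ⟨K.coef j, K.coef_mem (isOver_of_setting S) j⟩) :=
  ⟨(K.coefF_int S j i).1, ((descent S).glueData_redF (f := K.coefF S j) (K.coefF_int S j i).1).trans
    (K.coefF_int S j i).2⟩

theorem KummerGen.residue_coef_ne {j : ℕ} (hj : j = 0 ∨ j = 1) (hA : IsOver A p) :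
    residue A ⟨K.coef j, K.coef_mem hA j⟩ ≠ 0 := by
  intro h
  rw [residue_eq_zero_iff, ← ValuationSubring.coe_mem_nonunits_iff] at h
  change K.coef j ∈ A.nonunits at h
  rcases hj with rfl | rfl
  · have h0 := (hA.nonunit_iff (K.ord_coef_zero hA).1).mp h
    rw [(K.ord_coef_zero hA).2.2] at h0
    exact lt_irrefl _ h0
  · have hp : p.Prime := Fact.out
    rw [show K.coef 1 = -(K.θ₀ ^ (p - 1)) by
      simp [KummerGen.coef, Nat.choose_one_right, Nat.div_self hp.pos]] at h
    have h0 := (hA.nonunit_iff (neg_ne_zero.mpr (pow_ne_zero _ K.θ₀_ne))).mp h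
    rw [hA.ord_neg, hA.ord_pow K.θ₀_ne, K.unit₀, mul_zero] at h0
    exact lt_irrefl _ h0

/-- The wildly ramified extension of the inertia field. -/
def KummerGen.ramExt : RamExt (descent S).glueData (K.fixedField S) where
  π := K.πF S
  basis := (K.setup S).basis (K.θ₀F S)
  basis_eq := (K.setup S).basis_apply (K.θ₀F S)
  c j := K.coefF S j
  c_mem i j := (K.coefF_red S j i).1
  γ0 := residue A ⟨K.coef 0, K.coef_mem (isOver_of_setting S) 0⟩
  γ1 := residue A ⟨K.coef 1, K.coef_mem (isOver_of_setting S) 1⟩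
  γ0_ne := K.residue_coef_ne (Or.inl rfl) (isOver_of_setting S)
  γ1_ne := K.residue_coef_ne (Or.inr rfl) (isOver_of_setting S)
  red_c0 i := (K.coefF_red S 0 i).2
  red_c1 i := (K.coefF_red S 1 i).2
  pow_eq := K.pow_eq S

theorem KummerGen.ramExt_c_mem (j : Fin p) : (K.ramExt S).c j ∈ (descent S).W := K.coefF_mem_W S j

theorem KummerGen.ramExt_π :
    (((K.ramExt S).π : K.fixedField S) : modularFunctionFieldBar (M * p)) = cst (K.θ - K.θ₀) :=
  K.coe_πF S

end Fermat.Agent.LevelP

end
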