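import Fermat.Agent.EigenRep.AttachedResidual
import Fermat.Agent.Chebotarev.BrauerNesbitt
import Fermat.Agent.BigImage.BaseChange
import Fermat.Agent.EllFrobenius.Rat
import Fermat.Agent.LevelRaising.GaloisModel
import Fermat.Agent.Mazur.EndGame.Model

/-!
# Fixed `p`-torsion points of `J₀(N)` from fixed points of a modular `E[p]`

If `E[p]` is irreducible and its Frobenius traces are the eigenvalues of a mod `p` Hecke
eigenvector in `J₀(N)[p] ⊗ K`, then by Brauer–Nesbitt `E[p] ⊗ K` embeds equivariantly in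
`J₀(N)[p] ⊗ K`; so any set of Galois elements fixing a nonzero point of `E[p]` fixes a nonzero
point of `J₀(N)[p]`.
-/

set_option autoImplicit false

noncomputable section

namespace Fermat.Agent.LevelP

open ModularCurve AlgebraicCurve Matrix Polynomial Fermat.Agent.EigenRep
open scoped WeierstrassCurve.Affine

local notation "Qbar" => AlgebraicClosure ℚ

section LinearAlgebra

/-- A linear system over `F` with a nonzero solution over an extension has one over `F`. -/
theorem exists_fixed_vec {F K : Type*} [Field F] [Field K] [Algebra F K] {d : ℕ} {J : Type*}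
    (A : J → Matrix (Fin d) (Fin d) F) {w : Fin d → K} (hw : w ≠ 0)
    (h : ∀ i, (A i).map (algebraMap F K) *ᵥ w = w) :
    ∃ v : Fin d → F, v ≠ 0 ∧ ∀ i, A i *ᵥ v = v := by
  obtain ⟨k, hk⟩ := Function.ne_iff.mp hw
  obtain ⟨f, hf⟩ : ∃ f : Module.Dual F K, f (w k) ≠ 0 := by
    by_contra! hh
    exact hk ((Module.forall_dual_apply_eq_zero_iff F _).mp hh)
  refine ⟨f ∘ w, fun h0 => hf (congrFun h0 k), fun i => funext fun j => ?_⟩
  have := congrArg f (congrFun (h i) j)
  simpa [Matrix.mulVec, dotProduct, map_sum, ← Algebra.smul_def] using this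

variable {G : Type*} {K : Type*} [Field K]

/-- A spanning family of `2×2` matrices is not simultaneously diagonalisable. -/
theorem not_diagonal_of_span (N₁ : G → Matrix (Fin 2) (Fin 2) K) (D : G → Fin 2 → K)
    (u : (Matrix (Fin 2) (Fin 2) K)ˣ)
    (h : ∀ g, (u : Matrix (Fin 2) (Fin 2) K) * N₁ g = Matrix.diagonal (D g) * u)
    (hspan : Submodule.span K (Set.range N₁) = ⊤) : False := by
  set U : Matrix (Fin 2) (Fin 2) K := ↑u with hU
  set V : Matrix (Fin 2) (Fin 2) K := ↑u⁻¹ with hV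
  have key : ∀ M ∈ Submodule.span K (Set.range N₁), (U * M * V) 0 1 = 0 := fun M hM => by
    induction hM using Submodule.span_induction with
    | mem x hx =>
      obtain ⟨g, rfl⟩ := hx
      rw [h g, mul_assoc, u.mul_inv, mul_one]
      simp
    | zero => simp
    | add a b _ _ ha hb => simp [mul_add, add_mul, ha, hb]
    | smul c a _ ha => simp [ha]
  have := key (V * Matrix.single 0 1 1 * U) (hspan ▸ Submodule.mem_top)
  rw [show U * (V * Matrix.single 0 1 1 * U) * V =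
      U * V * Matrix.single 0 1 1 * (U * V) by noncomm_ring, hU, hV, u.mul_inv, one_mul,
    mul_one] at this
  simp at this

/-- Spanning descends along field maps. -/
theorem span_map_eq_top {F : Type*} [Field F] (φ : F →+* K) (N₀ : G → Matrix (Fin 2) (Fin 2) F)
    (h : Submodule.span F (Set.range N₀) = ⊤) :
    Submodule.span K (Set.range fun g => (N₀ g).map φ) = ⊤ := by
  set S := Submodule.span K (Set.range fun g => (N₀ g).map φ)
  have key : ∀ X ∈ Submodule.span F (Set.range N₀), X.map φ ∈ S := fun X hX => by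
    induction hX using Submodule.span_induction with
    | mem x hx => obtain ⟨g, rfl⟩ := hx; exact Submodule.subset_span ⟨g, rfl⟩
    | zero => simp [S]
    | add a b _ _ ha hb => simpa [Matrix.map_add _ (map_add φ)] using S.add_mem ha hb
    | smul c a _ ha =>
      convert S.smul_mem (φ c) ha using 1
      ext i j; simp
  refine eq_top_iff.mpr fun M _ => ?_
  rw [Matrix.matrix_eq_sum_single M]
  refine S.sum_mem fun i _ => S.sum_mem fun j _ => ?_
  convert S.smul_mem (M i j) (key (Matrix.single i j 1) (h ▸ Submodule.mem_top)) using 1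
  simp [Matrix.map_single]

/-- Brauer–Nesbitt: a nonzero representation with the quadratic relation of an absolutely
irreducible plane representation contains that representation. -/
theorem exists_intertwiner {H : Type*} [Group H] [IsAlgClosed K] {V : Type*} [AddCommGroup V]
    [Module K V] [FiniteDimensional K V] [Nontrivial V] (ρ : H →* Module.End K V) (ε : H →* Kˣ)
    (t : H → K) (hrel : ∀ g, ρ g * ρ g - t g • ρ g + (ε g : K) • 1 = 0)
    (N₁ : H →* Matrix (Fin 2) (Fin 2) K) (htr₁ : ∀ g, Matrix.trace (N₁ g) = t g)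
    (hspan₁ : Submodule.span K (Set.range N₁) = ⊤) :
    ∃ Φ : (Fin 2 → K) →ₗ[K] V, Function.Injective Φ ∧ ∀ g c, ρ g (Φ c) = Φ (N₁ g *ᵥ c) := by
  rcases exists_line_or_plane ρ ε t hrel with ⟨v, hv, hline⟩ | ⟨W, hW2, hW, hcp⟩
  · let ψ := lineChar ρ hv hline
    have hψ : ∀ g, ρ g v = (ψ g : K) • v := lineChar_spec ρ hv hline
    obtain ⟨u, hu⟩ := Chebotarev.exists_conj_of_trace_eq N₁ (diagRep ψ ε) (fun g => by
      rw [htr₁, t_eq_of_line ρ ε t hrel hv ψ hψ g]
      simp [diagRep, Matrix.trace_diagonal, Fin.sum_univ_two]) hspan₁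
    exact (not_diagonal_of_span N₁ _ u hu hspan₁).elim
  let bW := Module.finBasisOfFinrankEq K W hW2
  let ρW : H →* Module.End K W :=
    { toFun := fun g => (ρ g).restrict (hW g)
      map_one' := by ext x; simp
      map_mul' := fun g k => by ext x; simp }
  let N₂ : H →* Matrix (Fin 2) (Fin 2) K :=
    (LinearMap.toMatrixAlgEquiv bW).toAlgHom.toMonoidHom.comp ρW
  obtain ⟨u, hu⟩ := Chebotarev.exists_conj_of_trace_eq N₁ N₂ (fun g => by
    rw [htr₁, Matrix.trace_eq_neg_charpoly_coeff]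
    erw [LinearMap.charpoly_toMatrix (ρW g) bW, hcp g]
    simp [coeff_X_pow, coeff_C]) hspan₁
  refine ⟨W.subtype ∘ₗ bW.equivFun.symm.toLinearMap ∘ₗ
    Matrix.mulVecLin (u : Matrix (Fin 2) (Fin 2) K), ?_, fun g c => ?_⟩
  · refine W.injective_subtype.comp (bW.equivFun.symm.injective.comp fun c c' h => ?_)
    have h' := congrArg ((↑u⁻¹ : Matrix (Fin 2) (Fin 2) K) *ᵥ ·) h
    simp only [Matrix.mulVecLin_apply, mulVec_mulVec, u.inv_mul, one_mulVec] at h'
    exact h'
  · refine congrArg Subtype.val (a₁ := ρW g (bW.equivFun.symm ((u : Matrix (Fin 2) (Fin 2) K) *ᵥ c)))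
      (bW.equivFun.injective ?_)
    show ⇑(bW.repr (ρW g _)) = _
    rw [← LinearMap.toMatrix_mulVec_repr bW bW]
    show N₂ g *ᵥ bW.equivFun _ = bW.equivFun (bW.equivFun.symm _)
    rw [LinearEquiv.apply_symm_apply, LinearEquiv.apply_symm_apply, mulVec_mulVec, ← hu,
      ← mulVec_mulVec]
    rfl

end LinearAlgebra

variable {N p : ℕ} [NeZero N] [Fact p.Prime]

/-- An eigenspace of `J₀(N)[p] ⊗ K` with the traces of an irreducible `E[p]` gives, for every
set of Galois elements fixing a nonzero point of `E[p]`, a nonzero point of `J₀(N)[p]` fixed by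
that set. -/
theorem exists_fixed_jZero (hp2 : p ≠ 2) (I : RepInputs N p) {K : Type} [Field K] [CharP K p]
    [IsAlgClosed K] (S : Finset ℕ) (a : Nat.Primes → K)
    (hne : ∃ v, v ≠ 0 ∧ v ∈ eigenSub I.model (↑S : Set ℕ) a)
    (E : WeierstrassCurve ℚ) [E.IsElliptic]
    (hirr : WeierstrassCurve.Affine.Point.GaloisRepIsIrreducible (K := Qbar) ℚ E p)
    (htr : ∀ (ℓ : ℕ) (hℓ : ℓ.Prime), ℓ ∉ S → ¬ ℓ ∣ N * p → ∀ A : ValuationSubring Qbar,
      A.LiesOverPrime ℓ → ∀ σ : Qbar ≃ₐ[ℚ] Qbar, A.IsFrobeniusAt σ ℓ →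
        ZMod.castHom dvd_rfl K (WeierstrassCurve.Affine.Point.galoisTrace ℚ E p σ) = a ⟨ℓ, hℓ⟩)
    (R : Set (Qbar ≃ₐ[ℚ] Qbar)) (P : Submodule.torsionBy ℤ (E⁄Qbar).Point (p : ℤ)) (hP : P ≠ 0)
    (hfix : ∀ σ ∈ R, σ • P = P) :
    ∃ x : JZero N, x ≠ 0 ∧ p • x = 0 ∧ ∀ σ ∈ R, σ • x = x := by
  classical
  have hp : p.Prime := Fact.out
  have := EllTorsion.moduleFinite_torsionBy_rat E p
  let b := Module.finBasisOfFinrankEq (ZMod p) _ (EllTorsion.finrank_torsionBy_rat E p)
  let φ : ZMod p →+* K := ZMod.castHom dvd_rfl K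
  let ρE := WeierstrassCurve.Affine.Point.galoisRepModuleEnd (K := Qbar) ℚ E p
  let N₀ : (Qbar ≃ₐ[ℚ] Qbar) →* Matrix (Fin 2) (Fin 2) (ZMod p) :=
    (LinearMap.toMatrixAlgEquiv b).toAlgHom.toMonoidHom.comp ρE
  let N₁ : (Qbar ≃ₐ[ℚ] Qbar) →* Matrix (Fin 2) (Fin 2) K :=
    φ.mapMatrix.toMonoidHom.comp N₀
  have hspan₁ : Submodule.span K (Set.range N₁) = ⊤ := by
    refine span_map_eq_top φ N₀ ?_
    exact DefRing.span_range_eq_top_of_isAbsolutelyIrreducible (EllTorsion.residualRep E p)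
      (BigImage.residual_isAbsolutelyIrreducible hp2 hirr) b
  let t : (Qbar ≃ₐ[ℚ] Qbar) → K := fun g =>
    φ (WeierstrassCurve.Affine.Point.galoisTrace ℚ E p g)
  have htr₁ : ∀ g, Matrix.trace (N₁ g) = t g := fun g => by
    simp only [t, WeierstrassCurve.Affine.Point.galoisTrace_def]
    rw [LinearMap.trace_eq_matrix_trace (ZMod p) b]
    exact (AddMonoidHom.map_trace φ.toAddMonoidHom (N₀ g)).symm
  -- the eigenspace
  let ι := toCharP p K
  let V := eigenSub I.model (↑S : Set ℕ) a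
  obtain ⟨v₀, hv₀, hv₀V⟩ := hne
  have : Nontrivial V := ⟨⟨v₀, hv₀V⟩, 0, fun h => hv₀ (congrArg Subtype.val h)⟩
  let ρ : (Qbar ≃ₐ[ℚ] Qbar) →* Module.End K V :=
    { toFun := fun g => (galEnd I.model ι g).restrict
        fun v hv => galEnd_mem_eigenSub I.model ι I.equivariant g hv
      map_one' := by ext v; simp
      map_mul' := fun g k => by ext v; simp }
  let ε : (Qbar ≃ₐ[ℚ] Qbar) →* Kˣ := (Units.map ι.toMonoidHom).comp (epsilonPadic p)
  have hrel : ∀ g, ρ g * ρ g - t g • ρ g + (ε g : K) • 1 = 0 := by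
    intro g
    obtain ⟨L₁, hL₁, H₁⟩ := exists_level I 1
    obtain ⟨L₂, hL₂, H₂⟩ :=
      EllTorsion.galoisFactorsThroughFiniteLevel_galoisRepModuleEnd E hp.ne_zero
    have hL := IntermediateField.finiteDimensional_sup L₁ L₂
    obtain ⟨ℓ, hℓ, hℓS, A, hA, σ, hσ, hg⟩ := I.dense (L₁ ⊔ L₂) hL g (S ∪ (N * p).primeFactors)
    rw [Finset.mem_union, not_or] at hℓS
    have hd : ¬ ℓ ∣ N * p := fun h => hℓS.2 (Nat.mem_primeFactors.mpr
      ⟨hℓ, h, mul_ne_zero (NeZero.ne N) hp.ne_zero⟩)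
    have hτ := inv_mul_fixes hg
    have hgσ : g = σ * (σ⁻¹ * g) := (mul_inv_cancel_left σ g).symm
    obtain ⟨hg₁, hg₂⟩ := H₁ _ fun x hx => hτ x (le_sup_left (a := L₁) (b := L₂) hx)
    have hg₃ : ρE (σ⁻¹ * g) = 1 := H₂ _ fun x hx => hτ x (le_sup_right (a := L₁) (b := L₂) hx)
    have e1 : ρ g = ρ σ := by
      ext v : 2
      show galEnd I.model ι g v = galEnd I.model ι σ v
      rw [galEnd_apply, galEnd_apply, map_eq_of_matMod_one ι (y := galMat I.model σ) ?_]
      rw [hgσ, map_mul, map_mul, hg₁, mul_one]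
    have e2 : ε g = ε σ := Units.ext (map_eq_of_toZModPow_one ι
      (by rw [hgσ, map_mul, Units.val_mul, map_mul, hg₂, mul_one]))
    have e3 : t g = a ⟨ℓ, hℓ⟩ := by
      rw [← htr ℓ hℓ hℓS.1 hd A hA σ hσ]
      simp only [t, WeierstrassCurve.Affine.Point.galoisTrace_def]
      congr 2
      show ρE g = ρE σ
      rw [hgσ, map_mul, hg₃, mul_one]
    have hεℓ : (ε σ : K) = ℓ := by
      show ι _ = _
      rw [epsilon_frobenius hℓ (fun h => hd (h ▸ dvd_mul_left p N)) hA hσ, map_natCast]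
    rw [e1, e2, e3, hεℓ]
    ext v : 2
    simpa [ρ] using! galEnd_frobenius I.model ι I.es I.equivariant hℓ (by simpa using hℓS.1) hd
      hA hσ v.2
  obtain ⟨Φ, hΦ, hΦρ⟩ := exists_intertwiner ρ ε t hrel N₁ htr₁ hspan₁
  let c : Fin 2 → K := φ ∘ b.repr P
  have hc : c ≠ 0 := fun h => hP <| b.repr.injective <| by
    rw [map_zero]
    exact Finsupp.ext fun i => φ.injective (by simpa [c] using congrFun h i)
  let y : V := Φ c
  have hy : y ≠ 0 := fun h => hc (hΦ (h.trans (map_zero Φ).symm))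
  have hyfix : ∀ σ ∈ R, ρ σ y = y := fun σ hσ => by
    have hc₁ : N₁ σ *ᵥ c = c := by
      show (N₀ σ).map φ *ᵥ c = c
      have h0 : N₀ σ *ᵥ b.repr P = b.repr P := by
        show LinearMap.toMatrix b b (ρE σ) *ᵥ _ = _
        rw [LinearMap.toMatrix_mulVec_repr]
        exact congrArg (fun Q => ⇑(b.repr Q)) (hfix σ hσ)
      funext i
      conv_rhs => rw [show c i = φ ((N₀ σ *ᵥ b.repr P) i) by rw [h0]; rfl]
      exact (RingHom.map_mulVec φ (N₀ σ) _ i).symm
    rw [show y = Φ c from rfl, hΦρ, hc₁]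
  -- descent to `ZMod p`
  let φ₁ : ZMod (p ^ 1) →+* K := ZMod.castHom (dvd_pow_self p one_ne_zero) K
  let := φ₁.toAlgebra
  have : Fact (p ^ 1).Prime := ⟨by rwa [pow_one]⟩
  have hι : ∀ z : ℤ_[p], ι z = φ₁ (PadicInt.toZModPow 1 z) := fun z => by
    rw [map_eq_of_toZModPow_one ι (y := ((PadicInt.toZModPow 1 z).val : ℤ_[p]))
      (by rw [map_natCast, ZMod.natCast_zmod_val]), map_natCast, ← map_natCast φ₁,
      ZMod.natCast_zmod_val]
  have hw : (y : Fin I.model.d → K) ≠ 0 := fun h => hy (Subtype.ext h)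
  obtain ⟨v, hv, hvfix⟩ := exists_fixed_vec (fun σ : R => levelMat I.model 1 σ.1) hw (fun σ => by
    have h1 : galEnd I.model ι σ.1 y = y :=
      congrArg Subtype.val (hyfix σ.1 σ.2)
    rw [galEnd_apply] at h1
    convert h1 using 2
    ext i j
    simp only [Matrix.map_apply, hι, RingHom.algebraMap_toAlgebra]
    rw [← matMod_galMat, matMod_apply])
  let x := (I.model.e 1).symm v
  have hx : (x : JZero N) ≠ 0 := fun h => hv <| by
    have : x = 0 := Subtype.ext h
    simpa [x] using congrArg (I.model.e 1) this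
  refine ⟨x, hx, ?_, fun σ hσ => ?_⟩
  · have := Pic0.mem_torsion.mp x.2
    rw [natCast_zsmul] at this
    exact (congrArg (· • (x : JZero N)) (pow_one p)).symm.trans this
  · have h1 : JZero.torsionGaloisRep N (p ^ 1) σ x = x := (I.model.e 1).injective <| by
      rw [← levelMat_mulVec]
      simpa [x] using hvfix ⟨σ, hσ⟩
    exact (JZero.coe_torsionGaloisRep_apply ..).symm.trans (congrArg Subtype.val h1)

/-- The same from residual modularity of an integral model. -/
theorem exists_fixed_jZero_of_modular (hp2 : p ≠ 2) (I : RepInputs N p)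
    (E : WeierstrassCurve ℚ) [E.IsElliptic] {W : WeierstrassCurve ℤ} (hW : W.IsIntegralModelOf E)
    (hirr : WeierstrassCurve.Affine.Point.GaloisRepIsIrreducible (K := Qbar) ℚ E p)
    (hmod : W.IsResiduallyModularOfLevel p N)
    (R : Set (Qbar ≃ₐ[ℚ] Qbar)) {Q : (E⁄Qbar).Point} (hQ : Q ≠ 0) (hpQ : p • Q = 0)
    (hfix : ∀ σ ∈ R, σ • Q = Q) :
    ∃ x : JZero N, x ≠ 0 ∧ p • x = 0 ∧ ∀ σ ∈ R, σ • x = x := by
  classical
  have hp : p.Prime := Fact.out
  obtain ⟨g, 𝔪, hg, h𝔪, hp𝔪, hcongr⟩ := hmod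
  let K := integralClosure ℤ ℂ ⧸ 𝔪
  let : Field K := Ideal.Quotient.field 𝔪
  have : IsAlgClosed K := isAlgClosed_quotient 𝔪
  have : CharP K p := by
    refine (CharP.charP_iff_prime_eq_zero hp).mpr ?_
    rw [← map_natCast (Ideal.Quotient.mk 𝔪)]
    exact Ideal.Quotient.eq_zero_iff_mem.mpr hp𝔪
  obtain ⟨C, hC⟩ := hW
  have hE' : (W.map (Int.castRingHom ℚ)).IsElliptic := hC ▸ inferInstance
  have hΔ : W.Δ ≠ 0 := fun h0 => hE'.isUnit.ne_zero (by
    rw [WeierstrassCurve.map_Δ, h0, map_zero])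
  obtain ⟨e, he⟩ := Mazur.EndGame.exists_equiv_of_vc E (W.map (Int.castRingHom ℚ)) C hC
  obtain ⟨f, hf⟩ := exists_eigenHom I.model hg
  let fK := (Ideal.Quotient.mk 𝔪).comp f
  let a : Nat.Primes → K := fun ℓ => fK (matGen _ ⟨ℓ, Set.notMem_empty _⟩)
  obtain ⟨v, hv, hvV⟩ := exists_eigenvector_family I ∅ fK a fun _ => rfl
  have hpeQ : p • e Q = 0 := by rw [← map_nsmul, hpQ, map_zero]
  refine exists_fixed_jZero hp2 I W.Δ.natAbs.primeFactors a
    ⟨v, hv, (mem_eigenSub I.model).mpr fun ℓ _ =>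
      (mem_eigenSub I.model).mp hvV ℓ (Set.notMem_empty _)⟩
    (W.map (Int.castRingHom ℚ))
    (LevelRaising.galoisRepIsIrreducible_of_variableChange hC hirr) ?_ R
    ⟨e Q, (Submodule.mem_torsionBy_iff _ _).mpr (by rw [natCast_zsmul]; exact hpeQ)⟩
    (fun h => hQ (e.injective ((congrArg Subtype.val h).trans (map_zero e).symm)))
    fun σ hσ => Subtype.ext ((he σ Q).symm.trans (congrArg e (hfix σ hσ)))
  intro ℓ hℓ hℓS hd A hA σ hσ
  have : Fact ℓ.Prime := ⟨hℓ⟩
  have hℓp : ℓ ≠ p := fun h => hd (h ▸ dvd_mul_left p N)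
  have hgood : W.IsGoodPrimeFor ℓ := fun h => hℓS (Nat.mem_primeFactors.mpr
    ⟨hℓ, Int.natCast_dvd.mp h, Int.natAbs_ne_zero.mpr hΔ⟩)
  obtain ⟨b, hb, hbm⟩ := hcongr ℓ hℓ hgood (fun h => hd (h.mul_right p)) hℓp
  rw [EllFrobenius.galoisTrace_eq_apOfModel W ℓ p hℓp hgood A σ hA hσ, map_intCast,
    ← map_intCast (Ideal.Quotient.mk 𝔪)]
  refine (Ideal.Quotient.eq.mpr ?_).symm
  convert hbm using 2
  exact Subtype.ext ((hf ⟨⟨ℓ, hℓ⟩, Set.notMem_empty _⟩).trans hb.symm)

end Fermat.Agent.LevelP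

end
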