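import Fermat.Agent.LevelP.Inst.SeriesDescent

/-!
# Spaces of series stable under a set of automorphisms

A finite-dimensional space of series stable under the coefficient action of a set of automorphisms
is spanned by its fixed members.
-/

set_option autoImplicit false

noncomputable section

namespace Fermat.Agent.LevelP

local notation "Ω" => AlgebraicClosure ℚ

theorem le_span_fixed_of_set (A : ValuationSubring Ω) (H : Set (Ω ≃ₐ[ℚ] Ω))
    {F : IntermediateField Ω (LaurentSeries Ω)} (V : Submodule Ω F) [FiniteDimensional Ω V]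
    (hV : ∀ σ ∈ H, ∀ v ∈ V, ∃ w ∈ V,
      ∀ n, (w : LaurentSeries Ω).coeff n = σ ((v : LaurentSeries Ω).coeff n)) :
    V ≤ Submodule.span Ω {v | v ∈ V ∧
      ∀ σ ∈ H, ∀ n, σ ((v : LaurentSeries Ω).coeff n) = (v : LaurentSeries Ω).coeff n} := by
  classical
  obtain ⟨s, hs⟩ := exists_separating V
  let ev : V →ₗ[Ω] (s → Ω) :=
    { toFun := fun v n => ((v : F) : LaurentSeries Ω).coeff n
      map_add' := fun a b => funext fun n => by simp
      map_smul' := fun c a => funext fun n => coeff_smul_coe c a.1 n }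
  have hev : Function.Injective ev := (injective_iff_map_eq_zero ev).mpr fun v h =>
    Subtype.ext (hs v v.2 fun n hn => congrFun h ⟨n, hn⟩)
  obtain ⟨t, v, -, hdual, hexp, -⟩ := FlatJ0.exists_eval_basis A ev hev
  have hfix : ∀ l, ∀ σ ∈ H, ∀ n, σ (((v l : F) : LaurentSeries Ω).coeff n) =
      ((v l : F) : LaurentSeries Ω).coeff n := fun l σ hσ n => by
    obtain ⟨w, hw, hwn⟩ := hV σ hσ (v l) (v l).2
    have hc : ∀ k, ev ⟨w, hw⟩ (t k) = ev (v l) (t k) := fun k => by
      show (w : LaurentSeries Ω).coeff _ = _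
      rw [hwn, show ((v l : F) : LaurentSeries Ω).coeff (t k : ℤ) = ev (v l) (t k) from rfl,
        hdual l k]
      split_ifs <;> simp
    have he : (⟨w, hw⟩ : V) = v l := by
      rw [hexp ⟨w, hw⟩, hexp (v l)]
      simp only [hc]
    rw [← hwn, show w = (v l : F) from congrArg Subtype.val he]
  intro u hu
  have h := congrArg Subtype.val (hexp ⟨u, hu⟩)
  simp only [Submodule.coe_sum, Submodule.coe_smul] at h
  rw [h]
  exact Submodule.sum_mem _ fun l _ =>
    Submodule.smul_mem _ _ (Submodule.subset_span ⟨(v l).2, hfix l⟩)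

end Fermat.Agent.LevelP

end
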