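import Fermat.Agent.LevelP.Ext
import Mathlib.RingTheory.Valuation.ValuationSubring
import Mathlib.RingTheory.Noetherian.Basic

/-!
# Local data of a model with two rational components

`Geometry` lists what the rigidity theorem uses about a model with two components crossing at
finitely many pairs of points: local rings over the base `W`, genus zero of the components and a
modular unit `w` with different valuations on the two components.
-/

set_option autoImplicit false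

noncomputable section

namespace Fermat.Agent.LevelP

/-- A place of degree one of `G` over `k`, with a chosen uniformiser. -/
structure DVPoint (k G : Type*) [Field k] [Field G] [Algebra k G] where
  O : Subring G
  algebraMap_mem : ∀ c : k, algebraMap k G c ∈ O
  ev : O →+* k
  ev_algebraMap : ∀ c : k, ev ⟨algebraMap k G c, algebraMap_mem c⟩ = c
  unif : G
  unif_mem : unif ∈ O
  unif_ne_zero : unif ≠ 0
  ev_eq_zero : ∀ x : O, ev x = 0 ↔ ∃ y ∈ O, (x : G) = unif * y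
  inv_mem : ∀ x : O, ev x ≠ 0 → (x : G)⁻¹ ∈ O
  normalise : ∀ g : G, g ≠ 0 → ∃ (m : ℤ) (h : g * unif ^ m ∈ O), ev ⟨_, h⟩ ≠ 0

namespace DVPoint

variable {k G : Type*} [Field k] [Field G] [Algebra k G] (P : DVPoint k G)

/-- The order at the point (`0` at `0`). -/
def ord (g : G) : ℤ :=
  open Classical in if h : g = 0 then 0 else -(P.normalise g h).choose

/-- `g` is a unit at the point times the uniformiser. -/
def IsUnif (g : G) : Prop := ∃ z : P.O, P.ev z ≠ 0 ∧ g = P.unif * z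

/-- The value extended by zero. -/
def evF (g : G) : k := open Classical in if h : g ∈ P.O then P.ev ⟨g, h⟩ else 0

end DVPoint

variable {p : ℕ} {F : Type*} [Field F] {k G : Type*} [Field k] [Field G] [Algebra k G]

/-- The local ring of a smooth point `P` of the component `i`. -/
structure SmoothData (D : GlueData p F k G) (W : Subring F) (i : Fin 2) (P : DVPoint k G) where
  A : Subring F
  W_le : W ≤ A
  le : A ≤ D.Int i
  noetherian : IsNoetherianRing A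
  fraction : ∀ f : F, ∃ x ∈ A, ∃ y ∈ A, y ≠ 0 ∧ f * y = x
  red_mem : ∀ f ∈ A, D.redF i f ∈ P.O
  surj : ∀ z ∈ P.O, ∃ f ∈ A, D.redF i f = z
  inv_mem : ∀ f ∈ A, P.evF (D.redF i f) ≠ 0 → f⁻¹ ∈ A
  ker : ∀ f ∈ A, D.redF i f = 0 → ∃ y ∈ A, f = p * y

/-- The local ring at a pair `P` (on the component `0`), `Q` (on the component `1`), with two
parameters `a`, `b` whose product is `p ^ e`. -/
structure PairData (D : GlueData p F k G) (W : Subring F) (P Q : DVPoint k G) (w : F) (kw : ℕ)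
    where
  A : Subring F
  W_le : W ≤ A
  le : ∀ i, A ≤ D.Int i
  noetherian : IsNoetherianRing A
  fraction : ∀ f : F, ∃ x ∈ A, ∃ y ∈ A, y ≠ 0 ∧ f * y = x
  red0_mem : ∀ f ∈ A, D.redF 0 f ∈ P.O
  red1_mem : ∀ f ∈ A, D.redF 1 f ∈ Q.O
  ev_eq : ∀ f ∈ A, P.evF (D.redF 0 f) = Q.evF (D.redF 1 f)
  surj : ∀ z ∈ P.O, ∀ z' ∈ Q.O, P.evF z = Q.evF z' →
    ∃ f ∈ A, D.redF 0 f = z ∧ D.redF 1 f = z'
  inv_mem : ∀ f ∈ A, P.evF (D.redF 0 f) ≠ 0 → f⁻¹ ∈ A
  ker : ∀ f ∈ A, D.redF 0 f = 0 → D.redF 1 f = 0 → ∃ y ∈ A, f = p * y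
  e : ℕ
  e_pos : 0 < e
  a : F
  b : F
  a_mem : a ∈ A
  b_mem : b ∈ A
  a_mul_b : a * b = (p : F) ^ e
  red0_a : P.IsUnif (D.redF 0 a)
  red1_a : D.redF 1 a = 0
  red0_b : D.redF 0 b = 0
  red1_b : Q.IsUnif (D.redF 1 b)
  w_mem : w ∈ A
  w_dual_mem : (p : F) ^ kw * w⁻¹ ∈ A

/-- The geometry of the model. -/
structure Geometry (D : GlueData p F k G) where
  ι : Type
  pt : ι → DVPoint k G
  const : ∀ g : G, (∀ P, g ∈ (pt P).O) → ∃ c : k, g = algebraMap k G c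
  exists_polar : ∀ g : G, (∀ P, ∃ z : G, g - z ^ p ∈ (pt P).O) →
    ∃ (z : G) (c : k), g = z ^ p + algebraMap k G c
  exists_root : ∀ g : G, g ≠ 0 → (∀ P, (p : ℤ) ∣ (pt P).ord g) → ∃ h : G, g = h ^ p
  degree : ∀ g : G, g ≠ 0 → ∀ s : Finset ι, (∀ P ∉ s, (p : ℤ) ∣ (pt P).ord g) →
    (p : ℤ) ∣ ∑ P ∈ s, (pt P).ord g
  W : Subring F
  W_surj : ∀ c : k, ∃ x ∈ W, ∀ i, x ∈ D.Int i ∧ D.redF i x = algebraMap k G c
  W_const : ∀ x ∈ W, ∃ c : k, ∀ i, x ∈ D.Int i ∧ D.redF i x = algebraMap k G c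
  surj : ∀ z : Fin 2 → G, ∃ f, ∀ i, f ∈ D.Int i ∧ D.redF i f = z i
  pairs : Finset (ι × ι)
  pairs_nonempty : pairs.Nonempty
  pairs_inj : ∀ x ∈ pairs, ∀ y ∈ pairs, x.2 = y.2 → x = y
  w : F
  kw : ℕ
  kw_not_dvd : ¬ p ∣ kw
  w_red0 : w ∈ D.Int 0 ∧ D.redF 0 w ≠ 0
  w_red1 : w * ((p : F) ^ kw)⁻¹ ∈ D.Int 1 ∧ D.redF 1 (w * ((p : F) ^ kw)⁻¹) ≠ 0
  w_sum : ¬ (p : ℤ) ∣ ∑ x ∈ pairs, (pt x.2).ord (D.redF 1 (w * ((p : F) ^ kw)⁻¹))
  pairData : ∀ x ∈ pairs, PairData D W (pt x.1) (pt x.2) w kw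
  smooth0 : ∀ P, (∀ x ∈ pairs, x.1 ≠ P) → SmoothData D W 0 (pt P)
  smooth1 : ∀ P, (∀ x ∈ pairs, x.2 ≠ P) → SmoothData D W 1 (pt P)

variable [Fact p.Prime] {D : GlueData p F k G} {FL : Type*} [Field FL] [Algebra F FL]

/-- At every valuation of `FL` which is trivial on the constants, `u` is a `p`-th power up to a
unit. -/
def LocallyPthPower (W : Subring F) (E : RamExt D FL) (u : FL) : Prop :=
  ∀ O : ValuationSubring FL, (∀ c ∈ W, algebraMap F FL c ∈ O) → E.π ∈ O → E.π⁻¹ ∈ O →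
    ∃ f : FL, f ≠ 0 ∧ f ^ p * u⁻¹ ∈ O ∧ u * (f ^ p)⁻¹ ∈ O

/-- The rigidity theorem: a function which is locally a `p`-th power is a constant times a `p`-th
power times a function congruent to `1` modulo `π ^ (p + 2)` on both components. -/
def Rigidity (D : GlueData p F k G) (Γ : Geometry D) (E : RamExt D FL) : Prop :=
  (p : F) ≠ 0 → (∀ j, E.c j ∈ Γ.W) → ∀ u : FL, u ≠ 0 → LocallyPthPower Γ.W E u →
    ∃ (m : ℤ) (c : Fin p → F) (h z : FL), (∀ j, c j ∈ Γ.W) ∧ (∑ j, c j • E.basis j) ≠ 0 ∧ h ≠ 0 ∧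
      (∀ i, E.IsIntL i z) ∧
      u = E.π ^ m * (∑ j, c j • E.basis j) * h ^ p * (1 + E.π ^ (p + 2) * z)

end Fermat.Agent.LevelP

end
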