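import Fermat.Agent.LevelP.PairSlope

/-!
# Exchange of the two components
-/

set_option autoImplicit false

noncomputable section

namespace Fermat.Agent.LevelP

variable {p : ℕ} [hp : Fact p.Prime] {F : Type*} [Field F] {k G : Type*} [Field k] [Field G]
  [Algebra k G] {D : GlueData p F k G} {FL : Type*} [Field FL] [Algebra F FL]

/-- The other component. -/
def otherComp (i : Fin 2) : Fin 2 := 1 - i

/-- The glue data with exchanged components. -/
def GlueData.swap (D : GlueData p F k G) : GlueData p F k G where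
  Int i := D.Int (otherComp i)
  red i := D.red (otherComp i)
  red_eq_zero i := D.red_eq_zero (otherComp i)
  inv_mem i := D.inv_mem (otherComp i)
  normalise i := D.normalise (otherComp i)

/-- The extension over the exchanged glue data. -/
def RamExt.swap (E : RamExt D FL) : RamExt D.swap FL where
  π := E.π
  basis := E.basis
  basis_eq := E.basis_eq
  c := E.c
  c_mem i := E.c_mem (otherComp i)
  γ0 := E.γ0
  γ1 := E.γ1
  γ0_ne := E.γ0_ne
  γ1_ne := E.γ1_ne
  red_c0 i := E.red_c0 (otherComp i)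
  red_c1 i := E.red_c1 (otherComp i)
  pow_eq := E.pow_eq

variable [CharP G p]

variable {W : Subring F} {P Q : DVPoint k G} {w : F} {kw : ℕ}

/-- The pair with exchanged components. -/
def PairData.swap (S : PairData D W P Q w kw) (hF : (p : F) ≠ 0) :
    PairData D.swap W Q P ((p : F) ^ kw * w⁻¹) kw where
  A := S.A
  W_le := S.W_le
  le i := S.le (otherComp i)
  noetherian := S.noetherian
  fraction := S.fraction
  red0_mem := S.red1_mem
  red1_mem := S.red0_mem
  ev_eq f hf := (S.ev_eq f hf).symm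
  surj z hz z' hz' h := by
    obtain ⟨f, hf, h0, h1⟩ := S.surj z' hz' z hz h.symm
    exact ⟨f, hf, h1, h0⟩
  inv_mem f hf h := S.inv_mem f hf (by rw [S.ev_eq f hf]; exact h)
  ker f hf h0 h1 := S.ker f hf h1 h0
  e := S.e
  e_pos := S.e_pos
  a := S.b
  b := S.a
  a_mem := S.b_mem
  b_mem := S.a_mem
  a_mul_b := by rw [mul_comm, S.a_mul_b]
  red0_a := S.red1_b
  red1_a := S.red0_b
  red0_b := S.red1_a
  red1_b := S.red0_a
  w_mem := S.w_dual_mem
  w_dual_mem := by
    rw [mul_inv_rev, inv_inv, mul_comm w, ← mul_assoc, mul_inv_cancel₀ (pow_ne_zero _ hF), one_mul]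
    exact S.w_mem

/-- Slopes at a pair, seen from the other component. -/
theorem pair_slope_swap (E : RamExt D FL) (S : PairData D W P Q w kw) (hF : (p : F) ≠ 0)
    (hc : ∀ j, E.c j ∈ S.A) {u : FL} (hu : u ≠ 0) (hloc : LocallyPthPower W E u) {v0 v1 : ℤ}
    {u0 u1 : FL}
    (hm0 : u0 ∈ E.intL 0) (hn0 : E.coordRed 0 u0 zeroF ≠ 0) (he0 : u = E.π ^ v0 * u0)
    (hm1 : u1 ∈ E.intL 1) (hn1 : E.coordRed 1 u1 zeroF ≠ 0) (he1 : u = E.π ^ v1 * u1) :
    P.evF (dlogRed E 0 u0) - Q.evF (dlogRed E 1 u1) =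
      (P.ord (E.coordRed 0 u0 zeroF) : k) * ((S.e : k) * E.γ1 / E.γ0) :=
  (pair_slope E.swap (S.swap hF) hc hu hloc hm1 hn1 he1 hm0 hn0 he0).2.2.2

end Fermat.Agent.LevelP

end
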