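import Fermat.Agent.LevelP.SmoothModel
import Fermat.Agent.LevelP.Swap

/-!
# The rigidity theorem

On a model with two rational components whose exponents at the pairs have nonvanishing degree, a
function which is locally a `p`-th power over the ramified extension is a constant times a `p`-th
power up to a congruence modulo `π ^ (p + 2)`.
-/

set_option autoImplicit false

noncomputable section

namespace Fermat.Agent.LevelP

variable {p : ℕ} [hp : Fact p.Prime] {F : Type*} [Field F] {k G : Type*} [Field k] [Field G]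
  [Algebra k G] [CharP G p] {D : GlueData p F k G} {FL : Type*} [Field FL] [Algebra F FL]

variable (Γ : Geometry D) (E : RamExt D FL)

theorem exists_scaled_lift (hsurj : ∀ z : Fin 2 → G, ∃ f, ∀ i, f ∈ D.Int i ∧ D.redF i f = z i)
    (d : ℤ) {g0 g1 : G} (h0 : g0 ≠ 0) :
    ∃ g : FL, g ≠ 0 ∧ (g ∈ E.intL 0 ∧ E.coordRed 0 g zeroF = g0) ∧
      (E.π ^ (-d) * g ∈ E.intL 1 ∧ E.coordRed 1 (E.π ^ (-d) * g) zeroF = g1) := by
  have cr : ∀ {i : Fin 2} (f : F),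
      E.coordRed i (algebraMap F FL f) zeroF = D.redF i f := fun f => by
    rw [RamExt.coordRed, E.repr_algebraMap, if_pos rfl]
  obtain ⟨X, hX⟩ := hsurj ![g0, 0]
  obtain ⟨Y, hY⟩ := hsurj ![0, g1]
  obtain ⟨e0, he0⟩ := hsurj ![1, 0]
  obtain ⟨e1, he1⟩ := hsurj ![0, 1]
  set N := d.natAbs + 1 with hN
  have m : ∀ {i : Fin 2} {f : F}, f ∈ D.Int i → algebraMap F FL f ∈ E.intL i :=
    fun h => E.algebraMap_mem h
  obtain ⟨y0, hy0, hy0e⟩ := E.exists_pi_mul (m (he0 1).1) (by rw [cr, (he0 1).2]; rfl)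
  obtain ⟨y1, hy1, hy1e⟩ := E.exists_pi_mul (m (he1 0).1) (by rw [cr, (he1 0).2]; rfl)
  set A := algebraMap F FL X * algebraMap F FL e0 ^ N
  set B := algebraMap F FL Y * algebraMap F FL e1 ^ N
  obtain ⟨c0, hc0⟩ : ∃ c : ℕ, (c : ℤ) = d + N - 1 := ⟨(d + N - 1).toNat, by omega⟩
  obtain ⟨c1, hc1⟩ : ∃ c : ℕ, (c : ℤ) = -d + N - 1 := ⟨(-d + N - 1).toNat, by omega⟩
  have hB : E.π ^ d * B = E.π * (E.π ^ c0 * (algebraMap F FL Y * y1 ^ N)) := by
    simp only [B, hy1e, mul_pow]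
    rw [← zpow_natCast E.π N, ← zpow_natCast E.π c0, hc0,
      show algebraMap F FL Y * (E.π ^ (N : ℤ) * y1 ^ N) =
        E.π ^ (N : ℤ) * (algebraMap F FL Y * y1 ^ N) by ring,
      ← mul_assoc, ← zpow_add₀ E.pi_ne_zero, show d + (N : ℤ) = 1 + (d + N - 1) by ring,
      zpow_add₀ E.pi_ne_zero, zpow_one]
    ring
  have hA : E.π ^ (-d) * A = E.π * (E.π ^ c1 * (algebraMap F FL X * y0 ^ N)) := by
    simp only [A, hy0e, mul_pow]
    rw [← zpow_natCast E.π N, ← zpow_natCast E.π c1, hc1,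
      show algebraMap F FL X * (E.π ^ (N : ℤ) * y0 ^ N) =
        E.π ^ (N : ℤ) * (algebraMap F FL X * y0 ^ N) by ring,
      ← mul_assoc, ← zpow_add₀ E.pi_ne_zero, show -d + (N : ℤ) = 1 + (-d + N - 1) by ring,
      zpow_add₀ E.pi_ne_zero, zpow_one]
    ring
  have hB0 : E.π ^ c0 * (algebraMap F FL Y * y1 ^ N) ∈ E.intL 0 :=
    mul_mem (E.pi_pow_mem _) (mul_mem (m (hY 0).1) (pow_mem hy1 _))
  have hA1 : E.π ^ c1 * (algebraMap F FL X * y0 ^ N) ∈ E.intL 1 :=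
    mul_mem (E.pi_pow_mem _) (mul_mem (m (hX 1).1) (pow_mem hy0 _))
  have hA0 : A ∈ E.intL 0 := mul_mem (m (hX 0).1) (pow_mem (m (he0 0).1) _)
  have hB1 : B ∈ E.intL 1 := mul_mem (m (hY 1).1) (pow_mem (m (he1 1).1) _)
  have hg0 : A + E.π ^ d * B ∈ E.intL 0 ∧ E.coordRed 0 (A + E.π ^ d * B) zeroF = g0 := by
    rw [hB]
    refine ⟨add_mem hA0 (mul_mem (E.pi_mem 0) hB0), ?_⟩
    rw [E.cr_add hA0 (mul_mem (E.pi_mem 0) hB0), E.cr_pi_mul hB0,
      E.cr_mul (m (hX 0).1) (pow_mem (m (he0 0).1) _), E.cr_pow (m (he0 0).1), cr, cr, (hX 0).2,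
      (he0 0).2]
    simp
  refine ⟨A + E.π ^ d * B, fun h => h0 ?_, hg0, ?_⟩
  · rw [← hg0.2, h]; simp [RamExt.coordRed, D.redF_zero]
  · rw [mul_add, ← mul_assoc (E.π ^ (-d)) (E.π ^ d) B, ← zpow_add₀ E.pi_ne_zero, neg_add_cancel, zpow_zero, one_mul, hA]
    refine ⟨add_mem (mul_mem (E.pi_mem 1) hA1) hB1, ?_⟩
    rw [E.cr_add (mul_mem (E.pi_mem 1) hA1) hB1, E.cr_pi_mul hA1,
      E.cr_mul (m (hY 1).1) (pow_mem (m (he1 1).1) _), E.cr_pow (m (he1 1).1), cr, cr, (hY 1).2,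
      (he1 1).2]
    simp

variable (hcW : ∀ j, E.c j ∈ Γ.W)

/-- The constants with coordinates in `W`. -/
abbrev constSub : Subring FL := coordSub E Γ.W hcW

theorem constSub_le_node {x : Γ.ι × Γ.ι} (hx : x ∈ Γ.pairs) {s : FL}
    (hs : s ∈ constSub Γ E hcW) :
    s ∈ (pairModel E (Γ.pairData x hx) fun j => (Γ.pairData x hx).W_le (hcW j)).M := by
  rw [← E.basis.sum_repr s]
  refine sum_mem fun j _ => ?_
  rw [Algebra.smul_def, E.basis_eq]
  refine mul_mem ?_ (pow_mem ?_ _)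
  · exact embF_mem E (Γ.pairData x hx) ((Γ.pairData x hx).W_le (hs j))
  · exact pi_mem_node E (Γ.pairData x hx)

/-- Approximate roots at every point of both components. -/
structure AllApprox (hF : (p : F) ≠ 0) (v : FL) : Prop where
  pair : ∀ (x : Γ.ι × Γ.ι) (hx : x ∈ Γ.pairs),
    ∃ f, (pairModel E (Γ.pairData x hx) fun j => (Γ.pairData x hx).W_le (hcW j)).Approx v f
  smooth0 : ∀ (P : Γ.ι) (h : ∀ x ∈ Γ.pairs, x.1 ≠ P),
    ∃ f, (smoothModel E (Γ.smooth0 P h) (fun j => (Γ.smooth0 P h).W_le (hcW j)) hF).Approx v f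
  smooth1 : ∀ (P : Γ.ι) (h : ∀ x ∈ Γ.pairs, x.2 ≠ P),
    ∃ f, (smoothModel E (Γ.smooth1 P h) (fun j => (Γ.smooth1 P h).W_le (hcW j)) hF).Approx v f

theorem LocalModel.Approx.scale {T : LocalModel E} {v v' s f : FL} (hs : s ∈ T.M) (hs0 : s ≠ 0)
    (hv : v = s * v') (h : T.Approx v f) : T.Approx v' f := by
  obtain ⟨X, hX, hf, N, hN⟩ := h
  refine ⟨X, hX, hf, N, ?_⟩
  convert mul_mem hN hs using 1
  rw [hv, mul_inv]
  field_simp

theorem LocalModel.Approx.root {T : LocalModel E} {v v' Z f : FL}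
    (hZ : ∀ i, Z ∈ E.intL i) (hv : v = (1 + E.π * Z) ^ p * v') (h : T.Approx v f) :
    T.Approx v' (f * (1 + E.π * Z)⁻¹) := by
  obtain ⟨X, hX, hf, N, hN⟩ := h
  obtain ⟨-, hne, -, -⟩ := E.one_add_pi_inv (hZ 0) (le_refl 1)
  rw [pow_one] at hne
  refine ⟨(X - Z) * (1 + E.π * Z)⁻¹, fun i hi => mul_mem (sub_mem (hX i hi) (hZ i))
    (by simpa using (E.one_add_pi_inv (hZ i) (le_refl 1)).2.2.1), ?_, N, ?_⟩
  · rw [hf]; field_simp; ring
  · convert hN using 1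
    rw [hv, mul_pow, inv_pow, mul_inv]
    ring

theorem split_step {K : ℕ} (hK : 1 ≤ K) {z m : FL} (hz : ∀ i, z ∈ E.intL i)
    (hm : ∀ i, m ∈ E.intL i ∧ E.coordRed i m zeroF = E.coordRed i z zeroF) :
    1 + E.π ^ K * m ≠ 0 ∧ ∃ z', (∀ i, z' ∈ E.intL i) ∧
      1 + E.π ^ K * z = (1 + E.π ^ K * m) * (1 + E.π ^ (K + 1) * z') := by
  have hne := (E.one_add_pi_inv (hm 0).1 hK).2.1
  refine ⟨hne, (z - m) * E.π⁻¹ * (1 + E.π ^ K * m)⁻¹, fun i => mul_mem ?_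
    (E.one_add_pi_inv (hm i).1 hK).2.2.1, ?_⟩
  · obtain ⟨y, hy, hye⟩ := E.exists_pi_mul (x := z - m) (sub_mem (hz i) (hm i).1)
      (by rw [E.cr_sub (hz i) (hm i).1, (hm i).2, sub_self])
    rw [hye, mul_comm E.π, mul_assoc, mul_inv_cancel₀ E.pi_ne_zero, mul_one]
    exact hy
  · have := E.pi_ne_zero
    rw [pow_succ]
    field_simp
    ring

include hcW in
theorem pair_not_dvd {x : Γ.ι × Γ.ι} (hx : x ∈ Γ.pairs) : ¬ p ∣ (Γ.pairData x hx).e ∧
    ((Γ.pairData x hx).e : ℤ) * (Γ.pt x.2).ord (D.redF 1 (Γ.w * ((p : F) ^ Γ.kw)⁻¹)) =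
      -(Γ.kw : ℤ) := by
  have h := pair_exponent E (Γ.pairData x hx) (fun j => (Γ.pairData x hx).W_le (hcW j))
    Γ.w_red0 Γ.w_red1
  refine ⟨fun hd => Γ.kw_not_dvd ?_, h⟩
  have h2 : (p : ℤ) ∣ -(Γ.kw : ℤ) := h ▸ (Int.natCast_dvd_natCast.mpr hd).mul_right _
  exact Int.natCast_dvd_natCast.mp (Int.dvd_neg.mp h2)

include hcW in
/-- One step of the congruence. -/
theorem congr_step (hF : (p : F) ≠ 0) (hperf : ∀ c : k, ∃ d, d ^ p = c) {K : ℕ} (hK : 1 ≤ K)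
    (hKp : K ≤ p + 1) {z : FL} (hz : ∀ i, z ∈ E.intL i)
    (hA : AllApprox Γ E hcW hF (1 + E.π ^ K * z)) :
    ∃ s ∈ constSub Γ E hcW, s ≠ 0 ∧ ∃ h, h ≠ 0 ∧ ∃ z', (∀ i, z' ∈ E.intL i) ∧
      1 + E.π ^ K * z = s * h ^ p * (1 + E.π ^ (K + 1) * z') ∧
      AllApprox Γ E hcW hF (1 + E.π ^ (K + 1) * z') := by
  classical
  set r : Fin 2 → G := fun i => E.coordRed i z zeroF
  have hp0 := hp.out.ne_zero
  have hloc0 : ∀ P, ∃ g : G, r 0 - g ^ p ∈ (Γ.pt P).O ∧ (K ≠ p → g = 0) := by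
    intro P
    by_cases h : ∀ x ∈ Γ.pairs, x.1 ≠ P
    · obtain ⟨f, hf⟩ := hA.smooth0 P h
      obtain ⟨r', g, hr', hg, he⟩ :=
        LocalModel.congr_reg _ hK hKp (fun i _ => hz i) hf
      refine ⟨g 0, ?_, fun hne => congrFun (hg hne) 0⟩
      rw [show r 0 = _ from he 0 rfl, add_sub_cancel_right]
      exact hr'
    · push Not at h
      obtain ⟨x, hx, rfl⟩ := h
      obtain ⟨f, hf⟩ := hA.pair x hx
      obtain ⟨r', g, hr', hg, he⟩ :=
        LocalModel.congr_reg _ hK hKp (fun i _ => hz i) hf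
      refine ⟨g 0, ?_, fun hne => congrFun (hg hne) 0⟩
      rw [show r 0 = _ from he 0 trivial, add_sub_cancel_right]
      exact hr'.1
  have hloc1 : ∀ P, ∃ g : G, r 1 - g ^ p ∈ (Γ.pt P).O ∧ (K ≠ p → g = 0) := by
    intro P
    by_cases h : ∀ x ∈ Γ.pairs, x.2 ≠ P
    · obtain ⟨f, hf⟩ := hA.smooth1 P h
      obtain ⟨r', g, hr', hg, he⟩ :=
        LocalModel.congr_reg _ hK hKp (fun i _ => hz i) hf
      refine ⟨g 1, ?_, fun hne => congrFun (hg hne) 1⟩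
      rw [show r 1 = _ from he 1 rfl, add_sub_cancel_right]
      exact hr'
    · push Not at h
      obtain ⟨x, hx, rfl⟩ := h
      obtain ⟨f, hf⟩ := hA.pair x hx
      obtain ⟨r', g, hr', hg, he⟩ :=
        LocalModel.congr_reg _ hK hKp (fun i _ => hz i) hf
      refine ⟨g 1, ?_, fun hne => congrFun (hg hne) 1⟩
      rw [show r 1 = _ from he 1 trivial, add_sub_cancel_right]
      exact hr'.2.1
  have hloc : ∀ i P, ∃ g : G, r i - g ^ p ∈ (Γ.pt P).O ∧ (K ≠ p → g = 0) := by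
    intro i
    obtain rfl | rfl : i = 0 ∨ i = 1 := by omega
    exacts [hloc0, hloc1]
  by_cases hKe : K = p
  · subst hKe
    have hroot : ∀ i, ∃ g : G, g ^ K = r i := by
      intro i
      obtain ⟨g, c, hgc⟩ := Γ.exists_polar (r i) fun P => ⟨(hloc i P).choose,
        (hloc i P).choose_spec.1⟩
      obtain ⟨d, hd⟩ := hperf c
      exact ⟨g + algebraMap k G d, by rw [add_pow_char, ← map_pow, hd, hgc]⟩
    choose g hg using hroot
    obtain ⟨Z0, hZ0⟩ := Γ.surj g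
    set Z := algebraMap F FL Z0
    have hZ : ∀ i, Z ∈ E.intL i ∧ E.coordRed i Z zeroF = g i := fun i =>
      ⟨E.algebraMap_mem (hZ0 i).1, by
        rw [RamExt.coordRed, E.repr_algebraMap, if_pos rfl, (hZ0 i).2]⟩
    set M := ((1 + E.π * Z) ^ K - 1) * (E.π ^ K)⁻¹
    have hMe : (1 + E.π * Z) ^ K = 1 + E.π ^ K * M := by
      simp only [M]; have := E.pi_ne_zero; field_simp; ring
    have hM : ∀ i, M ∈ E.intL i ∧ E.coordRed i M zeroF = E.coordRed i z zeroF := by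
      intro i
      obtain ⟨Y, hY, hYe⟩ := E.pow_one_add i 1 (hZ i).1
      rw [pow_one, one_mul, hMe] at hYe
      have hM' : M = Z ^ K + E.π * Y := by
        refine mul_left_cancel₀ (pow_ne_zero K E.pi_ne_zero) ?_
        rw [pow_succ] at hYe
        linear_combination hYe
      refine ⟨hM' ▸ add_mem (pow_mem (hZ i).1 _) (mul_mem (E.pi_mem i) hY), ?_⟩
      rw [hM', E.cr_add (pow_mem (hZ i).1 _) (mul_mem (E.pi_mem i) hY), E.cr_pi_mul hY, add_zero,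
        E.cr_pow (hZ i).1, (hZ i).2, hg]
    obtain ⟨hne, z', hz', hv⟩ := split_step E hK hz hM
    rw [← hMe] at hne hv
    refine ⟨1, one_mem _, one_ne_zero, 1 + E.π * Z, fun h => hne (by rw [h, zero_pow hp0]), z',
      hz', by rw [one_mul, hv], ⟨fun x hx => ?_, fun P h => ?_, fun P h => ?_⟩⟩
    · obtain ⟨f, hf⟩ := hA.pair x hx
      exact ⟨_, hf.root E (fun i => (hZ i).1) hv⟩
    · obtain ⟨f, hf⟩ := hA.smooth0 P h
      exact ⟨_, hf.root E (fun i => (hZ i).1) hv⟩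
    · obtain ⟨f, hf⟩ := hA.smooth1 P h
      exact ⟨_, hf.root E (fun i => (hZ i).1) hv⟩
  · have hreg : ∀ i P, r i ∈ (Γ.pt P).O := fun i P => by
      obtain ⟨g, hg, hg0⟩ := hloc i P
      simpa [hg0 hKe, zero_pow hp0] using hg
    choose c hc using fun i => Γ.const (r i) (hreg i)
    obtain ⟨x, hx⟩ := Γ.pairs_nonempty
    obtain ⟨f, hf⟩ := hA.pair x hx
    obtain ⟨r', g, hr', hg, he⟩ := LocalModel.congr_reg _ hK hKp (fun i _ => hz i) hf
    have hgz : ∀ i, r i = r' i := fun i => by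
      rw [show r i = _ from he i trivial, hg hKe, Pi.zero_apply, zero_pow hp0, add_zero]
    have hcc : c 0 = c 1 := by
      have h := hr'.2.2
      rwa [← hgz, ← hgz, hc, hc, DVPoint.evF_algebraMap, DVPoint.evF_algebraMap] at h
    obtain ⟨y, hy, hyr⟩ := Γ.W_surj (c 0)
    have hm : ∀ i, algebraMap F FL y ∈ E.intL i ∧
        E.coordRed i (algebraMap F FL y) zeroF = E.coordRed i z zeroF := fun i => by
      refine ⟨E.algebraMap_mem (hyr i).1, ?_⟩
      rw [RamExt.coordRed, E.repr_algebraMap, if_pos rfl, (hyr i).2,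
        show E.coordRed i z zeroF = algebraMap k G (c i) from hc i]
      obtain rfl | rfl : i = 0 ∨ i = 1 := by omega
      · rfl
      · rw [hcc]
    obtain ⟨hne, z', hz', hv⟩ := split_step E hK hz hm
    set s := 1 + E.π ^ K * algebraMap F FL y
    have hs : s ∈ constSub Γ E hcW :=
      add_mem (one_mem _) (mul_mem (pow_mem (pi_mem_coordSub E hcW) _)
        (algebraMap_coordSub E hcW hy))
    refine ⟨s, hs, hne, 1, one_ne_zero, z', hz', by rw [one_pow, mul_one, hv],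
      ⟨fun x hx => ?_, fun P h => ?_, fun P h => ?_⟩⟩
    · obtain ⟨f, hf⟩ := hA.pair x hx
      exact ⟨f, hf.scale E (constSub_le_node Γ E hcW hx hs) hne hv⟩
    · obtain ⟨f, hf⟩ := hA.smooth0 P h
      exact ⟨f, hf.scale E (fun j => (Γ.smooth0 P h).W_le (hs j)) hne hv⟩
    · obtain ⟨f, hf⟩ := hA.smooth1 P h
      exact ⟨f, hf.scale E (fun j => (Γ.smooth1 P h).W_le (hs j)) hne hv⟩

theorem loc_shift {W : Subring F} {u v h : FL} {m : ℤ} (hh : h ≠ 0)
    (huv : u = E.π ^ m * h ^ p * v) (hloc : LocallyPthPower W E u) : LocallyPthPower W E v := by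
  intro O hW hπ hπi
  obtain ⟨f, hf, h1, h2⟩ := hloc O hW hπ hπi
  have hz : ∀ j : ℤ, E.π ^ j ∈ O := fun j => by
    obtain ⟨d, rfl | rfl⟩ := Int.eq_nat_or_neg j
    · rw [zpow_natCast]; exact pow_mem hπ d
    · rw [zpow_neg, zpow_natCast, ← inv_pow]; exact pow_mem hπi d
  have hP : E.π ^ m ≠ 0 := zpow_ne_zero _ E.pi_ne_zero
  refine ⟨f * h⁻¹, mul_ne_zero hf (inv_ne_zero hh), ?_, ?_⟩
  · convert O.mul_mem _ _ h1 (hz m) using 1
    rw [huv, mul_pow, inv_pow]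
    field_simp
  · convert O.mul_mem _ _ h2 (hz (-m)) using 1
    rw [huv, zpow_neg, mul_pow, inv_pow]
    field_simp

include hcW in
/-- After a monomial and a `p`-th power the function is congruent to `1`. -/
theorem exists_normal (hF : (p : F) ≠ 0) {u : FL} (hu : u ≠ 0)
    (hloc : LocallyPthPower Γ.W E u) :
    ∃ (m : ℤ) (h v : FL), h ≠ 0 ∧ u = E.π ^ m * h ^ p * v ∧
      ∀ i, v ∈ E.intL i ∧ E.coordRed i v zeroF = 1 := by
  classical
  have := charP_k p k G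
  obtain ⟨v0, u0, hm0, hn0, he0⟩ := E.exists_normalise hF 0 hu
  obtain ⟨v1, u1, hm1, hn1, he1⟩ := E.exists_normalise hF 1 hu
  have hS := fun x hx => pair_slope E (Γ.pairData x hx)
    (fun j => (Γ.pairData x hx).W_le (hcW j)) hu hloc hm0 hn0 he0 hm1 hn1 he1
  have hS0 := fun P h => smooth_slope E (Γ.smooth0 P h) hF
    (fun j => (Γ.smooth0 P h).W_le (hcW j)) hu hloc hm0 hn0 he0
  have hS1 := fun P h => smooth_slope E (Γ.smooth1 P h) hF
    (fun j => (Γ.smooth1 P h).W_le (hcW j)) hu hloc hm1 hn1 he1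
  obtain ⟨h0, hh0⟩ := Γ.const (dlogRed E 0 u0) fun P => by
    by_cases h : ∀ x ∈ Γ.pairs, x.1 ≠ P
    · exact (hS0 P h).2
    · push Not at h
      obtain ⟨x, hx, rfl⟩ := h
      exact (hS x hx).2.1
  obtain ⟨h1, hh1⟩ := Γ.const (dlogRed E 1 u1) fun P => by
    by_cases h : ∀ x ∈ Γ.pairs, x.2 ≠ P
    · exact (hS1 P h).2
    · push Not at h
      obtain ⟨x, hx, rfl⟩ := h
      exact (hS x hx).2.2.1
  set wb := D.redF 1 (Γ.w * ((p : F) ^ Γ.kw)⁻¹)
  set m1 : Γ.ι → ℤ := fun P => (Γ.pt P).ord (E.coordRed 1 u1 zeroF)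
  set C := (h1 - h0) * E.γ0 / E.γ1 with hC
  have hrel : ∀ x (hx : x ∈ Γ.pairs), (m1 x.2 : k) * ((Γ.pairData x hx).e : k) = C := by
    intro x hx
    have h := (hS x hx).2.2.2
    rw [hh0, hh1, DVPoint.evF_algebraMap, DVPoint.evF_algebraMap] at h
    rw [hC, h, eta1]
    have := E.γ0_ne
    have := E.γ1_ne
    field_simp
    ring
  have hkw : (Γ.kw : k) ≠ 0 := fun h => Γ.kw_not_dvd ((CharP.cast_eq_zero_iff k p _).mp h)
  have hsum : (Γ.kw : k) * (∑ x ∈ Γ.pairs, (m1 x.2 : k)) +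
      C * ∑ x ∈ Γ.pairs, ((Γ.pt x.2).ord wb : k) = 0 := by
    rw [Finset.mul_sum, Finset.mul_sum, ← Finset.sum_add_distrib]
    refine Finset.sum_eq_zero fun x hx => ?_
    have h := congrArg (fun n : ℤ => (n : k)) (pair_not_dvd Γ E hcW hx).2
    push_cast at h
    linear_combination (m1 x.2 : k) * h - ((Γ.pt x.2).ord wb : k) * hrel x hx
  have hinj : ∀ x ∈ Γ.pairs, ∀ y ∈ Γ.pairs, x.2 = y.2 → x = y := Γ.pairs_inj
  have hdeg := Γ.degree (E.coordRed 1 u1 zeroF) hn1 (Γ.pairs.image Prod.snd) fun P hP =>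
    (hS1 P fun x hx h => hP (h ▸ Finset.mem_image_of_mem _ hx)).1
  rw [Finset.sum_image hinj] at hdeg
  have hm1s : (∑ x ∈ Γ.pairs, (m1 x.2 : k)) = 0 := by
    rw [← Int.cast_sum]; exact (CharP.intCast_eq_zero_iff k p _).mpr hdeg
  have hws : (∑ x ∈ Γ.pairs, ((Γ.pt x.2).ord wb : k)) ≠ 0 := by
    rw [← Int.cast_sum]
    exact fun h => Γ.w_sum ((CharP.intCast_eq_zero_iff k p _).mp h)
  have hC0 : C = 0 := by
    rw [hm1s, mul_zero, zero_add] at hsum
    exact (mul_eq_zero.mp hsum).resolve_right hws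
  have h10 : h1 = h0 := by
    rw [hC, div_eq_zero_iff, mul_eq_zero, sub_eq_zero] at hC0
    exact (hC0.resolve_right E.γ1_ne).resolve_right E.γ0_ne
  have he : ∀ x (hx : x ∈ Γ.pairs), ((Γ.pairData x hx).e : k) ≠ 0 := fun x hx h =>
    (pair_not_dvd Γ E hcW hx).1 ((CharP.cast_eq_zero_iff k p _).mp h)
  have hd1 : ∀ P, (p : ℤ) ∣ m1 P := by
    intro P
    by_cases h : ∀ x ∈ Γ.pairs, x.2 ≠ P
    · exact (hS1 P h).1
    · push Not at h
      obtain ⟨x, hx, rfl⟩ := h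
      exact (CharP.intCast_eq_zero_iff k p _).mp
        ((mul_eq_zero.mp ((hrel x hx).trans hC0)).resolve_right (he x hx))
  have hd0 : ∀ P, (p : ℤ) ∣ (Γ.pt P).ord (E.coordRed 0 u0 zeroF) := by
    intro P
    by_cases h : ∀ x ∈ Γ.pairs, x.1 ≠ P
    · exact (hS0 P h).1
    · push Not at h
      obtain ⟨x, hx, rfl⟩ := h
      have h := pair_slope_swap E (Γ.pairData x hx) hF
        (fun j => (Γ.pairData x hx).W_le (hcW j)) hu hloc hm0 hn0 he0 hm1 hn1 he1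
      rw [hh0, hh1, DVPoint.evF_algebraMap, DVPoint.evF_algebraMap, h10, sub_self] at h
      exact (CharP.intCast_eq_zero_iff k p _).mp ((mul_eq_zero.mp h.symm).resolve_right
        (div_ne_zero (mul_ne_zero (he x hx) E.γ1_ne) E.γ0_ne))
  obtain ⟨g0, hg0⟩ := Γ.exists_root _ hn0 hd0
  obtain ⟨g1, hg1⟩ := Γ.exists_root _ hn1 hd1
  obtain ⟨x, hx⟩ := Γ.pairs_nonempty
  obtain ⟨d, hd⟩ := (hS x hx).1
  have hg0n : g0 ≠ 0 := fun h => hn0 (by rw [hg0, h, zero_pow hp.out.ne_zero])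
  have hg1n : g1 ≠ 0 := fun h => hn1 (by rw [hg1, h, zero_pow hp.out.ne_zero])
  obtain ⟨g, hgn, hgl0, hgl1⟩ := exists_scaled_lift E Γ.surj d (g1 := g1) hg0n
  set v := u0 * (g ^ p)⁻¹
  have key : ∀ {i : Fin 2} {a b : FL} {r : G}, a ∈ E.intL i → b ∈ E.intL i →
      E.coordRed i a zeroF = r ^ p → E.coordRed i b zeroF = r → r ≠ 0 →
      a * (b ^ p)⁻¹ ∈ E.intL i ∧ E.coordRed i (a * (b ^ p)⁻¹) zeroF = 1 := by
    intro i a b r ha hb har hbr hr
    have hbp : E.coordRed i (b ^ p) zeroF = r ^ p := by rw [E.cr_pow hb, hbr]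
    have hbi := E.inv_mem_intL (pow_mem hb p) (by rw [hbp]; exact pow_ne_zero _ hr)
    have hb0 : b ^ p ≠ 0 := fun h => pow_ne_zero p hr (by
      rw [← hbp, h]; simp [RamExt.coordRed, D.redF_zero])
    refine ⟨mul_mem ha hbi, ?_⟩
    have h := E.cr_mul (pow_mem hb p) hbi
    rw [mul_inv_cancel₀ hb0, E.cr_one, hbp] at h
    rw [E.cr_mul ha hbi, har]
    exact h.symm
  refine ⟨v0, g, v, hgn, ?_, fun i => ?_⟩
  · rw [he0]
    simp only [v]
    field_simp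
  obtain rfl | rfl : i = 0 ∨ i = 1 := by omega
  · exact key hm0 hgl0.1 hg0 hgl0.2 hg0n
  · have hv : v = u1 * ((E.π ^ (-d) * g) ^ p)⁻¹ := by
      refine mul_left_cancel₀ (zpow_ne_zero v0 E.pi_ne_zero) ?_
      simp only [v]
      rw [← mul_assoc, ← he0, he1, mul_pow, ← zpow_natCast (E.π ^ (-d)) p, ← zpow_mul,
        mul_inv, ← zpow_neg, show v1 = v0 + (p : ℤ) * d by omega,
        zpow_add₀ E.pi_ne_zero, show -(-d * (p : ℤ)) = (p : ℤ) * d by ring]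
      ring
    rw [hv]
    exact key hm1 hgl1.1 hg1 hgl1.2 hg1n

/-- Rigidity. -/
theorem rigidity (hperf : ∀ c : k, ∃ d, d ^ p = c) : Rigidity D Γ E := by
  intro hF hcW u hu hloc
  obtain ⟨m, h, v, hh, huv, hv1⟩ := exists_normal Γ E hcW hF hu hloc
  have hvne : v ≠ 0 := fun h0 => by
    have := (hv1 0).2
    rw [h0] at this
    simp [RamExt.coordRed, D.redF_zero] at this
  have hlv := loc_shift E hh huv hloc
  have hA : AllApprox Γ E hcW hF v :=
    ⟨fun x hx => exists_approx_pair E _ _ hF (pair_not_dvd Γ E hcW hx).1 hvne hlv hv1,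
      fun P _ => exists_approx_smooth E _ _ hF hvne hlv (hv1 0),
      fun P _ => exists_approx_smooth E _ _ hF hvne hlv (hv1 1)⟩
  have main : ∀ K : ℕ, K ≤ p + 1 → ∃ s ∈ constSub Γ E hcW, s ≠ 0 ∧ ∃ g, g ≠ 0 ∧ ∃ z,
      (∀ i, z ∈ E.intL i) ∧ v = s * g ^ p * (1 + E.π ^ (K + 1) * z) ∧
        AllApprox Γ E hcW hF (1 + E.π ^ (K + 1) * z) := by
    intro K
    induction K with
    | zero =>
      intro _
      have hz : ∀ i, (v - 1) * E.π⁻¹ ∈ E.intL i := fun i => by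
        obtain ⟨y, hy, hye⟩ := E.exists_pi_mul (x := v - 1) (sub_mem (hv1 i).1 (one_mem _))
          (by rw [E.cr_sub (hv1 i).1 (one_mem _), (hv1 i).2, E.cr_one, sub_self])
        rw [hye, mul_comm E.π, mul_assoc, mul_inv_cancel₀ E.pi_ne_zero, mul_one]
        exact hy
      have hve : 1 + E.π ^ 1 * ((v - 1) * E.π⁻¹) = v := by
        have := E.pi_ne_zero
        field_simp
        ring
      refine ⟨1, one_mem _, one_ne_zero, 1, one_ne_zero, _, hz, ?_, ?_⟩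
      · rw [zero_add, one_pow, one_mul, one_mul, hve]
      · rwa [zero_add, hve]
    | succ K ih =>
      intro hK
      obtain ⟨s, hs, hs0, g, hg, z, hz, hv, hA'⟩ := ih (by omega)
      obtain ⟨s', hs', hs'0, g', hg', z', hz', hv', hA''⟩ :=
        congr_step Γ E hcW hF hperf (by omega) (by omega) hz hA'
      refine ⟨s * s', mul_mem hs hs', mul_ne_zero hs0 hs'0, g * g', mul_ne_zero hg hg', z', hz',
        ?_, hA''⟩
      rw [hv, hv', mul_pow]
      ring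
  obtain ⟨s, hs, hs0, g, hg, z, hz, hv, -⟩ := main (p + 1) le_rfl
  refine ⟨m, fun j => E.basis.repr s j, h * g, z, hs, by rwa [E.basis.sum_repr],
    mul_ne_zero hh hg, fun i => hz i, ?_⟩
  rw [huv, hv, E.basis.sum_repr, mul_pow]
  ring

end Fermat.Agent.LevelP

end
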