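import Fermat.Agent.LevelP.FixedField
import Fermat.Agent.LevelP.FixedSpan
import Fermat.Agent.LevelP.ExtendPlace
import Fermat.Agent.LevelP.Rigid

/-!
# A function with divisor divisible by `p` is locally a `p`-th power

Every valuation of the field fixed by the stabiliser which is trivial on the constants is trivial
or comes from a place of `X₀(M p)`, where fixed functions of every order exist.
-/

set_option autoImplicit false
set_option linter.unusedSectionVars false

noncomputable section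

open IsLocalRing ModularCurve AlgebraicCurve Fermat.Agent.SemistableRed
  Fermat.Agent.FunctionFieldRR

namespace Fermat.Agent.LevelP

open FlatJ0
open scoped Fermat.Agent.Reduction

local notation "Ω" => AlgebraicClosure ℚ
local notation "G_ℚ" => (AlgebraicClosure ℚ) ≃ₐ[ℚ] (AlgebraicClosure ℚ)

variable {A : ValuationSubring Ω} {M p : ℕ} [NeZero M] [NeZero p] [Fact p.Prime]
  [CharP (ResidueField A) p] [IsAlgClosed (ResidueField A)] (S : Setting A M p) (K : KummerGen A p)

local notation "gal" => arithmeticGalois (L := AlgebraicClosure ℚ) (modularFunctionFieldFull (M * p))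
local notation "cst" => algebraMap Ω (modularFunctionFieldBar (M * p))
local notation "FF" => modularFunctionFieldBar (M * p)

theorem galRing_coeff (σ : G_ℚ) (f : FF) (n : ℤ) :
    ((galRing σ f : FF) : LaurentSeries Ω).coeff n = σ ((f : LaurentSeries Ω).coeff n) := rfl

/-- The divisor of a `p`-th power class with fixed function is invariant. -/
theorem invariant_of_fixed {u : FF} {D : Divisor Ω FF} {n : ℕ} (hn : n ≠ 0)
    (hord : ∀ P, P.ord u = (n : ℤ) * D P) {σ : G_ℚ} (hfix : galRing σ u = u) (P : Place Ω FF) :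
    D (gal σ • P) = D P := by
  have h := SemilinearAut.ord_smul (gal σ) P u
  rw [show gal σ • u = u from hfix, hord, hord] at h
  exact mul_left_cancel₀ (Nat.cast_ne_zero.mpr hn) h

/-- A fixed function of exact order in the space of an invariant divisor of large degree. -/
theorem KummerGen.exists_exact {D : Divisor Ω FF}
    (hD : ∀ σ ∈ K.H, ∀ P, D (gal σ • P) = D P)
    (hdeg : S.splitModel.rrBound + 1 ≤ Divisor.degree D) (P : Place Ω FF) :
    ∃ φ ∈ K.fixedField S, φ ≠ 0 ∧ P.ord φ = -D P := by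
  have := isFunctionField_level (M * p)
  have hstable : ∀ σ ∈ (K.H : Set G_ℚ), ∀ v ∈ riemannRochSpace D, ∃ w ∈ riemannRochSpace D,
      ∀ n, ((w : FF) : LaurentSeries Ω).coeff n = σ ((v : LaurentSeries Ω).coeff n) := by
    intro σ hσ v hv
    refine ⟨galRing σ v, Fermat.Agent.SemistableRed.mem_rrs_iff.mpr ?_, galRing_coeff σ v⟩
    refine ((Fermat.Agent.SemistableRed.mem_rrs_iff).mp hv).imp
      (fun e => by rw [e, map_zero]) fun h Q => ?_
    obtain ⟨Q', rfl⟩ := MulAction.surjective (gal σ) Q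
    rw [hD σ hσ, show galRing σ v = gal σ • v from rfl, SemilinearAut.ord_smul]
    exact h Q'
  have hspan := le_span_fixed_of_set A (K.H : Set G_ℚ) (riemannRochSpace D) hstable
  obtain ⟨φ, ⟨hφ, hfix⟩, hne⟩ : ∃ φ, (φ ∈ riemannRochSpace D ∧
      ∀ σ ∈ (K.H : Set G_ℚ), ∀ n, σ (((φ : FF) : LaurentSeries Ω).coeff n) =
        (φ : LaurentSeries Ω).coeff n) ∧
      φ ∉ riemannRochSpace (D - Finsupp.single P 1) := by
    by_contra! hall
    have hle := Submodule.finrank_mono (hspan.trans (Submodule.span_le.mpr fun φ hφ => hall φ hφ))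
    have hd : Divisor.degree (D - Finsupp.single P 1) = Divisor.degree D - 1 := by
      rw [map_sub, Divisor.degree_single, deg_eq_one P]; simp
    have h1 := S.splitModel.rrF D (by omega)
    have h2 := S.splitModel.rrF (D - Finsupp.single P 1) (by omega)
    omega
  have hφ0 : φ ≠ 0 := fun h => hne (h ▸ zero_mem _)
  have hall := ((Fermat.Agent.SemistableRed.mem_rrs_iff).mp hφ).resolve_left hφ0
  refine ⟨φ, (K.mem_fixedField S).mpr fun σ hσ => Subtype.ext (HahnSeries.ext (funext fun n => ?_)),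
    hφ0, le_antisymm ?_ (hall P)⟩
  · rw [galRing_coeff, hfix σ hσ n]
  · by_contra hgt
    push Not at hgt
    refine hne (Fermat.Agent.SemistableRed.mem_rrs_iff.mpr (Or.inr fun Q => ?_))
    rw [Finsupp.sub_apply]
    by_cases hQ : Q = P
    · subst hQ; rw [Finsupp.single_eq_same]; omega
    · rw [Finsupp.single_eq_of_ne hQ, sub_zero]; exact hall Q

theorem KummerGen.exists_order {u : FF} {D : Divisor Ω FF}
    (hord : ∀ P, P.ord u = (p : ℤ) * D P) (hfix : ∀ σ ∈ K.H, galRing σ u = u) (P : Place Ω FF) :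
    ∃ f ∈ K.fixedField S, f ≠ 0 ∧ P.ord f = D P := by
  have := isFunctionField_level (M * p)
  set b := max 0 (max (S.splitModel.rrBound + 1 + Divisor.degree D) (S.splitModel.rrBound + 1))
  set m := b.toNat
  have hH : 1 ≤ Divisor.degree S.splitModel.H := by
    have h1 := S.splitModel.degree_H
    have h2 := S.splitModel.degree_C_pos
    omega
  have hm : b ≤ Divisor.degree ((m : ℤ) • S.splitModel.H) := by
    rw [map_zsmul, smul_eq_mul]
    have : (0 : ℤ) ≤ b := le_max_left _ _
    rw [show (m : ℤ) = b from Int.toNat_of_nonneg this]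
    nlinarith
  have hHinv : ∀ σ, ∀ Q, ((m : ℤ) • S.splitModel.H) (gal σ • Q) =
      ((m : ℤ) • S.splitModel.H) Q := fun σ Q => by
    rw [Finsupp.smul_apply, Finsupp.smul_apply]
    exact congrArg _ (S.polesH_galois σ Q)
  obtain ⟨φ₁, hφ₁, hφ₁0, ho₁⟩ := K.exists_exact S (D := (m : ℤ) • S.splitModel.H - D)
    (fun σ hσ Q => by
      rw [Finsupp.sub_apply, Finsupp.sub_apply, hHinv,
        invariant_of_fixed (NeZero.ne p) hord (hfix σ hσ)])
    (by rw [map_sub]; omega) P
  obtain ⟨φ₂, hφ₂, hφ₂0, ho₂⟩ := K.exists_exact S (D := (m : ℤ) • S.splitModel.H)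
    (fun σ _ Q => hHinv σ Q) (by omega) P
  refine ⟨φ₁ / φ₂, div_mem hφ₁ hφ₂, div_ne_zero hφ₁0 hφ₂0, ?_⟩
  rw [ord_div P hφ₁0 hφ₂0, ho₁, ho₂, Finsupp.sub_apply]
  ring

theorem KummerGen.inv_natCast_mem {O : ValuationSubring (K.fixedField S)}
    (hW : ∀ c ∈ (descent S).W, algebraMap (descent S).F₀ (K.fixedField S) c ∈ O) {n : ℕ}
    (hn : ¬ p ∣ n) : (n : K.fixedField S)⁻¹ ∈ O := by
  have := isFunctionField_level (M * p)
  have := S.isFunctionField_C
  have hA' : (n : Ω)⁻¹ ∈ A := (descent S).inv_mem_A (natCast_mem A n) (by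
    rw [show (⟨(n : Ω), natCast_mem A n⟩ : A) = (n : A) from
      Subtype.ext (map_natCast A.subtype n).symm, map_natCast]
    exact Reduction.natCast_residue_ne_zero S.above hn)
  have hm : ((n : (descent S).F₀))⁻¹ ∈ (descent S).W :=
    ⟨_, hA', by rw [map_inv₀, map_natCast]; push_cast; rfl⟩
  simpa [map_inv₀, map_natCast] using hW _ hm

/-- The inverse of `p` lies in a valuation ring containing `π` and `π⁻¹`. -/
theorem KummerGen.inv_p_mem {O : ValuationSubring (K.fixedField S)}
    (hW : ∀ c ∈ (descent S).W, algebraMap (descent S).F₀ (K.fixedField S) c ∈ O)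
    (hπ : (K.ramExt S).π ∈ O) (hπi : (K.ramExt S).π⁻¹ ∈ O) :
    (p : K.fixedField S)⁻¹ ∈ O := by
  let E := K.ramExt S
  have hC : E.unitC ∈ O := by
    rw [RamExt.unitC]
    refine sum_mem fun j _ => ?_
    rw [Algebra.smul_def, E.basis_eq]
    exact mul_mem (hW _ (K.ramExt_c_mem S j)) (pow_mem hπ _)
  have h0 : (p : K.fixedField S) ≠ 0 := Nat.cast_ne_zero.mpr (NeZero.ne p)
  have hπ0 : E.π ≠ 0 := fun h => by
    have := E.basis.ne_zero oneF
    rw [E.basis_eq, h] at this
    exact this (zero_pow (Nat.one_ne_zero))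
  have he : (p : K.fixedField S)⁻¹ = E.unitC * E.π⁻¹ ^ p := by
    rw [inv_pow, E.pow_eq]
    change _ = E.unitC * ((p : K.fixedField S) * E.unitC)⁻¹
    have hu0 : E.unitC ≠ 0 := fun h => pow_ne_zero p hπ0 (by
      rw [E.pow_eq]; exact mul_eq_zero_of_right _ h)
    rw [mul_inv, mul_left_comm, mul_inv_cancel₀ hu0, mul_one]
  rw [he]
  exact mul_mem hC (pow_mem hπi p)

/-- A fixed function whose divisor is divisible by `p` is locally a `p`-th power. -/
theorem KummerGen.locallyPthPower {u : K.fixedField S} {D : Divisor Ω FF} (hu : u ≠ 0)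
    (hord : ∀ P, P.ord (u : FF) = (p : ℤ) * D P) :
    LocallyPthPower (descent S).W (K.ramExt S) u := by
  intro O hW hπ hπi
  have := isFunctionField_level (M * p)
  have hpO := K.inv_p_mem S hW hπ hπi
  obtain ⟨O', hO'⟩ := exists_extend_valuationSubring
    (algebraMap (K.fixedField S) FF) O
  have hQ : ∀ q : ℚ, (q : FF) ∈ O' := fun q => by
    rw [← map_ratCast (algebraMap (K.fixedField S) FF) q, hO']
    exact ratCast_mem_of_inv O (Fact.out : p.Prime).ne_one hpO
      (fun n hn => K.inv_natCast_mem S hW hn) q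
  have hK : ∀ c : Ω, cst c ∈ O' := algebraicClosure_mem_of_ratCast cst O' hQ
  by_cases htop : O' = ⊤
  · refine ⟨1, one_ne_zero, ?_, ?_⟩ <;> rw [← hO', htop] <;> exact ValuationSubring.mem_top _
  let P := placeOfValuationSubring O' hK htop
  have hfix : ∀ σ ∈ K.H, galRing σ (u : FF) = (u : FF) := (K.mem_fixedField S).mp u.2
  obtain ⟨f, hf, hf0, hfo⟩ := K.exists_order S hord hfix P
  have hu' : (u : FF) ≠ 0 := fun h => hu (Subtype.ext h)
  refine ⟨⟨f, hf⟩, fun h => hf0 (congrArg Subtype.val h), ?_, ?_⟩ <;> rw [← hO']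
  · refine (ord_nonneg_iff P _).mp ?_
    show 0 ≤ P.ord (f ^ p * (u : FF)⁻¹)
    rw [P.ord_mul (pow_ne_zero _ hf0) (inv_ne_zero hu'), ord_pow, P.ord_inv, hord, hfo]
    simp
  · refine (ord_nonneg_iff P _).mp ?_
    show 0 ≤ P.ord ((u : FF) * (f ^ p)⁻¹)
    rw [P.ord_mul hu' (inv_ne_zero (pow_ne_zero _ hf0)), P.ord_inv, ord_pow, hord, hfo]
    simp

end Fermat.Agent.LevelP

end
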