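import Fermat.Agent.LevelP.NodeRing

/-!
# The two branches at a pair

The ring at a pair maps to both branches modulo `π²` with a common constant. It follows that it is
a factorial local ring with maximal ideal `(s, t)` in which `s` and `t` are primes.
-/

set_option autoImplicit false

noncomputable section

namespace Fermat.Agent.LevelP

open Polynomial TrivSqZeroExt
open scoped DualNumber

variable {p : ℕ} [hp : Fact p.Prime] {F : Type*} [Field F] {k G : Type*} [Field k] [Field G]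
  [Algebra k G] [CharP G p] {D : GlueData p F k G} {FL : Type*} [Field FL] [Algebra F FL]
  {W : Subring F} {P Q : DVPoint k G} {w : F} {kw : ℕ}

variable (E : RamExt D FL) (S : PairData D W P Q w kw)

/-- The uniformiser of the branch `0`. -/
abbrev beta0 : G := D.redF 0 S.a

/-- The uniformiser of the branch `1`. -/
abbrev beta1 : G := D.redF 1 S.b * algebraMap k G (E.γ0 ^ S.e)

/-- The twist of the branch `1`. -/
abbrev eta1 : k := (S.e : k) * E.γ1 / E.γ0

theorem isUnif_beta0 : P.IsUnif (beta0 S) := S.red0_a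

theorem isUnif_beta1 : Q.IsUnif (beta1 E S) :=
  S.red1_b.mul_unit (Q.algebraMap_mem _)
    (by rw [Q.evF_algebraMap]; exact pow_ne_zero _ E.γ0_ne)

/-- The branch `0` modulo `π²`. -/
abbrev Branch0 : Type _ :=
  AdjoinRoot (X ^ nodeDeg S - C (betaEps (beta0 S) (0 : k)))

/-- The branch `1` modulo `π²`. -/
abbrev Branch1 : Type _ :=
  AdjoinRoot (X ^ nodeDeg S - C (betaEps (beta1 E S) (eta1 E S)))

/-- The basis of the branch `0`. -/
def rb0 : RootBasis (DualNumber G) (Branch0 S) (nodeDeg S) (betaEps (beta0 S) (0 : k)) :=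
  RootBasis.adjoinRoot (nodeDeg_pos S).ne' _

/-- The basis of the branch `1`. -/
def rb1 : RootBasis (DualNumber G) (Branch1 E S) (nodeDeg S) (betaEps (beta1 E S) (eta1 E S)) :=
  RootBasis.adjoinRoot (nodeDeg_pos S).ne' _

theorem alphaZero_mem : alphaZero S ∈ E.intL 0 := E.algebraMap_mem (S.le 0 S.a_mem)

theorem redL_alphaZero : E.redL 0 ⟨_, alphaZero_mem E S⟩ = betaEps (beta0 S) (0 : k) := by
  rw [E.redL_apply, E.redEps_algebraMap]
  simp [betaEps]

theorem redEps_unitC_pow (i : Fin 2) (m : ℕ) :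
    E.redEps i (E.unitC ^ m) = inl (algebraMap k G (E.γ0 ^ m)) +
      inr (algebraMap k G (E.γ0 ^ m) * algebraMap k G ((m : k) * E.γ1 / E.γ0)) := by
  induction m with
  | zero => rw [pow_zero, E.redEps_one]; simp
  | succ m ih =>
    rw [pow_succ, (E.mul_intL (pow_mem (E.unitC_mem i) m) (E.unitC_mem i)).2, ih, E.redL_unitC]
    have h0 : algebraMap k G E.γ0 ≠ 0 := (_root_.map_ne_zero _).mpr E.γ0_ne
    ext
    · simp [pow_succ]
    · simp only [TrivSqZeroExt.snd_mul, TrivSqZeroExt.fst_add, TrivSqZeroExt.fst_inl,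
        TrivSqZeroExt.fst_inr, TrivSqZeroExt.snd_add, TrivSqZeroExt.snd_inl, TrivSqZeroExt.snd_inr,
        smul_eq_mul, op_smul_eq_mul, map_mul, map_div₀, map_pow, map_natCast, add_zero, zero_add]
      push_cast
      field_simp
      ring

theorem alphaOne_mem : alphaOne E S ∈ E.intL 1 :=
  mul_mem (E.algebraMap_mem (S.le 1 S.b_mem)) (pow_mem (E.unitC_mem 1) _)

theorem redL_alphaOne : E.redL 1 ⟨_, alphaOne_mem E S⟩ = betaEps (beta1 E S) (eta1 E S) := by
  rw [E.redL_apply, (E.mul_intL (E.algebraMap_mem (S.le 1 S.b_mem))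
    (pow_mem (E.unitC_mem 1) _)).2, E.redEps_algebraMap, redEps_unitC_pow]
  ext
  · simp [betaEps]
  · simp [betaEps, mul_assoc]

/-- Elements integral at the branch `0`. -/
def vInt0 : Subring (NodeField (FL := FL) S) :=
  (basisS S).restrict (E.intL 0) (alphaZero_mem E S) (nodeDeg_pos S)

/-- Elements integral at the branch `1`. -/
def vInt1 : Subring (NodeField (FL := FL) S) :=
  (basisT E S).restrict (E.intL 1) (alphaOne_mem E S) (nodeDeg_pos S)

/-- Reduction to the branch `0`. -/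
def rho0 : vInt0 E S →+* Branch0 S :=
  (basisS S).mapHom (E.intL 0) (alphaZero_mem E S) (rb0 S) (E.redL 0) (nodeDeg_pos S)
    (redL_alphaZero E S)

/-- Reduction to the branch `1`. -/
def rho1 : vInt1 E S →+* Branch1 E S :=
  (basisT E S).mapHom (E.intL 1) (alphaOne_mem E S) (rb1 E S) (E.redL 1) (nodeDeg_pos S)
    (redL_alphaOne E S)

theorem algebraMap_mem0 {x : FL} (hx : x ∈ E.intL 0) :
    algebraMap FL (NodeField S) x ∈ vInt0 E S := fun j => by
  rw [(basisS S).coeff_algebraMap (nodeDeg_pos S)]; split <;> [exact hx; exact zero_mem _]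

theorem algebraMap_mem1 {x : FL} (hx : x ∈ E.intL 1) :
    algebraMap FL (NodeField S) x ∈ vInt1 E S := fun j => by
  rw [(basisT E S).coeff_algebraMap (nodeDeg_pos S)]; split <;> [exact hx; exact zero_mem _]

theorem rho0_algebraMap {x : FL} (hx : x ∈ E.intL 0)
    (h : algebraMap FL (NodeField S) x ∈ vInt0 E S) :
    rho0 E S ⟨_, h⟩ = algebraMap (DualNumber G) (Branch0 S) (E.redEps 0 x) :=
  (basisS S).mapHom_algebraMap (E.intL 0) (alphaZero_mem E S) (rb0 S) (E.redL 0)
    (redL_alphaZero E S) ⟨x, hx⟩ h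

theorem rho1_algebraMap {x : FL} (hx : x ∈ E.intL 1)
    (h : algebraMap FL (NodeField S) x ∈ vInt1 E S) :
    rho1 E S ⟨_, h⟩ = algebraMap (DualNumber G) (Branch1 E S) (E.redEps 1 x) :=
  (basisT E S).mapHom_algebraMap (E.intL 1) (alphaOne_mem E S) (rb1 E S) (E.redL 1)
    (redL_alphaOne E S) ⟨x, hx⟩ h

theorem s_mem0 : sN S ∈ vInt0 E S :=
  (basisS S).T_mem (E.intL 0) (alphaZero_mem E S)

theorem t_mem1 : tN E S ∈ vInt1 E S :=
  (basisT E S).T_mem (E.intL 1) (alphaOne_mem E S)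

theorem rho0_s : rho0 E S ⟨_, s_mem0 E S⟩ = (rb0 S).T :=
  (basisS S).mapHom_T (E.intL 0) (alphaZero_mem E S) (rb0 S) (E.redL 0) (redL_alphaZero E S) _

theorem rho1_t : rho1 E S ⟨_, t_mem1 E S⟩ = (rb1 E S).T :=
  (basisT E S).mapHom_T (E.intL 1) (alphaOne_mem E S) (rb1 E S) (E.redL 1) (redL_alphaOne E S) _

theorem coordRed_algebraMap (i : Fin 2) (f : F) :
    E.coordRed i (algebraMap F FL f) zeroF = D.redF i f := by
  rw [RamExt.coordRed, E.repr_algebraMap, if_pos rfl]

theorem t_mem0 : tN E S ∈ vInt0 E S := by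
  refine mul_mem (algebraMap_mem0 E S (E.pi_mem 0)) (mul_mem (algebraMap_mem0 E S ?_)
    (pow_mem (s_mem0 E S) _))
  refine E.inv_mem_intL (alphaZero_mem E S) ?_
  rw [coordRed_algebraMap]
  exact (isUnif_beta0 S).ne_zero

theorem s_eq : sN S = algebraMap FL (NodeField S) (E.π * (alphaOne E S)⁻¹) *
    tN E S ^ (nodeDeg S - 1) := by
  have hne : alphaOne E S ≠ 0 := by
    rw [alphaOne_eq]
    exact mul_ne_zero (pow_ne_zero _ E.pi_ne_zero) (inv_ne_zero (alphaZero_ne S))
  calc sN S = sN S * algebraMap FL (NodeField S) ((alphaOne E S)⁻¹ * alphaOne E S) := by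
        rw [inv_mul_cancel₀ hne, map_one, mul_one]
    _ = _ := by
      have h : tN E S ^ nodeDeg S = tN E S ^ (nodeDeg S - 1) * tN E S := by
        rw [← pow_succ]
        exact congrArg (tN E S ^ ·) (Nat.sub_add_cancel (nodeDeg_pos S)).symm
      rw [map_mul, ← t_pow, h, map_mul, ← s_mul_t]
      ring

theorem s_mem1 : sN S ∈ vInt1 E S := by
  rw [s_eq E]
  refine mul_mem (algebraMap_mem1 E S (mul_mem (E.pi_mem 1) (E.inv_mem_intL (alphaOne_mem E S) ?_)))
    (pow_mem (t_mem1 E S) _)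
  have h := congrArg TrivSqZeroExt.fst (redL_alphaOne E S)
  rw [E.redL_apply, E.fst_redEps] at h
  rw [h]
  simpa [betaEps] using (isUnif_beta1 E S).ne_zero

theorem tInv_unique {Q' : Type*} [CommRing Q'] {T x y : Q'} (hx : T * x = 1) {c : Q'}
    (hy : T * y = c) : y = c * x := by
  linear_combination (-y) * hx + x * hy

theorem rho0_t : rho0 E S ⟨_, t_mem0 E S⟩ =
    algebraMap (DualNumber G) (Branch0 S) ε * tInv (rb0 S) := by
  refine tInv_unique (T_mul_tInv (rb0 S) (isUnif_beta0 S).ne_zero (nodeDeg_pos S)) ?_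
  rw [← rho0_s E S, ← map_mul]
  have h : (⟨_, s_mem0 E S⟩ * ⟨_, t_mem0 E S⟩ : vInt0 E S) =
      ⟨_, algebraMap_mem0 E S (E.pi_mem 0)⟩ := Subtype.ext (s_mul_t E S)
  rw [h, rho0_algebraMap E S (E.pi_mem 0), E.redL_pi]

theorem rho1_s : rho1 E S ⟨_, s_mem1 E S⟩ =
    algebraMap (DualNumber G) (Branch1 E S) ε * tInv (rb1 E S) := by
  refine tInv_unique (T_mul_tInv (rb1 E S) (isUnif_beta1 E S).ne_zero (nodeDeg_pos S)) ?_
  rw [← rho1_t E S, ← map_mul]
  have h : (⟨_, t_mem1 E S⟩ * ⟨_, s_mem1 E S⟩ : vInt1 E S) =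
      ⟨_, algebraMap_mem1 E S (E.pi_mem 1)⟩ :=
    Subtype.ext ((mul_comm _ _).trans (s_mul_t E S))
  rw [h, rho1_algebraMap E S (E.pi_mem 1), E.redL_pi]

end Fermat.Agent.LevelP

end
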