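import Fermat.Agent.LevelP.NodeLocal

/-!
# Factorisation at a pair

The ring at a pair is factorial with the primes `s`, `t`; elements prime to `t` reduce to units of
the branch `0`. A function which is locally a `p`-th power is `s ^ i t ^ j (G / y) ^ p U`.
-/

set_option autoImplicit false

noncomputable section

namespace Fermat.Agent.LevelP

open TrivSqZeroExt
open scoped DualNumber

variable {p : ℕ} [hp : Fact p.Prime] {F : Type*} [Field F] {k G : Type*} [Field k] [Field G]
  [Algebra k G] [CharP G p] {D : GlueData p F k G} {FL : Type*} [Field FL] [Algebra F FL]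
  {W : Subring F} {P Q : DVPoint k G} {w : F} {kw : ℕ}

variable (E : RamExt D FL) (S : PairData D W P Q w kw)

section Residue

variable {β : G} {η : k} {n : ℕ} {Q' : Type*} [CommRing Q'] [Algebra (DualNumber G) Q']
  (B : RootBasis (DualNumber G) Q' n (betaEps β η))

include B in
theorem eps_mul_ne_unit (hn : 0 < n) {x : Q'} (hx : IsUnit x) (y : Q') :
    x ≠ algebraMap (DualNumber G) Q' ε * y := by
  intro h
  obtain ⟨v, rfl⟩ := hx
  have h0 : algebraMap (DualNumber G) Q' ε * (v : Q') = 0 := by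
    rw [h, ← mul_assoc, ← map_mul, DualNumber.eps_mul_eps, map_zero, zero_mul]
  have h1 : algebraMap (DualNumber G) Q' ε = 0 := by
    rw [← mul_one (algebraMap (DualNumber G) Q' ε), ← v.mul_inv, ← mul_assoc, h0, zero_mul]
  have h2 := congrArg (fun z => (B.coeff z ⟨0, hn⟩).snd) h1
  simp [B.coeff_algebraMap hn, B.coeff_zero_eq] at h2

theorem isNilpotent_eps_mul (y : Q') : IsNilpotent (algebraMap (DualNumber G) Q' ε * y) :=
  ⟨2, by rw [sq, mul_mul_mul_comm, ← map_mul, DualNumber.eps_mul_eps, map_zero, zero_mul]⟩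

theorem exists_fst_ne_of_isUnit (hn : 0 < n) {x : Q'} (hx : IsUnit x) :
    ∃ i, (B.coeff x i).fst ≠ 0 := by
  by_contra hne
  push Not at hne
  refine eps_mul_ne_unit B hn hx (∑ i, algebraMap (DualNumber G) Q' (inl (B.coeff x i).snd) *
    B.T ^ (i : ℕ)) ?_
  conv_lhs => rw [← B.sum_coeff x]
  rw [Finset.mul_sum]
  refine Finset.sum_congr rfl fun i _ => ?_
  rw [Algebra.smul_def, ← mul_assoc, ← map_mul]
  congr 2
  ext
  · simp [hne i]
  · simp

end Residue

theorem vInt0_of_node {x : NodeField (FL := FL) S} (hx : x ∈ nodeRing E S) : x ∈ vInt0 E S := by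
  obtain ⟨α, c, d, h0, -⟩ := exists_nodeForm hx; exact h0

theorem vInt1_of_node {x : NodeField (FL := FL) S} (hx : x ∈ nodeRing E S) : x ∈ vInt1 E S := by
  obtain ⟨α, c, d, -, h1, -⟩ := exists_nodeForm hx; exact h1

/-- The ring at the pair mapped to the branch `0`. -/
def sigma0 : nodeRing E S →+* Branch0 S :=
  (rho0 E S).comp ((Subring.inclusion fun _ hx => vInt0_of_node E S hx :
    (nodeRing E S).toSubring →+* vInt0 E S))

/-- The ring at the pair mapped to the branch `1`. -/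
def sigma1 : nodeRing E S →+* Branch1 E S :=
  (rho1 E S).comp ((Subring.inclusion fun _ hx => vInt1_of_node E S hx :
    (nodeRing E S).toSubring →+* vInt1 E S))

theorem sigma0_apply (x : nodeRing E S) :
    sigma0 E S x = rho0 E S ⟨x, vInt0_of_node E S x.2⟩ := rfl

theorem sigma1_apply (x : nodeRing E S) :
    sigma1 E S x = rho1 E S ⟨x, vInt1_of_node E S x.2⟩ := rfl

theorem sigma0_s : sigma0 E S (sR E S) = (rb0 S).T := rho0_s E S
theorem sigma1_t : sigma1 E S (tR E S) = (rb1 E S).T := rho1_t E S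

theorem sigma0_t : sigma0 E S (tR E S) =
    algebraMap (DualNumber G) (Branch0 S) ε * tInv (rb0 S) := rho0_t E S

theorem sigma1_s : sigma1 E S (sR E S) =
    algebraMap (DualNumber G) (Branch1 E S) ε * tInv (rb1 E S) := rho1_s E S

theorem isUnit_T0 : IsUnit (rb0 S).T :=
  ⟨tUnit (rb0 S) (isUnif_beta0 S).ne_zero (nodeDeg_pos S), rfl⟩

theorem isUnit_T1 : IsUnit (rb1 E S).T :=
  ⟨tUnit (rb1 E S) (isUnif_beta1 E S).ne_zero (nodeDeg_pos S), rfl⟩

theorem s_pow_notMem (N : ℕ) : sR E S ^ N ∉ Ideal.span {tR E S} := fun h => by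
  obtain ⟨y, hy⟩ := Ideal.mem_span_singleton.mp h
  refine eps_mul_ne_unit (rb0 S) (nodeDeg_pos S) ((isUnit_T0 S).pow N)
    (tInv (rb0 S) * sigma0 E S y) ?_
  rw [← sigma0_s E S, ← map_pow, hy, map_mul, sigma0_t, mul_assoc]

theorem t_pow_notMem (N : ℕ) : tR E S ^ N ∉ Ideal.span {sR E S} := fun h => by
  obtain ⟨y, hy⟩ := Ideal.mem_span_singleton.mp h
  refine eps_mul_ne_unit (rb1 E S) (nodeDeg_pos S) ((isUnit_T1 E S).pow N)
    (tInv (rb1 E S) * sigma1 E S y) ?_
  rw [← sigma1_t E S, ← map_pow, hy, map_mul, sigma1_s, mul_assoc]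

variable (hc : ∀ j, E.c j ∈ S.A)

include hc in
theorem maximalIdeal_node : haveI := isLocalRing_node E S hc
    IsLocalRing.maximalIdeal (nodeRing E S) = Ideal.span {sR E S, tR E S} := by
  have := isLocalRing_node E S hc
  ext x
  constructor
  · exact fun hx => (mem_nodeIdeal_or_isUnit E S hc x).resolve_right hx
  · intro hx hu
    exact one_notMem_nodeIdeal E S (hu.val_inv_mul ▸ Ideal.mul_mem_left _ _ hx)

include hc in
theorem maximalIdeal_node' : haveI := isLocalRing_node E S hc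
    IsLocalRing.maximalIdeal (nodeRing E S) = Ideal.span {tR E S, sR E S} := by
  rw [maximalIdeal_node E S hc, Set.pair_comm]

theorem sR_regular : sR E S ∈ nonZeroDivisors (nodeRing E S) := by
  refine mem_nonZeroDivisors_iff_right.mpr fun x hx => Subtype.ext ?_
  have h := congrArg (fun z : nodeRing E S => (z : NodeField (FL := FL) S) * sInv S) hx
  simpa [sR, mul_assoc, s_mul_sInv] using h

include hc in
theorem isDomain_node : IsDomain (nodeRing E S) := by
  have := isLocalRing_node E S hc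
  have := noetherian_node E S hc
  exact isDomain_of_regular_prime (sR_regular E S)
    (isPrime_and_pid_of_not_nilpotent (maximalIdeal_node E S hc) (t_pow_notMem E S)).1

theorem tR_ne_zero : tR E S ≠ 0 := fun h =>
  t_pow_notMem E S 1 (by rw [pow_one, h]; exact Ideal.zero_mem _)

theorem sR_ne_zero : sR E S ≠ 0 := fun h =>
  s_pow_notMem E S 1 (by rw [pow_one, h]; exact Ideal.zero_mem _)

include hc in
theorem prime_sR : Prime (sR E S) := by
  have := isLocalRing_node E S hc
  have := noetherian_node E S hc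
  exact (Ideal.span_singleton_prime (sR_ne_zero E S)).mp
    (isPrime_and_pid_of_not_nilpotent (maximalIdeal_node E S hc) (t_pow_notMem E S)).1

include hc in
theorem prime_tR : Prime (tR E S) := by
  have := isLocalRing_node E S hc
  have := noetherian_node E S hc
  exact (Ideal.span_singleton_prime (tR_ne_zero E S)).mp
    (isPrime_and_pid_of_not_nilpotent (maximalIdeal_node' E S hc) (s_pow_notMem E S)).1

include hc in
theorem ufm_node : haveI := isDomain_node E S hc
    UniqueFactorizationMonoid (nodeRing E S) := by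
  have := isLocalRing_node E S hc
  have := noetherian_node E S hc
  have := isDomain_node E S hc
  obtain ⟨h1, h2⟩ := isPrime_and_pid_of_not_nilpotent (maximalIdeal_node E S hc) (t_pow_notMem E S)
  exact uniqueFactorizationMonoid_of_pid_quotient (sR_ne_zero E S)
    (maximalIdeal_node E S hc ▸ Ideal.subset_span (by simp)) h1 h2

include hc in
theorem sigma0_isUnit {x : nodeRing E S} (hx : ¬ tR E S ∣ x) : IsUnit (sigma0 E S x) := by
  have := isLocalRing_node E S hc
  have := noetherian_node E S hc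
  obtain ⟨m, u, hu⟩ := exists_pow_mul_unit (maximalIdeal_node' E S hc)
    (fun h => hx (Ideal.mem_span_singleton.mp h))
  obtain ⟨y, hy⟩ := Ideal.mem_span_singleton.mp hu
  rw [show x = sR E S ^ m * (u : nodeRing E S) + tR E S * y by linear_combination hy, map_add,
    map_mul, map_mul, map_pow, sigma0_s, sigma0_t, mul_assoc (algebraMap _ _ _)]
  rw [add_comm]
  exact (isNilpotent_eps_mul _).isUnit_add_right_of_commute
    (((isUnit_T0 S).pow m).mul (u.isUnit.map _)) (Commute.all _ _)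

include hc in
theorem sigma1_isUnit {x : nodeRing E S} (hx : ¬ sR E S ∣ x) : IsUnit (sigma1 E S x) := by
  have := isLocalRing_node E S hc
  have := noetherian_node E S hc
  obtain ⟨m, u, hu⟩ := exists_pow_mul_unit (maximalIdeal_node E S hc)
    (fun h => hx (Ideal.mem_span_singleton.mp h))
  obtain ⟨y, hy⟩ := Ideal.mem_span_singleton.mp hu
  rw [show x = tR E S ^ m * (u : nodeRing E S) + sR E S * y by linear_combination hy, map_add,
    map_mul, map_mul, map_pow, sigma1_t, sigma1_s, mul_assoc (algebraMap _ _ _)]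
  rw [add_comm]
  exact (isNilpotent_eps_mul _).isUnit_add_right_of_commute
    (((isUnit_T1 E S).pow m).mul (u.isUnit.map _)) (Commute.all _ _)

/-- Constants of a unit of the ring at the pair on the two branches. -/
theorem exists_const_of_isUnit {U : nodeRing E S} (hU : IsUnit U) :
    ∃ α : DualNumber k, α.fst ≠ 0 ∧ HasConst (rb0 S) P (sigma0 E S U) α ∧
      HasConst (rb1 E S) Q (sigma1 E S U) α := by
  obtain ⟨α, c, d, hf⟩ := exists_nodeForm U.2
  obtain ⟨α', c', d', hf'⟩ := exists_nodeForm (hU.unit⁻¹ : (nodeRing E S)ˣ).1.2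
  refine ⟨α, fun h0 => ?_, hf.choose_spec.choose_spec.1.hasConst (isUnif_beta0 S) (nodeDeg_pos S),
    hf.choose_spec.choose_spec.2.hasConst (isUnif_beta1 E S) (nodeDeg_pos S)⟩
  obtain ⟨g0, -, hf0, -⟩ := hf.mul hf'
  have h1 : ((U : NodeField (FL := FL) S) *
      (((hU.unit⁻¹ : (nodeRing E S)ˣ) : nodeRing E S) : NodeField (FL := FL) S)) = 1 :=
    congrArg Subtype.val hU.mul_val_inv
  rw [show (⟨_, g0⟩ : vInt0 E S) = 1 from Subtype.ext h1, map_one] at hf0
  refine hf0.fst_ne_zero (isUnif_beta0 S) (one_lt_nodeDeg S) ?_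
  simp [h0]

theorem exists_scale_FL (x : FL) : ∃ y ∈ S.A, y ≠ 0 ∧
    ∃ z ∈ nodeRing E S, embF S y * algebraMap FL (NodeField S) x = z := by
  classical
  choose num hnum den hden hden0 heq using fun j => S.fraction (E.basis.repr x j)
  refine ⟨∏ j, den j, prod_mem fun j _ => hden j, Finset.prod_ne_zero_iff.mpr fun j _ => hden0 j,
    _, ?_, rfl⟩
  conv =>
    arg 2
    rw [← E.basis.sum_repr x]
  rw [map_sum, Finset.mul_sum]
  refine sum_mem fun j _ => ?_
  rw [E.basis_eq, Algebra.smul_def, map_mul, map_pow, ← mul_assoc]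
  refine mul_mem ?_ (pow_mem (pi_mem_node E S) _)
  rw [show algebraMap FL (NodeField (FL := FL) S) (algebraMap F FL (E.basis.repr x j)) =
    embF S (E.basis.repr x j) from rfl, ← map_mul,
    show (∏ i, den i) * E.basis.repr x j = (∏ i ∈ Finset.univ.erase j, den i) * num j by
      rw [← heq j, ← Finset.mul_prod_erase _ _ (Finset.mem_univ j)]; ring]
  exact embF_mem E S (mul_mem (prod_mem fun i _ => hden i) (hnum j))

theorem isUnit_embF' {y : F} (hy : y ≠ 0) : IsUnit (embF (FL := FL) S y) :=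
  (isUnit_iff_ne_zero.mpr hy).map _

include E in
theorem exists_scale (x : NodeField (FL := FL) S) :
    ∃ y ∈ S.A, y ≠ 0 ∧ ∃ z ∈ nodeRing E S, embF S y * x = z := by
  classical
  choose y hy hy0 z hz heq using fun i => exists_scale_FL E S ((basisS S).coeff x i)
  refine ⟨∏ i, y i, prod_mem fun i _ => hy i, Finset.prod_ne_zero_iff.mpr fun i _ => hy0 i,
    _, ?_, rfl⟩
  conv =>
    arg 2
    rw [← (basisS S).sum_coeff x]
  rw [Finset.mul_sum]
  refine sum_mem fun i _ => ?_
  rw [Algebra.smul_def, ← mul_assoc, ← Finset.mul_prod_erase _ _ (Finset.mem_univ i),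
    mul_comm (y i), map_mul, mul_assoc (embF S _), heq i]
  exact mul_mem (mul_mem (embF_mem E S (prod_mem fun j _ => hy j)) (hz i))
    (pow_mem (s_mem E S) _)

include hc in
theorem eq_zero_or_of_mul_eq_zero {x y : NodeField (FL := FL) S} (h : x * y = 0) :
    x = 0 ∨ y = 0 := by
  have := isDomain_node E S hc
  obtain ⟨a, ha, ha0, z, hz, hxz⟩ := exists_scale E S x
  obtain ⟨b, hb, hb0, z', hz', hyz⟩ := exists_scale E S y
  have h0 : (⟨z, hz⟩ * ⟨z', hz'⟩ : nodeRing E S) = 0 := Subtype.ext (by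
    show z * z' = 0
    rw [← hxz, ← hyz, mul_mul_mul_comm, h, mul_zero])
  rcases mul_eq_zero.mp h0 with h1 | h1
  · left
    have : embF S a * x = 0 := hxz.trans (congrArg Subtype.val h1)
    exact (isUnit_embF' S ha0).mul_right_eq_zero.mp this
  · right
    have : embF S b * y = 0 := hyz.trans (congrArg Subtype.val h1)
    exact (isUnit_embF' S hb0).mul_right_eq_zero.mp this

include hc in
theorem nontrivial_node : Nontrivial (NodeField (FL := FL) S) :=
  ⟨⟨1, 0, fun h => by
    have := isDomain_node E S hc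
    exact one_ne_zero (α := nodeRing E S) (Subtype.ext h)⟩⟩

include hc in
theorem isField_node : IsField (NodeField (FL := FL) S) := by
  have : Nontrivial (NodeField (FL := FL) S) :=
    ⟨⟨1, 0, fun h => by
      have := isDomain_node E S hc
      exact one_ne_zero (α := nodeRing E S) (Subtype.ext h)⟩⟩
  have : NoZeroDivisors (NodeField (FL := FL) S) :=
    ⟨fun {x y} h => eq_zero_or_of_mul_eq_zero E S hc h⟩
  have : IsDomain (NodeField (FL := FL) S) := NoZeroDivisors.to_isDomain _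
  have : FiniteDimensional FL (NodeField (FL := FL) S) := Module.Finite.of_basis (basisS S).basis
  exact isField_of_isIntegral_of_isField' (Field.toIsField FL)

include hc in
theorem isUnit_of_ne_zero {x : nodeRing E S} (hx : x ≠ 0) :
    IsUnit (x : NodeField (FL := FL) S) := by
  obtain ⟨y, hy⟩ := (isField_node E S hc).mul_inv_cancel
    (a := (x : NodeField (FL := FL) S)) fun h => hx (Subtype.ext h)
  exact IsUnit.of_mul_eq_one y hy

theorem pi_eq_st : (⟨_, pi_mem_node E S⟩ : nodeRing E S) = sR E S * tR E S :=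
  Subtype.ext (s_mul_t E S).symm

/-- Fractions of the ring at the pair with denominator prime to `ϖ`, inside `FL`. -/
def primeCarrier (ϖ : nodeRing E S) (hϖ : Prime ϖ) : Subring FL where
  carrier := {f | ∃ a b : nodeRing E S, ¬ ϖ ∣ b ∧
    algebraMap FL (NodeField (FL := FL) S) f * (b : NodeField (FL := FL) S) =
      (a : NodeField (FL := FL) S)}
  mul_mem' := by
    rintro f g ⟨a, b, hb, h⟩ ⟨a', b', hb', h'⟩
    refine ⟨a * a', b * b', fun hd => (hϖ.dvd_or_dvd hd).elim hb hb', ?_⟩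
    simp only [MulMemClass.coe_mul, map_mul, ← h, ← h']
    ring
  one_mem' := ⟨1, 1, fun h => hϖ.not_isUnit (isUnit_of_dvd_one h), by simp⟩
  add_mem' := by
    rintro f g ⟨a, b, hb, h⟩ ⟨a', b', hb', h'⟩
    refine ⟨a * b' + a' * b, b * b', fun hd => (hϖ.dvd_or_dvd hd).elim hb hb', ?_⟩
    simp only [MulMemClass.coe_mul, Subalgebra.coe_add, map_add, ← h, ← h']
    ring
  zero_mem' := ⟨0, 1, fun h => hϖ.not_isUnit (isUnit_of_dvd_one h), by simp⟩
  neg_mem' := by
    rintro f ⟨a, b, hb, h⟩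
    exact ⟨-a, b, hb, by simp [← h]⟩

theorem cancel_pow_aux {K : Type*} [CommRing K] {f z A1 B1 : K} {i j : ℕ} (hz : IsUnit z)
    (hji : j ≤ i) (h : f * (z ^ j * B1) = z ^ i * A1) : f * B1 = z ^ (i - j) * A1 := by
  refine (hz.pow j).mul_left_cancel ?_
  rw [← mul_assoc (z ^ j) (z ^ (i - j)), ← pow_add, Nat.add_sub_cancel' hji, ← h]
  ring

theorem cancel_pow_inv_aux {K : Type*} [CommRing K] {f g z A1 B1 : K} {i j : ℕ} (hz : IsUnit z)
    (hgf : g * f = 1) (hij : i ≤ j) (h : f * (z ^ j * B1) = z ^ i * A1) :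
    g * A1 = z ^ (j - i) * B1 := by
  refine (hz.pow i).mul_left_cancel ?_
  rw [← mul_assoc (z ^ i) (z ^ (j - i)), ← pow_add, Nat.add_sub_cancel' hij]
  linear_combination (-g) * h + (z ^ j * B1) * hgf

theorem primeCarrier_mem_or_inv (hc : ∀ j, E.c j ∈ S.A) (ϖ : nodeRing E S) (hϖ : Prime ϖ)
    [IsDomain (nodeRing E S)] [UniqueFactorizationMonoid (nodeRing E S)]
    [Nontrivial (NodeField (FL := FL) S)] (f : FL) :
    f ∈ primeCarrier E S ϖ hϖ ∨ f⁻¹ ∈ primeCarrier E S ϖ hϖ := by
  by_cases hf : f = 0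
  · left; rw [hf]; exact Subring.zero_mem _
  obtain ⟨b, hb, hb0, a, ha, hab⟩ := exists_scale_FL E S f
  set B' : nodeRing E S := ⟨embF S b, embF_mem E S hb⟩
  set A' : nodeRing E S := ⟨a, ha⟩
  have hB : B' ≠ 0 := fun h => (isUnit_embF' (FL := FL) S hb0).ne_zero (congrArg Subtype.val h)
  have hfe : algebraMap FL (NodeField (FL := FL) S) f * (B' : NodeField (FL := FL) S) =
      (A' : NodeField (FL := FL) S) := (mul_comm _ _).trans hab
  have hA : A' ≠ 0 := fun h => by
    rw [h] at hfe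
    exact (isUnit_embF' (FL := FL) S hb0).ne_zero
      (((isUnit_iff_ne_zero.mpr hf).map _).mul_right_eq_zero.mp hfe)
  obtain ⟨i, A1, hA1, hAe⟩ := WfDvdMonoid.max_power_factor hA hϖ.irreducible
  obtain ⟨j, B1, hB1, hBe⟩ := WfDvdMonoid.max_power_factor hB hϖ.irreducible
  have hϖu := isUnit_of_ne_zero E S hc hϖ.ne_zero
  rw [hAe, hBe] at hfe
  simp only [MulMemClass.coe_mul, SubmonoidClass.coe_pow] at hfe
  rcases le_total j i with hji | hij
  · left
    exact ⟨ϖ ^ (i - j) * A1, B1, hB1, by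
      simpa only [MulMemClass.coe_mul, SubmonoidClass.coe_pow] using cancel_pow_aux hϖu hji hfe⟩
  · right
    exact ⟨ϖ ^ (j - i) * B1, A1, hA1, by
      simpa only [MulMemClass.coe_mul, SubmonoidClass.coe_pow] using
        cancel_pow_inv_aux (g := algebraMap FL (NodeField (FL := FL) S) f⁻¹) hϖu
          (by rw [← map_mul, inv_mul_cancel₀ hf, map_one]) hij hfe⟩

/-- The valuation ring of `FL` at a prime of the ring at the pair. -/
def primeSubring (hc : ∀ j, E.c j ∈ S.A) (ϖ : nodeRing E S) (hϖ : Prime ϖ)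
    [IsDomain (nodeRing E S)] [UniqueFactorizationMonoid (nodeRing E S)]
    [Nontrivial (NodeField (FL := FL) S)] : ValuationSubring FL :=
  { primeCarrier E S ϖ hϖ with
    mem_or_inv_mem' := primeCarrier_mem_or_inv E S hc ϖ hϖ }

theorem mem_primeSubring (hc : ∀ j, E.c j ∈ S.A) {ϖ : nodeRing E S} (hϖ : Prime ϖ)
    [IsDomain (nodeRing E S)] [UniqueFactorizationMonoid (nodeRing E S)]
    [Nontrivial (NodeField (FL := FL) S)] {f : FL} :
    f ∈ primeSubring E S hc ϖ hϖ ↔ ∃ a b : nodeRing E S, ¬ ϖ ∣ b ∧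
      algebraMap FL (NodeField S) f * (b : NodeField (FL := FL) S) =
        (a : NodeField (FL := FL) S) := Iff.rfl

theorem divisibleAway_of_loc (hc : ∀ j, E.c j ∈ S.A)
    [IsDomain (nodeRing E S)] [UniqueFactorizationMonoid (nodeRing E S)]
    [Nontrivial (NodeField (FL := FL) S)] {u : FL} (hu : u ≠ 0)
    (hloc : LocallyPthPower W E u) {x y : nodeRing E S} (hy0 : y ≠ 0)
    (hz0 : x * y ^ (p - 1) ≠ 0)
    (hux : algebraMap FL (NodeField (FL := FL) S) u * (y : NodeField (FL := FL) S) =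
      (x : NodeField (FL := FL) S)) :
    DivisibleAway (sR E S) (tR E S) p (x * y ^ (p - 1)) := by
  classical
  have hs := prime_sR E S hc
  have ht := prime_tR E S hc
  intro ϖ hϖ h1 h2 k hk hk'
  have hs' : ¬ ϖ ∣ sR E S := fun h => h1 ((hϖ.dvd_prime_iff_associated hs).mp h)
  have ht' : ¬ ϖ ∣ tR E S := fun h => h2 ((hϖ.dvd_prime_iff_associated ht).mp h)
  have hone : ¬ ϖ ∣ (1 : nodeRing E S) := fun h => hϖ.not_isUnit (isUnit_of_dvd_one h)
  obtain ⟨f, hf0, h01, h02⟩ := hloc (primeSubring E S hc ϖ hϖ)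
    (fun c hcW => (mem_primeSubring E S hc hϖ).mpr
      ⟨⟨embF S c, embF_mem E S (S.W_le hcW)⟩, 1, hone, by simp [embF]⟩)
    ((mem_primeSubring E S hc hϖ).mpr ⟨⟨_, pi_mem_node E S⟩, 1, hone, by simp⟩)
    ((mem_primeSubring E S hc hϖ).mpr ⟨1, ⟨_, pi_mem_node E S⟩, by
      rw [pi_eq_st E S]
      exact fun h => (hϖ.dvd_or_dvd h).elim hs' ht', by
      show algebraMap FL (NodeField S) E.π⁻¹ * algebraMap FL (NodeField S) E.π = _
      rw [← map_mul, inv_mul_cancel₀ E.pi_ne_zero, map_one]; rfl⟩)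
  obtain ⟨a1, b1, hb1, he1⟩ := (mem_primeSubring E S hc hϖ).mp h01
  obtain ⟨a2, b2, hb2, he2⟩ := (mem_primeSubring E S hc hϖ).mp h02
  have ha2 : ¬ ϖ ∣ a2 := by
    intro hd
    have h12 : (a1 * a2 : nodeRing E S) = b1 * b2 := Subtype.ext (by
      push_cast
      rw [← he1, ← he2]
      have : algebraMap FL (NodeField (FL := FL) S) (f ^ p * u⁻¹) *
          algebraMap FL (NodeField (FL := FL) S) (u * (f ^ p)⁻¹) = 1 := by
        rw [← map_mul, show f ^ p * u⁻¹ * (u * (f ^ p)⁻¹) = 1 by field_simp, map_one]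
      linear_combination ((b1 : NodeField (FL := FL) S) * (b2 : NodeField (FL := FL) S)) * this)
    exact (hϖ.dvd_or_dvd (h12 ▸ hd.mul_left a1)).elim hb1 hb2
  obtain ⟨fd, hfd, hfd0, fn, hfn, hff⟩ := exists_scale_FL E S f
  set fy : nodeRing E S := ⟨embF S fd, embF_mem E S hfd⟩
  set fx : nodeRing E S := ⟨fn, hfn⟩
  have hfy : fy ≠ 0 := fun h => (isUnit_embF' (FL := FL) S hfd0).ne_zero (congrArg Subtype.val h)
  have hfx : fx ≠ 0 := fun h => by
    have : embF S fd * algebraMap FL (NodeField (FL := FL) S) f = 0 :=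
      hff.trans (congrArg Subtype.val h)
    exact ((isUnit_embF' (FL := FL) S hfd0).mul ((isUnit_iff_ne_zero.mpr hf0).map _)).ne_zero this
  have hmain : x * y ^ (p - 1) * (b2 * fy ^ p) = y ^ p * fx ^ p * a2 := Subtype.ext (by
    push_cast
    rw [← hux, ← he2, show (fx : NodeField (FL := FL) S) = (fy : NodeField (FL := FL) S) *
      algebraMap FL (NodeField (FL := FL) S) f from hff.symm]
    have hyp : (y : NodeField (FL := FL) S) ^ p =
        (y : NodeField (FL := FL) S) * (y : NodeField (FL := FL) S) ^ (p - 1) := by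
      rw [← pow_succ', Nat.sub_add_cancel hp.out.pos]
    have hid : algebraMap FL (NodeField (FL := FL) S) u =
        algebraMap FL (NodeField (FL := FL) S) f ^ p *
          algebraMap FL (NodeField (FL := FL) S) (u * (f ^ p)⁻¹) := by
      rw [← map_pow, ← map_mul]; congr 1; field_simp
    rw [hyp]
    linear_combination ((y : NodeField (FL := FL) S) *
      (y : NodeField (FL := FL) S) ^ (p - 1) * (b2 : NodeField (FL := FL) S) *
      (fy : NodeField (FL := FL) S) ^ p) * hid)
  have hmult : ∀ {z : nodeRing E S}, z ≠ 0 → ∃ i z1, ¬ ϖ ∣ z1 ∧ z = ϖ ^ i * z1 :=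
    fun hz => WfDvdMonoid.max_power_factor hz hϖ.irreducible
  obtain ⟨i1, fy1, hfy1, hfye⟩ := hmult hfy
  obtain ⟨i2, fx1, hfx1, hfxe⟩ := hmult hfx
  obtain ⟨i3, y1, hy1, hye⟩ := hmult hy0
  obtain ⟨i4, z1, hz1, hze⟩ := hmult hz0
  have hki : k = i4 := by
    rw [hze] at hk hk'
    by_contra hne
    rcases lt_or_gt_of_ne hne with h | h
    · exact hk' ((pow_dvd_pow ϖ h).trans (dvd_mul_right _ _))
    · exact hz1 ((mul_dvd_mul_iff_left (pow_ne_zero i4 hϖ.ne_zero)).mp
        (by rw [← pow_succ]; exact (pow_dvd_pow ϖ h).trans hk))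
  rw [hze, hfye, hfxe, hye] at hmain
  have hl : ϖ ^ (i4 + p * i1) * (z1 * b2 * fy1 ^ p) =
      ϖ ^ (p * i3 + p * i2) * (y1 ^ p * fx1 ^ p * a2) := by
    simp only [pow_add, pow_mul']
    linear_combination hmain
  have hn1 : ¬ ϖ ∣ z1 * b2 * fy1 ^ p := fun h => (hϖ.dvd_or_dvd h).elim
    (fun h => (hϖ.dvd_or_dvd h).elim hz1 hb2) (fun h => hfy1 (hϖ.dvd_of_dvd_pow h))
  have hn2 : ¬ ϖ ∣ y1 ^ p * fx1 ^ p * a2 := fun h => (hϖ.dvd_or_dvd h).elim
    (fun h => (hϖ.dvd_or_dvd h).elim (fun h => hy1 (hϖ.dvd_of_dvd_pow h))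
      (fun h => hfx1 (hϖ.dvd_of_dvd_pow h))) ha2
  have heq : i4 + p * i1 = p * i3 + p * i2 := by
    by_contra hne
    rcases lt_or_gt_of_ne hne with h | h
    · refine hn1 ((mul_dvd_mul_iff_left (pow_ne_zero (i4 + p * i1) hϖ.ne_zero)).mp ?_)
      rw [← pow_succ, hl]
      exact (pow_dvd_pow ϖ h).trans (dvd_mul_right _ _)
    · refine hn2 ((mul_dvd_mul_iff_left (pow_ne_zero (p * i3 + p * i2) hϖ.ne_zero)).mp ?_)
      rw [← pow_succ, ← hl]
      exact (pow_dvd_pow ϖ h).trans (dvd_mul_right _ _)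
  rw [hki]
  have h1 : p ∣ i4 + p * i1 := heq ▸ dvd_add (dvd_mul_right _ _) (dvd_mul_right _ _)
  exact (Nat.dvd_add_left (dvd_mul_right _ _)).mp h1

/-- The factorisation of a function which is locally a `p`-th power. -/
theorem exists_factor (hc : ∀ j, E.c j ∈ S.A) {u : FL} (hu : u ≠ 0)
    (hloc : LocallyPthPower W E u) :
    ∃ (a b c d : ℕ) (G0 y U : nodeRing E S), IsUnit U ∧ ¬ sR E S ∣ G0 ∧ ¬ tR E S ∣ G0 ∧
      ¬ sR E S ∣ y ∧ ¬ tR E S ∣ y ∧
      algebraMap FL (NodeField S) u * (y : NodeField (FL := FL) S) ^ p * sN S ^ c * tN E S ^ d =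
        sN S ^ a * tN E S ^ b * (G0 : NodeField (FL := FL) S) ^ p *
          (U : NodeField (FL := FL) S) := by
  classical
  have := isDomain_node E S hc
  have := ufm_node E S hc
  have := nontrivial_node E S hc
  have hs := prime_sR E S hc
  have ht := prime_tR E S hc
  obtain ⟨yA, hyA, hyA0, z, hz, hzu⟩ := exists_scale_FL E S u
  set y : nodeRing E S := ⟨embF S yA, embF_mem E S hyA⟩ with hy
  set x : nodeRing E S := ⟨z, hz⟩ with hx
  have hy0 : y ≠ 0 := fun h => (isUnit_embF' (FL := FL) S hyA0).ne_zero (congrArg Subtype.val h)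
  have hux : algebraMap FL (NodeField (FL := FL) S) u * (y : NodeField (FL := FL) S) =
      (x : NodeField (FL := FL) S) := by
    rw [mul_comm]; exact hzu
  have hune : IsUnit (algebraMap FL (NodeField (FL := FL) S) u) :=
    (isUnit_iff_ne_zero.mpr hu).map _
  have hz0 : x * y ^ (p - 1) ≠ 0 := by
    refine mul_ne_zero (fun h => ?_) (pow_ne_zero _ hy0)
    rw [h] at hux
    exact (isUnit_of_ne_zero E S hc hy0).ne_zero (hune.mul_right_eq_zero.mp hux)
  have hdiv := divisibleAway_of_loc E S hc hu hloc hy0 hz0 hux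
  obtain ⟨a, b, G0, U, hG, hsG, htG⟩ := exists_eq_mul_pow hs ht hp.out.pos _ hz0 hdiv
  obtain ⟨c, y2, hy2, hye⟩ := WfDvdMonoid.max_power_factor hy0 hs.irreducible
  have hy20 : y2 ≠ 0 := fun h => hy2 (h ▸ dvd_zero _)
  obtain ⟨d, y3, hy3, hye2⟩ := WfDvdMonoid.max_power_factor hy20 ht.irreducible
  have hy3s : ¬ sR E S ∣ y3 := fun h => hy2 (hye2 ▸ h.mul_left _)
  refine ⟨a, b, c * p, d * p, G0, y3, U, U.isUnit, hsG, htG, hy3s, hy3, ?_⟩
  have h1 : algebraMap FL (NodeField S) u * (y : NodeField (FL := FL) S) ^ p =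
      sN S ^ a * tN E S ^ b * (G0 : NodeField (FL := FL) S) ^ p *
        ((U : nodeRing E S) : NodeField (FL := FL) S) := by
    have h2 := congrArg (fun z : nodeRing E S => (z : NodeField (FL := FL) S)) hG
    simp only [MulMemClass.coe_mul, SubmonoidClass.coe_pow, sR, tR] at h2
    have h3 : (y : NodeField (FL := FL) S) ^ p =
        (y : NodeField (FL := FL) S) * (y : NodeField (FL := FL) S) ^ (p - 1) := by
      rw [← pow_succ']
      exact congrArg ((y : NodeField (FL := FL) S) ^ ·) (Nat.sub_add_cancel hp.out.pos).symm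
    rw [h3, ← mul_assoc, hux, h2]
  rw [← h1, hye, hye2]
  simp only [MulMemClass.coe_mul, SubmonoidClass.coe_pow, sR, tR, mul_pow, ← pow_mul]
  ring

end Fermat.Agent.LevelP

end
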