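import Fermat.Agent.LevelP.NodeBranch

/-!
# Locality and factoriality of the ring at a pair
-/

set_option autoImplicit false

noncomputable section

namespace Fermat.Agent.LevelP

open TrivSqZeroExt
open scoped DualNumber

section Form

variable {k G : Type*} [Field k] [Field G] [Algebra k G] {P : DVPoint k G} {β : G} {η : k}
  {n : ℕ} {Q' : Type*} [CommRing Q'] [Algebra (DualNumber G) Q']
  (B : RootBasis (DualNumber G) Q' n (betaEps β η))

/-- A constant of the branch. -/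
def constQ (c : k) : Q' := algebraMap (DualNumber G) Q' (inl (algebraMap k G c))

/-- `x = α + c T + d ε / T` up to `T² Q⁺ + ε T Q⁺`. -/
def BranchForm (B : RootBasis (DualNumber G) Q' n (betaEps β η)) (P : DVPoint k G) (x : Q')
    (α : DualNumber k) (c d : k) : Prop :=
  ∃ Y ∈ posSet B P, ∃ Z ∈ posSet B P, x = constQ (G := G) α.fst +
    algebraMap (DualNumber G) Q' ε * constQ (G := G) α.snd + constQ (G := G) c * B.T +
    B.T ^ 2 * Y + algebraMap (DualNumber G) Q' ε * (B.T * Z) +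
    algebraMap (DualNumber G) Q' ε * constQ (G := G) d * tInv B

theorem constQ_add (a b : k) : (constQ (G := G) (a + b) : Q') = constQ (G := G) a + constQ (G := G) b := by
  rw [constQ, map_add, TrivSqZeroExt.inl_add, map_add]; rfl

theorem constQ_mul (a b : k) : (constQ (G := G) (a * b) : Q') = constQ (G := G) a * constQ (G := G) b := by
  rw [constQ, map_mul (algebraMap k G), TrivSqZeroExt.inl_mul, map_mul]; rfl

theorem constQ_zero : (constQ (G := G) (0 : k) : Q') = 0 := by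
  rw [constQ, map_zero, TrivSqZeroExt.inl_zero, map_zero]

theorem constQ_one : (constQ (G := G) (1 : k) : Q') = 1 := by
  rw [constQ, map_one, TrivSqZeroExt.inl_one, map_one]

theorem eps_sq : algebraMap (DualNumber G) Q' ε * algebraMap (DualNumber G) Q' ε = 0 := by
  rw [← map_mul, DualNumber.eps_mul_eps, map_zero]

variable {B}

theorem constQ_pos (hn : 0 < n) (c : k) : constQ (G := G) c ∈ posSet B P :=
  const_pos B hn ⟨by simp [P.algebraMap_mem], by simp [zero_mem]⟩

theorem BranchForm.add {x y : Q'} {α α' : DualNumber k} {c d c' d' : k}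
    (hx : BranchForm B P x α c d) (hy : BranchForm B P y α' c' d') :
    BranchForm B P (x + y) (α + α') (c + c') (d + d') := by
  obtain ⟨Y, hY, Z, hZ, rfl⟩ := hx
  obtain ⟨Y', hY', Z', hZ', rfl⟩ := hy
  refine ⟨Y + Y', add_pos' B hY hY', Z + Z', add_pos' B hZ hZ', ?_⟩
  simp only [TrivSqZeroExt.fst_add, TrivSqZeroExt.snd_add, constQ_add]
  ring

theorem BranchForm.mul (hβ : P.IsUnif β) (hn : 0 < n) {x y : Q'} {α α' : DualNumber k}
    {c d c' d' : k} (hx : BranchForm B P x α c d) (hy : BranchForm B P y α' c' d') :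
    BranchForm B P (x * y) (α * α' + TrivSqZeroExt.inr (c * d' + c' * d))
      (α.fst * c' + α'.fst * c) (α.fst * d' + α'.fst * d) := by
  obtain ⟨Y, hY, Z, hZ, rfl⟩ := hx
  obtain ⟨Y', hY', Z', hZ', rfl⟩ := hy
  have hT := T_mul_tInv B hβ.ne_zero hn
  have he := eps_sq (G := G) (Q' := Q')
  set L := fun a : k => (constQ (G := G) a : Q') with hL
  set e := algebraMap (DualNumber G) Q' ε
  set i := tInv B
  set T := B.T
  refine ⟨L α.fst * Y' + L α'.fst * Y + L c * L c' + T * (L c * Y' + L c' * Y) + T ^ 2 * (Y * Y'),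
    ?_, L α.fst * Z' + L α'.fst * Z + L α.snd * L c' + L α'.snd * L c +
      T * (L c * Z' + L c' * Z) + T ^ 2 * (Y * Z' + Y' * Z) + T * (L α.snd * Y' + L α'.snd * Y) +
      (L d' * Y + L d * Y'), ?_, ?_⟩
  · have hp := constQ_pos (B := B) (P := P) hn
    have h1 : T ∈ posSet B P := by simpa using T_mul_pos B hβ (one_pos' B (P := P) hn)
    exact add_pos' B (add_pos' B (add_pos' B (add_pos' B (mul_pos' B hβ (hp _) hY')
      (mul_pos' B hβ (hp _) hY)) (mul_pos' B hβ (hp _) (hp _)))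
      (mul_pos' B hβ h1 (add_pos' B (mul_pos' B hβ (hp _) hY') (mul_pos' B hβ (hp _) hY))))
      (T_pow_mul_pos B hβ (mul_pos' B hβ hY hY') 2)
  · have hp := constQ_pos (B := B) (P := P) hn
    have h1 : T ∈ posSet B P := by simpa using T_mul_pos B hβ (one_pos' B (P := P) hn)
    exact add_pos' B (add_pos' B (add_pos' B (add_pos' B (add_pos' B (add_pos' B (add_pos' B
      (mul_pos' B hβ (hp _) hZ') (mul_pos' B hβ (hp _) hZ)) (mul_pos' B hβ (hp _) (hp _)))
      (mul_pos' B hβ (hp _) (hp _)))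
      (mul_pos' B hβ h1 (add_pos' B (mul_pos' B hβ (hp _) hZ') (mul_pos' B hβ (hp _) hZ))))
      (T_pow_mul_pos B hβ (add_pos' B (mul_pos' B hβ hY hZ') (mul_pos' B hβ hY' hZ)) 2))
      (mul_pos' B hβ h1 (add_pos' B (mul_pos' B hβ (hp _) hY') (mul_pos' B hβ (hp _) hY))))
      (add_pos' B (mul_pos' B hβ (hp _) hY) (mul_pos' B hβ (hp _) hY'))
  · simp only [hL, TrivSqZeroExt.fst_add, TrivSqZeroExt.fst_mul, TrivSqZeroExt.fst_inr,
      TrivSqZeroExt.snd_add, TrivSqZeroExt.snd_mul, TrivSqZeroExt.snd_inr, smul_eq_mul,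
      op_smul_eq_mul, add_zero, constQ_add, constQ_mul]
    linear_combination
      (constQ (G := G) α.snd + T * Z + constQ (G := G) d * i) *
        (constQ (G := G) α'.snd + T * Z' + constQ (G := G) d' * i) * he +
      (e * constQ (G := G) c * constQ (G := G) d' + e * constQ (G := G) c' * constQ (G := G) d +
        e * T * (Y * constQ (G := G) d' + Y' * constQ (G := G) d)) * hT

theorem BranchForm.hasConst (hβ : P.IsUnif β) (hn : 0 < n) {x : Q'} {α : DualNumber k} {c d : k}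
    (hx : BranchForm B P x α c d) : HasConst B P x α := by
  obtain ⟨Y, hY, Z, hZ, rfl⟩ := hx
  refine ⟨constQ (G := G) c + B.T * Y + algebraMap (DualNumber G) Q' ε * Z, ?_, d, ?_⟩
  · exact add_pos' B (add_pos' B (constQ_pos hn c) (T_mul_pos B hβ hY))
      (const_mul_pos B ⟨by simp [zero_mem], by simp [one_mem]⟩ hZ)
  · have h1 : (algebraMap (DualNumber G) Q') (liftDual (G := G) α) =
        constQ (G := G) α.fst + algebraMap (DualNumber G) Q' ε * constQ (G := G) α.snd := by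
      rw [constQ, constQ, ← map_mul, ← map_add]
      congr 1
      ext <;> simp [DualNumber.fst_eps, DualNumber.snd_eps]
    have h2 : (algebraMap (DualNumber G) Q') (inr (algebraMap k G d)) =
        algebraMap (DualNumber G) Q' ε * constQ (G := G) d := by
      rw [constQ, ← map_mul]
      congr 1
      ext
      · simp
      · simp [DualNumber.snd_eps, Algebra.algebraMap_eq_smul_one]
    rw [h1, h2]
    ring

/-- The constant of `1` cannot vanish. -/
theorem BranchForm.fst_ne_zero (hβ : P.IsUnif β) (hn : 1 < n) {α : DualNumber k} {c d : k}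
    (hx : BranchForm B P 1 α c d) : α.fst ≠ 0 := by
  intro h0
  obtain ⟨Y, hY, c', h⟩ := hx.hasConst hβ (by omega)
  have h1 := congrArg (fun y => (B.coeff y (⟨0, by omega⟩ : Fin n)).fst) h
  have hz := ev_coeff_T_pow_mul B hβ hY 1 (by omega) (⟨0, by omega⟩ : Fin n) Nat.one_pos
  rw [pow_one] at hz
  have hone : B.coeff (1 : Q') ⟨0, by omega⟩ = 1 := by
    rw [← map_one (algebraMap (DualNumber G) Q'), B.coeff_algebraMap (by omega), if_pos rfl]
  have h2 : (1 : G) = (B.coeff (B.T * Y) ⟨0, by omega⟩).fst := by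
    have := h1
    simp only [B.coeff_sub, hone, B.coeff_add, B.coeff_algebraMap_mul,
      B.coeff_algebraMap (show 0 < n by omega), TrivSqZeroExt.fst_mul, TrivSqZeroExt.fst_inr,
      zero_mul, add_zero, TrivSqZeroExt.fst_sub, TrivSqZeroExt.fst_add, TrivSqZeroExt.fst_one,
      if_true, fst_liftDual, h0, map_zero, sub_zero] at this
    exact this
  rw [← h2, P.evF_one] at hz
  exact one_ne_zero hz

theorem branchForm_inl (hβ : P.IsUnif β) (hn : 2 ≤ n) {g : G} (hg : g ∈ P.O) :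
    BranchForm B P (algebraMap (DualNumber G) Q' (inl g)) (TrivSqZeroExt.inl (P.evF g)) 0 0 := by
  obtain ⟨z, hz, hz'⟩ := hβ.exists_div (sub_mem hg (P.algebraMap_mem (P.evF g))) (by
    have h := P.evF_add (sub_mem hg (P.algebraMap_mem (P.evF g))) (P.algebraMap_mem (P.evF g))
    rw [sub_add_cancel, P.evF_algebraMap] at h
    simpa using h)
  refine ⟨B.T ^ (n - 2) * algebraMap _ Q' (inl z), T_pow_mul_pos B hβ (const_pos B (by omega)
    ⟨by simp [hz], by simp [zero_mem]⟩) _,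
    B.T ^ (n - 1) * algebraMap _ Q' (inl (-(algebraMap k G η * z))),
    T_pow_mul_pos B hβ (const_pos B (by omega)
      ⟨by simpa using neg_mem (mul_mem (P.algebraMap_mem η) hz), by simp [zero_mem]⟩) _, ?_⟩
  have hT : B.T ^ 2 * B.T ^ (n - 2) = algebraMap (DualNumber G) Q' (betaEps β η) := by
    rw [← pow_add, Nat.add_sub_cancel' hn, B.pow_eq]
  have hT' : B.T * B.T ^ (n - 1) = algebraMap (DualNumber G) Q' (betaEps β η) := by
    rw [← pow_succ', Nat.sub_add_cancel (by omega), B.pow_eq]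
  simp only [TrivSqZeroExt.fst_inl, TrivSqZeroExt.snd_inl, constQ_zero, mul_zero, zero_mul,
    add_zero, ← mul_assoc]
  rw [mul_assoc (algebraMap (DualNumber G) Q' ε) B.T, hT, hT', constQ, ← map_mul, ← map_mul,
    ← map_mul, ← map_add, ← map_add]
  congr 1
  ext
  · simp [betaEps]; linear_combination hz'
  · simp [betaEps]; ring

theorem branchForm_eps (hn : 0 < n) :
    BranchForm B P (algebraMap (DualNumber G) Q' ε) ε 0 0 := by
  refine ⟨0, zero_pos' B, 0, zero_pos' B, ?_⟩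
  simp [constQ_zero, constQ_one]

theorem branchForm_T : BranchForm B P B.T 0 1 0 := by
  refine ⟨0, zero_pos' B, 0, zero_pos' B, ?_⟩
  simp [constQ_zero, constQ_one]

theorem branchForm_eps_tInv :
    BranchForm B P (algebraMap (DualNumber G) Q' ε * tInv B) 0 0 1 := by
  refine ⟨0, zero_pos' B, 0, zero_pos' B, ?_⟩
  simp [constQ_zero, constQ_one]

end Form

variable {p : ℕ} [hp : Fact p.Prime] {F : Type*} [Field F] {k G : Type*} [Field k] [Field G]
  [Algebra k G] [CharP G p] {D : GlueData p F k G} {FL : Type*} [Field FL] [Algebra F FL]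
  {W : Subring F} {P Q : DVPoint k G} {w : F} {kw : ℕ}

variable (E : RamExt D FL) (S : PairData D W P Q w kw)

/-- The forms on both branches, with exchanged parameters. -/
def NodeForm (x : NodeField (FL := FL) S) (α : DualNumber k) (c d : k) : Prop :=
  ∃ (h0 : x ∈ vInt0 E S) (h1 : x ∈ vInt1 E S),
    BranchForm (rb0 S) P (rho0 E S ⟨x, h0⟩) α c d ∧
      BranchForm (rb1 E S) Q (rho1 E S ⟨x, h1⟩) α d c

variable {E S}

theorem NodeForm.add {x y : NodeField (FL := FL) S} {α α' : DualNumber k} {c d c' d' : k}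
    (hx : NodeForm E S x α c d) (hy : NodeForm E S y α' c' d') :
    NodeForm E S (x + y) (α + α') (c + c') (d + d') := by
  obtain ⟨h0, h1, a, b⟩ := hx
  obtain ⟨g0, g1, a', b'⟩ := hy
  refine ⟨add_mem h0 g0, add_mem h1 g1, ?_, ?_⟩
  · rw [show (⟨x + y, add_mem h0 g0⟩ : vInt0 E S) = ⟨x, h0⟩ + ⟨y, g0⟩ from rfl, map_add]
    exact a.add a'
  · rw [show (⟨x + y, add_mem h1 g1⟩ : vInt1 E S) = ⟨x, h1⟩ + ⟨y, g1⟩ from rfl, map_add]
    exact b.add b'

theorem NodeForm.mul {x y : NodeField (FL := FL) S} {α α' : DualNumber k} {c d c' d' : k}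
    (hx : NodeForm E S x α c d) (hy : NodeForm E S y α' c' d') :
    NodeForm E S (x * y) (α * α' + TrivSqZeroExt.inr (c * d' + c' * d))
      (α.fst * c' + α'.fst * c) (α.fst * d' + α'.fst * d) := by
  obtain ⟨h0, h1, a, b⟩ := hx
  obtain ⟨g0, g1, a', b'⟩ := hy
  refine ⟨mul_mem h0 g0, mul_mem h1 g1, ?_, ?_⟩
  · rw [show (⟨x * y, mul_mem h0 g0⟩ : vInt0 E S) = ⟨x, h0⟩ * ⟨y, g0⟩ from rfl, map_mul]
    exact a.mul (isUnif_beta0 S) (nodeDeg_pos S) a'
  · rw [show (⟨x * y, mul_mem h1 g1⟩ : vInt1 E S) = ⟨x, h1⟩ * ⟨y, g1⟩ from rfl, map_mul,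
      show c * d' + c' * d = d * c' + d' * c by ring]
    exact b.mul (isUnif_beta1 E S) (nodeDeg_pos S) b'

theorem embF_mem0 {f : F} (hf : f ∈ S.A) : embF S f ∈ vInt0 E S :=
  algebraMap_mem0 E S (E.algebraMap_mem (S.le 0 hf))

theorem embF_mem1 {f : F} (hf : f ∈ S.A) : embF S f ∈ vInt1 E S :=
  algebraMap_mem1 E S (E.algebraMap_mem (S.le 1 hf))

theorem nodeForm_embF {f : F} (hf : f ∈ S.A) :
    NodeForm E S (embF S f) (TrivSqZeroExt.inl (P.evF (D.redF 0 f))) 0 0 := by
  refine ⟨embF_mem0 hf, embF_mem1 hf, ?_, ?_⟩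
  · have h := rho0_algebraMap E S (E.algebraMap_mem (S.le 0 hf)) (embF_mem0 (E := E) hf)
    rw [E.redEps_algebraMap] at h
    rw [show rho0 E S ⟨embF S f, embF_mem0 hf⟩ = _ from h]
    exact branchForm_inl (isUnif_beta0 S) (one_lt_nodeDeg S) (S.red0_mem f hf)
  · have h := rho1_algebraMap E S (E.algebraMap_mem (S.le 1 hf)) (embF_mem1 (E := E) hf)
    rw [E.redEps_algebraMap] at h
    rw [show rho1 E S ⟨embF S f, embF_mem1 hf⟩ = _ from h, S.ev_eq f hf]
    exact branchForm_inl (isUnif_beta1 E S) (one_lt_nodeDeg S) (S.red1_mem f hf)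

theorem nodeForm_pi : NodeForm E S (algebraMap FL (NodeField S) E.π) ε 0 0 := by
  refine ⟨algebraMap_mem0 E S (E.pi_mem 0), algebraMap_mem1 E S (E.pi_mem 1), ?_, ?_⟩
  · rw [rho0_algebraMap E S (E.pi_mem 0), E.redL_pi]
    exact branchForm_eps (nodeDeg_pos S)
  · rw [rho1_algebraMap E S (E.pi_mem 1), E.redL_pi]
    exact branchForm_eps (nodeDeg_pos S)

theorem nodeForm_s : NodeForm E S (sN S) 0 1 0 := by
  refine ⟨s_mem0 E S, s_mem1 E S, ?_, ?_⟩
  · rw [rho0_s]; exact branchForm_T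
  · rw [rho1_s]; exact branchForm_eps_tInv

theorem nodeForm_t : NodeForm E S (tN E S) 0 0 1 := by
  refine ⟨t_mem0 E S, t_mem1 E S, ?_, ?_⟩
  · rw [rho0_t]; exact branchForm_eps_tInv
  · rw [rho1_t]; exact branchForm_T

theorem algebraMap_node (r : S.A) :
    algebraMap S.A (NodeField (FL := FL) S) r = embF S (r : F) := by
  rw [IsScalarTower.algebraMap_apply S.A FL (NodeField (FL := FL) S),
    IsScalarTower.algebraMap_apply S.A F FL]
  rfl

theorem exists_nodeForm {x : NodeField (FL := FL) S} (hx : x ∈ nodeRing E S) :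
    ∃ α c d, NodeForm E S x α c d := by
  induction hx using Algebra.adjoin_induction with
  | mem y hy =>
    rcases hy with rfl | rfl | rfl
    exacts [⟨_, _, _, nodeForm_pi⟩, ⟨_, _, _, nodeForm_s⟩, ⟨_, _, _, nodeForm_t⟩]
  | algebraMap r => exact ⟨_, _, _, (algebraMap_node (FL := FL) (S := S) r).symm ▸ nodeForm_embF r.2⟩
  | add y z _ _ hy hz =>
    obtain ⟨_, _, _, h⟩ := hy
    obtain ⟨_, _, _, h'⟩ := hz
    exact ⟨_, _, _, h.add h'⟩
  | mul y z _ _ hy hz =>
    obtain ⟨_, _, _, h⟩ := hy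
    obtain ⟨_, _, _, h'⟩ := hz
    exact ⟨_, _, _, h.mul h'⟩

variable (E S)

/-- `s` in the ring at the pair. -/
def sR : nodeRing E S := ⟨sN S, s_mem E S⟩

/-- `t` in the ring at the pair. -/
def tR : nodeRing E S := ⟨tN E S, t_mem E S⟩

/-- The ideal `(s, t)`. -/
def nodeIdeal : Ideal (nodeRing E S) := Ideal.span {sR E S, tR E S}

theorem exists_form_fst_zero {x : nodeRing E S} (hx : x ∈ nodeIdeal E S) :
    ∃ α c d, NodeForm E S (x : NodeField (FL := FL) S) α c d ∧ α.fst = 0 := by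
  obtain ⟨a, b, hab⟩ := Ideal.mem_span_pair.mp hx
  obtain ⟨α, c, d, ha⟩ := exists_nodeForm a.2
  obtain ⟨α', c', d', hb⟩ := exists_nodeForm b.2
  have hx' : ((x : nodeRing E S) : NodeField (FL := FL) S) =
      (a : NodeField (FL := FL) S) * sN S + (b : NodeField (FL := FL) S) * tN E S := by
    rw [← hab]; rfl
  refine ⟨_, _, _, hx'.symm ▸ (ha.mul nodeForm_s).add (hb.mul nodeForm_t), ?_⟩
  simp

theorem one_notMem_nodeIdeal : (1 : nodeRing E S) ∉ nodeIdeal E S := fun h => by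
  obtain ⟨α, c, d, ⟨h0, _, hf, _⟩, hα⟩ := exists_form_fst_zero E S h
  rw [show (⟨((1 : nodeRing E S) : NodeField (FL := FL) S), h0⟩ : vInt0 E S) = 1 from rfl,
    map_one] at hf
  exact hf.fst_ne_zero (isUnif_beta0 S) (one_lt_nodeDeg S) hα

theorem exists_mem_add_ideal (x : nodeRing E S) :
    ∃ f ∈ S.A, ∃ m ∈ nodeIdeal E S, (x : NodeField (FL := FL) S) = embF S f + (m : NodeField (FL := FL) S) := by
  obtain ⟨x, hx⟩ := x
  have hs : sR E S ∈ nodeIdeal E S := Ideal.subset_span (by simp)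
  have ht : tR E S ∈ nodeIdeal E S := Ideal.subset_span (by simp)
  show ∃ f ∈ S.A, ∃ m ∈ nodeIdeal E S, x = embF S f + (m : NodeField (FL := FL) S)
  induction hx using Algebra.adjoin_induction with
  | mem y hy =>
    refine ⟨0, zero_mem _, ?_⟩
    rcases hy with rfl | rfl | rfl
    · exact ⟨sR E S * tR E S, Ideal.mul_mem_left _ _ ht, by simp [sR, tR, s_mul_t E S]⟩
    · exact ⟨sR E S, hs, by simp [sR]⟩
    · exact ⟨tR E S, ht, by simp [tR]⟩
  | algebraMap r =>
    exact ⟨r, r.2, 0, Ideal.zero_mem _, by rw [algebraMap_node]; simp⟩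
  | add y z _ _ hy hz =>
    obtain ⟨f, hf, m, hm, rfl⟩ := hy
    obtain ⟨g, hg, m', hm', rfl⟩ := hz
    exact ⟨f + g, add_mem hf hg, m + m', add_mem hm hm', by simp only [map_add]; push_cast; ring⟩
  | mul y z hy' hz' hy hz =>
    obtain ⟨f, hf, m, hm, rfl⟩ := hy
    obtain ⟨g, hg, m', hm', rfl⟩ := hz
    refine ⟨f * g, mul_mem hf hg,
      m * ⟨embF S g, embF_mem E S hg⟩ + ⟨embF S f, embF_mem E S hf⟩ * m' + m * m', ?_, ?_⟩
    · exact add_mem (add_mem (Ideal.mul_mem_right _ _ hm) (Ideal.mul_mem_left _ _ hm'))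
        (Ideal.mul_mem_left _ _ hm')
    · simp only [map_mul]; push_cast; ring

theorem isUnit_embF {f : F} (hf : f ∈ S.A) (h : P.evF (D.redF 0 f) ≠ 0) :
    IsUnit (⟨embF S f, embF_mem E S hf⟩ : nodeRing E S) := by
  have hne : f ≠ 0 := fun h0 => h (by rw [h0, D.redF_zero, P.evF_zero])
  refine IsUnit.of_mul_eq_one ⟨embF S f⁻¹, embF_mem E S (S.inv_mem f hf h)⟩ (Subtype.ext ?_)
  show embF S f * embF S f⁻¹ = (1 : NodeField (FL := FL) S)
  rw [← map_mul, mul_inv_cancel₀ hne, map_one]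

variable (hc : ∀ j, E.c j ∈ S.A)

include hc in
theorem isUnit_of_value {x : nodeRing E S} {f : F} (hf : f ∈ S.A) {m : nodeRing E S}
    (hm : m ∈ nodeIdeal E S) (hx : (x : NodeField (FL := FL) S) = embF S f + (m : NodeField (FL := FL) S))
    (h : P.evF (D.redF 0 f) ≠ 0) : IsUnit x := by
  by_contra hu
  obtain ⟨M, hM, hxM⟩ := exists_max_ideal_of_mem_nonunits hu
  have := finite_node E S hc
  have : (M.comap (algebraMap S.A (nodeRing E S))).IsMaximal :=
    Ideal.isMaximal_comap_of_isIntegral_of_isMaximal M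
  have hA : ∀ g : S.A, P.evF (D.redF 0 (g : F)) = 0 → algebraMap S.A (nodeRing E S) g ∈ M := by
    intro g hg
    by_contra hgM
    obtain ⟨y, z, hz, hyz⟩ := Ideal.IsMaximal.exists_inv
      (I := M.comap (algebraMap S.A (nodeRing E S))) inferInstance hgM
    have hz0 : P.evF (D.redF 0 (z : F)) = 0 := by
      by_contra hne
      have hzu : IsUnit z := IsUnit.of_mul_eq_one ⟨(z : F)⁻¹, S.inv_mem z z.2 hne⟩
        (Subtype.ext (mul_inv_cancel₀ fun h0 => hne (by rw [h0, D.redF_zero, P.evF_zero])))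
      exact (inferInstance : (M.comap (algebraMap S.A (nodeRing E S))).IsMaximal).ne_top
        (Ideal.eq_top_of_isUnit_mem _ hz hzu)
    have h1 := congrArg (fun w : S.A => P.evF (D.redF 0 (w : F))) hyz
    simp only [Subring.coe_add, Subring.coe_mul, Subring.coe_one] at h1
    rw [D.redF_add (mul_mem (S.le 0 y.2) (S.le 0 g.2)) (S.le 0 z.2), D.redF_one, P.evF_one,
      P.evF_add (S.red0_mem _ (mul_mem y.2 g.2) |> fun h => by
        rwa [D.redF_mul (S.le 0 y.2) (S.le 0 g.2)] at h ⊢) (S.red0_mem _ z.2),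
      D.redF_mul (S.le 0 y.2) (S.le 0 g.2), P.evF_mul (S.red0_mem _ y.2) (S.red0_mem _ g.2), hg,
      hz0, mul_zero, add_zero] at h1
    exact zero_ne_one h1
  have hcoe : ∀ g : S.A, ((algebraMap S.A (nodeRing E S) g : nodeRing E S) :
      NodeField (FL := FL) S) = embF S (g : F) := fun g => algebraMap_node g
  have hsM : sR E S ∈ M := by
    refine hM.isPrime.mem_of_pow_mem (nodeDeg S) ?_
    have : sR E S ^ nodeDeg S = algebraMap S.A (nodeRing E S) ⟨S.a, S.a_mem⟩ := Subtype.ext (by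
      rw [hcoe]; simp [sR, sN, (basisS S).pow_eq, embF, alphaZero])
    rw [this]
    exact hA _ S.red0_a.evF_eq_zero
  have htM : tR E S ∈ M := by
    refine hM.isPrime.mem_of_pow_mem (nodeDeg S) ?_
    have : tR E S ^ nodeDeg S = algebraMap S.A (nodeRing E S) ⟨S.b, S.b_mem⟩ *
        ⟨_, unitC_mem_node E S hc⟩ ^ S.e := Subtype.ext (by
      push_cast; rw [algebraMap_node]; simp [tR, t_pow, alphaOne, embF, map_mul, map_pow])
    rw [this]
    exact M.mul_mem_right _ (hA _ (by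
      show P.evF (D.redF 0 S.b) = 0
      rw [S.red0_b, P.evF_zero]))
  have hI : nodeIdeal E S ≤ M := Ideal.span_le.mpr (by
    rintro _ (rfl | rfl) <;> assumption)
  have hfM : (⟨embF S f, embF_mem E S hf⟩ : nodeRing E S) ∈ M := by
    rw [show (⟨embF S f, embF_mem E S hf⟩ : nodeRing E S) = x - m from
      Subtype.ext (by push_cast; rw [hx]; ring)]
    exact M.sub_mem hxM (hI hm)
  exact hM.ne_top (Ideal.eq_top_of_isUnit_mem _ hfM (isUnit_embF E S hf h))

include hc in
theorem isUnit_unitC : IsUnit (⟨_, unitC_mem_node E S hc⟩ : nodeRing E S) := by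
  obtain ⟨f, hf, m, hm, hx⟩ := exists_mem_add_ideal E S ⟨_, unitC_mem_node E S hc⟩
  refine isUnit_of_value E S hc hf hm hx fun h0 => ?_
  obtain ⟨α, c, d, hmf, hα⟩ := exists_form_fst_zero E S hm
  obtain ⟨h0', _, hF, _⟩ := (nodeForm_embF (E := E) hf).add hmf
  have h1 := rho0_algebraMap E S (E.unitC_mem 0) (algebraMap_mem0 E S (E.unitC_mem 0))
  rw [E.redL_unitC] at h1
  have heq : (⟨embF S f + (m : NodeField (FL := FL) S), h0'⟩ : vInt0 E S) =
      ⟨_, algebraMap_mem0 E S (E.unitC_mem 0)⟩ := Subtype.ext hx.symm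
  rw [heq, h1, h0] at hF
  obtain ⟨Y, hY, c', h2⟩ := hF.hasConst (isUnif_beta0 S) (nodeDeg_pos S)
  have hz := ev_coeff_T_pow_mul (rb0 S) (isUnif_beta0 S) hY 1 (nodeDeg_pos S)
    ⟨0, nodeDeg_pos S⟩ Nat.one_pos
  rw [pow_one] at hz
  have h3 := congrArg (fun y => ((rb0 S).coeff y ⟨0, nodeDeg_pos S⟩).fst) h2
  simp only [(rb0 S).coeff_sub, (rb0 S).coeff_add, (rb0 S).coeff_algebraMap_mul,
    (rb0 S).coeff_algebraMap (nodeDeg_pos S), if_true, TrivSqZeroExt.fst_mul,
    TrivSqZeroExt.fst_inr, zero_mul, add_zero, TrivSqZeroExt.fst_sub, TrivSqZeroExt.fst_add,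
    TrivSqZeroExt.fst_inl, fst_liftDual, hα, map_zero, sub_zero] at h3
  rw [← h3, P.evF_algebraMap] at hz
  exact E.γ0_ne hz

include hc in
theorem mem_nodeIdeal_or_isUnit (x : nodeRing E S) : x ∈ nodeIdeal E S ∨ IsUnit x := by
  obtain ⟨f, hf, m, hm, hx⟩ := exists_mem_add_ideal E S x
  have hxm : x = ⟨embF S f, embF_mem E S hf⟩ + m := Subtype.ext hx
  by_cases h : P.evF (D.redF 0 f) = 0
  · left
    obtain ⟨z0, hz0, hz0'⟩ := S.red0_a.exists_div (S.red0_mem f hf) h
    obtain ⟨z1, hz1, hz1'⟩ := S.red1_b.exists_div (S.red1_mem f hf) (by rw [← S.ev_eq f hf, h])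
    obtain ⟨g1, hg1, h10, h11⟩ := S.surj z0 hz0 (algebraMap k G (P.evF z0)) (Q.algebraMap_mem _)
      (Q.evF_algebraMap _).symm
    obtain ⟨g2, hg2, h20, h21⟩ := S.surj (algebraMap k G (Q.evF z1)) (P.algebraMap_mem _) z1 hz1
      (P.evF_algebraMap _)
    have hm2 : S.a * g1 + S.b * g2 ∈ S.A :=
      add_mem (mul_mem S.a_mem hg1) (mul_mem S.b_mem hg2)
    have hred : ∀ i, D.redF i (S.a * g1 + S.b * g2) =
        D.redF i S.a * D.redF i g1 + D.redF i S.b * D.redF i g2 := fun i => by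
      rw [D.redF_add (S.le i (mul_mem S.a_mem hg1)) (S.le i (mul_mem S.b_mem hg2)),
        D.redF_mul (S.le i S.a_mem) (S.le i hg1), D.redF_mul (S.le i S.b_mem) (S.le i hg2)]
    have hsub : ∀ i, D.redF i (f - (S.a * g1 + S.b * g2)) =
        D.redF i f - D.redF i (S.a * g1 + S.b * g2) := fun i => by
      have h := D.redF_add (S.le i (sub_mem hf hm2)) (S.le i hm2)
      rw [sub_add_cancel] at h
      linear_combination -h
    obtain ⟨g3, hg3, hg3'⟩ := S.ker _ (sub_mem hf hm2)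
      (by rw [hsub, hred, hz0', h10, S.red0_b]; ring) (by rw [hsub, hred, hz1', h21, S.red1_a]; ring)
    have hs : sR E S ∈ nodeIdeal E S := Ideal.subset_span (by simp)
    have ht : tR E S ∈ nodeIdeal E S := Ideal.subset_span (by simp)
    have hn := one_lt_nodeDeg S
    have ha : (⟨embF S S.a, embF_mem E S S.a_mem⟩ : nodeRing E S) = sR E S ^ nodeDeg S :=
      Subtype.ext (by simp [sR, sN, (basisS S).pow_eq, embF, alphaZero])
    have hb : tR E S ^ nodeDeg S = (⟨embF S S.b, embF_mem E S S.b_mem⟩ : nodeRing E S) *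
        ⟨_, unitC_mem_node E S hc⟩ ^ S.e :=
      Subtype.ext (by simp [tR, t_pow, alphaOne, embF, map_mul, map_pow])
    have hp' : (⟨embF S (p : F), embF_mem E S (natCast_mem _ p)⟩ : nodeRing E S) *
        ⟨_, unitC_mem_node E S hc⟩ = (sR E S * tR E S) ^ p :=
      Subtype.ext (by
        simp only [sR, tR, MulMemClass.coe_mul, SubmonoidClass.coe_pow, s_mul_t E S, ← map_pow,
          E.pi_pow_eq, map_mul, map_natCast])
    have hC := isUnit_unitC E S hc
    have hbI : (⟨embF S S.b, embF_mem E S S.b_mem⟩ : nodeRing E S) ∈ nodeIdeal E S :=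
      (Ideal.mul_unit_mem_iff_mem (nodeIdeal E S) (hC.pow S.e)).mp
        (hb ▸ Ideal.pow_mem_of_mem _ ht _ (nodeDeg_pos S))
    have hpI : (⟨embF S (p : F), embF_mem E S (natCast_mem _ p)⟩ : nodeRing E S) ∈ nodeIdeal E S :=
      (Ideal.mul_unit_mem_iff_mem (nodeIdeal E S) hC).mp
        (hp' ▸ Ideal.pow_mem_of_mem _ (Ideal.mul_mem_left _ _ ht) _ hp.out.pos)
    have haI : (⟨embF S S.a, embF_mem E S S.a_mem⟩ : nodeRing E S) ∈ nodeIdeal E S :=
      ha ▸ Ideal.pow_mem_of_mem _ hs _ (nodeDeg_pos S)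
    rw [hxm, show (⟨embF S f, embF_mem E S hf⟩ : nodeRing E S) =
      ⟨embF S S.a, embF_mem E S S.a_mem⟩ * ⟨embF S g1, embF_mem E S hg1⟩ +
        ⟨embF S S.b, embF_mem E S S.b_mem⟩ * ⟨embF S g2, embF_mem E S hg2⟩ +
        ⟨embF S (p : F), embF_mem E S (natCast_mem _ p)⟩ * ⟨embF S g3, embF_mem E S hg3⟩ from
      Subtype.ext (by
        push_cast
        rw [← map_mul, ← map_mul, ← map_mul, ← map_add, ← map_add, ← hg3']
        congr 1; ring)]
    exact add_mem (add_mem (add_mem (Ideal.mul_mem_right _ _ haI) (Ideal.mul_mem_right _ _ hbI))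
      (Ideal.mul_mem_right _ _ hpI)) hm
  · exact Or.inr (isUnit_of_value E S hc hf hm hx h)

include hc in
theorem isLocalRing_node : IsLocalRing (nodeRing E S) := by
  have : Nontrivial (nodeRing E S) :=
    ⟨0, 1, fun h => one_notMem_nodeIdeal E S (h ▸ Ideal.zero_mem _)⟩
  refine IsLocalRing.of_nonunits_add fun x y hx hy => ?_
  have hx' := (mem_nodeIdeal_or_isUnit E S hc x).resolve_right hx
  have hy' := (mem_nodeIdeal_or_isUnit E S hc y).resolve_right hy
  intro hu
  exact one_notMem_nodeIdeal E S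
    (by rw [← hu.val_inv_mul]; exact Ideal.mul_mem_left _ _ (Ideal.add_mem _ hx' hy'))

end Fermat.Agent.LevelP

end
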