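import Mathlib.RingTheory.UniqueFactorizationDomain.Kaplansky
import Mathlib.RingTheory.UniqueFactorizationDomain.Multiplicity
import Mathlib.RingTheory.Filtration
import Mathlib.RingTheory.Nakayama
import Mathlib.RingTheory.Ideal.Quotient.Operations
import Mathlib.RingTheory.Localization.FractionRing
import Mathlib.Tactic.LinearCombination
import Mathlib.Tactic.Ring

/-!
# Factorial local rings

A Noetherian local ring with a regular element `s` such that the quotient by `s` is a principal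
ideal domain is factorial. In such a ring an element whose multiplicity at all but two primes is
divisible by `p` is a `p`-th power up to a unit and these two primes.
-/

set_option autoImplicit false

noncomputable section

namespace Fermat.Agent.LevelP

open IsLocalRing

variable {R : Type*} [CommRing R]

theorem isDomain_of_regular_prime [IsNoetherianRing R] [IsLocalRing R] {s : R}
    (hreg : s ∈ nonZeroDivisors R)
    (hp : (Ideal.span {s}).IsPrime) : IsDomain R := by
  have hsu : Ideal.span {s} ≠ ⊤ := hp.ne_top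
  have hfac : ∀ x : R, x ≠ 0 → ∃ n y, x = s ^ n * y ∧ ¬ s ∣ y := by
    intro x hx
    by_contra hne
    push Not at hne
    have hall : ∀ n, s ^ n ∣ x := by
      intro n
      induction n with
      | zero => simp
      | succ n ih =>
        obtain ⟨y, hy⟩ := ih
        obtain ⟨z, hz⟩ := hne n y hy
        exact ⟨z, by rw [hy, hz, pow_succ, mul_assoc]⟩
    have hmem : x ∈ ⨅ n : ℕ, Ideal.span {s} ^ n := by
      rw [Submodule.mem_iInf]
      intro n
      rw [Ideal.span_singleton_pow, Ideal.mem_span_singleton]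
      exact hall n
    rw [Ideal.iInf_pow_eq_bot_of_isLocalRing _ hsu] at hmem
    exact hx hmem
  have : NoZeroDivisors R := by
    refine ⟨fun {x y} hxy => ?_⟩
    by_contra h
    push Not at h
    obtain ⟨a, x', rfl, hx'⟩ := hfac x h.1
    obtain ⟨b, y', rfl, hy'⟩ := hfac y h.2
    have h0 : x' * y' * s ^ (a + b) = 0 := by rw [← hxy, pow_add]; ring
    have h1 : x' * y' = 0 := (mul_right_mem_nonZeroDivisors_eq_zero_iff (pow_mem hreg _)).mp h0
    rcases hp.mem_or_mem (show x' * y' ∈ Ideal.span {s} by rw [h1]; exact Ideal.zero_mem _) with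
      h2 | h2
    · exact hx' (Ideal.mem_span_singleton.mp h2)
    · exact hy' (Ideal.mem_span_singleton.mp h2)
  exact NoZeroDivisors.to_isDomain R

/-- Factoriality from a regular element with principal ideal domain quotient. -/
theorem uniqueFactorizationMonoid_of_pid_quotient [IsNoetherianRing R] [IsLocalRing R] [IsDomain R]
    {s : R} (hs0 : s ≠ 0) (hs : s ∈ maximalIdeal R) (hp : (Ideal.span {s}).IsPrime)
    (hpid : IsPrincipalIdealRing (R ⧸ Ideal.span {s})) : UniqueFactorizationMonoid R := by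
  rw [UniqueFactorizationMonoid.iff_exists_prime_mem_of_isPrime]
  intro P hP0 hP
  by_cases hsP : s ∈ P
  · exact ⟨s, hsP, (Ideal.span_singleton_prime hs0).mp hp⟩
  let q := Ideal.Quotient.mk (Ideal.span {s})
  obtain ⟨c, hc⟩ := (hpid.principal (P.map q)).principal
  have hcm : c ∈ P.map q := hc ▸ Submodule.mem_span_singleton_self c
  obtain ⟨g, hg, hgc⟩ := (Ideal.mem_map_iff_of_surjective q Ideal.Quotient.mk_surjective).mp hcm
  have hle : P ≤ Ideal.span {g} ⊔ (Ideal.span {s} : Ideal R) • P := by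
    intro x hx
    have hxm : q x ∈ P.map q := Ideal.mem_map_of_mem q hx
    rw [hc, Submodule.mem_span_singleton] at hxm
    obtain ⟨a, ha⟩ := hxm
    obtain ⟨a, rfl⟩ := Ideal.Quotient.mk_surjective a
    rw [smul_eq_mul, ← hgc, ← map_mul] at ha
    obtain ⟨y, hy⟩ := Ideal.mem_span_singleton.mp (Ideal.Quotient.eq.mp ha.symm)
    have hyP : y ∈ P := by
      refine (hP.mem_or_mem (show s * y ∈ P from ?_)).resolve_left hsP
      rw [← hy]
      exact P.sub_mem hx (P.mul_mem_left a hg)
    rw [show x = a * g + s • y by rw [smul_eq_mul]; linear_combination hy]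
    exact Submodule.add_mem_sup (Ideal.mul_mem_left _ a (Ideal.mem_span_singleton_self g))
      (Submodule.smul_mem_smul (Ideal.mem_span_singleton_self s) hyP)
  have hPg : P ≤ Ideal.span {g} :=
    Submodule.le_of_le_smul_of_le_jacobson_bot (IsNoetherian.noetherian P)
      (by
        rw [jacobson_eq_maximalIdeal ⊥ bot_ne_top, Ideal.span_singleton_le_iff_mem]
        exact hs) hle
  have hPeq : P = Ideal.span {g} :=
    le_antisymm hPg ((Ideal.span_singleton_le_iff_mem _).mpr hg)
  have hg0 : g ≠ 0 := fun h => hP0 (by rw [hPeq, h]; simp)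
  exact ⟨g, hg, (Ideal.span_singleton_prime hg0).mp (hPeq ▸ hP)⟩

/-- In a Noetherian local ring with maximal ideal `(s, t)`, an element prime to `s` is a power
of `t` times a unit, modulo `s`. -/
theorem exists_pow_mul_unit [IsNoetherianRing R] [IsLocalRing R] {s t : R}
    (hm : maximalIdeal R = Ideal.span {s, t}) {x : R} (hx : x ∉ Ideal.span {s}) :
    ∃ (m : ℕ) (u : Rˣ), x - t ^ m * u ∈ Ideal.span {s} := by
  have hs : s ∈ maximalIdeal R := hm ▸ Ideal.subset_span (by simp)
  have ht : t ∈ maximalIdeal R := hm ▸ Ideal.subset_span (by simp)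
  set J := Ideal.span {s}
  have hJ : J ≤ maximalIdeal R := (Ideal.span_singleton_le_iff_mem _).mpr hs
  have : Nontrivial (R ⧸ J) :=
    Ideal.Quotient.nontrivial_iff.mpr (ne_top_of_le_ne_top (maximalIdeal.isMaximal R).ne_top hJ)
  have : IsLocalRing (R ⧸ J) :=
    IsLocalRing.of_surjective' (Ideal.Quotient.mk J) Ideal.Quotient.mk_surjective
  by_contra hne
  push Not at hne
  have hall : ∀ m, ∃ y, x - t ^ m * y ∈ J := by
    intro m
    induction m with
    | zero => exact ⟨x, by simp⟩
    | succ m ih =>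
      obtain ⟨y, hy⟩ := ih
      have hyu : ¬ IsUnit y := fun hu => hne m hu.unit hy
      have hy' : y ∈ maximalIdeal R := hyu
      rw [hm, Ideal.mem_span_pair] at hy'
      obtain ⟨a, b, hab⟩ := hy'
      refine ⟨b, ?_⟩
      rw [show x - t ^ (m + 1) * b = (x - t ^ m * y) + t ^ m * a * s by
        rw [← hab]; ring]
      exact J.add_mem hy (J.mul_mem_left _ (Ideal.mem_span_singleton_self s))
  have hI : Ideal.span {Ideal.Quotient.mk J t} ≠ ⊤ := by
    rw [ne_eq, Ideal.span_singleton_eq_top]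
    intro hu
    obtain ⟨v, hv⟩ := Ideal.Quotient.mk_surjective (I := J) (hu.unit⁻¹ : (R ⧸ J)ˣ)
    have h1 : t * v - 1 ∈ J := by
      rw [← Ideal.Quotient.eq, map_mul, hv, map_one]; exact hu.mul_val_inv
    refine (maximalIdeal.isMaximal R).ne_top ((Ideal.eq_top_iff_one _).mpr ?_)
    simpa using (maximalIdeal R).sub_mem ((maximalIdeal R).mul_mem_right v ht) (hJ h1)
  have hmem : Ideal.Quotient.mk J x ∈ ⨅ m : ℕ, Ideal.span {Ideal.Quotient.mk J t} ^ m := by
    rw [Submodule.mem_iInf]
    intro m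
    obtain ⟨y, hy⟩ := hall m
    rw [Ideal.span_singleton_pow, Ideal.mem_span_singleton]
    exact ⟨Ideal.Quotient.mk J y, by rw [← map_pow, ← map_mul]; exact Ideal.Quotient.eq.mpr hy⟩
  have : IsNoetherianRing (R ⧸ J) :=
    isNoetherianRing_of_surjective _ _ (Ideal.Quotient.mk J) Ideal.Quotient.mk_surjective
  rw [Ideal.iInf_pow_eq_bot_of_isLocalRing _ hI] at hmem
  exact hx (Ideal.Quotient.eq_zero_iff_mem.mp hmem)

theorem isPrime_and_pid_of_not_nilpotent [IsNoetherianRing R] [IsLocalRing R] {s t : R}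
    (hm : maximalIdeal R = Ideal.span {s, t}) (hnil : ∀ N : ℕ, t ^ N ∉ Ideal.span {s}) :
    (Ideal.span {s}).IsPrime ∧ IsPrincipalIdealRing (R ⧸ Ideal.span {s}) := by
  classical
  have hne : Ideal.span {s} ≠ ⊤ := fun h => hnil 0 (by rw [h]; exact Submodule.mem_top)
  refine ⟨⟨hne, fun {x y} hxy => ?_⟩, ⟨fun I => ?_⟩⟩
  · by_contra h
    push Not at h
    obtain ⟨a, u, hu⟩ := exists_pow_mul_unit hm h.1
    obtain ⟨b, v, hv⟩ := exists_pow_mul_unit hm h.2
    refine hnil (a + b) ?_
    have h1 : (t ^ a * u) * (t ^ b * v) ∈ Ideal.span {s} := by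
      rw [show (t ^ a * (u : R)) * (t ^ b * v) =
          x * y - (x - t ^ a * u) * y - (t ^ a * u) * (y - t ^ b * v) by ring]
      exact Ideal.sub_mem _ (Ideal.sub_mem _ hxy (Ideal.mul_mem_right _ _ hu))
        (Ideal.mul_mem_left _ _ hv)
    have h2 := Ideal.mul_mem_left _ (((u * v)⁻¹ : Rˣ) : R) h1
    rwa [show (((u * v)⁻¹ : Rˣ) : R) * ((t ^ a * u) * (t ^ b * v)) =
      t ^ (a + b) * ((((u * v)⁻¹ : Rˣ) : R) * ((u * v : Rˣ) : R)) by
        rw [Units.val_mul, pow_add]; ring, Units.inv_mul, mul_one] at h2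
  · set q := Ideal.Quotient.mk (Ideal.span {s})
    by_cases hI : I = ⊥
    · exact ⟨0, by rw [hI]; exact Submodule.span_zero_singleton _ |>.symm⟩
    obtain ⟨x, hx, hx0⟩ := Submodule.exists_mem_ne_zero_of_ne_bot hI
    obtain ⟨x, rfl⟩ := Ideal.Quotient.mk_surjective x
    have hxs : x ∉ Ideal.span {s} := fun h => hx0 (Ideal.Quotient.eq_zero_iff_mem.mpr h)
    obtain ⟨a, u, hu⟩ := exists_pow_mul_unit hm hxs
    have hta : q (t ^ a) ∈ I := by
      have h1 : q x = q (t ^ a) * q u := by rw [← map_mul]; exact Ideal.Quotient.eq.mpr hu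
      have h2 := I.mul_mem_right (q ((u⁻¹ : Rˣ) : R)) (h1 ▸ hx)
      rwa [mul_assoc, ← map_mul, Units.mul_inv, map_one, mul_one] at h2
    have hex : ∃ m, q (t ^ m) ∈ I := ⟨a, hta⟩
    refine ⟨q (t ^ Nat.find hex), le_antisymm (fun y hy => ?_)
      ((Submodule.span_singleton_le_iff_mem _ _).mpr (Nat.find_spec hex))⟩
    obtain ⟨y, rfl⟩ := Ideal.Quotient.mk_surjective y
    by_cases hys : y ∈ Ideal.span {s}
    · rw [Ideal.Quotient.eq_zero_iff_mem.mpr hys]; exact Submodule.zero_mem _
    obtain ⟨b, v, hv⟩ := exists_pow_mul_unit hm hys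
    have h1 : q y = q (t ^ b) * q v := by rw [← map_mul]; exact Ideal.Quotient.eq.mpr hv
    have htb : q (t ^ b) ∈ I := by
      have h2 := I.mul_mem_right (q ((v⁻¹ : Rˣ) : R)) (h1 ▸ hy)
      rwa [mul_assoc, ← map_mul, Units.mul_inv, map_one, mul_one] at h2
    have hle := Nat.find_min' hex htb
    rw [Submodule.mem_span_singleton]
    refine ⟨q (t ^ (b - Nat.find hex)) * q v, ?_⟩
    rw [h1, smul_eq_mul, ← Nat.sub_add_cancel hle, pow_add, map_mul]
    rw [Nat.add_sub_cancel]
    ring

section Factor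

variable [IsDomain R] [UniqueFactorizationMonoid R] {s t : R}

/-- The exact multiplicity of a prime away from `s`, `t` is divisible by `p`. -/
def DivisibleAway (s t : R) (p : ℕ) (z : R) : Prop :=
  ∀ ϖ : R, Prime ϖ → ¬ Associated ϖ s → ¬ Associated ϖ t →
    ∀ k : ℕ, ϖ ^ k ∣ z → ¬ ϖ ^ (k + 1) ∣ z → p ∣ k

theorem exists_eq_mul_pow (hs : Prime s) (ht : Prime t) {p : ℕ} (hp : 0 < p) :
    ∀ z : R, z ≠ 0 → DivisibleAway s t p z →
      ∃ (a b : ℕ) (G : R) (U : Rˣ), z = s ^ a * t ^ b * G ^ p * U ∧ ¬ s ∣ G ∧ ¬ t ∣ G := by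
  intro z
  induction z using (wellFounded_dvdNotUnit (α := R)).induction with
  | _ z ih =>
    intro hz hdiv
    by_cases hex : ∃ ϖ, Prime ϖ ∧ ¬ Associated ϖ s ∧ ¬ Associated ϖ t ∧ ϖ ∣ z
    · obtain ⟨ϖ, hϖ, h1, h2, h3⟩ := hex
      obtain ⟨k, y, hy, hzy⟩ := WfDvdMonoid.max_power_factor hz hϖ.irreducible
      have hk : p ∣ k := hdiv ϖ hϖ h1 h2 k ⟨y, hzy⟩ (by
        rintro ⟨w, hw⟩
        exact hy ⟨w, mul_left_cancel₀ (pow_ne_zero k hϖ.ne_zero)
          (by rw [← hzy, hw, pow_succ, mul_assoc])⟩)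
      have hk0 : k ≠ 0 := by
        rintro rfl
        rw [pow_zero, one_mul] at hzy
        exact hy (hzy ▸ h3)
      obtain ⟨c, rfl⟩ := hk
      have hc : c ≠ 0 := fun h => hk0 (by rw [h, mul_zero])
      have hy0 : y ≠ 0 := fun h => hz (by rw [hzy, h, mul_zero])
      have hlt : DvdNotUnit y z :=
        ⟨hy0, ϖ ^ (p * c), fun hu => hϖ.not_isUnit ((isUnit_pow_iff hk0).mp hu),
          by rw [hzy, mul_comm]⟩
      have hdiv' : DivisibleAway s t p y := by
        intro ρ hρ h1' h2' j hj hj'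
        by_cases has : Associated ρ ϖ
        · have : j = 0 := by
            by_contra hj0
            exact hy (has.symm.dvd.trans ((dvd_pow_self ρ hj0).trans hj))
          rw [this]; exact dvd_zero p
        · refine hdiv ρ hρ h1' h2' j (hj.trans ⟨ϖ ^ (p * c), by rw [hzy, mul_comm]⟩) fun h => hj' ?_
          rw [hzy] at h
          exact hρ.pow_dvd_of_dvd_mul_left (j + 1)
            (fun hd => has ((hρ.dvd_prime_iff_associated hϖ).mp (hρ.dvd_of_dvd_pow hd))) h
      obtain ⟨a, b, G, U, hG, hsG, htG⟩ := ih y hlt hy0 hdiv'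
      refine ⟨a, b, ϖ ^ c * G, U, ?_, ?_, ?_⟩
      · rw [hzy, hG, mul_pow, ← pow_mul, mul_comm c p]; ring
      · exact fun h => (hs.dvd_or_dvd h).elim
          (fun h' => h1 ((hs.dvd_prime_iff_associated hϖ).mp (hs.dvd_of_dvd_pow h')).symm) hsG
      · exact fun h => (ht.dvd_or_dvd h).elim
          (fun h' => h2 ((ht.dvd_prime_iff_associated hϖ).mp (ht.dvd_of_dvd_pow h')).symm) htG
    · push Not at hex
      obtain ⟨a, y, hy, hzy⟩ := WfDvdMonoid.max_power_factor hz hs.irreducible
      have hy0 : y ≠ 0 := fun h => hz (by rw [hzy, h, mul_zero])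
      obtain ⟨b, x, hx, hyx⟩ := WfDvdMonoid.max_power_factor hy0 ht.irreducible
      have hx0 : x ≠ 0 := fun h => hy0 (by rw [hyx, h, mul_zero])
      have hxu : IsUnit x := by
        by_contra hu
        obtain ⟨ϖ, hϖ, hϖx⟩ := WfDvdMonoid.exists_irreducible_factor hu hx0
        have hϖp : Prime ϖ := UniqueFactorizationMonoid.irreducible_iff_prime.mp hϖ
        by_cases h1 : Associated ϖ s
        · exact hy (by rw [hyx]; exact h1.symm.dvd.trans (hϖx.mul_left _))
        by_cases h2 : Associated ϖ t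
        · exact hx (h2.symm.dvd.trans hϖx)
        exact hex ϖ hϖp h1 h2 (by rw [hzy, hyx]; exact (hϖx.mul_left _).mul_left _)
      exact ⟨a, b, 1, hxu.unit, by simp [hzy, hyx, mul_assoc],
        fun h => hs.not_isUnit (isUnit_of_dvd_one h), fun h => ht.not_isUnit (isUnit_of_dvd_one h)⟩

end Factor

end Fermat.Agent.LevelP

end
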