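import Fermat.Agent.LevelP.BranchRing
import Fermat.Agent.LevelP.RegularUFD
import Mathlib.RingTheory.IntegralClosure.IsIntegralClosure.Basic
import Mathlib.RingTheory.Adjoin.Tower
import Mathlib.RingTheory.DedekindDomain.Basic

/-!
# The ring at a pair over the ramified extension

With `a * b = p ^ e` and `n = p e`, adjoin `s` with `s ^ n = a` and put `t = π / s`. The ring `R`
generated over the local ring by `π, s, t` is a factorial local ring with maximal ideal `(s, t)`,
and it maps to the two branches modulo `π²` with a common constant.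
-/

set_option autoImplicit false

noncomputable section

namespace Fermat.Agent.LevelP

open Polynomial TrivSqZeroExt
open scoped DualNumber

variable {p : ℕ} [hp : Fact p.Prime] {F : Type*} [Field F] {k G : Type*} [Field k] [Field G]
  [Algebra k G] {D : GlueData p F k G} {FL : Type*} [Field FL] [Algebra F FL]
  {W : Subring F} {P Q : DVPoint k G} {w : F} {kw : ℕ}

variable [CharP G p] (E : RamExt D FL) (S : PairData D W P Q w kw)

/-- The degree `p e`. -/
abbrev nodeDeg : ℕ := p * S.e

theorem nodeDeg_pos : 0 < nodeDeg S := Nat.mul_pos hp.out.pos S.e_pos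

theorem one_lt_nodeDeg : 1 < nodeDeg S :=
  lt_of_lt_of_le hp.out.one_lt (Nat.le_mul_of_pos_right p S.e_pos)

/-- The parameter of the branch `0`. -/
abbrev alphaZero : FL := algebraMap F FL S.a

/-- The parameter of the branch `1`. -/
abbrev alphaOne : FL := algebraMap F FL S.b * E.unitC ^ S.e

/-- `FL[s]`, `s ^ n = a`. -/
abbrev NodeField : Type _ := AdjoinRoot (X ^ nodeDeg S - C (alphaZero (FL := FL) S))

/-- The basis `1, s, …`. -/
def basisS : RootBasis FL (NodeField (FL := FL) S) (nodeDeg S) (alphaZero S) :=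
  RootBasis.adjoinRoot (nodeDeg_pos S).ne' _

/-- The parameter `s`. -/
def sN : NodeField (FL := FL) S := (basisS S).T

theorem a_ne_zero : S.a ≠ 0 := fun h =>
  S.red0_a.ne_zero (by rw [h, D.redF_zero])

theorem alphaZero_ne : alphaZero (FL := FL) S ≠ 0 := (_root_.map_ne_zero _).mpr (a_ne_zero S)

/-- The inverse of `s`. -/
def sInv : NodeField (FL := FL) S :=
  algebraMap FL _ (alphaZero S)⁻¹ * sN S ^ (nodeDeg S - 1)

theorem s_mul_sInv : sN S * sInv S = (1 : NodeField (FL := FL) S) := by
  rw [sInv, mul_left_comm, ← pow_succ', Nat.sub_add_cancel (nodeDeg_pos S), sN, (basisS S).pow_eq,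
    ← map_mul, inv_mul_cancel₀ (alphaZero_ne S), map_one]

/-- The parameter `t = π / s`. -/
def tN : NodeField (FL := FL) S := algebraMap FL _ E.π * sInv S

theorem s_mul_t : sN S * tN E S = algebraMap FL (NodeField S) E.π := by
  rw [tN, mul_left_comm, s_mul_sInv, mul_one]

theorem alphaZero_mul_alphaOne : alphaZero S * alphaOne E S = E.π ^ nodeDeg S := by
  rw [alphaZero, alphaOne, ← mul_assoc, ← map_mul, S.a_mul_b, map_pow, map_natCast, ← mul_pow,
    ← E.pi_pow_eq, pow_mul]

theorem alphaOne_eq : alphaOne E S = E.π ^ nodeDeg S * (alphaZero S)⁻¹ := by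
  rw [← alphaZero_mul_alphaOne, mul_comm (alphaZero S), mul_assoc,
    mul_inv_cancel₀ (alphaZero_ne S), mul_one]

theorem t_pow : tN E S ^ nodeDeg S = algebraMap FL (NodeField S) (alphaOne E S) := by
  have h : (sN S * tN E S) ^ nodeDeg S = algebraMap FL (NodeField S) (E.π ^ nodeDeg S) := by
    rw [s_mul_t, map_pow]
  rw [mul_pow, sN, (basisS S).pow_eq, ← alphaZero_mul_alphaOne, map_mul] at h
  exact ((isUnit_iff_ne_zero.mpr (alphaZero_ne (FL := FL) S)).map
    (algebraMap FL (NodeField (FL := FL) S))).mul_left_cancel h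

/-- The basis `1, t, …`. -/
def basisT : RootBasis FL (NodeField (FL := FL) S) (nodeDeg S) (alphaOne E S) where
  T := tN E S
  basis :=
    haveI : NeZero (nodeDeg S) := ⟨(nodeDeg_pos S).ne'⟩
    ((basisS S).basis.reindex (Equiv.neg (Fin (nodeDeg S)))).unitsSMul fun j =>
      if (j : ℕ) = 0 then 1 else
        Units.mk0 (E.π ^ (j : ℕ) * (alphaZero S)⁻¹)
          (mul_ne_zero (pow_ne_zero _ E.pi_ne_zero) (inv_ne_zero (alphaZero_ne S)))
  basis_eq j := by
    have : NeZero (nodeDeg S) := ⟨(nodeDeg_pos S).ne'⟩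
    rw [Module.Basis.unitsSMul_apply, Module.Basis.reindex_apply, (basisS S).basis_eq,
      Equiv.neg_symm, Equiv.neg_apply]
    by_cases hj : (j : ℕ) = 0
    · have : j = 0 := Fin.ext hj
      subst this
      simp
    · have hneg : ((-j : Fin (nodeDeg S)) : ℕ) = nodeDeg S - j := by
        rw [Fin.val_neg', Nat.mod_eq_of_lt]
        omega
      rw [if_neg hj, hneg, Units.smul_def, Units.val_mk0, tN, mul_pow, Algebra.smul_def, map_mul,
        map_pow, mul_assoc]
      congr 1
      have h1 : sN (FL := FL) S ^ (j : ℕ) * sInv S ^ (j : ℕ) = (1 : NodeField (FL := FL) S) := by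
        rw [← mul_pow, s_mul_sInv, one_pow]
      have h2 : sN (FL := FL) S ^ (nodeDeg S - (j : ℕ)) * sN S ^ (j : ℕ) =
          algebraMap FL (NodeField (FL := FL) S) (alphaZero S) := by
        rw [← pow_add, Nat.sub_add_cancel j.isLt.le, sN, (basisS S).pow_eq]
      calc algebraMap FL (NodeField S) (alphaZero S)⁻¹ * (basisS S).T ^ (nodeDeg S - (j : ℕ))
          = algebraMap FL (NodeField S) (alphaZero S)⁻¹ *
              (sN S ^ (nodeDeg S - (j : ℕ)) * sN S ^ (j : ℕ)) * sInv S ^ (j : ℕ) := by
            rw [mul_assoc, mul_assoc, h1, mul_one]; rfl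
        _ = _ := by rw [h2, ← map_mul, inv_mul_cancel₀ (alphaZero_ne S), map_one, one_mul]
  pow_eq := t_pow E S

/-- The generators of the ring at the pair. -/
def nodeGens : Set (NodeField (FL := FL) S) :=
  {algebraMap FL _ E.π, sN S, tN E S}

/-- The ring at the pair. -/
def nodeRing : Subalgebra S.A (NodeField (FL := FL) S) :=
  Algebra.adjoin S.A (nodeGens E S)

theorem s_mem : sN S ∈ nodeRing E S := Algebra.subset_adjoin (by simp [nodeGens])

theorem t_mem : tN E S ∈ nodeRing E S := Algebra.subset_adjoin (by simp [nodeGens])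

theorem pi_mem_node : algebraMap FL (NodeField S) E.π ∈ nodeRing E S :=
  Algebra.subset_adjoin (by simp [nodeGens])

/-- The map from `F` to the node field. -/
def embF : F →+* NodeField (FL := FL) S := (algebraMap FL _).comp (algebraMap F FL)

theorem embF_mem {f : F} (hf : f ∈ S.A) : embF S f ∈ nodeRing (FL := FL) E S := by
  have h := (nodeRing E S).algebraMap_mem ⟨f, hf⟩
  rwa [IsScalarTower.algebraMap_apply S.A FL (NodeField (FL := FL) S),
    IsScalarTower.algebraMap_apply S.A F FL] at h

variable (hc : ∀ j, E.c j ∈ S.A)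

include hc in
theorem isIntegral_pi : IsIntegral S.A E.π := by
  refine ⟨X ^ p - ∑ j : Fin p, C (⟨(p : F) * E.c j, mul_mem (natCast_mem _ p) (hc j)⟩ : S.A) *
    X ^ (j : ℕ), monic_X_pow_sub ((degree_sum_le _ _).trans_lt ?_), ?_⟩
  · refine (Finset.sup_lt_iff (WithBot.bot_lt_coe p)).mpr ?_
    exact fun j _ => (degree_C_mul_X_pow_le _ _).trans_lt (by exact WithBot.coe_lt_coe.mpr j.isLt)
  · rw [eval₂_sub, eval₂_pow, eval₂_X, eval₂_finsetSum, sub_eq_zero, E.pow_eq, Finset.mul_sum]
    refine Finset.sum_congr rfl fun j _ => ?_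
    rw [eval₂_mul, eval₂_C, eval₂_pow, eval₂_X, E.basis_eq, Algebra.smul_def, ← mul_assoc,
      IsScalarTower.algebraMap_apply S.A F FL]
    congr 1
    show (p : FL) * algebraMap F FL (E.c j) = algebraMap F FL ((p : F) * E.c j)
    rw [map_mul, map_natCast]

include hc in
theorem unitC_mem_node : algebraMap FL (NodeField S) E.unitC ∈ nodeRing E S := by
  rw [RamExt.unitC, map_sum]
  refine sum_mem fun j _ => ?_
  rw [E.basis_eq, Algebra.smul_def, map_mul, map_pow]
  exact mul_mem (embF_mem E S (hc j)) (pow_mem (pi_mem_node E S) _)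

include hc in
theorem isIntegral_gens : ∀ x ∈ nodeGens E S, IsIntegral S.A x := by
  have hπ : IsIntegral S.A (algebraMap FL (NodeField (FL := FL) S) E.π) := (isIntegral_pi E S hc).algebraMap
  have hs : IsIntegral S.A (sN (FL := FL) S) := by
    refine IsIntegral.of_pow (nodeDeg_pos S) ?_
    rw [sN, (basisS S).pow_eq]
    exact ((isIntegral_algebraMap (R := S.A) (x := (⟨S.a, S.a_mem⟩ : S.A))).algebraMap
      (B := FL)).algebraMap
  have ht : IsIntegral S.A (tN E S) := by
    refine IsIntegral.of_pow (nodeDeg_pos S) ?_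
    rw [t_pow, alphaOne]
    refine (IsIntegral.mul ?_ (IsIntegral.pow ?_ _)).algebraMap
    · exact (isIntegral_algebraMap (R := S.A) (x := (⟨S.b, S.b_mem⟩ : S.A))).algebraMap (B := FL)
    · refine IsIntegral.sum _ fun j _ => ?_
      rw [E.basis_eq, Algebra.smul_def]
      exact ((isIntegral_algebraMap (R := S.A) (x := (⟨E.c j, hc j⟩ : S.A))).algebraMap
        (B := FL)).mul ((isIntegral_pi E S hc).pow _)
  rintro x (rfl | rfl | rfl)
  exacts [hπ, hs, ht]

include hc in
theorem finite_node : Module.Finite S.A (nodeRing E S) := by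
  exact Module.Finite.iff_fg.mpr
    (fg_adjoin_of_finite ((((Set.finite_singleton _).insert _).insert _) : (nodeGens E S).Finite) (isIntegral_gens E S hc))

include hc in
theorem noetherian_node : IsNoetherianRing (nodeRing E S) := by
  have := S.noetherian
  have := finite_node E S hc
  exact isNoetherian_of_tower S.A inferInstance

end Fermat.Agent.LevelP

end
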