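import Fermat.Agent.LevelP.PairSlope
import Fermat.Agent.LevelP.BranchValue
import Mathlib.FieldTheory.IsAlgClosed.AlgebraicClosure
import Mathlib.RingTheory.UniqueFactorizationDomain.Basic
import Mathlib.RingTheory.Polynomial.RationalRoot

/-!
# An approximate `p`-th root at a pair

For a function congruent to `1` which is locally a `p`-th power there is a function `f` congruent
to `1` with `f ^ p / u` integral at the pair up to a power of `π`: the normalised trace of the root
in the cover.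
-/

set_option autoImplicit false

noncomputable section

namespace Fermat.Agent.LevelP

open TrivSqZeroExt
open scoped DualNumber

variable {p : ℕ} [hp : Fact p.Prime] {F : Type*} [Field F] {k G : Type*} [Field k] [Field G]
  [Algebra k G] [CharP G p] {D : GlueData p F k G} {FL : Type*} [Field FL] [Algebra F FL]
  {W : Subring F} {P Q : DVPoint k G} {w : F} {kw : ℕ}

omit hp in
theorem charP_k (p : ℕ) (k G : Type*) [Field k] [Field G] [Algebra k G] [CharP G p] : CharP k p :=
  (RingHom.charP_iff (algebraMap k G) (algebraMap k G).injective p).mpr inferInstance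

theorem charZero_of_glue (D : GlueData p F k G) (hF : (p : F) ≠ 0) : CharZero F := by
  obtain ⟨q, hq⟩ := CharP.exists F
  rcases CharP.char_is_prime_or_zero F q with hq' | rfl
  · exfalso
    have h0 : (q : D.Int 0) = 0 := Subtype.ext (by push_cast; exact CharP.cast_eq_zero F q)
    have h1 : (q : G) = 0 := by rw [← map_natCast (D.red 0), h0, map_zero]
    have hpq := (CharP.cast_eq_zero_iff G p q).mp h1
    rw [(Nat.prime_dvd_prime_iff_eq hp.out hq').mp hpq] at hF
    exact hF (CharP.cast_eq_zero F q)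
  · exact CharP.charP_to_charZero F

variable (E : RamExt D FL) (S : PairData D W P Q w kw) (hc : ∀ j, E.c j ∈ S.A)

include hc in
theorem exists_mul_eq_const (Y : nodeRing E S) (hY : Y ≠ 0) :
    ∃ y ∈ S.A, y ≠ 0 ∧ ∃ z : nodeRing E S,
      (Y : NodeField (FL := FL) S) * (z : NodeField (FL := FL) S) = embF S y := by
  obtain ⟨Yi, hYi⟩ := (isUnit_of_ne_zero E S hc hY).exists_right_inv
  obtain ⟨y, hy, hy0, z, hz, hzy⟩ := exists_scale E S Yi
  refine ⟨y, hy, hy0, ⟨z, hz⟩, ?_⟩
  show _ * z = _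
  rw [← hzy, mul_left_comm, hYi, mul_one]

include hc in
/-- An element prime to `t` is invertible on the branch `0`. -/
theorem exists_inv0 (hF : (p : F) ≠ 0) (Y : nodeRing E S) (hY : ¬ tR E S ∣ Y) :
    ∃ Z : vInt0 E S, (Y : NodeField (FL := FL) S) * (Z : NodeField (FL := FL) S) = 1 := by
  have := isDomain_node E S hc
  have := ufm_node E S hc
  have := nontrivial_node E S hc
  have hY0 : Y ≠ 0 := fun h => hY (h ▸ dvd_zero _)
  obtain ⟨y, hy, hy0, z, hz⟩ := exists_mul_eq_const E S hc Y hY0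
  have hz0 : z ≠ 0 := fun h => (isUnit_embF' (FL := FL) S hy0).ne_zero (by rw [← hz, h]; simp)
  obtain ⟨i, z1, hz1, hze⟩ :=
    WfDvdMonoid.max_power_factor hz0 (prime_tR E S hc).irreducible
  obtain ⟨m0, y0, hy0m, hy0n, hye⟩ := E.exists_normalise hF 0 ((_root_.map_ne_zero _).mpr hy0 :
    algebraMap F FL y ≠ 0)
  set m := m0.toNat
  set m' := (-m0).toNat
  have hu := congrArg (algebraMap FL (NodeField (FL := FL) S))
    (toNat_zpow_eq E.pi_ne_zero hye : E.π ^ m' * _ = E.π ^ m * _)
  simp only [map_mul, map_pow, ← s_mul_t E S, mul_pow] at hu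
  have hz' := congrArg Subtype.val hze
  simp only [MulMemClass.coe_mul, SubmonoidClass.coe_pow, tR] at hz'
  rw [hz'] at hz
  rw [embF, RingHom.comp_apply] at hz
  set L : vInt0 E S := ⟨_, s_mem0 E S⟩ ^ m' * node0 E S Y * node0 E S z1 with hL
  set R : vInt0 E S := ⟨_, s_mem0 E S⟩ ^ m * lift0 E S ⟨y0, hy0m⟩ with hR
  have hLu : IsUnit (rho0 E S L) := by
    rw [hL, map_mul, map_mul, map_pow, rho0_s]
    exact (((isUnit_T0 S).pow _).mul (sigma0_isUnit E S hc hY)).mul (sigma0_isUnit E S hc hz1)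
  have hRu : IsUnit (rho0 E S R) := by
    rw [hR, map_mul, map_pow, rho0_lift0, rho0_s]
    exact ((isUnit_T0 S).pow _).mul ((isUnit_dual (by rwa [E.fst_redEps])).map _)
  obtain ⟨-, h2⟩ := exponent_eq0 E S hLu hRu (i := m' + i) (j := m) (by
    simp only [hL, hR, lift0, node0, Subring.coe_mul, SubmonoidClass.coe_pow, pow_add]
    linear_combination hu + (sN S ^ m' * tN E S ^ m') * hz)
  have hsi : sInv S ∈ vInt0 E S := by
    refine mul_mem (algebraMap_mem0 E S (E.inv_mem_intL (alphaZero_mem E S) ?_))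
      (pow_mem (s_mem0 E S) _)
    rw [coordRed_algebraMap]
    exact (isUnif_beta0 S).ne_zero
  refine ⟨⟨_, s_mem0 E S⟩ ^ m' * node0 E S z1 * ⟨_, hsi⟩ ^ m *
    lift0 E S ⟨y0⁻¹, E.inv_mem_intL hy0m hy0n⟩, ?_⟩
  have hy00 : y0 ≠ 0 := fun h => hy0n (by simp [h, RamExt.coordRed, D.redF_zero])
  simp only [hL, hR, lift0, node0, Subring.coe_mul, SubmonoidClass.coe_pow] at h2 ⊢
  have h3 : algebraMap FL (NodeField (FL := FL) S) y0 *
      algebraMap FL (NodeField (FL := FL) S) y0⁻¹ = 1 := by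
    rw [← map_mul, mul_inv_cancel₀ hy00, map_one]
  have h4 : sN (FL := FL) S ^ m * sInv S ^ m = (1 : NodeField (FL := FL) S) := by
    rw [← mul_pow, s_mul_sInv, one_pow]
  linear_combination (sInv S ^ m * algebraMap FL (NodeField (FL := FL) S) y0⁻¹) * h2 +
    (sN S ^ m * sInv S ^ m) * h3 + h4

include hc in
/-- An element prime to `s` is invertible on the branch `1`. -/
theorem exists_inv1 (hF : (p : F) ≠ 0) (Y : nodeRing E S) (hY : ¬ sR E S ∣ Y) :
    ∃ Z : vInt1 E S, (Y : NodeField (FL := FL) S) * (Z : NodeField (FL := FL) S) = 1 := by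
  have := isDomain_node E S hc
  have := ufm_node E S hc
  have := nontrivial_node E S hc
  have hY0 : Y ≠ 0 := fun h => hY (h ▸ dvd_zero _)
  obtain ⟨y, hy, hy0, z, hz⟩ := exists_mul_eq_const E S hc Y hY0
  have hz0 : z ≠ 0 := fun h => (isUnit_embF' (FL := FL) S hy0).ne_zero (by rw [← hz, h]; simp)
  obtain ⟨i, z1, hz1, hze⟩ :=
    WfDvdMonoid.max_power_factor hz0 (prime_sR E S hc).irreducible
  obtain ⟨m0, y0, hy0m, hy0n, hye⟩ := E.exists_normalise hF 1 ((_root_.map_ne_zero _).mpr hy0 :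
    algebraMap F FL y ≠ 0)
  set m := m0.toNat
  set m' := (-m0).toNat
  have hu := congrArg (algebraMap FL (NodeField (FL := FL) S))
    (toNat_zpow_eq E.pi_ne_zero hye : E.π ^ m' * _ = E.π ^ m * _)
  simp only [map_mul, map_pow, ← s_mul_t E S, mul_pow] at hu
  have hz' := congrArg Subtype.val hze
  simp only [MulMemClass.coe_mul, SubmonoidClass.coe_pow, sR] at hz'
  rw [hz'] at hz
  rw [embF, RingHom.comp_apply] at hz
  set L : vInt1 E S := ⟨_, t_mem1 E S⟩ ^ m' * node1 E S Y * node1 E S z1 with hL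
  set R : vInt1 E S := ⟨_, t_mem1 E S⟩ ^ m * lift1 E S ⟨y0, hy0m⟩ with hR
  have hLu : IsUnit (rho1 E S L) := by
    rw [hL, map_mul, map_mul, map_pow, rho1_t]
    exact (((isUnit_T1 E S).pow _).mul (sigma1_isUnit E S hc hY)).mul (sigma1_isUnit E S hc hz1)
  have hRu : IsUnit (rho1 E S R) := by
    rw [hR, map_mul, map_pow, rho1_lift1, rho1_t]
    exact ((isUnit_T1 E S).pow _).mul ((isUnit_dual (by rwa [E.fst_redEps])).map _)
  obtain ⟨-, h2⟩ := exponent_eq1 E S hLu hRu (i := m' + i) (j := m) (by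
    simp only [hL, hR, lift1, node1, Subring.coe_mul, SubmonoidClass.coe_pow, pow_add]
    linear_combination hu + (sN S ^ m' * tN E S ^ m') * hz)
  have hne : alphaOne E S ≠ 0 := by
    rw [alphaOne_eq]
    exact mul_ne_zero (pow_ne_zero _ E.pi_ne_zero) (inv_ne_zero (alphaZero_ne S))
  set τ : NodeField (FL := FL) S :=
    algebraMap FL _ (alphaOne E S)⁻¹ * tN E S ^ (nodeDeg S - 1) with hτdef
  have hτ : τ ∈ vInt1 E S := by
    refine mul_mem (algebraMap_mem1 E S (E.inv_mem_intL (alphaOne_mem E S) ?_))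
      (pow_mem (t_mem1 E S) _)
    have h := congrArg TrivSqZeroExt.fst (redL_alphaOne E S)
    rw [E.redL_apply, E.fst_redEps] at h
    rw [h]
    simpa [betaEps] using (isUnif_beta1 E S).ne_zero
  have htτ : tN E S * τ = 1 := by
    have hpw : tN E S * tN E S ^ (nodeDeg S - 1) = tN E S ^ nodeDeg S := by
      rw [← pow_succ']
      exact congrArg (tN E S ^ ·) (Nat.sub_add_cancel (nodeDeg_pos S))
    rw [hτdef, mul_left_comm, hpw, t_pow, ← map_mul, inv_mul_cancel₀ hne, map_one]
  refine ⟨⟨_, t_mem1 E S⟩ ^ m' * node1 E S z1 * ⟨τ, hτ⟩ ^ m *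
    lift1 E S ⟨y0⁻¹, E.inv_mem_intL hy0m hy0n⟩, ?_⟩
  have hy00 : y0 ≠ 0 := fun h => hy0n (by simp [h, RamExt.coordRed, D.redF_zero])
  simp only [hL, hR, lift1, node1, Subring.coe_mul, SubmonoidClass.coe_pow] at h2 ⊢
  have h3 : algebraMap FL (NodeField (FL := FL) S) y0 *
      algebraMap FL (NodeField (FL := FL) S) y0⁻¹ = 1 := by
    rw [← map_mul, mul_inv_cancel₀ hy00, map_one]
  have h4 : tN E S ^ m * τ ^ m = 1 := by rw [← mul_pow, htτ, one_pow]
  linear_combination (τ ^ m * algebraMap FL (NodeField (FL := FL) S) y0⁻¹) * h2 +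
    (tN E S ^ m * τ ^ m) * h3 + h4

include hc in
theorem isIntegrallyClosed_node : haveI := isDomain_node E S hc
    IsFractionRing (nodeRing E S) (NodeField (FL := FL) S) ∧
      IsIntegrallyClosed (nodeRing E S) := by
  have := isDomain_node E S hc
  have := ufm_node E S hc
  have := nontrivial_node E S hc
  refine ⟨(isLocalization_iff _ _).mpr ⟨fun y => isUnit_of_ne_zero E S hc
    (nonZeroDivisors.ne_zero y.2), fun x => ?_, fun h => ⟨1, by rw [Subtype.ext h]⟩⟩,
    inferInstance⟩
  obtain ⟨y, hy, hy0, z, hz, hzy⟩ := exists_scale E S x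
  refine ⟨(⟨z, hz⟩, ⟨⟨_, embF_mem E S hy⟩, mem_nonZeroDivisors_of_ne_zero fun h => ?_⟩), ?_⟩
  · exact (isUnit_embF' (FL := FL) S hy0).ne_zero (congrArg Subtype.val h)
  · show x * embF S y = z
    rw [mul_comm, hzy]

include hc in
/-- The trace of a `p`-th root of `u` times a unit, raised to the `p`, over `u`. -/
theorem trace_pow_mem (hF : (p : F) ≠ 0) {u : FL} (hu : u ≠ 0) {x : NodeField (FL := FL) S}
    (hx : x ^ p * algebraMap FL (NodeField S) u⁻¹ ∈ nodeRing E S) :
    algebraMap FL (NodeField S) (Algebra.trace FL (NodeField (FL := FL) S) x ^ p * u⁻¹) ∈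
      nodeRing E S := by
  have := charZero_of_glue D hF
  have : CharZero FL := charZero_of_injective_algebraMap (algebraMap F FL).injective
  have := isDomain_node E S hc
  have := finite_node E S hc
  let : Field (NodeField (FL := FL) S) := (isField_node E S hc).toField
  have : FiniteDimensional FL (NodeField (FL := FL) S) := Module.Finite.of_basis (basisS S).basis
  let Ω := AlgebraicClosure FL
  obtain ⟨ρ, hρ⟩ := IsAlgClosed.exists_pow_nat_eq (algebraMap FL Ω u) hp.out.pos
  have hint : IsIntegral S.A (x ^ p * algebraMap FL (NodeField S) u⁻¹) :=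
    (IsIntegral.of_finite S.A (⟨_, hx⟩ : nodeRing E S)).map (nodeRing E S).val
  have hρi : ρ⁻¹ ^ p = algebraMap FL Ω u⁻¹ := by rw [inv_pow, hρ, map_inv₀]
  have hσ : ∀ σ : NodeField (FL := FL) S →ₐ[FL] Ω, IsIntegral S.A (σ x * ρ⁻¹) := fun σ => by
    refine IsIntegral.of_pow hp.out.pos ?_
    have h := hint.map (σ.restrictScalars S.A)
    rw [AlgHom.restrictScalars_apply, map_mul, map_pow, AlgHom.commutes] at h
    rwa [mul_pow, hρi]
  have hsum : IsIntegral S.A
      (algebraMap FL Ω (Algebra.trace FL (NodeField (FL := FL) S) x) * ρ⁻¹) := by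
    rw [trace_eq_sum_embeddings (E := Ω), Finset.sum_mul]
    exact IsIntegral.sum _ fun σ _ => hσ σ
  have h1 : IsIntegral S.A
      (algebraMap FL Ω (Algebra.trace FL (NodeField (FL := FL) S) x ^ p * u⁻¹)) := by
    rw [map_mul, map_pow, ← hρi, ← mul_pow]
    exact hsum.pow p
  have h2 := ((isIntegral_algebraMap_iff (algebraMap FL Ω).injective).mp h1).algebraMap
    (B := NodeField (FL := FL) S)
  obtain ⟨hfr, hcl⟩ := isIntegrallyClosed_node E S hc
  have := hfr
  have := hcl
  obtain ⟨y, hy⟩ := IsIntegrallyClosed.isIntegral_iff.mp (h2.tower_top (A := nodeRing E S))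
  rw [← hy]
  exact y.2

end Fermat.Agent.LevelP

end
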