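import Fermat.Agent.LevelP.PairApprox
import Fermat.Agent.LevelP.Congr

/-!
# The local model at a pair
-/

set_option autoImplicit false

noncomputable section

namespace Fermat.Agent.LevelP

open TrivSqZeroExt
open scoped DualNumber

section Point

variable {k G : Type*} [Field k] [Field G] [Algebra k G] (P : DVPoint k G) {p : ℕ}

theorem DVPoint.mem_of_pow_mem (hp : 0 < p) {x : G} (h : x ^ p ∈ P.O) : x ∈ P.O := by
  by_cases hx : x = 0
  · rw [hx]; exact zero_mem _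
  rw [P.mem_iff hx]
  rw [P.mem_iff (pow_ne_zero _ hx), P.ord_pow hx] at h
  exact nonneg_of_mul_nonneg_right h (by exact_mod_cast hp)

end Point

variable {p : ℕ} [hp : Fact p.Prime] {F : Type*} [Field F] {k G : Type*} [Field k] [Field G]
  [Algebra k G] [CharP G p] {D : GlueData p F k G} {FL : Type*} [Field FL] [Algebra F FL]
  {W : Subring F} {P Q : DVPoint k G} {w : F} {kw : ℕ}

theorem pth_root_unique [CharP k p] {x y : k} (h : x ^ p = y ^ p) : x = y :=
  frobenius_inj k p (by simpa [frobenius_def] using h)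

variable (E : RamExt D FL) (S : PairData D W P Q w kw) (hc : ∀ j, E.c j ∈ S.A)

/-- Functions integral at the pair. -/
def nodeSub : Subring FL :=
  (nodeRing E S).toSubring.comap (algebraMap FL (NodeField (FL := FL) S))

theorem mem_nodeSub {f : FL} :
    f ∈ nodeSub E S ↔ algebraMap FL (NodeField S) f ∈ nodeRing E S := Iff.rfl

include hc in
theorem node_div {f : FL} (h0 : f ∈ E.intL 0) (h1 : f ∈ E.intL 1)
    (h : E.π * f ∈ nodeSub E S) : f ∈ nodeSub E S := by
  have := isDomain_node E S hc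
  set y : nodeRing E S := ⟨_, h⟩
  have ht : tR E S ∣ y := by
    by_contra hn
    refine eps_mul_ne_unit (rb0 S) (nodeDeg_pos S) (sigma0_isUnit E S hc hn)
      (algebraMap (DualNumber G) (Branch0 S) (E.redEps 0 f)) ?_
    rw [sigma0_apply, rho0_algebraMap E S (mul_mem (E.pi_mem 0) h0) (vInt0_of_node E S y.2),
      (E.pi_mul_intL h0).2, map_mul]
  have hs : sR E S ∣ y := by
    by_contra hn
    refine eps_mul_ne_unit (rb1 E S) (nodeDeg_pos S) (sigma1_isUnit E S hc hn)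
      (algebraMap (DualNumber G) (Branch1 E S) (E.redEps 1 f)) ?_
    rw [sigma1_apply, rho1_algebraMap E S (mul_mem (E.pi_mem 1) h1) (vInt1_of_node E S y.2),
      (E.pi_mul_intL h1).2, map_mul]
  obtain ⟨y1, hy1⟩ := hs
  have hy1t : tR E S ∣ y1 := by
    rcases (prime_tR E S hc).dvd_or_dvd (hy1 ▸ ht) with h' | h'
    · exact absurd (Ideal.mem_span_singleton.mpr h')
        (by simpa using s_pow_notMem E S 1)
    · exact h'
  obtain ⟨y2, rfl⟩ := hy1t
  have h2 := congrArg Subtype.val hy1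
  simp only [y, sR, tR, MulMemClass.coe_mul, map_mul, ← mul_assoc] at h2
  rw [s_mul_t E S] at h2
  rw [mem_nodeSub, ((isUnit_iff_ne_zero.mpr E.pi_ne_zero).map _).mul_left_cancel h2]
  exact y2.2

include hc in
/-- The local model at a pair. -/
def pairModel : LocalModel E where
  I := Set.univ
  M := nodeSub E S
  div f hf := node_div E S hc (hf 0 trivial) (hf 1 trivial)
  Reg r := r 0 ∈ P.O ∧ r 1 ∈ Q.O ∧ P.evF (r 0) = Q.evF (r 1)
  reg f hfM hf := by
    refine ⟨fun i => E.coordRed i f zeroF, ?_, fun i _ => rfl⟩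
    obtain ⟨α, c, d, h0, h1, hb0, hb1⟩ := exists_nodeForm hfM
    rw [rho0_algebraMap E S (hf 0 trivial) h0] at hb0
    rw [rho1_algebraMap E S (hf 1 trivial) h1] at hb1
    obtain ⟨a0, a1⟩ := const_fst (rb0 S) (isUnif_beta0 S) (nodeDeg_pos S)
      (hb0.hasConst (isUnif_beta0 S) (nodeDeg_pos S))
    obtain ⟨b0, b1⟩ := const_fst (rb1 E S) (isUnif_beta1 E S) (nodeDeg_pos S)
      (hb1.hasConst (isUnif_beta1 E S) (nodeDeg_pos S))
    simp only [E.fst_redEps] at a0 a1 b0 b1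
    exact ⟨a0, b0, a1.trans b1.symm⟩
  lift r hr := by
    obtain ⟨g, hg, h0, h1⟩ := S.surj _ hr.1 _ hr.2.1 hr.2.2
    refine ⟨algebraMap F FL g, embF_mem E S hg, fun i _ => ⟨E.algebraMap_mem (S.le i hg), ?_⟩⟩
    rw [coordRed_algebraMap]
    obtain rfl | rfl : i = 0 ∨ i = 1 := by omega
    · exact h0
    · exact h1
  root r s hr hs := by
    have := charP_k p k G
    obtain ⟨h0, h1, h2⟩ := hr
    rw [hs 0 trivial] at h0 h2
    rw [hs 1 trivial] at h1 h2
    have h0' : (s 0) ^ p ∈ P.O := by simpa using neg_mem h0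
    have h1' : (s 1) ^ p ∈ Q.O := by simpa using neg_mem h1
    have m0 := P.mem_of_pow_mem hp.out.pos h0'
    have m1 := Q.mem_of_pow_mem hp.out.pos h1'
    refine ⟨m0, m1, pth_root_unique ?_⟩
    rw [← P.evF_pow m0, ← Q.evF_pow m1]
    have hn0 := P.evF_add h0 h0'
    have hn1 := Q.evF_add h1 h1'
    rw [neg_add_cancel, P.evF_zero] at hn0
    rw [neg_add_cancel, Q.evF_zero] at hn1
    linear_combination hn1 - hn0 - h2
  pi_mem := pi_mem_node E S

include hc in
theorem cast_e_ne (he : ¬ p ∣ S.e) : (S.e : F)⁻¹ ∈ S.A ∧ (S.e : F) ≠ 0 := by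
  have := charP_k p k G
  have h0 : P.evF (D.redF 0 (S.e : F)) ≠ 0 := by
    rw [D.redF_of_mem (natCast_mem _ S.e),
      show (⟨(S.e : F), natCast_mem _ S.e⟩ : D.Int 0) = (S.e : D.Int 0) from
        Subtype.ext (by simp), map_natCast, ← map_natCast (algebraMap k G), P.evF_algebraMap]
    exact fun h => he ((CharP.cast_eq_zero_iff k p _).mp h)
  exact ⟨S.inv_mem _ (natCast_mem _ _) h0, fun h => h0 (by rw [h, D.redF_zero, P.evF_zero])⟩

include hc in
/-- Existence of approximate roots at a pair. -/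
theorem exists_approx_pair (hF : (p : F) ≠ 0) (he : ¬ p ∣ S.e) {u : FL} (hu : u ≠ 0)
    (hloc : LocallyPthPower W E u) (hu0 : ∀ i, u ∈ E.intL i ∧ E.coordRed i u zeroF = 1) :
    ∃ f, (pairModel E S hc).Approx u f := by
  have := isDomain_node E S hc
  have := charP_k p k G
  obtain ⟨a, b, c, d, G0, Y, U, hU, hsG, htG, hsY, htY, heq⟩ := exists_factor E S hc hu hloc
  have hnn : ∀ i, E.coordRed i u zeroF ≠ 0 := fun i => by rw [(hu0 i).2]; exact one_ne_zero
  obtain ⟨hbd, -⟩ := factor0 E S hc hU htG htY heq (u0 := ⟨u, (hu0 0).1⟩) (hnn 0)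
    (m := 0) (m' := 0) rfl
  obtain ⟨hac, -⟩ := factor1 E S hc hU hsG hsY heq (u1 := ⟨u, (hu0 1).1⟩) (hnn 1)
    (m := 0) (m' := 0) rfl
  have hd : d = b := by omega
  have hca : c = a := by omega
  subst hd hca
  obtain ⟨Z0, hZ0⟩ := exists_inv0 E S hc hF Y htY
  obtain ⟨Z1, hZ1⟩ := exists_inv1 E S hc hF Y hsY
  have hZ : (Z1 : NodeField (FL := FL) S) = Z0 := by
    linear_combination (-(Z1 : NodeField (FL := FL) S)) * hZ0 + (Z0 : NodeField (FL := FL) S) * hZ1
  set Φ : NodeField (FL := FL) S := (G0 : NodeField (FL := FL) S) * Z0 with hΦdef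
  have hΦ0 : Φ ∈ vInt0 E S := mul_mem (vInt0_of_node E S G0.2) Z0.2
  have hΦ1 : Φ ∈ vInt1 E S := mul_mem (vInt1_of_node E S G0.2) (hZ ▸ Z1.2)
  have heq' : algebraMap FL (NodeField S) u = Φ ^ p * (U : NodeField (FL := FL) S) := by
    have h1 : algebraMap FL (NodeField S) u * (Y : NodeField (FL := FL) S) ^ p =
        (G0 : NodeField (FL := FL) S) ^ p * (U : NodeField (FL := FL) S) := by
      refine (((isUnit_sN S).pow c).mul ((isUnit_tN E S).pow d)).mul_left_cancel ?_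
      linear_combination heq
    have h2 : (Y : NodeField (FL := FL) S) ^ p * (Z0 : NodeField (FL := FL) S) ^ p = 1 := by
      rw [← mul_pow, hZ0, one_pow]
    rw [hΦdef, mul_pow]
    linear_combination ((Z0 : NodeField (FL := FL) S) ^ p) * h1 -
      (algebraMap FL (NodeField S) u) * h2
  obtain ⟨α, hα, hα0, hα1⟩ := exists_const_of_isUnit E S hU
  have hn := one_lt_nodeDeg S
  have hn0 := nodeDeg_pos S
  have key0 : algebraMap (DualNumber G) (Branch0 S) (E.redEps 0 u) =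
      rho0 E S ⟨Φ, hΦ0⟩ ^ p * sigma0 E S U := by
    rw [sigma0_apply, ← map_pow, ← map_mul, ← rho0_lift0 E S ⟨u, (hu0 0).1⟩]
    exact rho0_eq_of E S _ _ heq'
  have key1 : algebraMap (DualNumber G) (Branch1 E S) (E.redEps 1 u) =
      rho1 E S ⟨Φ, hΦ1⟩ ^ p * sigma1 E S U := by
    rw [sigma1_apply, ← map_pow, ← map_mul, ← rho1_lift1 E S ⟨u, (hu0 1).1⟩]
    exact rho1_eq_of E S _ _ heq'
  have hunit0 : IsUnit (rho0 E S ⟨Φ, hΦ0⟩) := by
    have h : IsUnit (rho0 E S ⟨Φ, hΦ0⟩ ^ p * sigma0 E S U) :=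
      key0 ▸ (isUnit_dual (by rw [E.fst_redEps]; exact hnn 0)).map _
    exact (isUnit_pow_iff hp.out.ne_zero).mp (isUnit_of_mul_isUnit_left h)
  have hunit1 : IsUnit (rho1 E S ⟨Φ, hΦ1⟩) := by
    have h : IsUnit (rho1 E S ⟨Φ, hΦ1⟩ ^ p * sigma1 E S U) :=
      key1 ▸ (isUnit_dual (by rw [E.fst_redEps]; exact hnn 1)).map _
    exact (isUnit_pow_iff hp.out.ne_zero).mp (isUnit_of_mul_isUnit_left h)
  obtain ⟨hm0, hv0⟩ := root_value (rb0 S) (isUnif_beta0 S) hn (dvd_mul_right p S.e)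
    (by rw [E.fst_redEps, (hu0 0).2]) (exists_fst_ne_of_isUnit (rb0 S) hn0 hunit0) hα hα0 key0
  obtain ⟨hm1, hv1⟩ := root_value (rb1 E S) (isUnif_beta1 E S) hn (dvd_mul_right p S.e)
    (by rw [E.fst_redEps, (hu0 1).2]) (exists_fst_ne_of_isUnit (rb1 E S) hn0 hunit1) hα hα1 key1
  have hn0' : (⟨0, nodeDeg_pos S⟩ : Fin (nodeDeg S)) = ⟨0, by omega⟩ := rfl
  have hevv := pth_root_unique (mul_right_cancel₀ hα (hv0.trans hv1.symm))
  have := charZero_of_glue D hF
  have : CharZero FL := charZero_of_injective_algebraMap (algebraMap F FL).injective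
  set f0 := (basisS S).coeff Φ ⟨0, hn0⟩ with hf0
  have htr : Algebra.trace FL (NodeField (FL := FL) S) Φ = (nodeDeg S : FL) * f0 :=
    (basisS S).trace_eq hn0 Φ
  have hsame : (basisT E S).coeff Φ ⟨0, hn0⟩ = f0 := by
    have h1 := ((basisT E S).trace_eq hn0 Φ).symm.trans htr
    exact mul_left_cancel₀ (Nat.cast_ne_zero.mpr hn0.ne') h1
  have hf00 : f0 ∈ E.intL 0 := hΦ0 _
  have hf01 : f0 ∈ E.intL 1 := hsame ▸ hΦ1 _
  have hr0 : ((rb0 S).coeff (rho0 E S ⟨Φ, hΦ0⟩) ⟨0, hn0⟩).fst = E.coordRed 0 f0 zeroF := by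
    show ((rb0 S).coeff ((basisS S).mapVal (E.intL 0) (alphaZero_mem E S) (rb0 S) (E.redL 0)
      (hn := hn0) ⟨Φ, hΦ0⟩) ⟨0, hn0⟩).fst = _
    rw [RootBasis.coeff_mapVal, E.redL_apply, E.fst_redEps]
  have hr1 : ((rb1 E S).coeff (rho1 E S ⟨Φ, hΦ1⟩) ⟨0, hn0⟩).fst = E.coordRed 1 f0 zeroF := by
    show ((rb1 E S).coeff ((basisT E S).mapVal (E.intL 1) (alphaOne_mem E S) (rb1 E S) (E.redL 1)
      (hn := hn0) ⟨Φ, hΦ1⟩) ⟨0, hn0⟩).fst = _
    rw [RootBasis.coeff_mapVal, E.redL_apply, E.fst_redEps]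
    exact congrArg (E.coordRed 1 · zeroF) hsame
  simp only [ev0, hr0] at hm0 hv0 hevv
  simp only [ev0, hr1] at hm1 hv1 hevv
  obtain ⟨g, hg, hg0, hg1⟩ := S.surj _ hm0 _ hm1 hevv
  have hgv : P.evF (D.redF 0 g) ≠ 0 := fun h => by
    rw [← hg0, h, zero_pow hp.out.ne_zero, zero_mul] at hv0
    exact zero_ne_one hv0
  have hgi := S.inv_mem g hg hgv
  have hgne : g ≠ 0 := fun h => hgv (by rw [h, D.redF_zero, P.evF_zero])
  set f := f0 * algebraMap F FL g⁻¹ with hfdef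
  have hf : ∀ i, f ∈ E.intL i ∧ E.coordRed i f zeroF = 1 := by
    intro i
    have hgii : algebraMap F FL g⁻¹ ∈ E.intL i := E.algebraMap_mem (S.le i hgi)
    have hf0i : f0 ∈ E.intL i ∧ E.coordRed i f0 zeroF = D.redF i g := by
      obtain rfl | rfl : i = 0 ∨ i = 1 := by omega
      · exact ⟨hf00, hg0.symm⟩
      · exact ⟨hf01, hg1.symm⟩
    refine ⟨mul_mem hf0i.1 hgii, ?_⟩
    rw [hfdef, E.cr_mul hf0i.1 hgii, hf0i.2, coordRed_algebraMap,
      ← D.redF_mul (S.le i hg) (S.le i hgi), mul_inv_cancel₀ hgne, D.redF_one]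
  refine ⟨f, (f - 1) * E.π⁻¹, fun i _ => ?_, by
    have := E.pi_ne_zero
    field_simp
    ring, p * p, ?_⟩
  · obtain ⟨y, hy, hye⟩ := E.exists_pi_mul (x := f - 1) (sub_mem (hf i).1 (one_mem _))
      (by rw [E.cr_sub (hf i).1 (one_mem _), (hf i).2, E.cr_one, sub_self])
    rw [hye, mul_comm E.π, mul_assoc, mul_inv_cancel₀ E.pi_ne_zero, mul_one]
    exact hy
  · obtain ⟨hei, hene⟩ := cast_e_ne E S hc he
    have hx : Φ ^ p * algebraMap FL (NodeField (FL := FL) S) u⁻¹ ∈ nodeRing E S := by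
      obtain ⟨Ui, hUi⟩ := hU.exists_right_inv
      have h1 : algebraMap FL (NodeField (FL := FL) S) u * algebraMap FL (NodeField (FL := FL) S) u⁻¹ = 1 := by
        rw [← map_mul, mul_inv_cancel₀ hu, map_one]
      have h2 := congrArg Subtype.val hUi
      simp only [MulMemClass.coe_mul, OneMemClass.coe_one] at h2
      rw [show Φ ^ p * algebraMap FL (NodeField (FL := FL) S) u⁻¹ = (Ui : NodeField (FL := FL) S) by
        linear_combination (Ui : NodeField (FL := FL) S) * h1 -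
          (Φ ^ p * algebraMap FL (NodeField (FL := FL) S) u⁻¹) * h2 -
          (Ui : NodeField (FL := FL) S) * algebraMap FL (NodeField (FL := FL) S) u⁻¹ * heq']
      exact Ui.2
    have hT := trace_pow_mem E S hc hF hu hx
    rw [htr] at hT
    have hC : E.unitC ∈ nodeSub E S := unitC_mem_node E S hc
    have hpe : algebraMap F FL ((S.e : F)⁻¹ * g⁻¹) ∈ nodeSub E S :=
      embF_mem E S (mul_mem hei hgi)
    have := mul_mem (mul_mem (show (nodeDeg S * f0 : FL) ^ p * u⁻¹ ∈ nodeSub E S from hT)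
      (pow_mem hC p)) (pow_mem hpe p)
    show E.π ^ (p * p) * (f ^ p * u⁻¹) ∈ nodeSub E S
    convert this using 1
    rw [hfdef, map_mul, pow_mul, E.pi_pow_eq, nodeDeg, Nat.cast_mul, map_inv₀, map_inv₀,
      map_natCast]
    have heL : (S.e : FL) ≠ 0 := Nat.cast_ne_zero.mpr S.e_pos.ne'
    simp only [mul_pow, inv_pow]
    field_simp

end Fermat.Agent.LevelP

end
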