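import Fermat.Agent.LevelP.Vanish
import Fermat.Agent.LevelP.FixedPoint
import Fermat.Agent.LevelP.Inst.UnitGeometry
import Fermat.Agent.EigenRep.Main
import Fermat.Agent.Route.Lowering
import Fermat.Agent.Reduction.Igusa

/-!
# The level does not contain `p`

If `p ∣ abc`, the representation of the Frey curve is not modular of level `p` or `2 p`: it would
give a nonzero point of `J₀(M p)[p]` fixed by the stabiliser of a Kummer generator. Hence `p`
leaves the level once the primes away from `p` do.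
-/

set_option autoImplicit false

noncomputable section

open ModularCurve WeierstrassCurve WeierstrassCurve.Affine WeierstrassCurve.Affine.Point
open scoped WeierstrassCurve.Affine

namespace Fermat.Agent.LevelP

local notation "Ω" => AlgebraicClosure ℚ

/-- No modularity at level `M p`, `M ∈ {1, 2}`, if `p ∣ abc`. -/
theorem not_modularRepOfLevel_mul (P : FreyPackage) {M : ℕ} (hM : M = 1 ∨ M = 2)
    (habc : (P.p : ℤ) ∣ P.a * P.b * P.c)
    (hirr : GaloisRepIsIrreducible (K := Ω) ℚ P.freyCurve P.p) :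
    ¬ P.ModularRepOfLevel (M * P.p) := by
  rintro ⟨f, W, 𝔪, hf, hW, h𝔪, hp𝔪, hcongr⟩
  have hp := P.pp
  have hp5 := P.hp5
  have : Fact P.p.Prime := ⟨hp⟩
  have : NeZero P.p := ⟨hp.ne_zero⟩
  have : NeZero M := ⟨by rcases hM with rfl | rfl <;> norm_num⟩
  have : NeZero (M * P.p) := ⟨mul_ne_zero (NeZero.ne M) hp.ne_zero⟩
  have hpM : ¬ P.p ∣ M := fun h => by
    have h2 := Nat.le_of_dvd (by rcases hM with rfl | rfl <;> norm_num) h
    omega
  obtain ⟨A, hA⟩ := Frobenius.exists_liesOverPrime Ω hp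
  have := Reduction.charP_residueField (A := A) hA
  have : IsAlgClosed (IsLocalRing.ResidueField A) := Reduction.isAlgClosed_residueField
  let S : SemistableRed.Setting A M P.p :=
    ⟨hpM, hA, ⟨_, Reduction.reductionFacts hpM hA⟩⟩
  obtain ⟨K, Q, hQ, hpQ, hfix⟩ := exists_fixed_point P ⟨hp, hA⟩ habc
  have : P.freyCurve.IsElliptic := by
    rw [WeierstrassCurve.isElliptic_iff, isUnit_iff_ne_zero, ← MultRed.freyCurveInt_map,
      WeierstrassCurve.map_Δ, map_ne_zero_iff _ (Int.cast_injective (α := ℚ))]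
    exact MultRed.freyCurveInt_Δ_ne_zero P
  obtain ⟨x, hx, hpx, hxfix⟩ := exists_fixed_jZero_of_modular (N := M * P.p) (by omega)
    (EigenRep.repInputs (M * P.p) P.p) P.freyCurve hW hirr ⟨f, 𝔪, hf, h𝔪, hp𝔪, hcongr⟩
    (K.H : Set (Ω ≃ₐ[ℚ] Ω)) hQ hpQ hfix
  obtain ⟨Γ, hΓ⟩ := exists_geometry S hM hp5
  exact hx (K.eq_zero_of_fixed S (by omega) Γ hΓ x hpx hxfix)

/-- No modularity at a level dividing `2 p` and divisible by `p`, if `p ∣ abc`. -/
theorem not_modularRepOfLevel (P : FreyPackage) {N : ℕ} (hN : N ∣ 2 * P.p) (hpN : P.p ∣ N)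
    (habc : (P.p : ℤ) ∣ P.a * P.b * P.c)
    (hirr : GaloisRepIsIrreducible (K := Ω) ℚ P.freyCurve P.p) :
    ¬ P.ModularRepOfLevel N := by
  obtain ⟨M, rfl⟩ := hpN
  rw [mul_comm 2, Nat.mul_dvd_mul_iff_left P.pp.pos] at hN
  rw [mul_comm]
  exact not_modularRepOfLevel_mul P ((Nat.dvd_prime Nat.prime_two).mp hN) habc hirr

/-- Statement S44 from the removal of the primes away from `p`. -/
theorem removeP_of (hq : Route.RemoveAwayFromP) : Route.RemoveP := by
  intro P N hN hpN hirr hmod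
  obtain ⟨M, hMN, hM2p, hM⟩ := Route.exists_level_dvd_both hq P hirr N hN hmod
  exact ⟨M, hMN, fun hpM =>
    not_modularRepOfLevel P hM2p hpM (hN.p_dvd_abc hpN) hirr hM, hM⟩

end Fermat.Agent.LevelP

end
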