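import Fermat.Agent.LevelP.PairModel

/-!
# The local model at a smooth point

At a smooth point the ring `A[π]` is a regular local ring with parameters `π` and a lift of a
uniformiser of the component. This gives orders, slopes and approximate roots.
-/

set_option autoImplicit false

noncomputable section

namespace Fermat.Agent.LevelP

open TrivSqZeroExt
open scoped DualNumber

variable {p : ℕ} [hp : Fact p.Prime] {F : Type*} [Field F] {k G : Type*} [Field k] [Field G]
  [Algebra k G] [CharP G p] {D : GlueData p F k G} {FL : Type*} [Field FL] [Algebra F FL]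

/-- Functions whose coordinates lie in `A`. -/
def coordSub (E : RamExt D FL) (A : Subring F) (hc : ∀ j, E.c j ∈ A) : Subring FL where
  carrier := {x | ∀ j, E.basis.repr x j ∈ A}
  add_mem' hx hy j := by rw [map_add, Finsupp.add_apply]; exact add_mem (hx j) (hy j)
  zero_mem' j := by simp [zero_mem]
  neg_mem' {x} hx j := by rw [map_neg, Finsupp.neg_apply]; exact neg_mem (hx j)
  one_mem' j := by
    rw [← map_one (algebraMap F FL), E.repr_algebraMap]
    split <;> [exact one_mem _; exact zero_mem _]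
  mul_mem' {x y} hx hy := by
    have hpi : ∀ z : FL, (∀ j, E.basis.repr z j ∈ A) → ∀ j, E.basis.repr (E.π * z) j ∈ A := by
      intro z hz j
      rw [E.repr_pi_mul]
      refine add_mem ?_ (mul_mem (natCast_mem _ p) (mul_mem (hz _) (hc j)))
      split <;> [exact zero_mem _; exact hz _]
    have hpow : ∀ m : ℕ, ∀ j, E.basis.repr (E.π ^ m * x) j ∈ A := by
      intro m
      induction m with
      | zero => simpa using hx
      | succ m ih => intro j; rw [pow_succ', mul_assoc]; exact hpi _ ih j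
    intro j
    rw [show x * y = ∑ i, E.basis.repr y i • (E.π ^ (i : ℕ) * x) by
      conv_lhs => rw [← E.basis.sum_repr y, Finset.mul_sum]
      exact Finset.sum_congr rfl fun i _ => by rw [E.basis_eq, mul_smul_comm, mul_comm x]]
    rw [map_sum, Finsupp.finsetSum_apply]
    refine sum_mem fun i _ => ?_
    rw [map_smul, Finsupp.smul_apply, smul_eq_mul]
    exact mul_mem (hy i) (hpow _ j)

variable {W : Subring F} {i : Fin 2} {P : DVPoint k G} (E : RamExt D FL)
  (S : SmoothData D W i P) (hc : ∀ j, E.c j ∈ S.A)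

theorem algebraMap_coordSub {A : Subring F} (hcA : ∀ j, E.c j ∈ A) {f : F} (hf : f ∈ A) :
    algebraMap F FL f ∈ coordSub E A hcA := fun j => by
  rw [E.repr_algebraMap]; split <;> [exact hf; exact zero_mem _]

theorem pi_mem_coordSub {A : Subring F} (hcA : ∀ j, E.c j ∈ A) : E.π ∈ coordSub E A hcA := fun j => by
  rw [← E.basis_one, E.basis.repr_self, Finsupp.single_apply]
  split <;> [exact one_mem _; exact zero_mem _]

theorem unitC_mem_coordSub {A : Subring F} (hcA : ∀ j, E.c j ∈ A) :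
    E.unitC ∈ coordSub E A hcA := fun j => by rw [E.repr_unitC]; exact hcA j

theorem coordSub_le {x : FL} (hx : x ∈ coordSub E S.A hc) : x ∈ E.intL i :=
  fun j => S.le (hx j)

/-- The smooth local ring. -/
abbrev smoothRing : Subring FL := coordSub E S.A hc

/-- The structure over the local ring of the model. -/
def smoothHom : S.A →+* smoothRing E S hc :=
  ((algebraMap F FL).comp S.A.subtype).codRestrict _ fun r => algebraMap_coordSub E hc r.2

/-- The value at the point. -/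
def valueAt (x : smoothRing E S hc) : k := P.evF (E.coordRed i (x : FL) zeroF)

theorem valueAt_mul (x y : smoothRing E S hc) :
    valueAt E S hc (x * y) = valueAt E S hc x * valueAt E S hc y := by
  rw [valueAt, Subring.coe_mul, E.cr_mul (coordSub_le E S hc x.2) (coordSub_le E S hc y.2)]
  exact P.evF_mul (S.red_mem _ (x.2 _)) (S.red_mem _ (y.2 _))

theorem exists_rest (x : smoothRing E S hc) : ∃ y : smoothRing E S hc,
    x = smoothHom E S hc ⟨_, x.2 zeroF⟩ + ⟨E.π, pi_mem_coordSub E hc⟩ * y := by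
  classical
  refine ⟨⟨∑ j ∈ Finset.univ.erase zeroF, E.basis.repr (x : FL) j • E.π ^ ((j : ℕ) - 1),
    sum_mem fun j _ => ?_⟩, Subtype.ext ?_⟩
  · rw [Algebra.smul_def]
    exact mul_mem (algebraMap_coordSub E hc (x.2 j)) (pow_mem (pi_mem_coordSub E hc) _)
  · show (x : FL) = algebraMap F FL _ + E.π * _
    conv_lhs => rw [← E.basis.sum_repr (x : FL), ← Finset.add_sum_erase _ _ (Finset.mem_univ zeroF)]
    rw [E.basis_zero, ← Algebra.algebraMap_eq_smul_one, Finset.mul_sum]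
    congr 1
    refine Finset.sum_congr rfl fun j hj => ?_
    have hj0 : (j : ℕ) ≠ 0 := fun h => (Finset.mem_erase.mp hj).1 (Fin.ext h)
    rw [E.basis_eq, mul_smul_comm, ← pow_succ', show (j : ℕ) - 1 + 1 = (j : ℕ) by omega]

theorem smoothHom_finite : (smoothHom E S hc).Finite := by
  classical
  let := (smoothHom E S hc).toAlgebra
  show Module.Finite S.A (smoothRing E S hc)
  refine ⟨⟨Finset.univ.image fun j : Fin p =>
    (⟨E.π ^ (j : ℕ), pow_mem (pi_mem_coordSub E hc) _⟩ : smoothRing E S hc),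
    top_le_iff.mp fun x _ => ?_⟩⟩
  have hx : x = ∑ j : Fin p, (⟨_, x.2 j⟩ : S.A) •
      (⟨E.π ^ (j : ℕ), pow_mem (pi_mem_coordSub E hc) _⟩ : smoothRing E S hc) := Subtype.ext (by
    conv_lhs => rw [← E.basis.sum_repr (x : FL)]
    rw [AddSubmonoidClass.coe_finsetSum]
    refine Finset.sum_congr rfl fun j _ => ?_
    rw [E.basis_eq, Algebra.smul_def]
    rfl)
  rw [hx]
  exact sum_mem fun j _ => Submodule.smul_mem _ _
    (Submodule.subset_span (Finset.mem_coe.mpr (Finset.mem_image_of_mem _ (Finset.mem_univ j))))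

theorem noetherian_smooth : IsNoetherianRing (smoothRing E S hc) := by
  let := (smoothHom E S hc).toAlgebra
  have : Module.Finite S.A (smoothRing E S hc) := smoothHom_finite E S hc
  have := S.noetherian
  exact isNoetherian_of_tower S.A inferInstance

theorem valueAt_hom (g : S.A) :
    valueAt E S hc (smoothHom E S hc g) = P.evF (D.redF i g) := by
  show P.evF (E.coordRed i (algebraMap F FL (g : F)) zeroF) = _
  rw [RamExt.coordRed, E.repr_algebraMap, if_pos rfl]

theorem valueAt_pi (y : smoothRing E S hc) :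
    valueAt E S hc (⟨E.π, pi_mem_coordSub E hc⟩ * y) = 0 := by
  rw [valueAt, Subring.coe_mul, E.cr_pi_mul (coordSub_le E S hc y.2), P.evF_zero]

theorem isUnit_smooth {x : smoothRing E S hc} (h : valueAt E S hc x ≠ 0) : IsUnit x := by
  by_contra hu
  obtain ⟨M, hM, hxM⟩ := exists_max_ideal_of_mem_nonunits hu
  let := (smoothHom E S hc).toAlgebra
  have : Module.Finite S.A (smoothRing E S hc) := smoothHom_finite E S hc
  have hmax : (M.comap (algebraMap S.A (smoothRing E S hc))).IsMaximal :=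
    Ideal.isMaximal_comap_of_isIntegral_of_isMaximal M
  have hA : ∀ g : S.A, P.evF (D.redF i (g : F)) = 0 → smoothHom E S hc g ∈ M := by
    intro g hg
    by_contra hgM
    obtain ⟨y, z, hz, hyz⟩ := Ideal.IsMaximal.exists_inv hmax hgM
    have hz0 : P.evF (D.redF i (z : F)) = 0 := by
      by_contra hne
      have hzu : IsUnit z := IsUnit.of_mul_eq_one ⟨(z : F)⁻¹, S.inv_mem z z.2 hne⟩
        (Subtype.ext (mul_inv_cancel₀ fun h0 => hne (by rw [h0, D.redF_zero, P.evF_zero])))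
      exact hmax.ne_top (Ideal.eq_top_of_isUnit_mem _ hz hzu)
    have h1 := congrArg (fun w : S.A => P.evF (D.redF i (w : F))) hyz
    simp only [Subring.coe_add, Subring.coe_mul, Subring.coe_one] at h1
    rw [D.redF_add (mul_mem (S.le y.2) (S.le g.2)) (S.le z.2), D.redF_one, P.evF_one,
      P.evF_add ((D.redF_mul (S.le y.2) (S.le g.2)) ▸ S.red_mem _ (mul_mem y.2 g.2))
        (S.red_mem _ z.2),
      D.redF_mul (S.le y.2) (S.le g.2), P.evF_mul (S.red_mem _ y.2) (S.red_mem _ g.2), hg,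
      hz0, mul_zero, add_zero] at h1
    exact zero_ne_one h1
  have hpM : smoothHom E S hc (p : S.A) ∈ M := hA _ (by
    rw [show ((p : S.A) : F) = (p : F) * 1 by simp, D.redF_p_mul (one_mem _), P.evF_zero])
  have hπ : (⟨E.π, pi_mem_coordSub E hc⟩ : smoothRing E S hc) ∈ M := by
    refine hM.isPrime.mem_of_pow_mem p ?_
    have h : (⟨E.π, pi_mem_coordSub E hc⟩ : smoothRing E S hc) ^ p =
        smoothHom E S hc (p : S.A) * ⟨_, unitC_mem_coordSub E hc⟩ := Subtype.ext (by
      rw [SubmonoidClass.coe_pow, Subring.coe_mul, map_natCast]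
      simpa using E.pi_pow_eq)
    rw [h]
    exact M.mul_mem_right _ hpM
  obtain ⟨y, hy⟩ := exists_rest E S hc x
  have hx0 : smoothHom E S hc ⟨_, x.2 zeroF⟩ ∈ M := by
    rw [eq_sub_of_add_eq hy.symm]
    exact M.sub_mem hxM (M.mul_mem_right _ hπ)
  refine hM.ne_top (Ideal.eq_top_of_isUnit_mem _ hx0 (IsUnit.map _ ?_))
  exact IsUnit.of_mul_eq_one ⟨_, S.inv_mem _ (x.2 zeroF) h⟩ (Subtype.ext
    (mul_inv_cancel₀ fun h0 => h (by
      have h0' : E.basis.repr (x : FL) zeroF = 0 := h0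
      show P.evF (D.redF i (E.basis.repr (x : FL) zeroF)) = 0
      rw [h0', D.redF_zero, P.evF_zero])))

theorem valueAt_ne_of_isUnit {x : smoothRing E S hc} (h : IsUnit x) : valueAt E S hc x ≠ 0 := by
  obtain ⟨y, hy⟩ := h.exists_right_inv
  intro h0
  have := congrArg (valueAt E S hc) hy
  rw [valueAt_mul, h0, zero_mul, valueAt, Subring.coe_one, E.cr_one, P.evF_one] at this
  exact zero_ne_one this

theorem isLocalRing_smooth : IsLocalRing (smoothRing E S hc) := by
  have : Nontrivial (smoothRing E S hc) := inferInstance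
  refine IsLocalRing.of_nonunits_add fun x y hx hy hu => ?_
  have hx' : valueAt E S hc x = 0 := not_not.mp fun h => hx (isUnit_smooth E S hc h)
  have hy' : valueAt E S hc y = 0 := not_not.mp fun h => hy (isUnit_smooth E S hc h)
  refine valueAt_ne_of_isUnit E S hc hu ?_
  rw [valueAt, Subring.coe_add, E.cr_add (coordSub_le E S hc x.2) (coordSub_le E S hc y.2)]
  have := P.evF_add (S.red_mem _ (x.2 zeroF)) (S.red_mem _ (y.2 zeroF))
  rw [RamExt.coordRed, RamExt.coordRed, this]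
  simp only [valueAt, RamExt.coordRed] at hx' hy'
  rw [hx', hy', add_zero]

theorem ufm_smooth : UniqueFactorizationMonoid (smoothRing E S hc) ∧
    Prime (⟨E.π, pi_mem_coordSub E hc⟩ : smoothRing E S hc) := by
  have := isLocalRing_smooth E S hc
  have := noetherian_smooth E S hc
  obtain ⟨g, hg, hgr⟩ := S.surj P.unif P.unif_mem
  set τ : smoothRing E S hc := smoothHom E S hc ⟨g, hg⟩
  set ϖ : smoothRing E S hc := ⟨E.π, pi_mem_coordSub E hc⟩ with hϖdef
  have hτv : valueAt E S hc τ = 0 := by rw [valueAt_hom, hgr, P.evF_unif]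
  have hϖv : valueAt E S hc ϖ = 0 := by simpa using valueAt_pi E S hc 1
  have hC : IsUnit (⟨_, unitC_mem_coordSub E hc⟩ : smoothRing E S hc) := by
    refine isUnit_smooth E S hc ?_
    rw [valueAt, RamExt.coordRed, E.repr_unitC, E.red_c0, P.evF_algebraMap]
    exact E.γ0_ne
  have hmax : IsLocalRing.maximalIdeal (smoothRing E S hc) = Ideal.span {ϖ, τ} := by
    refine le_antisymm (fun x hx => ?_) (Ideal.span_le.mpr ?_)
    · have hx0 : valueAt E S hc x = 0 := not_not.mp fun h => hx (isUnit_smooth E S hc h)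
      obtain ⟨y, hy⟩ := exists_rest E S hc x
      set x0 := E.basis.repr (x : FL) zeroF with hx0def
      obtain ⟨z, hz, hz'⟩ := P.isUnif_unif.exists_div (S.red_mem x0 (x.2 _)) hx0
      obtain ⟨g1, hg1, hg1r⟩ := S.surj z hz
      have hm : g * g1 ∈ S.A := mul_mem hg hg1
      obtain ⟨g2, hg2, hg2e⟩ := S.ker (x0 - g * g1) (sub_mem (x.2 _) hm) (by
        have h := D.redF_add (S.le (sub_mem (x.2 zeroF) hm)) (S.le hm)
        rw [sub_add_cancel, D.redF_mul (S.le hg) (S.le hg1), hgr, hg1r, ← hz'] at h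
        linear_combination -h)
      have hp' : smoothHom E S hc (p : S.A) ∈ Ideal.span {ϖ, τ} := by
        refine (Ideal.mul_unit_mem_iff_mem _ hC).mp ?_
        rw [show smoothHom E S hc (p : S.A) * ⟨_, unitC_mem_coordSub E hc⟩ = ϖ ^ p from
          Subtype.ext (by
            rw [SubmonoidClass.coe_pow, Subring.coe_mul, map_natCast]
            simpa [ϖ] using E.pi_pow_eq.symm)]
        exact Ideal.pow_mem_of_mem _ (Ideal.subset_span (by simp)) _ hp.out.pos
      rw [hy, show (⟨x0, x.2 zeroF⟩ : S.A) = ⟨g, hg⟩ * ⟨g1, hg1⟩ + (p : S.A) * ⟨g2, hg2⟩ from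
        Subtype.ext (by push_cast; linear_combination hg2e), map_add, map_mul, map_mul]
      exact add_mem (add_mem (Ideal.mul_mem_right _ _ (Ideal.subset_span (by simp [τ])))
        (Ideal.mul_mem_right _ _ hp')) (Ideal.mul_mem_right _ _ (Ideal.subset_span (by simp [ϖ])))
    · rintro z (rfl | rfl)
      · exact fun h => valueAt_ne_of_isUnit E S hc h hϖv
      · exact fun h => valueAt_ne_of_isUnit E S hc h hτv
  have hnot : ∀ N : ℕ, τ ^ N ∉ Ideal.span {ϖ} := fun N h => by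
    obtain ⟨y, hy⟩ := Ideal.mem_span_singleton.mp h
    have h1 := congrArg (fun z : smoothRing E S hc => E.coordRed i (z : FL) zeroF) hy
    simp only [ϖ, SubmonoidClass.coe_pow, Subring.coe_mul] at h1
    rw [E.cr_pi_mul (coordSub_le E S hc y.2), E.cr_pow (coordSub_le E S hc τ.2)] at h1
    have h2 : E.coordRed i (τ : FL) zeroF = P.unif := by
      show E.coordRed i (algebraMap F FL g) zeroF = _
      rw [RamExt.coordRed, E.repr_algebraMap, if_pos rfl, hgr]
    rw [h2] at h1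
    exact pow_ne_zero N P.unif_ne_zero h1
  obtain ⟨h1, h2⟩ := isPrime_and_pid_of_not_nilpotent hmax hnot
  have hne : ϖ ≠ 0 := fun h => E.pi_ne_zero (congrArg Subtype.val h)
  exact ⟨uniqueFactorizationMonoid_of_pid_quotient hne
    (hmax ▸ Ideal.subset_span (by simp)) h1 h2, (Ideal.span_singleton_prime hne).mp h1⟩

section PrimeValuation

variable (L : Subring FL) [UniqueFactorizationMonoid L]
  (hfrac : ∀ f : FL, ∃ x y : L, y ≠ 0 ∧ f * (y : FL) = (x : FL))

/-- The valuation ring of a prime of a factorial subring. -/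
def primeVal (ϖ : L) (hϖ : Prime ϖ) : ValuationSubring FL where
  carrier := {f | ∃ a b : L, ¬ ϖ ∣ b ∧ f * (b : FL) = (a : FL)}
  mul_mem' := by
    rintro f g ⟨a, b, hb, h⟩ ⟨a', b', hb', h'⟩
    refine ⟨a * a', b * b', fun hd => (hϖ.dvd_or_dvd hd).elim hb hb', ?_⟩
    push_cast
    linear_combination (g * (b' : FL)) * h + (a : FL) * h'
  one_mem' := ⟨1, 1, fun h => hϖ.not_isUnit (isUnit_of_dvd_one h), by simp⟩
  add_mem' := by
    rintro f g ⟨a, b, hb, h⟩ ⟨a', b', hb', h'⟩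
    refine ⟨a * b' + a' * b, b * b', fun hd => (hϖ.dvd_or_dvd hd).elim hb hb', ?_⟩
    push_cast
    linear_combination (b' : FL) * h + (b : FL) * h'
  zero_mem' := ⟨0, 1, fun h => hϖ.not_isUnit (isUnit_of_dvd_one h), by simp⟩
  neg_mem' := by
    rintro f ⟨a, b, hb, h⟩
    exact ⟨-a, b, hb, by push_cast; linear_combination -h⟩
  mem_or_inv_mem' f := by
    by_cases hf : f = 0
    · left; exact ⟨0, 1, fun h => hϖ.not_isUnit (isUnit_of_dvd_one h), by simp [hf]⟩
    obtain ⟨x, y, hy, h⟩ := hfrac f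
    have hx : x ≠ 0 := fun h0 => by
      rw [h0, Subring.coe_zero] at h
      rcases mul_eq_zero.mp h with h1 | h1
      · exact hf h1
      · exact hy (Subtype.ext h1)
    obtain ⟨a, x1, hx1, hxe⟩ := WfDvdMonoid.max_power_factor hx hϖ.irreducible
    obtain ⟨b, y1, hy1, hye⟩ := WfDvdMonoid.max_power_factor hy hϖ.irreducible
    rw [hxe, hye] at h
    push_cast at h
    have hϖ0 : (ϖ : FL) ≠ 0 := fun h0 => hϖ.ne_zero (Subtype.ext h0)
    rcases le_total b a with hba | hab
    · refine Or.inl ⟨ϖ ^ (a - b) * x1, y1, hy1, ?_⟩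
      refine mul_left_cancel₀ (pow_ne_zero b hϖ0) ?_
      push_cast
      rw [← mul_assoc _ ((ϖ : FL) ^ (a - b)), ← pow_add, Nat.add_sub_cancel' hba, ← h]
      ring
    · refine Or.inr ⟨ϖ ^ (b - a) * y1, x1, hx1, ?_⟩
      refine mul_left_cancel₀ (pow_ne_zero a hϖ0) ?_
      push_cast
      rw [← mul_assoc _ ((ϖ : FL) ^ (b - a)), ← pow_add, Nat.add_sub_cancel' hab]
      field_simp
      linear_combination -h

end PrimeValuation

theorem smooth_frac (f : FL) : ∃ x y : smoothRing E S hc, y ≠ 0 ∧ f * (y : FL) = (x : FL) := by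
  classical
  choose num hnum den hden hden0 heq using fun j => S.fraction (E.basis.repr f j)
  have hd0 : (∏ j, den j) ≠ 0 := Finset.prod_ne_zero_iff.mpr fun j _ => hden0 j
  refine ⟨⟨f * algebraMap F FL (∏ j, den j), fun j => ?_⟩,
    ⟨_, algebraMap_coordSub E hc (prod_mem fun j _ => hden j)⟩, fun h => hd0 ?_, rfl⟩
  · rw [mul_comm, ← Algebra.smul_def, map_smul, Finsupp.smul_apply, smul_eq_mul,
      ← Finset.mul_prod_erase _ _ (Finset.mem_univ j), mul_right_comm,
      mul_comm (den j), heq j]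
    exact mul_mem (hnum j) (prod_mem fun m _ => hden m)
  · exact (map_eq_zero _).mp (congrArg Subtype.val h)

variable {u : FL}

/-- The shape of a function which is locally a `p`-th power at a smooth point. -/
theorem smooth_factor (hu : u ≠ 0) (hloc : LocallyPthPower W E u) :
    ∃ (a : ℕ) (Φ : FL) (U : smoothRing E S hc), Φ ≠ 0 ∧ IsUnit U ∧
      u = E.π ^ a * Φ ^ p * (U : FL) := by
  obtain ⟨hufm, hπp⟩ := ufm_smooth E S hc
  have := hufm
  obtain ⟨x, y, hy, hxy⟩ := smooth_frac E S hc u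
  have hx : x ≠ 0 := fun h => by
    rw [h, Subring.coe_zero] at hxy
    exact (mul_eq_zero.mp hxy).elim hu fun h1 => hy (Subtype.ext h1)
  set ϖπ : smoothRing E S hc := ⟨E.π, pi_mem_coordSub E hc⟩
  set z := x * y ^ (p - 1) with hzdef
  have hz : z ≠ 0 := mul_ne_zero hx (pow_ne_zero _ hy)
  have hpp : (y : FL) * (y : FL) ^ (p - 1) = (y : FL) ^ p := by
    rw [← pow_succ', Nat.sub_add_cancel hp.out.pos]
  have hzu : (z : FL) = u * (y : FL) ^ p := by
    rw [hzdef]; push_cast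
    linear_combination u * hpp - (y : FL) ^ (p - 1) * hxy
  have hdiv : DivisibleAway ϖπ ϖπ p z := by
    intro ϖ hϖ h1 _ m hm hm'
    have h1' : ¬ ϖ ∣ ϖπ := fun h => h1 ((hϖ.dvd_prime_iff_associated hπp).mp h)
    have hone : ¬ ϖ ∣ (1 : smoothRing E S hc) := fun h => hϖ.not_isUnit (isUnit_of_dvd_one h)
    obtain ⟨f, hf0, hf1, hf2⟩ := hloc (primeVal (smoothRing E S hc) (smooth_frac E S hc) ϖ hϖ)
      (fun c hcW => ⟨⟨_, algebraMap_coordSub E hc (S.W_le hcW)⟩, 1, hone, by simp⟩)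
      ⟨ϖπ, 1, hone, by simp [ϖπ]⟩
      ⟨1, ϖπ, h1', by simp [ϖπ, E.pi_ne_zero]⟩
    obtain ⟨a1, b1, hb1, he1⟩ := hf1
    obtain ⟨a2, b2, hb2, he2⟩ := hf2
    have hkey : f ^ p * u⁻¹ * (u * (f ^ p)⁻¹) = 1 := by field_simp
    have ha2 : ¬ ϖ ∣ a2 := fun hd => by
      have h12 : a1 * a2 = b1 * b2 := Subtype.ext (by
        push_cast
        rw [← he1, ← he2]
        linear_combination ((b1 : FL) * (b2 : FL)) * hkey)
      exact (hϖ.dvd_or_dvd (h12 ▸ hd.mul_left a1)).elim hb1 hb2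
    obtain ⟨fx, fy, hfy, hfe⟩ := smooth_frac E S hc f
    have hfx : fx ≠ 0 := fun h => by
      rw [h, Subring.coe_zero] at hfe
      exact (mul_eq_zero.mp hfe).elim hf0 fun h1 => hfy (Subtype.ext h1)
    have hmain : z * (b2 * fy ^ p) = y ^ p * fx ^ p * a2 := Subtype.ext (by
      push_cast
      rw [hzu, ← hfe, ← he2]
      field_simp
      ring)
    obtain ⟨i1, f1, hf1', hf1e⟩ := WfDvdMonoid.max_power_factor hfy hϖ.irreducible
    obtain ⟨i2, f2, hf2', hf2e⟩ := WfDvdMonoid.max_power_factor hfx hϖ.irreducible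
    obtain ⟨i3, f3, hf3', hf3e⟩ := WfDvdMonoid.max_power_factor hy hϖ.irreducible
    obtain ⟨i4, f4, hf4', hf4e⟩ := WfDvdMonoid.max_power_factor hz hϖ.irreducible
    have hki : m = i4 := by
      rw [hf4e] at hm hm'
      by_contra hne
      rcases lt_or_gt_of_ne hne with h | h
      · exact hm' ((pow_dvd_pow ϖ h).trans (dvd_mul_right _ _))
      · exact hf4' ((mul_dvd_mul_iff_left (pow_ne_zero i4 hϖ.ne_zero)).mp
          (by rw [← pow_succ]; exact (pow_dvd_pow ϖ h).trans hm))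
    rw [hf1e, hf2e, hf3e, hf4e] at hmain
    have hl : ϖ ^ (i4 + p * i1) * (f4 * b2 * f1 ^ p) =
        ϖ ^ (p * i3 + p * i2) * (f3 ^ p * f2 ^ p * a2) := by
      simp only [pow_add, pow_mul']
      linear_combination hmain
    have hn1 : ¬ ϖ ∣ f4 * b2 * f1 ^ p := fun h => (hϖ.dvd_or_dvd h).elim
      (fun h => (hϖ.dvd_or_dvd h).elim hf4' hb2) (fun h => hf1' (hϖ.dvd_of_dvd_pow h))
    have hn2 : ¬ ϖ ∣ f3 ^ p * f2 ^ p * a2 := fun h => (hϖ.dvd_or_dvd h).elim
      (fun h => (hϖ.dvd_or_dvd h).elim (fun h => hf3' (hϖ.dvd_of_dvd_pow h))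
        (fun h => hf2' (hϖ.dvd_of_dvd_pow h))) ha2
    have heq : i4 + p * i1 = p * i3 + p * i2 := by
      by_contra hne
      rcases lt_or_gt_of_ne hne with h | h
      · refine hn1 ((mul_dvd_mul_iff_left (pow_ne_zero (i4 + p * i1) hϖ.ne_zero)).mp ?_)
        rw [← pow_succ, hl]
        exact (pow_dvd_pow ϖ h).trans (dvd_mul_right _ _)
      · refine hn2 ((mul_dvd_mul_iff_left (pow_ne_zero (p * i3 + p * i2) hϖ.ne_zero)).mp ?_)
        rw [← pow_succ, ← hl]
        exact (pow_dvd_pow ϖ h).trans (dvd_mul_right _ _)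
    rw [hki]
    exact (Nat.dvd_add_left (dvd_mul_right _ _)).mp
      (heq ▸ dvd_add (dvd_mul_right _ _) (dvd_mul_right _ _))
  obtain ⟨a, b, G0, U, hG, -, -⟩ := exists_eq_mul_pow hπp hπp hp.out.pos _ hz hdiv
  have hy' : (y : FL) ≠ 0 := fun h => hy (Subtype.ext h)
  have hG0 : (G0 : FL) ≠ 0 := fun h => hz (by
    rw [hG, show G0 = 0 from Subtype.ext h, zero_pow hp.out.ne_zero, mul_zero, zero_mul])
  refine ⟨a + b, (G0 : FL) * (y : FL)⁻¹, U, mul_ne_zero hG0 (inv_ne_zero hy'), U.isUnit, ?_⟩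
  have hG' := congrArg Subtype.val hG
  push_cast at hG'
  rw [hzu] at hG'
  simp only [ϖπ] at hG'
  rw [pow_add, mul_pow, inv_pow]
  field_simp
  linear_combination hG'

theorem eq_zero_of_pi_zpow {m : ℤ} {x y : FL} (hx : x ∈ E.intL i) (hy : y ∈ E.intL i)
    (hx0 : E.coordRed i x zeroF ≠ 0) (hy0 : E.coordRed i y zeroF ≠ 0)
    (h : y = E.π ^ m * x) : m = 0 := by
  have main : ∀ (d : ℕ) (a b : FL), a ∈ E.intL i → E.coordRed i b zeroF ≠ 0 →
      b = E.π ^ d * a → d = 0 := by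
    intro d a b ha hb he
    rcases d with _ | d
    · rfl
    · exact absurd (by rw [he, pow_succ', mul_assoc]; exact E.cr_pi_mul (mul_mem (E.pi_pow_mem d) ha))
        hb
  obtain ⟨d, rfl | rfl⟩ := Int.eq_nat_or_neg m
  · rw [zpow_natCast] at h
    rw [main d x y hx hy0 h]; rfl
  · have : x = E.π ^ d * y := by
      rw [h, ← mul_assoc, ← zpow_natCast, ← zpow_add₀ E.pi_ne_zero, add_neg_cancel, zpow_zero,
        one_mul]
    rw [main d y x hy hx0 this]; rfl

theorem redEps_pow_char {x : FL} (hx : x ∈ E.intL i) :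
    E.redEps i (x ^ p) = inl ((E.redEps i x).fst ^ p) := by
  have h := map_pow (E.redL i) ⟨x, hx⟩ p
  simp only [RamExt.redL, RingHom.coe_mk, MonoidHom.coe_mk, OneHom.coe_mk,
    SubmonoidClass.coe_pow] at h
  rw [h]
  ext
  · simp
  · rw [TrivSqZeroExt.snd_pow, TrivSqZeroExt.snd_inl]
    simp

/-- Orders and slopes at a smooth point. -/
theorem smooth_slope (hF : (p : F) ≠ 0) (hcS : ∀ j, E.c j ∈ S.A) (hu : u ≠ 0)
    (hloc : LocallyPthPower W E u) {v : ℤ} {u0 : FL} (hm : u0 ∈ E.intL i)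
    (hn : E.coordRed i u0 zeroF ≠ 0) (he : u = E.π ^ v * u0) :
    (p : ℤ) ∣ P.ord (E.coordRed i u0 zeroF) ∧ dlogRed E i u0 ∈ P.O := by
  obtain ⟨a, Φ, U, hΦ, hU, hue⟩ := smooth_factor E S hcS hu hloc
  obtain ⟨w0, Ψ, hΨ, hΨ0, hΦe⟩ := E.exists_normalise hF i hΦ
  have hUm := coordSub_le E S hcS U.2
  have hU1 : P.IsUnitAt (E.coordRed i (U : FL) zeroF) :=
    ⟨S.red_mem _ (U.2 _), valueAt_ne_of_isUnit E S hcS hU⟩
  have hprod : Ψ ^ p * (U : FL) ∈ E.intL i := mul_mem (pow_mem hΨ p) hUm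
  have hprod0 : E.coordRed i (Ψ ^ p * (U : FL)) zeroF ≠ 0 := by
    rw [E.cr_mul (pow_mem hΨ p) hUm, E.cr_pow hΨ]
    exact mul_ne_zero (pow_ne_zero _ hΨ0) hU1.ne_zero
  have h1 : u0 = E.π ^ ((a : ℤ) + w0 * p - v) * (Ψ ^ p * (U : FL)) := by
    refine mul_left_cancel₀ (zpow_ne_zero v E.pi_ne_zero) ?_
    rw [← he, hue, hΦe, mul_pow, ← mul_assoc (E.π ^ v), ← zpow_add₀ E.pi_ne_zero, ← zpow_natCast E.π a,
      ← zpow_natCast (E.π ^ w0) p, ← zpow_mul, add_sub_cancel, zpow_add₀ E.pi_ne_zero]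
    ring
  rw [eq_zero_of_pi_zpow E hprod hm hprod0 hn h1, zpow_zero, one_mul] at h1
  subst h1
  constructor
  · rw [E.cr_mul (pow_mem hΨ p) hUm, E.cr_pow hΨ, P.ord_mul (pow_ne_zero _ hΨ0) hU1.ne_zero,
      P.ord_pow hΨ0, (DVPoint.isUnitAt_iff.mp hU1).2, add_zero]
    exact dvd_mul_right _ _
  · rw [dlogRed, (E.mul_intL (pow_mem hΨ p) hUm).2, redEps_pow_char E hΨ]
    simp only [TrivSqZeroExt.fst_mul, TrivSqZeroExt.snd_mul, TrivSqZeroExt.fst_inl,
      TrivSqZeroExt.snd_inl, smul_eq_mul, op_smul_eq_mul, zero_mul, add_zero]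
    rw [E.fst_redEps i Ψ, E.snd_redEps, E.fst_redEps, mul_comm (E.coordRed i Ψ zeroF ^ p),
      mul_comm (E.coordRed i Ψ zeroF ^ p), mul_div_mul_right _ _ (pow_ne_zero _ hΨ0)]
    rw [div_eq_mul_inv]
    exact mul_mem (S.red_mem _ (U.2 oneF)) hU1.inv.1

/-- The local model at a smooth point. -/
def smoothModel (hF : (p : F) ≠ 0) : LocalModel E where
  I := {i}
  M := smoothRing E S hc
  div f hf h := by
    have hfi := hf i rfl
    have h0 : (p : F) * (E.basis.repr f lastF * E.c zeroF) ∈ S.A := by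
      have := h zeroF
      rwa [E.repr_pi_mul, dif_pos (show ((zeroF : Fin p) : ℕ) = 0 from rfl), zero_add] at this
    obtain ⟨y, hy, hye⟩ := S.ker _ h0 (D.redF_p_mul (mul_mem (hfi _) (E.c_mem i zeroF)))
    have h1 : E.basis.repr f lastF * E.c zeroF ∈ S.A := mul_left_cancel₀ hF hye ▸ hy
    have hc0 : (E.c zeroF)⁻¹ ∈ S.A := S.inv_mem _ (hc _) (by
      rw [E.red_c0, P.evF_algebraMap]; exact E.γ0_ne)
    have hne : E.c zeroF ≠ 0 := fun h0 => E.γ0_ne (by
      have := E.red_c0 i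
      rw [h0, D.redF_zero] at this
      exact (map_eq_zero (algebraMap k G)).mp this.symm)
    have hlast : E.basis.repr f lastF ∈ S.A := by
      have := mul_mem h1 hc0
      rwa [mul_assoc, mul_inv_cancel₀ hne, mul_one] at this
    intro j
    by_cases hj : j = lastF
    · rw [hj]; exact hlast
    have hj' : (j : ℕ) + 1 < p := by
      have : (j : ℕ) ≠ p - 1 := fun h => hj (Fin.ext h)
      omega
    have := h ⟨(j : ℕ) + 1, hj'⟩
    rw [E.repr_pi_mul, dif_neg (show ¬ ((j : ℕ) + 1 = 0) by omega)] at this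
    simpa [add_sub_cancel_right] using
      sub_mem this (mul_mem (natCast_mem S.A p) (mul_mem hlast (hc ⟨(j : ℕ) + 1, hj'⟩)))
  Reg r := r i ∈ P.O
  reg f hf _ := ⟨fun j => E.coordRed j f zeroF, S.red_mem _ (hf zeroF), fun _ _ => rfl⟩
  lift r hr := by
    obtain ⟨g, hg, hgr⟩ := S.surj _ hr
    refine ⟨algebraMap F FL g, algebraMap_coordSub E hc hg, ?_⟩
    rintro j rfl
    refine ⟨E.algebraMap_mem (S.le hg), ?_⟩
    rw [RamExt.coordRed, E.repr_algebraMap, if_pos rfl, hgr]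
  root r s hr hs := by
    rw [hs i rfl] at hr
    exact P.mem_of_pow_mem hp.out.pos (by simpa using neg_mem hr)
  pi_mem := pi_mem_coordSub E hc

/-- Existence of approximate roots at a smooth point. -/
theorem exists_approx_smooth (hF : (p : F) ≠ 0) (hu : u ≠ 0) (hloc : LocallyPthPower W E u)
    (hu1 : u ∈ E.intL i ∧ E.coordRed i u zeroF = 1) :
    ∃ f, (smoothModel E S hc hF).Approx u f := by
  obtain ⟨a, Φ, U, hΦ, hU, hue⟩ := smooth_factor E S hc hu hloc
  obtain ⟨w0, Ψ, hΨ, hΨ0, hΦe⟩ := E.exists_normalise hF i hΦ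
  have hUm := coordSub_le E S hc U.2
  have hU1 : P.IsUnitAt (E.coordRed i (U : FL) zeroF) :=
    ⟨S.red_mem _ (U.2 _), valueAt_ne_of_isUnit E S hc hU⟩
  have hprod : Ψ ^ p * (U : FL) ∈ E.intL i := mul_mem (pow_mem hΨ p) hUm
  have hprod0 : E.coordRed i (Ψ ^ p * (U : FL)) zeroF ≠ 0 := by
    rw [E.cr_mul (pow_mem hΨ p) hUm, E.cr_pow hΨ]
    exact mul_ne_zero (pow_ne_zero _ hΨ0) hU1.ne_zero
  have h1 : u = E.π ^ ((a : ℤ) + w0 * p) * (Ψ ^ p * (U : FL)) := by
    conv_lhs => rw [hue, hΦe]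
    rw [mul_pow, ← zpow_natCast E.π a, ← zpow_natCast (E.π ^ w0) p, ← zpow_mul,
      zpow_add₀ E.pi_ne_zero]
    ring
  rw [eq_zero_of_pi_zpow E hprod hu1.1 hprod0 (by rw [hu1.2]; exact one_ne_zero) h1, zpow_zero,
    one_mul] at h1
  have hred : E.coordRed i Ψ zeroF ^ p * E.coordRed i (U : FL) zeroF = 1 := by
    have := hu1.2
    rwa [h1, E.cr_mul (pow_mem hΨ p) hUm, E.cr_pow hΨ] at this
  have hΨu : P.IsUnitAt (E.coordRed i Ψ zeroF) := by
    have h2 := congrArg P.ord hred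
    rw [P.ord_mul (pow_ne_zero _ hΨ0) hU1.ne_zero, P.ord_pow hΨ0,
      (DVPoint.isUnitAt_iff.mp hU1).2, add_zero,
      show P.ord (1 : G) = 0 from (DVPoint.isUnitAt_iff.mp
        (⟨one_mem _, by rw [P.evF_one]; exact one_ne_zero⟩ : P.IsUnitAt 1)).2] at h2
    exact DVPoint.isUnitAt_iff.mpr ⟨hΨ0, (mul_eq_zero.mp h2).resolve_left
      (by exact_mod_cast hp.out.ne_zero)⟩
  obtain ⟨g, hg, hgr⟩ := S.surj _ hΨu.1
  have hgi : g⁻¹ ∈ S.A := S.inv_mem g hg (by rw [hgr]; exact hΨu.2)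
  have hg0 : g ≠ 0 := fun h => hΨ0 (by rw [← hgr, h, D.redF_zero])
  set f := Ψ * algebraMap F FL g⁻¹ with hfdef
  have hgL : algebraMap F FL g⁻¹ ∈ E.intL i := E.algebraMap_mem (S.le hgi)
  have hf1 : E.coordRed i f zeroF = 1 := by
    rw [hfdef, E.cr_mul hΨ hgL, ← hgr,
      show E.coordRed i (algebraMap F FL g⁻¹) zeroF = D.redF i g⁻¹ by
        rw [RamExt.coordRed, E.repr_algebraMap, if_pos rfl],
      ← D.redF_mul (S.le hg) (S.le hgi), mul_inv_cancel₀ hg0, D.redF_one]
  refine ⟨f, (f - 1) * E.π⁻¹, ?_, by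
    have := E.pi_ne_zero
    field_simp
    ring, 0, ?_⟩
  · intro j hj
    rw [show j = i from hj]
    obtain ⟨y, hy, hye⟩ := E.exists_pi_mul (x := f - 1) (sub_mem (mul_mem hΨ hgL) (one_mem _))
      (by rw [E.cr_sub (mul_mem hΨ hgL) (one_mem _), hf1, E.cr_one, sub_self])
    rw [hye, mul_comm E.π, mul_assoc, mul_inv_cancel₀ E.pi_ne_zero, mul_one]
    exact hy
  · obtain ⟨Ui, hUi⟩ := hU.exists_right_inv
    have h2 := congrArg Subtype.val hUi
    push_cast at h2
    have hΨne : Ψ ≠ 0 := fun h => hΨ0 (by simp [h, RamExt.coordRed, D.redF_zero])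
    show E.π ^ 0 * (f ^ p * u⁻¹) ∈ smoothRing E S hc
    rw [show E.π ^ 0 * (f ^ p * u⁻¹) = (Ui : FL) * algebraMap F FL g⁻¹ ^ p by
      rw [hfdef, h1, eq_inv_of_mul_eq_one_right h2, mul_inv, pow_zero, one_mul, mul_pow]
      field_simp]
    exact mul_mem Ui.2 (pow_mem (algebraMap_coordSub E hc hgi) p)

end Fermat.Agent.LevelP

end
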