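import Fermat.Agent.X0Analytic.PerMero
import Fermat.Prelude.Def_ModularCurve_X0
import Fermat.Prelude.Def_ModularCurve_LaurentCoeff
import Mathlib.RingTheory.RootsOfUnity.PrimitiveRoots

/-!
# The operator `q d/dq` and logarithmic derivatives of Laurent series
-/

set_option autoImplicit false
set_option linter.style.haveILetI false

noncomputable section

open ModularCurve
open Fermat.Agent.X0Analytic (rot rot_coeff)

namespace Fermat.Agent.LevelP

section Ring

variable {R : Type*} [CommRing R]

/-- `q d/dq`. -/
def theta : LaurentSeries R →ₗ[R] LaurentSeries R where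
  toFun x := ⟨fun n => (n : R) * x.coeff n,
    x.isPWO_support.mono fun _ hn => right_ne_zero_of_mul hn⟩
  map_add' x y := by ext n; exact mul_add _ _ _
  map_smul' c x := by ext n; exact mul_left_comm _ _ _

@[simp] theorem theta_coeff (x : LaurentSeries R) (n : ℤ) :
    (theta x).coeff n = (n : R) * x.coeff n := rfl

theorem theta_support (x : LaurentSeries R) : (theta x).support ⊆ x.support :=
  fun _ hn => right_ne_zero_of_mul hn

theorem theta_mul (x y : LaurentSeries R) : theta (x * y) = theta x * y + x * theta y := by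
  ext n
  rw [HahnSeries.coeff_add, theta_coeff, HahnSeries.coeff_mul,
    HahnSeries.coeff_mul_left' x.isPWO_support (theta_support x),
    HahnSeries.coeff_mul_right' y.isPWO_support (theta_support y), Finset.mul_sum,
    ← Finset.sum_add_distrib]
  refine Finset.sum_congr rfl fun ij hij => ?_
  obtain ⟨-, -, hsum⟩ := Finset.mem_antidiagonal.mp hij
  rw [theta_coeff, theta_coeff, ← hsum]
  push_cast
  ring

theorem theta_one : theta (1 : LaurentSeries R) = 0 := by
  ext n
  rcases eq_or_ne n 0 with rfl | hn <;> simp [HahnSeries.coeff_one, *]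

theorem theta_single_zero (c : R) : theta (HahnSeries.single (0 : ℤ) c) = 0 := by
  ext n
  rcases eq_or_ne n 0 with rfl | hn
  · simp
  · simp [HahnSeries.coeff_single_of_ne hn]

theorem theta_qExpand (l : ℕ) [NeZero l] (x : LaurentSeries R) :
    theta (qExpand R l x) = (l : R) • qExpand R l (theta x) := by
  ext n
  rw [theta_coeff, HahnSeries.coeff_smul, smul_eq_mul]
  by_cases hn : (l : ℤ) ∣ n
  · obtain ⟨m, rfl⟩ := hn
    rw [qExpand_coeff_mul, qExpand_coeff_mul, theta_coeff]
    push_cast
    ring
  · rw [qExpand_coeff_of_not_dvd l _ hn, qExpand_coeff_of_not_dvd l _ hn, mul_zero, mul_zero]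

theorem theta_coeffMap {S : Type*} [CommRing S] (f : R →+* S) (x : LaurentSeries R) :
    theta (coeffMap f x) = coeffMap f (theta x) := by
  ext n
  simp [coeffMap_coeff]

end Ring

section Field

variable {K : Type*} [Field K]

/-- The logarithmic derivative for `q d/dq`. -/
def dlogS (x : LaurentSeries K) : LaurentSeries K := theta x / x

theorem dlogS_mul {x y : LaurentSeries K} (hx : x ≠ 0) (hy : y ≠ 0) :
    dlogS (x * y) = dlogS x + dlogS y := by
  rw [dlogS, dlogS, dlogS, theta_mul, div_add_div _ _ hx hy]

theorem dlogS_one : dlogS (1 : LaurentSeries K) = 0 := by rw [dlogS, theta_one, zero_div]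

theorem dlogS_single {c : K} : dlogS (HahnSeries.single (0 : ℤ) c) = 0 := by
  rw [dlogS, theta_single_zero, zero_div]

theorem dlogS_prod {ι : Type*} (s : Finset ι) (x : ι → LaurentSeries K) (hx : ∀ i ∈ s, x i ≠ 0) :
    dlogS (∏ i ∈ s, x i) = ∑ i ∈ s, dlogS (x i) := by
  classical
  induction s using Finset.induction with
  | empty => simp [dlogS_one]
  | insert a s ha ih =>
    rw [Finset.prod_insert ha, Finset.sum_insert ha, dlogS_mul (hx a (Finset.mem_insert_self a s))
      (Finset.prod_ne_zero_iff.mpr fun i hi => hx i (Finset.mem_insert_of_mem hi)),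
      ih fun i hi => hx i (Finset.mem_insert_of_mem hi)]

theorem dlogS_qExpand (l : ℕ) [NeZero l] (x : LaurentSeries K) :
    dlogS (qExpand K l x) = (l : K) • qExpand K l (dlogS x) := by
  rw [dlogS, theta_qExpand, dlogS, map_div₀, ← HahnSeries.C_mul_eq_smul, ← HahnSeries.C_mul_eq_smul,
    mul_div_assoc]

end Field

end Fermat.Agent.LevelP
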